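import Fermat.Agent.S56.FL.Coh
import Fermat.Agent.S56.Assembly
import Fermat.Agent.R.H86_Defs2

set_option autoImplicit false

/-!
# LOC-p-FL (item 69): second batch of exact statements (BRIDGE, COH) — plan `NOTES/plan/T-FL.md` §3

`G_p = Gp p = Gal(K̄/ℚ_p)`, `r = localGaloisToGlobal p : G_p → G_ℚ` (`= primeLocalToGlobal (pPrime p)`),
`V = ρbar.V` with the local action `locRho ρbar σ = ρbar (r σ)`, `M = ad⁰ V`.

* `cocVal ρbar c σ`     : the value at `σ` of a local cocycle `c` of `ad⁰ ρbar`, as an endomorphism of `V`.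
* `IsBddAd ρbar c`      : `ρbar ∘ r` and `c` are trivial on `Gal(K̄/L)`, `L/ℚ_p` finite Galois of bounded
                          ramification.
* `IsStableLine`, `IsOrdLine` : a `G_p`-stable line `ℓ ⊆ V` (with `V/ℓ` unramified).
* `IsOrdCocycle ρbar ℓ c` : up to a coboundary, `c` has values in the endomorphisms preserving `ℓ`, and on
                          inertia in `Hom(V, ℓ)` ("`ρ_x` is ordinary").
* `SplitCond ρbar`      : an unramified stable line has a stable complement.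
* `LocHyp p ρbar`       : the determinant is the cyclotomic character and all eigenvalues are in `k`.
* `Stmt_FL_A` (BRIDGE-1), `Stmt_FL_B` (BRIDGE-2), `Stmt_FL_ord` (ORD), `Stmt_CC3` (UNITS),
  `Stmt_COH_SS`, `Stmt_COH_RED` (COH).
-/

noncomputable section

namespace Fermat.Agent.S56.FL

open scoped NNReal
open Polynomial IsLocalRing CategoryTheory groupCohomology ExtCitation Fermat.Agent.S53 Module
  Fermat.Agent.S56

variable {p : ℕ} [Fact p.Prime] {k : Type} [Field k] (ρbar : ResidualGaloisRep k)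

/-- The local representation `ρbar ∘ r` of `G_p` on `V`. -/
def locRho (σ : Gp p) : Module.End k ρbar.V := ρbar.ρ (localGaloisToGlobal p σ)

theorem locRho_mul (σ τ : Gp p) : locRho ρbar (σ * τ) = locRho ρbar σ * locRho ρbar τ := by
  unfold locRho
  rw [map_mul, map_mul]

theorem locRho_one : locRho ρbar (1 : Gp p) = 1 := by
  unfold locRho
  rw [map_one, map_one]

/-- The value of a local cocycle of `ad⁰ ρbar`, as an endomorphism of `V`. -/
def cocVal (c : cocycles₁ (locRep (ad0 ρbar) (pPrime p))) (σ : Gp p) : Module.End k ρbar.V :=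
  ad0Val ρbar ((c : primeLocalGaloisGroup (pPrime p) → ad0 ρbar) σ)

/-- The local cocycle `c` is bounded: `ρbar ∘ r` and `c` are trivial on `Gal(K̄/L)` for a finite
Galois extension `L/ℚ_p` of bounded ramification. -/
def IsBddAd (c : cocycles₁ (locRep (ad0 ρbar) (pPrime p))) : Prop :=
  ∃ (L : IntermediateField ℚ_[p] (PadicAlgCl p)) (_ : FiniteDimensional ℚ_[p] L),
    Normal ℚ_[p] L ∧ IsBddField p L ∧
      ∀ σ : Gp p, σ ∈ L.fixingSubgroup → locRho ρbar σ = 1 ∧ cocVal ρbar c σ = 0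

/-- A `G_p`-stable line of `V`. -/
def IsStableLine (p : ℕ) [Fact p.Prime] (ℓ : Submodule k ρbar.V) : Prop :=
  finrank k ℓ = 1 ∧ ∀ (σ : Gp p), ∀ v ∈ ℓ, locRho ρbar σ v ∈ ℓ

/-- A `G_p`-stable line `ℓ` of `V` with `V/ℓ` unramified. -/
def IsOrdLine (p : ℕ) [Fact p.Prime] (ℓ : Submodule k ρbar.V) : Prop :=
  IsStableLine ρbar p ℓ ∧ ∀ σ ∈ inertiaP p, ∀ v : ρbar.V, locRho ρbar σ v - v ∈ ℓ

/-- Up to the coboundary of `m`, the cocycle `c` has values in the endomorphisms preserving `ℓ`,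
and on inertia in `Hom(V, ℓ)`. -/
def IsOrdCocycle (ℓ : Submodule k ρbar.V) (c : cocycles₁ (locRep (ad0 ρbar) (pPrime p))) : Prop :=
  ∃ m : Module.End k ρbar.V, ∀ σ : Gp p,
    (∀ v ∈ ℓ, (cocVal ρbar c σ - (locRho ρbar σ * m * locRho ρbar σ⁻¹ - m)) v ∈ ℓ) ∧
    (σ ∈ inertiaP p →
      ∀ v : ρbar.V, (cocVal ρbar c σ - (locRho ρbar σ * m * locRho ρbar σ⁻¹ - m)) v ∈ ℓ)

/-- An unramified stable line has a stable complement. -/
def SplitCond (p : ℕ) [Fact p.Prime] : Prop :=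
  ∀ ℓ : Submodule k ρbar.V, IsStableLine ρbar p ℓ →
    (∀ σ ∈ inertiaP p, ∀ v ∈ ℓ, locRho ρbar σ v = v) →
    ∃ ℓ' : Submodule k ρbar.V, IsStableLine ρbar p ℓ' ∧ ℓ' ≠ ℓ

/-- The local hypotheses on `ρbar`: cyclotomic determinant, eigenvalues in `k`. -/
def LocHyp (p : ℕ) [Fact p.Prime] : Prop :=
  (∀ σ : Gp p, IsCycloAt (LinearMap.det (locRho ρbar σ)) σ) ∧
    ∀ σ : Gp p, ∃ α β : k, LinearMap.charpoly (locRho ρbar σ) = (X - C α) * (X - C β)

/-- The class `ξ` is of flat type: it has a bounded representative which is ordinary with respect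
to every ordinary line. -/
def IsFlatLike (ξ : H1 (locRep (ad0 ρbar) (pPrime p))) : Prop :=
  ∃ c : cocycles₁ (locRep (ad0 ρbar) (pPrime p)),
    (H1π (locRep (ad0 ρbar) (pPrime p))).hom c = ξ ∧ IsBddAd ρbar c ∧
      ∀ ℓ : Submodule k ρbar.V, IsOrdLine ρbar p ℓ → IsOrdCocycle ρbar ℓ c

/-! ## BRIDGE -/

/-- **FL_A** (BRIDGE-1: Fontaine's bound for flat Galois modules).  A finite flat `G_ℚ`-module
killed by `p` (`p` odd) is trivial on `Gal(K̄/L)` for a finite Galois `L/ℚ_p` of bounded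
ramification.
(Proof: `K̄`-points = `ℚ̄`-points; `L₀` = field of the points, `L = L₀(ζ_p)`; `(P_m)` for `L₀` by
`Stmt_PM`, for `L` by LIFT-b in `𝒪_F`; `Stmt_CK`.) -/
def Stmt_FL_A : Prop :=
  ∀ (p : ℕ) [Fact p.Prime], p ≠ 2 →
    ∀ (M : Type) [AddCommGroup M] (act : GQ → M → M),
      (∀ m : M, p • m = 0) → Fermat.Agent.R.IsFlatGaloisModule p M act →
      ∃ (L : IntermediateField ℚ_[p] (PadicAlgCl p)) (_ : FiniteDimensional ℚ_[p] L),
        Normal ℚ_[p] L ∧ IsBddField p L ∧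
          ∀ σ : Gp p, σ ∈ L.fixingSubgroup → ∀ m : M, act (localGaloisToGlobal p σ) m = m

/-- **FL_B** (BRIDGE-2: `Stmt_SUBQ` for flat Galois modules).  `M` a finite flat `G_ℚ`-module killed
by `p`, `M₁ ≤ M₂` subgroups stable under `G_p` with inertia acting trivially on `M₂/M₁`.  Then
`M₂ ∩ (I - 1) M ⊆ M₁`, where `(I - 1) M` is generated by the `σ m - m`, `σ` in the inertia. -/
def Stmt_FL_B : Prop :=
  ∀ (p : ℕ) [Fact p.Prime], p ≠ 2 →
    ∀ (M : Type) [AddCommGroup M] (act : GQ → M → M),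
      (∀ m : M, p • m = 0) → Fermat.Agent.R.IsFlatGaloisModule p M act →
      ∀ M₁ M₂ : AddSubgroup M, M₁ ≤ M₂ →
        (∀ σ : Gp p, ∀ m ∈ M₁, act (localGaloisToGlobal p σ) m ∈ M₁) →
        (∀ σ : Gp p, ∀ m ∈ M₂, act (localGaloisToGlobal p σ) m ∈ M₂) →
        (∀ σ ∈ inertiaP p, ∀ m ∈ M₂, act (localGaloisToGlobal p σ) m - m ∈ M₁) →
        ∀ m ∈ M₂,
          m ∈ AddSubgroup.closure
            {y : M | ∃ σ ∈ inertiaP p, ∃ m' : M, y = act (localGaloisToGlobal p σ) m' - m'} →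
          m ∈ M₁

/-- The restriction to `G_p` of a global cocycle of `ad⁰ ρbar`. -/
def resCoc (p : ℕ) [Fact p.Prime] (c₀ : cocycles₁ (ad0 ρbar)) :
    cocycles₁ (locRep (ad0 ρbar) (pPrime p)) :=
  (mapCocycles₁ (primeLocalToGlobal (pPrime p))
    (𝟙 (Rep.res (primeLocalToGlobal (pPrime p)) (ad0 ρbar)))).hom c₀

/-- **FL_ord** (ORD: a flat first-order deformation of a `ρbar` which is ordinary at `p` is
ordinary at `p`; an unramified stable line of a flat `ρbar` has a stable complement).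
(Proof from `Stmt_FL_B`: `E = V_x`, chain `0 ⊂ εℓ ⊂ εE ⊂ E' ⊂ E`; `(I-1)E` has order `≤ |k|²`,
`E/(I-1)E` is cyclic over `k[ε]`, hence free of rank one.) -/
def Stmt_FL_ord : Prop :=
  ∀ (𝒪 : Type) [CommRing 𝒪] [IsDomain 𝒪] [IsDiscreteValuationRing 𝒪]
    [IsAdicComplete (maximalIdeal 𝒪) 𝒪] [Finite (ResidueField 𝒪)]
    (p : ℕ) [Fact p.Prime] (ρbar : ResidualGaloisRep (ResidueField 𝒪)),
    p ≠ 2 → (p : 𝒪) ∈ maximalIdeal 𝒪 →
    (GaloisRepAdic.ofResidualGaloisRep ρbar).DetIsCyclotomic p →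
    ∀ (𝒟 : Cond 𝒪) (x : TSub 𝒪 ρbar 𝒟), x.1.IsFlatAt p →
      ∀ c₀ : cocycles₁ (ad0 ρbar),
        IsCocycleOf x (fun σ => ad0Val ρbar ((c₀ : GQ → ad0 ρbar) σ)) →
        SplitCond ρbar p ∧
          ∀ ℓ : Submodule (ResidueField 𝒪) ρbar.V, IsOrdLine ρbar p ℓ →
            IsOrdCocycle ρbar ℓ (resCoc ρbar p c₀)

/-! ## UNITS, continued -/

/-- **CC3.** `χ : G_{ℚ_p} → kˣ` whose restriction to inertia is neither trivial nor the cyclotomic
character: every bounded `χ`-cocycle is a coboundary. -/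
def Stmt_CC3 : Prop :=
  ∀ (p : ℕ) [Fact p.Prime], p ≠ 2 →
    ∀ (k : Type) [Field k] [Finite k] [CharP k p] (χ : (⊤ : Subgroup (Gp p)) →* kˣ),
      (∃ σ : (⊤ : Subgroup (Gp p)), (σ : Gp p) ∈ inertiaP p ∧ χ σ ≠ 1) →
      (∃ σ : (⊤ : Subgroup (Gp p)), (σ : Gp p) ∈ inertiaP p ∧ ¬ IsCycloAt (χ σ : k) (σ : Gp p)) →
      ∀ c : (⊤ : Subgroup (Gp p)) → k, IsBddCocycle (⊤ : Subgroup (Gp p)) χ c →
        ∃ a : k, ∀ σ : (⊤ : Subgroup (Gp p)), c σ = ((χ σ : k) - 1) * a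

/-! ## COH -/

/-- **COH-SS.** `ρbar|G_p` without stable line: a subspace of `H¹(G_p, ad⁰ ρbar)` consisting of
classes of bounded cocycles has dimension `≤ h⁰ + 1`. -/
def Stmt_COH_SS : Prop :=
  ∀ (p : ℕ) [Fact p.Prime], p ≠ 2 →
    ∀ (k : Type) [Field k] [Finite k] [CharP k p] (ρbar : ResidualGaloisRep k),
      LocHyp ρbar p → (¬ ∃ ℓ : Submodule k ρbar.V, IsStableLine ρbar p ℓ) →
      ∀ W : Submodule k (H1 (locRep (ad0 ρbar) (pPrime p))),
        (∀ ξ ∈ W, ∃ c : cocycles₁ (locRep (ad0 ρbar) (pPrime p)),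
          (H1π (locRep (ad0 ρbar) (pPrime p))).hom c = ξ ∧ IsBddAd ρbar c) →
        Module.Finite k W ∧
          finrank k W ≤ finrank k (locRep (ad0 ρbar) (pPrime p)).ρ.invariants + 1

/-- **COH-RED.** `ρbar|G_p` with a stable line, satisfying `SplitCond`: a subspace of
`H¹(G_p, ad⁰ ρbar)` consisting of classes of flat type has dimension `≤ h⁰ + 1`. -/
def Stmt_COH_RED : Prop :=
  ∀ (p : ℕ) [Fact p.Prime], p ≠ 2 →
    ∀ (k : Type) [Field k] [Finite k] [CharP k p] (ρbar : ResidualGaloisRep k),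
      LocHyp ρbar p → (∃ ℓ : Submodule k ρbar.V, IsStableLine ρbar p ℓ) → SplitCond ρbar p →
      ∀ W : Submodule k (H1 (locRep (ad0 ρbar) (pPrime p))),
        (∀ ξ ∈ W, IsFlatLike ρbar ξ) →
        Module.Finite k W ∧
          finrank k W ≤ finrank k (locRep (ad0 ρbar) (pPrime p)).ρ.invariants + 1

end Fermat.Agent.S56.FL

end
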