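import Mathlib
import Fermat.Prelude.Def_GaloisRep_Flat

set_option autoImplicit false

/-!
# LOC-p-FL (item 69): local vocabulary and the packages of the Fontaine side

Plan: `NOTES/plan/T-FL.md`.  Owner-planner: helper50.

Everything happens inside `K̄ = PadicAlgCl p` (algebraic closure of `ℚ_p`) with its norm
(`‖p‖ = p⁻¹`).  Finite extensions of `ℚ_p` are `IntermediateField ℚ_[p] (PadicAlgCl p)`.

* `intRing p F`      : the valuation ring `𝒪_F = {a ∈ F : ‖a‖ ≤ 1}` as a subring of `K̄`.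
* `ballIdeal p F c`  : the ideal `{a ∈ 𝒪_F : ‖a‖ ≤ c}` (`c : ℝ≥0`); valuation `≥ m` is `c = p^{-m}`.
* `depth p L σ`      : `sup {‖σ a - a‖ : a ∈ 𝒪_L}` (`= p^{-i(σ)}`, Fontaine's `i`).
* `IsBddField p L`   : the ramification of `L/ℚ_p` is bounded by `1/(p-1)` in Serre's upper
                       numbering, i.e. `Σ_τ min (i σ) (i τ) ≤ p/(p-1)` for all `σ ≠ 1`.
* `HasPM p L`        : Fontaine's property `(P_m)` for all `m > p/(p-1)`.
* `Stmt_LIFT_a`, `Stmt_LIFT_b`, `Stmt_PM`, `Stmt_CK`, `Stmt_FON`.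
-/

noncomputable section

namespace Fermat.Agent.S56.FL

open scoped NNReal

variable (p : ℕ) [Fact p.Prime]

/-- `ℤ_(p)` as in the prelude. -/
abbrev Zloc : Subring ℚ := GaloisRep.ratLocalizedAt p

/-- The valuation ring of an intermediate field `F ⊆ K̄`, as a subring of `K̄`. -/
def intRing (F : IntermediateField ℚ_[p] (PadicAlgCl p)) : Subring (PadicAlgCl p) where
  carrier := {a | a ∈ F ∧ ‖a‖ ≤ 1}
  mul_mem' {a b} ha hb := ⟨F.mul_mem ha.1 hb.1, by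
    rw [norm_mul]; exact mul_le_one₀ ha.2 (norm_nonneg _) hb.2⟩
  one_mem' := ⟨F.one_mem, by simp⟩
  add_mem' {a b} ha hb := ⟨F.add_mem ha.1 hb.1,
    (IsUltrametricDist.norm_add_le_max a b).trans (max_le ha.2 hb.2)⟩
  zero_mem' := ⟨F.zero_mem, by simp⟩
  neg_mem' {a} ha := ⟨F.neg_mem ha.1, by rw [norm_neg]; exact ha.2⟩

theorem mem_intRing {F : IntermediateField ℚ_[p] (PadicAlgCl p)} {a : PadicAlgCl p} :
    a ∈ intRing p F ↔ a ∈ F ∧ ‖a‖ ≤ 1 := Iff.rfl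

/-- The ideal `{a ∈ 𝒪_F : ‖a‖ ≤ c}`. -/
def ballIdeal (F : IntermediateField ℚ_[p] (PadicAlgCl p)) (c : ℝ≥0) : Ideal (intRing p F) where
  carrier := {a | ‖(a : PadicAlgCl p)‖ ≤ c}
  add_mem' {a b} ha hb := (IsUltrametricDist.norm_add_le_max (a : PadicAlgCl p) b).trans
    (max_le ha hb)
  zero_mem' := by simp
  smul_mem' r a ha := by
    change ‖((r * a : intRing p F) : PadicAlgCl p)‖ ≤ c
    rw [Subring.coe_mul, norm_mul]
    calc ‖(r : PadicAlgCl p)‖ * ‖(a : PadicAlgCl p)‖ ≤ 1 * ‖(a : PadicAlgCl p)‖ :=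
          mul_le_mul_of_nonneg_right r.2.2 (norm_nonneg _)
      _ = ‖(a : PadicAlgCl p)‖ := one_mul _
      _ ≤ c := ha

theorem mem_ballIdeal {F : IntermediateField ℚ_[p] (PadicAlgCl p)} {c : ℝ≥0}
    {a : intRing p F} : a ∈ ballIdeal p F c ↔ ‖(a : PadicAlgCl p)‖ ≤ c := Iff.rfl

/-- The depth of `σ ∈ Gal(L/ℚ_p)`: `sup ‖σ a - a‖` over the integers `a` of `L`. -/
def depth (L : IntermediateField ℚ_[p] (PadicAlgCl p)) (σ : L ≃ₐ[ℚ_[p]] L) : ℝ :=
  ⨆ a : {a : L // ‖(a : PadicAlgCl p)‖ ≤ 1},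
    ‖((σ a.1 : L) : PadicAlgCl p) - ((a.1 : L) : PadicAlgCl p)‖

open Classical in
/-- The ramification of the finite extension `L/ℚ_p` is bounded by `1/(p-1)` (Serre's upper
numbering), i.e. by `p/(p-1)` in Fontaine's numbering: for every `σ ≠ 1`,
`∏_τ max (depth σ) (depth τ) ≥ p^{-p/(p-1)}`. -/
def IsBddField (L : IntermediateField ℚ_[p] (PadicAlgCl p)) [FiniteDimensional ℚ_[p] L] : Prop :=
  ∀ σ : L ≃ₐ[ℚ_[p]] L, σ ≠ 1 →
    ((p : ℝ)⁻¹) ^ p ≤ (∏ τ : L ≃ₐ[ℚ_[p]] L, max (depth p L σ) (depth p L τ)) ^ (p - 1)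

/-- Fontaine's property `(P_m)` for all `m > p/(p-1)`, i.e. for all radii `c` with
`0 < c`, `c^{p-1} < p^{-p}`: a ring homomorphism `𝒪_L → 𝒪_F / {‖·‖ ≤ c}` forces `L ⊆ F`. -/
def HasPM (L : IntermediateField ℚ_[p] (PadicAlgCl p)) : Prop :=
  ∀ c : ℝ≥0, 0 < c → c ^ (p - 1) < ((p : ℝ≥0)⁻¹) ^ p →
    ∀ F : IntermediateField ℚ_[p] (PadicAlgCl p), FiniteDimensional ℚ_[p] F →
      Nonempty (intRing p L →+* (intRing p F ⧸ ballIdeal p F c)) → L ≤ F


/-! ## Packages of the Fontaine side (exact statements) -/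

/-- **LIFT-a** (uniqueness of `p`-th roots of unity near `1`).  `C` a commutative algebra, finite
free over `𝒪_F`; `u^p = 1` and `u ≡ 1` modulo `{‖·‖ ≤ c}·C` with `c^{p-1} < p⁻¹` (valuation
`> 1/(p-1)`) imply `u = 1`.
Proof: `z = u - 1`, `0 = (1+z)^p - 1 = p z + … + z^p`; with the sup-norm `|·|` of coordinates in a
basis (submultiplicative, `|p z| = p⁻¹ |z|`): `p⁻¹|z| ≤ max (p⁻¹|z|², |z|^p)`, so `z = 0` or
`|z|^{p-1} ≥ p⁻¹`. -/
def Stmt_LIFT_a : Prop :=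
  ∀ (p : ℕ) [Fact p.Prime] (F : IntermediateField ℚ_[p] (PadicAlgCl p))
    (C : Type) [CommRing C] [Algebra (intRing p F) C] [Module.Free (intRing p F) C]
    [Module.Finite (intRing p F) C] (c : ℝ≥0), c ^ (p - 1) < (p : ℝ≥0)⁻¹ →
    ∀ u : C, u ^ p = 1 →
      u - 1 ∈ Ideal.map (algebraMap (intRing p F) C) (ballIdeal p F c) → u = 1

/-- **LIFT-b** (existence of `p`-th roots near `1`).  `F/ℚ_p` finite (so `𝒪_F` is complete), `C`
finite free over `𝒪_F`, `y ∈ {‖·‖ ≤ c}·C` with `c^{p-1} < p^{-p}` (valuation `> p/(p-1)`).  Then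
`1 + y = (1 + z)^p` with `z ∈ {‖·‖ ≤ p c}·C`.
Proof: the map `z ↦ (y - Σ_{j ≥ 2} (p choose j) z^j) / p` is a contraction of the ball
`|z| ≤ p |y|`. -/
def Stmt_LIFT_b : Prop :=
  ∀ (p : ℕ) [Fact p.Prime] (F : IntermediateField ℚ_[p] (PadicAlgCl p))
    [FiniteDimensional ℚ_[p] F]
    (C : Type) [CommRing C] [Algebra (intRing p F) C] [Module.Free (intRing p F) C]
    [Module.Finite (intRing p F) C] (c : ℝ≥0), c ^ (p - 1) < ((p : ℝ≥0)⁻¹) ^ p →
    ∀ y ∈ Ideal.map (algebraMap (intRing p F) C) (ballIdeal p F c),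
      ∃ z ∈ Ideal.map (algebraMap (intRing p F) C) (ballIdeal p F ((p : ℝ≥0) * c)),
        (1 + z) ^ p = 1 + y

/-- The field generated over `ℚ_p` by the `K̄`-points of `H`. -/
def pointField (H : Type) [CommRing H] [Algebra (Zloc p) H] :
    IntermediateField ℚ_[p] (PadicAlgCl p) :=
  IntermediateField.adjoin ℚ_[p] {y | ∃ (x : H →ₐ[Zloc p] PadicAlgCl p) (h : H), y = x h}

/-- **PM** (Fontaine's lifting argument).  `H` a finite flat cocommutative Hopf algebra over `ℤ_(p)`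
all of whose `K̄`-points are killed by `p` (`p` odd).  Then the field `L` generated by the points has
property `(P_m)` for every `m > p/(p-1)`. -/
def Stmt_PM : Prop :=
  ∀ (p : ℕ) [Fact p.Prime], p ≠ 2 →
    ∀ (H : Type) [CommRing H] [HopfAlgebra (Zloc p) H] [Module.Finite (Zloc p) H]
      [Module.Flat (Zloc p) H] [Coalgebra.IsCocomm (Zloc p) H],
      (∀ x : WithConv (H →ₐ[Zloc p] PadicAlgCl p), x ^ p = 1) →
      HasPM p (pointField p H)

/-- **CK** (converse of Krasner's lemma, Fontaine Prop. 1.5 + removal of the defect).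
`L/ℚ_p` finite Galois containing a primitive `p`-th root of unity, with `(P_m)` for all
`m > p/(p-1)`.  Then the ramification of `L` is bounded. -/
def Stmt_CK : Prop :=
  ∀ (p : ℕ) [Fact p.Prime], p ≠ 2 →
    ∀ (L : IntermediateField ℚ_[p] (PadicAlgCl p)) [FiniteDimensional ℚ_[p] L],
      Normal ℚ_[p] L → (∃ ζ ∈ L, ζ ≠ 1 ∧ ζ ^ p = 1) → HasPM p L → IsBddField p L

/-- **FON** (Fontaine's ramification bound, Thm A of "Il n'y a pas de variété abélienne sur ℤ",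
for group schemes killed by `p` over `ℤ_p`, `e = 1`). -/
def Stmt_FON : Prop :=
  ∀ (p : ℕ) [Fact p.Prime], p ≠ 2 →
    ∀ (H : Type) [CommRing H] [HopfAlgebra (Zloc p) H] [Module.Finite (Zloc p) H]
      [Module.Flat (Zloc p) H] [Coalgebra.IsCocomm (Zloc p) H],
      (∀ x : WithConv (H →ₐ[Zloc p] PadicAlgCl p), x ^ p = 1) →
      ∀ [FiniteDimensional ℚ_[p] (pointField p H)],
        Normal ℚ_[p] (pointField p H) → (∃ ζ ∈ pointField p H, ζ ≠ 1 ∧ ζ ^ p = 1) →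
        IsBddField p (pointField p H)

theorem stmt_FON_of (hPM : Stmt_PM) (hCK : Stmt_CK) : Stmt_FON := by
  intro p _ hp2 H _ _ _ _ _ hkill _ hN hζ
  exact hCK p hp2 _ hN hζ (hPM p hp2 H hkill)

/-! ## Packages of the ramification side (exact statements) -/

/-- **HERB** (Herbrand: the upper numbering passes to quotients).  If `L' ⊆ L` are finite Galois
over `ℚ_p` and the ramification of `L` is bounded, so is that of `L'`. -/
def Stmt_HERB : Prop :=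
  ∀ (p : ℕ) [Fact p.Prime] (L L' : IntermediateField ℚ_[p] (PadicAlgCl p))
    [FiniteDimensional ℚ_[p] L] [FiniteDimensional ℚ_[p] L'],
    Normal ℚ_[p] L → Normal ℚ_[p] L' → L' ≤ L → IsBddField p L → IsBddField p L'

/-- The value group of `K'` is contained in `p^{(1/n)ℤ}` with `p ∤ n`: `K'/ℚ_p` is tamely ramified. -/
def IsTameField (K' : IntermediateField ℚ_[p] (PadicAlgCl p)) : Prop :=
  ∃ n : ℕ, 0 < n ∧ ¬ p ∣ n ∧ ∀ x ∈ K', x ≠ 0 → ∃ j : ℤ, ‖x‖ ^ n = (p : ℝ) ^ j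

/-- **KUMBDD** (the only consequence of the ramification bound that the count uses).
`K' ⊆ L` finite Galois over `ℚ_p`, `K'` tamely ramified containing `μ_p`, `L` with bounded
ramification, `a ∈ K'` nonzero with a `p`-th root in `L`.  Then `a ≡ 1 mod p` up to `p`-th powers
of `K'`: there is `b ∈ K'ˣ` with `‖a b^p - 1‖ ≤ p⁻¹`.
(Break of `K'(a^{1/p})/K'` for `a ∈ U^{(i)}`, `p ∤ i < p e'/(p-1)`: `p e'/(p-1) - i`; bounded iff `i ≥ e'`.) -/
def Stmt_KUMBDD : Prop :=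
  ∀ (p : ℕ) [Fact p.Prime], p ≠ 2 →
    ∀ (L K' : IntermediateField ℚ_[p] (PadicAlgCl p))
      [FiniteDimensional ℚ_[p] L] [FiniteDimensional ℚ_[p] K'],
      Normal ℚ_[p] L → Normal ℚ_[p] K' → K' ≤ L → IsBddField p L → IsTameField p K' →
      (∃ ζ ∈ K', ζ ≠ 1 ∧ ζ ^ p = 1) →
      ∀ a ∈ K', a ≠ 0 → (∃ α ∈ L, α ^ p = a) →
        ∃ b ∈ K', b ≠ 0 ∧ ‖a * b ^ p - 1‖ ≤ (p : ℝ)⁻¹

end Fermat.Agent.S56.FL

end
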