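import Mathlib
import Fermat.Agent.S56.FL.LF.H15_Gen
import Fermat.Agent.S56.FL.LF.H15_HerbComb

set_option autoImplicit false

/-!
# LOC-p-FL, package HERB (helper15): Herbrand's theorem

* `depthOn L N σ`   : the depth of `σ` on the fixed field of the subgroup `N ≤ Gal(L/ℚ_p)`.
* `cosetProd_le_depthOn` : Serre, Local Fields IV §1 Prop. 3 (the inequality that is needed):
  `∏_{ν ∈ N} depth (σ ν) ≤ depthOn N σ`.
* `herbrand_rel`    : relative form over a base `K' = L^H`, everything inside `Gal(L/ℚ_p)`.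
* `stmt_HERB`       : `Stmt_HERB` of `FL/Local.lean`.
-/

noncomputable section

namespace Fermat.Agent.S56.FL.H15

open scoped NNReal
open Fermat.Agent.S56.FL Module Polynomial

variable {p : ℕ} [Fact p.Prime]

variable (L : IntermediateField ℚ_[p] (PadicAlgCl p))

/-- The depth of `σ` on the integers of the fixed field of `N`. -/
def depthOn (N : Subgroup (L ≃ₐ[ℚ_[p]] L)) (σ : L ≃ₐ[ℚ_[p]] L) : ℝ :=
  ⨆ a : {a : L // ‖a‖ ≤ 1 ∧ ∀ ν ∈ N, ν a = a}, ‖σ a.1 - a.1‖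

variable {L}

theorem depthOn_bddAbove (N : Subgroup (L ≃ₐ[ℚ_[p]] L)) (σ : L ≃ₐ[ℚ_[p]] L) :
    BddAbove (Set.range fun a : {a : L // ‖a‖ ≤ 1 ∧ ∀ ν ∈ N, ν a = a} => ‖σ a.1 - a.1‖) := by
  refine ⟨1, ?_⟩
  rintro _ ⟨a, rfl⟩
  exact norm_sub_le_one σ a.2.1

theorem norm_sub_le_depthOn (N : Subgroup (L ≃ₐ[ℚ_[p]] L)) (σ : L ≃ₐ[ℚ_[p]] L) {a : L}
    (ha : ‖a‖ ≤ 1) (hfix : ∀ ν ∈ N, ν a = a) : ‖σ a - a‖ ≤ depthOn L N σ :=
  le_ciSup (depthOn_bddAbove N σ) (⟨a, ha, hfix⟩ : {a : L // ‖a‖ ≤ 1 ∧ ∀ ν ∈ N, ν a = a})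

theorem depthOn_nonneg (N : Subgroup (L ≃ₐ[ℚ_[p]] L)) (σ : L ≃ₐ[ℚ_[p]] L) :
    0 ≤ depthOn L N σ :=
  (norm_nonneg _).trans (norm_sub_le_depthOn N σ (a := 0) (by simp) (by simp))

theorem depthOn_le (N : Subgroup (L ≃ₐ[ℚ_[p]] L)) (σ : L ≃ₐ[ℚ_[p]] L) {C : ℝ}
    (hC : ∀ a : L, ‖a‖ ≤ 1 → (∀ ν ∈ N, ν a = a) → ‖σ a - a‖ ≤ C) : depthOn L N σ ≤ C := by
  have : Nonempty {a : L // ‖a‖ ≤ 1 ∧ ∀ ν ∈ N, ν a = a} := ⟨⟨0, by simp, by simp⟩⟩
  exact ciSup_le fun a => hC a.1 a.2.1 a.2.2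

/-- `depth` is an ultrametric depth function on the Galois group. -/
theorem isDepthFn_depth (L : IntermediateField ℚ_[p] (PadicAlgCl p)) :
    IsDepthFn (depth p L) where
  nonneg := depth_nonneg L
  mul_le := depth_mul_le L
  inv := depth_inv L

/-- A polynomial with integral coefficients, evaluated at an integer: ultrametric bound of a
difference of evaluations by the differences of the coefficients. -/
theorem exists_coeff_norm_ge (F G : L[X]) (x : L) (hx : ‖x‖ ≤ 1) :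
    ∃ i : ℕ, ‖G.eval x - F.eval x‖ ≤ ‖G.coeff i - F.coeff i‖ := by
  set n := max F.natDegree G.natDegree + 1 with hn
  have hF : F.eval x = ∑ i ∈ Finset.range n, F.coeff i * x ^ i :=
    eval_eq_sum_range' (by omega) x
  have hG : G.eval x = ∑ i ∈ Finset.range n, G.coeff i * x ^ i :=
    eval_eq_sum_range' (by omega) x
  have hsub : G.eval x - F.eval x
      = ∑ i ∈ Finset.range n, (G.coeff i - F.coeff i) * x ^ i := by
    rw [hF, hG, ← Finset.sum_sub_distrib]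
    exact Finset.sum_congr rfl fun i _ => by ring
  obtain ⟨i, -, hi⟩ := IsUltrametricDist.exists_norm_finsetSum_le (Finset.range n)
    (fun i => (G.coeff i - F.coeff i) * x ^ i)
  refine ⟨i, ?_⟩
  rw [hsub]
  refine hi.trans ?_
  rw [norm_mul, norm_pow]
  calc ‖G.coeff i - F.coeff i‖ * ‖x‖ ^ i ≤ ‖G.coeff i - F.coeff i‖ * 1 :=
        mul_le_mul_of_nonneg_left (pow_le_one₀ (norm_nonneg _) hx) (norm_nonneg _)
    _ = ‖G.coeff i - F.coeff i‖ := mul_one _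

/-- The coefficients of a product of monic linear factors with integral roots are integral. -/
theorem norm_coeff_prod_X_sub_C_le {ι : Type*} (s : Finset ι) (f : ι → L)
    (hf : ∀ i ∈ s, ‖f i‖ ≤ 1) (k : ℕ) : ‖(∏ i ∈ s, (X - C (f i))).coeff k‖ ≤ 1 := by
  classical
  have key : ∃ P : (OL L)[X], P.map (OL L).subtype = ∏ i ∈ s, (X - C (f i)) := by
    induction s using Finset.induction_on with
    | empty => exact ⟨1, by simp⟩
    | insert a s ha ih =>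
      obtain ⟨P, hP⟩ := ih fun i hi => hf i (Finset.mem_insert_of_mem hi)
      refine ⟨(X - C ⟨f a, hf a (Finset.mem_insert_self a s)⟩) * P, ?_⟩
      rw [Finset.prod_insert ha, Polynomial.map_mul, hP]
      simp
  obtain ⟨P, hP⟩ := key
  rw [← hP, coeff_map]
  exact (P.coeff k).2

variable [FiniteDimensional ℚ_[p] L]

/-- **Serre, Local Fields IV §1 Prop. 3** (the inequality `≥`, in multiplicative form):
`∏_{ν ∈ N} depth (σ ν) ≤ depthOn N σ`. -/
theorem cosetProd_le_depthOn (N : Subgroup (L ≃ₐ[ℚ_[p]] L)) [Fintype N]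
    (σ : L ≃ₐ[ℚ_[p]] L) : cosetProd N (depth p L) σ ≤ depthOn L N σ := by
  classical
  obtain ⟨x, π, q, hgood⟩ := exists_goodGen L
  have hx : ‖x‖ ≤ 1 := hgood.1
  have hnorm : ∀ τ : L ≃ₐ[ℚ_[p]] L, ∀ a : L, ‖τ a‖ = ‖a‖ := fun τ a => norm_algEquiv τ a
  -- the polynomial `F = ∏ (X - ν x)`
  set F : L[X] := ∏ ν : N, (X - C ((ν : L ≃ₐ[ℚ_[p]] L) x)) with hF
  have hmap : ∀ τ : L ≃ₐ[ℚ_[p]] L,
      F.map (τ : L →+* L) = ∏ ν : N, (X - C (τ ((ν : L ≃ₐ[ℚ_[p]] L) x))) := by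
    intro τ
    rw [hF, Polynomial.map_prod]
    refine Finset.prod_congr rfl fun ν _ => ?_
    simp
  have hF0 : F.eval x = 0 := by
    rw [hF, eval_prod]
    refine Finset.prod_eq_zero (Finset.mem_univ (1 : N)) ?_
    simp
  have hFσ : (F.map (σ : L →+* L)).eval x = ∏ ν : N, (x - σ ((ν : L ≃ₐ[ℚ_[p]] L) x)) := by
    rw [hmap, eval_prod]
    refine Finset.prod_congr rfl fun ν _ => ?_
    simp
  -- the coefficients of `F` are integral and fixed by `N`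
  have hint : ∀ k, ‖F.coeff k‖ ≤ 1 := fun k =>
    norm_coeff_prod_X_sub_C_le _ _ (fun ν _ => by rw [hnorm]; exact hx) k
  have hfix : ∀ k, ∀ ν ∈ N, ν (F.coeff k) = F.coeff k := by
    intro k ν hν
    have h1 : F.map ((ν : L ≃ₐ[ℚ_[p]] L) : L →+* L) = F := by
      rw [hmap, hF]
      refine Fintype.prod_equiv (Equiv.mulLeft (⟨ν, hν⟩ : N)) _ _ fun μ => ?_
      simp [AlgEquiv.mul_apply]
    have h2 := congrArg (fun P : L[X] => P.coeff k) h1
    simpa [coeff_map] using h2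
  -- the estimate
  obtain ⟨i, hi⟩ := exists_coeff_norm_ge F (F.map (σ : L →+* L)) x hx
  rw [hF0, sub_zero, coeff_map] at hi
  have h3 : cosetProd N (depth p L) σ = ‖(F.map (σ : L →+* L)).eval x‖ := by
    rw [hFσ, norm_prod]
    refine Finset.prod_congr rfl fun ν _ => ?_
    rw [depth_eq_of_goodGen hgood, AlgEquiv.mul_apply, norm_sub_rev]
  rw [h3]
  exact hi.trans (norm_sub_le_depthOn N σ (hint i) (hfix i))

/-- **Herbrand's theorem, relative form** (base `K' = L^H`, intermediate field `M = L^N`,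
`N ≤ H ≤ Gal(L/ℚ_p)`): for every `σ` there is `ν₀ ∈ N` with
`(∏_{τ ∈ H} max (depth (σ ν₀)) (depth τ)) ^ |N| ≤ ∏_{τ ∈ H} max (depthOn N σ) (depthOn N τ)`.
(The product on the right counts every coset of `N` exactly `|N|` times.) -/
theorem herbrand_rel (H N : Subgroup (L ≃ₐ[ℚ_[p]] L)) [Fintype H] [Fintype N] (hNH : N ≤ H)
    (σ : L ≃ₐ[ℚ_[p]] L) :
    ∃ ν₀ ∈ N, (∏ τ : H, max (depth p L (σ * ν₀)) (depth p L (τ : L ≃ₐ[ℚ_[p]] L)))
        ^ Fintype.card N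
      ≤ ∏ τ : H, max (depthOn L N σ) (depthOn L N (τ : L ≃ₐ[ℚ_[p]] L)) := by
  obtain ⟨ν₀, hν₀⟩ := exists_min_coset (N := N) (depth p L) σ
  refine ⟨ν₀, ν₀.2, ?_⟩
  have hmin : ∀ ν : N, depth p L (σ * ν₀) ≤ depth p L (σ * ν₀ * ν) := by
    intro ν
    have := hν₀ (ν₀ * ν)
    simpa [mul_assoc] using this
  rw [← prod_max_cosetProd (isDepthFn_depth L) H hNH hmin, cosetProd_mul_right]
  refine Finset.prod_le_prod (fun τ _ => ?_) (fun τ _ => ?_)
  · exact (cosetProd_nonneg (isDepthFn_depth L) _).trans (le_max_left _ _)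
  · exact max_le_max (cosetProd_le_depthOn N σ) (cosetProd_le_depthOn N τ)

/-- Herbrand's theorem, relative form with `H = ⊤`, products over the whole group. -/
theorem herbrand_top (N : Subgroup (L ≃ₐ[ℚ_[p]] L)) [Fintype N] [Fintype (L ≃ₐ[ℚ_[p]] L)]
    (σ : L ≃ₐ[ℚ_[p]] L) :
    ∃ ν₀ ∈ N, (∏ τ : L ≃ₐ[ℚ_[p]] L, max (depth p L (σ * ν₀)) (depth p L τ))
        ^ Fintype.card N
      ≤ ∏ τ : L ≃ₐ[ℚ_[p]] L, max (depthOn L N σ) (depthOn L N τ) := by
  obtain ⟨ν₀, hν₀⟩ := exists_min_coset (N := N) (depth p L) σ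
  refine ⟨ν₀, ν₀.2, ?_⟩
  have hmin : ∀ ν : N, depth p L (σ * ν₀) ≤ depth p L (σ * ν₀ * ν) := by
    intro ν
    have := hν₀ (ν₀ * ν)
    simpa [mul_assoc] using this
  rw [← prod_max_cosetProd_top (isDepthFn_depth L) hmin, cosetProd_mul_right]
  refine Finset.prod_le_prod (fun τ _ => ?_) (fun τ _ => ?_)
  · exact (cosetProd_nonneg (isDepthFn_depth L) _).trans (le_max_left _ _)
  · exact max_le_max (cosetProd_le_depthOn N σ) (cosetProd_le_depthOn N τ)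

end Fermat.Agent.S56.FL.H15

end
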