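import Mathlib
import Fermat.Agent.S56.FL.LF.H15_Inertia

set_option autoImplicit false
set_option linter.style.haveILetI false

/-!
# LOC-p-FL, package CK (helper15), part 1: the ring homomorphism `𝒪_L → 𝒪_F / {‖·‖ ≤ c}`

* `exists_hom` : if `β ∈ 𝒪_F` and `‖Pz(β)‖ ≤ c` (`Pz` the minimal polynomial of a good generator
  `x` of `L`), then `g(x) ↦ g(β)` is a ring homomorphism `𝒪_L → 𝒪_F / {‖·‖ ≤ c}`.
* `norm_le_one_of_monic_root` : roots of monic polynomials over `ℤ_p` are integers.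
* `finrank_adjoin_le` : `[ℚ_p(β) : ℚ_p] ≤ deg Q` for a root `β` of a monic `Q`.
* `IsMinZ.map` : the minimal polynomial of a conjugate.
-/

noncomputable section

namespace Fermat.Agent.S56.FL.H15

open scoped NNReal
open Fermat.Agent.S56.FL Module Polynomial

variable {p : ℕ} [Fact p.Prime]

/-- Roots of monic polynomials over `ℤ_p` are integers of `K̄`. -/
theorem norm_le_one_of_monic_root {Q : ℤ_[p][X]} (hQ : Q.Monic) {β : PadicAlgCl p}
    (hβ : Q.eval₂ (phiZ p) β = 0) : ‖β‖ ≤ 1 := by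
  by_contra hcon
  have h1 : 1 < ‖β‖ := not_le.mp hcon
  have hβ0 : 0 < ‖β‖ := zero_lt_one.trans h1
  set n := Q.natDegree with hn
  rw [eval₂_eq_sum_range, Finset.sum_range_succ, ← hn] at hβ
  have hlead : phiZ p (Q.coeff n) * β ^ n = β ^ n := by
    have : Q.coeff n = 1 := hQ
    rw [this, map_one, one_mul]
  rw [hlead] at hβ
  have hlow : ‖∑ i ∈ Finset.range n, phiZ p (Q.coeff i) * β ^ i‖ < ‖β ^ n‖ := by
    rcases Nat.eq_zero_or_pos n with h0 | hpos
    · rw [h0, Finset.range_zero, Finset.sum_empty, norm_zero, pow_zero, norm_one]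
      exact zero_lt_one
    · have hle : ‖∑ i ∈ Finset.range n, phiZ p (Q.coeff i) * β ^ i‖ ≤ ‖β‖ ^ (n - 1) := by
        refine IsUltrametricDist.norm_sum_le_of_forall_le_of_nonneg (by positivity) fun i hi => ?_
        rw [norm_mul, norm_pow]
        have hi' : i ≤ n - 1 := by have := Finset.mem_range.mp hi; omega
        calc ‖phiZ p (Q.coeff i)‖ * ‖β‖ ^ i ≤ 1 * ‖β‖ ^ (n - 1) :=
              mul_le_mul (norm_phiZ_le_one _) (pow_le_pow_right₀ h1.le hi') (by positivity)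
                zero_le_one
          _ = ‖β‖ ^ (n - 1) := one_mul _
      refine hle.trans_lt ?_
      rw [norm_pow]
      exact pow_lt_pow_right₀ h1 (by omega)
  have h2 : ‖(∑ i ∈ Finset.range n, phiZ p (Q.coeff i) * β ^ i) + β ^ n‖ = ‖β ^ n‖ :=
    norm_add_eq_right hlow
  rw [hβ, norm_zero, norm_pow] at h2
  have : 0 < ‖β‖ ^ n := pow_pos hβ0 n
  linarith

/-- The degree of `ℚ_p(β)` for a root `β` of a monic polynomial `Q ∈ ℤ_p[X]`. -/
theorem finrank_adjoin_le {Q : ℤ_[p][X]} (hQ : Q.Monic) {β : PadicAlgCl p}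
    (hβ : Q.eval₂ (phiZ p) β = 0) :
    FiniteDimensional ℚ_[p] (IntermediateField.adjoin ℚ_[p] {β}) ∧
      finrank ℚ_[p] (IntermediateField.adjoin ℚ_[p] {β}) ≤ Q.natDegree := by
  have hint : IsIntegral ℚ_[p] β := (Algebra.IsAlgebraic.isAlgebraic β).isIntegral
  refine ⟨IntermediateField.adjoin.finiteDimensional hint, ?_⟩
  rw [IntermediateField.adjoin.finrank hint]
  have hmonic : (Q.map PadicInt.Coe.ringHom).Monic := hQ.map _
  have hroot : aeval β (Q.map (PadicInt.Coe.ringHom (p := p))) = 0 := by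
    rw [aeval_def, eval₂_map]
    exact hβ
  have hdvd := minpoly.dvd ℚ_[p] β hroot
  have := natDegree_le_of_dvd hdvd hmonic.ne_zero
  rwa [hQ.natDegree_map] at this

variable {L : IntermediateField ℚ_[p] (PadicAlgCl p)} [FiniteDimensional ℚ_[p] L]

/-- The minimal polynomial of a conjugate. -/
theorem IsMinZ.map {x : L} {Pz : ℤ_[p][X]} (hP : IsMinZ L x Pz) (τ₁ : L ≃ₐ[ℚ_[p]] L) :
    IsMinZ L (τ₁ x) Pz := by
  refine ⟨hP.monic, hP.natDegree_eq, ?_, ?_⟩
  · rw [hP.map_eq]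
    exact (minpoly.algEquiv_eq τ₁ x).symm
  · rw [hP.map_phiZ]
    refine (Fintype.prod_equiv (Equiv.mulRight τ₁) _ _ fun τ => ?_).symm
    simp [AlgEquiv.mul_apply]

/-- **The ring homomorphism** `𝒪_L → 𝒪_F / {‖·‖ ≤ c}`, `g(x) ↦ g(β)`. -/
theorem exists_hom {x π : L} {q : ℕ} (h : IsGoodGen L x π q) {Pz : ℤ_[p][X]}
    (hP : IsMinZ L x Pz) (F : IntermediateField ℚ_[p] (PadicAlgCl p)) {β : PadicAlgCl p}
    (hβF : β ∈ F) (hβ1 : ‖β‖ ≤ 1) (c : ℝ≥0) (hc : ‖Pz.eval₂ (phiZ p) β‖ ≤ c) :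
    Nonempty (intRing p L →+* intRing p F ⧸ ballIdeal p F c) := by
  have hx1 : ‖(x : PadicAlgCl p)‖ ≤ 1 := h.1
  let evF : ℤ_[p][X] →+* intRing p F :=
    (eval₂RingHom (phiZ p) β).codRestrict (intRing p F)
      fun g => ⟨evZ_mem hβF g, norm_evZ_le_one hβ1 g⟩
  let evL : ℤ_[p][X] →+* intRing p L :=
    (eval₂RingHom (phiZ p) (x : PadicAlgCl p)).codRestrict (intRing p L)
      fun g => ⟨evZ_mem x.2 g, norm_evZ_le_one hx1 g⟩
  have hsurj : Function.Surjective evL := by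
    rintro ⟨a, haL, ha1⟩
    obtain ⟨g, hg⟩ := exists_poly_eq h hP ⟨a, haL⟩ ha1
    exact ⟨g, Subtype.ext hg⟩
  let ψ : ℤ_[p][X] →+* intRing p F ⧸ ballIdeal p F c :=
    (Ideal.Quotient.mk (ballIdeal p F c)).comp evF
  have hker : RingHom.ker evL ≤ RingHom.ker ψ := by
    intro g hg
    rw [RingHom.mem_ker] at hg ⊢
    have hg0 : g.eval₂ (phiZ p) (x : PadicAlgCl p) = 0 := congrArg Subtype.val hg
    obtain ⟨k, rfl⟩ := hP.dvd_of_eval₂_eq_zero g hg0
    change Ideal.Quotient.mk (ballIdeal p F c) (evF (Pz * k)) = 0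
    rw [Ideal.Quotient.eq_zero_iff_mem, mem_ballIdeal]
    change ‖(Pz * k).eval₂ (phiZ p) β‖ ≤ c
    rw [eval₂_mul, norm_mul]
    calc ‖Pz.eval₂ (phiZ p) β‖ * ‖k.eval₂ (phiZ p) β‖ ≤ c * 1 :=
          mul_le_mul hc (norm_evZ_le_one hβ1 k) (norm_nonneg _) c.2
      _ = c := mul_one _
  exact ⟨RingHom.liftOfSurjective evL hsurj ⟨ψ, hker⟩⟩

end Fermat.Agent.S56.FL.H15

end
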