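import Mathlib
import Fermat.Agent.S56.FL.H15_CKHom

set_option autoImplicit false
set_option linter.style.haveILetI false

/-!
# LOC-p-FL, package CK (helper15), part 2: the perturbation argument

`x` a good generator of `L`, `Pz` its minimal polynomial over `ℤ_p`, `w = X^q - X` (so that
`w(x)` is a uniformizer), `Q = Pz - p (w^s mod Pz)`, `β` a root of `Q`.  Then
`Pz(β) (1 + p h(β)) = p w(β)^s`, and if `L` has property `(P_m)` for the radius `‖π‖^(e+s)`, then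
`β ∈ L` and `∏_τ max (‖π‖^j) (depth τ) = ‖π‖^(e+s)` for some `j ≥ 2`
(`‖π‖^j` is the distance of `β` to the nearest conjugate of `x`).
-/

noncomputable section

namespace Fermat.Agent.S56.FL.H15

open scoped NNReal
open Fermat.Agent.S56.FL Module Polynomial

variable {p : ℕ} [Fact p.Prime]

variable {L : IntermediateField ℚ_[p] (PadicAlgCl p)} [FiniteDimensional ℚ_[p] L]

/-- The perturbed polynomial `Q = Pz - p (w^s mod Pz)`. -/
def pertPoly (p : ℕ) [Fact p.Prime] (Pz : ℤ_[p][X]) (q s : ℕ) : ℤ_[p][X] :=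
  Pz - (p : ℤ_[p]) • ((X ^ q - X) ^ s %ₘ Pz)

theorem natDegree_pertPoly_aux {x : L} {Pz : ℤ_[p][X]} (hP : IsMinZ L x Pz) (q s : ℕ) :
    ((p : ℤ_[p]) • ((X ^ q - X) ^ s %ₘ Pz)).natDegree < Pz.natDegree :=
  (natDegree_smul_le _ _).trans_lt (natDegree_modByMonic_lt _ hP.monic hP.ne_one)

theorem monic_pertPoly {x : L} {Pz : ℤ_[p][X]} (hP : IsMinZ L x Pz) (q s : ℕ) :
    (pertPoly p Pz q s).Monic := by
  refine hP.monic.sub_of_left ?_
  exact degree_lt_degree (natDegree_pertPoly_aux hP q s)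

theorem natDegree_pertPoly {x : L} {Pz : ℤ_[p][X]} (hP : IsMinZ L x Pz) (q s : ℕ) :
    (pertPoly p Pz q s).natDegree = Pz.natDegree :=
  natDegree_sub_eq_left_of_natDegree_lt (natDegree_pertPoly_aux hP q s)

open Classical in
/-- The core of the perturbation argument, for a root `β` whose nearest conjugate is `x`. -/
theorem pert_core {x π : L} {q : ℕ} (h : IsGoodGen L x π q) (hq : ‖(q : PadicAlgCl p)‖ < 1)
    {Pz : ℤ_[p][X]} (hP : IsMinZ L x Pz) {e : ℕ} (he : ‖π‖ ^ e = (p : ℝ)⁻¹)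
    (hPM : HasPM p L) {s : ℕ} (hs : 1 ≤ s)
    (hc : (‖π‖ ^ (e + s)) ^ (p - 1) < ((p : ℝ)⁻¹) ^ p)
    {β : PadicAlgCl p} (hβ : (pertPoly p Pz q s).eval₂ (phiZ p) β = 0)
    (hclosest : ∀ τ : L ≃ₐ[ℚ_[p]] L,
      ‖β - (x : PadicAlgCl p)‖ ≤ ‖β - ((τ x : L) : PadicAlgCl p)‖) :
    ∃ j : ℕ, 2 ≤ j ∧
      ∏ τ : L ≃ₐ[ℚ_[p]] L, max (‖π‖ ^ j) (depth p L τ) = ‖π‖ ^ (e + s) := by
  obtain ⟨hx, hπ0, hπ1, hπmax, hxq, hres⟩ := id h
  set r : ℝ := ‖π‖ with hr
  have hx1 : ‖(x : PadicAlgCl p)‖ ≤ 1 := hx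
  have hpinv0 : (0 : ℝ) < (p : ℝ)⁻¹ := inv_pos.mpr p_pos_real
  have hpinv1 : (p : ℝ)⁻¹ < 1 := inv_lt_one_of_one_lt₀ one_lt_p_real
  have he0 : e ≠ 0 := by
    intro h0
    rw [h0, pow_zero] at he
    linarith
  have hQmonic := monic_pertPoly hP q s
  have hQdeg := natDegree_pertPoly hP q s
  have hβ1 : ‖β‖ ≤ 1 := norm_le_one_of_monic_root hQmonic hβ
  -- the key identity
  set W : ℤ_[p][X] := (X ^ q - X) ^ s with hW
  have hdiv := modByMonic_add_div W Pz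
  have hWβ : W.eval₂ (phiZ p) β = (β ^ q - β) ^ s := by
    rw [hW, eval₂_pow, eval₂_sub, eval₂_pow, eval₂_X]
  have hφp : phiZ p (p : ℤ_[p]) = (p : PadicAlgCl p) := map_natCast _ _
  have hβ' : Pz.eval₂ (phiZ p) β = (p : PadicAlgCl p) * (W %ₘ Pz).eval₂ (phiZ p) β := by
    have := hβ
    rw [pertPoly, eval₂_sub, eval₂_smul, hφp] at this
    exact sub_eq_zero.mp this
  have hid : Pz.eval₂ (phiZ p) β * (1 + (p : PadicAlgCl p) * (W /ₘ Pz).eval₂ (phiZ p) β)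
      = (p : PadicAlgCl p) * (β ^ q - β) ^ s := by
    have h1 := congrArg (fun F : ℤ_[p][X] => F.eval₂ (phiZ p) β) hdiv
    simp only [eval₂_add, eval₂_mul] at h1
    rw [hWβ] at h1
    rw [← h1]
    linear_combination hβ'
  have hu : ‖(1 : PadicAlgCl p) + (p : PadicAlgCl p) * (W /ₘ Pz).eval₂ (phiZ p) β‖ = 1 := by
    have h1 : ‖(p : PadicAlgCl p) * (W /ₘ Pz).eval₂ (phiZ p) β‖ < ‖(1 : PadicAlgCl p)‖ := by
      rw [norm_mul, norm_p_algCl, norm_one]
      calc (p : ℝ)⁻¹ * ‖(W /ₘ Pz).eval₂ (phiZ p) β‖ ≤ (p : ℝ)⁻¹ * 1 :=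
            mul_le_mul_of_nonneg_left (norm_evZ_le_one hβ1 _) hpinv0.le
        _ = (p : ℝ)⁻¹ := mul_one _
        _ < 1 := hpinv1
    rw [norm_add_eq_left h1, norm_one]
  have hnormP : ‖Pz.eval₂ (phiZ p) β‖ = r ^ e * ‖β ^ q - β‖ ^ s := by
    have := congrArg norm hid
    rw [norm_mul, hu, mul_one, norm_mul, norm_pow, norm_p_algCl] at this
    rw [this, he]
  -- the distance to the nearest conjugate
  set d : ℝ := ‖β - (x : PadicAlgCl p)‖ with hd
  have hΨ : ∏ τ : L ≃ₐ[ℚ_[p]] L, max d (depth p L τ) = ‖Pz.eval₂ (phiZ p) β‖ := by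
    rw [hP.norm_eval₂]
    exact (Finset.prod_congr rfl fun τ _ => norm_sub_map_eq_max h hclosest τ).symm
  have hd1 : d ≤ 1 := (norm_sub_le_max_algCl _ _).trans (max_le hβ1 hx1)
  have hwβ1 : ‖β ^ q - β‖ ≤ 1 :=
    (norm_sub_le_max_algCl _ _).trans
      (max_le (by rw [norm_pow]; exact pow_le_one₀ (norm_nonneg _) hβ1) hβ1)
  have hPle : ‖Pz.eval₂ (phiZ p) β‖ ≤ r ^ e := by
    rw [hnormP]
    calc r ^ e * ‖β ^ q - β‖ ^ s ≤ r ^ e * 1 :=
          mul_le_mul_of_nonneg_left (pow_le_one₀ (norm_nonneg _) hwβ1) (by positivity)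
      _ = r ^ e := mul_one _
  have hdlt : d < 1 := by
    by_contra hcon
    have hd_eq : d = 1 := le_antisymm hd1 (not_lt.mp hcon)
    have h1 : ∏ τ : L ≃ₐ[ℚ_[p]] L, max d (depth p L τ) = 1 := by
      refine Finset.prod_eq_one fun τ _ => ?_
      rw [hd_eq]
      exact max_eq_left (depth_le_one L τ)
    rw [hΨ] at h1
    rw [h1, he] at hPle
    linarith
  have hwsub : ‖(β ^ q - β) - ((x : PadicAlgCl p) ^ q - (x : PadicAlgCl p))‖ = d :=
    norm_w_sub hq hx1 hdlt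
  have hwx : ‖(x : PadicAlgCl p) ^ q - (x : PadicAlgCl p)‖ = r := hxq
  have hwβ_eq : β ^ q - β = ((β ^ q - β) - ((x : PadicAlgCl p) ^ q - (x : PadicAlgCl p)))
      + ((x : PadicAlgCl p) ^ q - (x : PadicAlgCl p)) := by ring
  -- the inertia group
  set I := Finset.univ.filter fun τ : L ≃ₐ[ℚ_[p]] L => depth p L τ < 1 with hI
  have hIcard : I.card ≤ e := card_inertia_le h hq hP he
  have hprodI : ∀ t : ℝ, r ≤ t → t ≤ 1 →
      ∏ τ : L ≃ₐ[ℚ_[p]] L, max t (depth p L τ) = t ^ I.card := by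
    intro t hrt ht1
    have h1 : ∀ τ : L ≃ₐ[ℚ_[p]] L, max t (depth p L τ) = if depth p L τ < 1 then t else 1 := by
      intro τ
      split_ifs with hlt
      · have h2 : depth p L τ ≤ r := by
          have := depth_le_pow_succ h τ 0 (by rw [pow_zero]; exact hlt)
          rwa [zero_add, pow_one] at this
        exact max_eq_left (h2.trans hrt)
      · have h2 : depth p L τ = 1 := le_antisymm (depth_le_one L τ) (not_lt.mp hlt)
        rw [h2]
        exact max_eq_right ht1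
    simp only [h1]
    rw [Finset.prod_ite, Finset.prod_const, Finset.prod_const_one, mul_one]
  -- `d ≤ r`
  have hdr : d ≤ r := by
    by_contra hcon
    have hrd : r < d := not_le.mp hcon
    have h1 : ‖β ^ q - β‖ = d := by
      rw [hwβ_eq, norm_add_eq_left (by rw [hwsub, hwx]; exact hrd), hwsub]
    have h2 := hprodI d hrd.le hd1
    rw [hΨ, hnormP, h1] at h2
    have hd0 : 0 < d := hπ0.trans hrd
    have h3 : d ^ e ≤ d ^ I.card := pow_le_pow_of_le_one hd0.le hd1 hIcard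
    have h4 : r ^ e < d ^ e := pow_lt_pow_left₀ hrd hπ0.le he0
    have h5 : r ^ e * d ^ s ≤ r ^ e * 1 :=
      mul_le_mul_of_nonneg_left (pow_le_one₀ hd0.le hd1) (by positivity)
    linarith
  have hwβr : ‖β ^ q - β‖ ≤ r := by
    rw [hwβ_eq]
    exact (IsUltrametricDist.norm_add_le_max _ _).trans
      (max_le (by rw [hwsub]; exact hdr) hwx.le)
  have hPle' : ‖Pz.eval₂ (phiZ p) β‖ ≤ r ^ (e + s) := by
    rw [hnormP, pow_add]
    exact mul_le_mul_of_nonneg_left (pow_le_pow_left₀ (norm_nonneg _) hwβr s) (by positivity)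
  -- the field `F = ℚ_p(β)` and property `(P_m)`
  obtain ⟨hFfin, hFrank⟩ := finrank_adjoin_le hQmonic hβ
  set F : IntermediateField ℚ_[p] (PadicAlgCl p) := IntermediateField.adjoin ℚ_[p] {β} with hF
  have hβF : β ∈ F := IntermediateField.mem_adjoin_simple_self _ _
  let c : ℝ≥0 := ⟨r ^ (e + s), by positivity⟩
  have hc0 : 0 < c := by
    rw [← NNReal.coe_lt_coe]
    change (0 : ℝ) < r ^ (e + s)
    positivity
  have hcp : c ^ (p - 1) < ((p : ℝ≥0)⁻¹) ^ p := by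
    rw [← NNReal.coe_lt_coe]
    push_cast
    exact hc
  have hom := exists_hom h hP F hβF hβ1 c hPle'
  have hLF : L ≤ F := hPM c hc0 hcp F hFfin hom
  have hLFeq : L = F := by
    haveI := hFfin
    refine IntermediateField.eq_of_le_of_finrank_le hLF ?_
    rw [← hP.natDegree_eq, ← hQdeg]
    exact hFrank
  have hβL : β ∈ L := by rw [hLFeq]; exact hβF
  -- `β ≠ x`
  have hne : (⟨β, hβL⟩ : L) - x ≠ 0 := by
    intro h0
    have hβx : β = (x : PadicAlgCl p) := congrArg Subtype.val (sub_eq_zero.mp h0)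
    have h1 := hβ'
    rw [hβx, hP.eval₂_self, eval₂_modByMonic_eq_self_of_root hP.eval₂_self, hW, eval₂_pow,
      eval₂_sub, eval₂_pow, eval₂_X] at h1
    have h2 := congrArg norm h1
    rw [norm_zero, norm_mul, norm_pow, hwx, norm_p_algCl] at h2
    have : 0 < (p : ℝ)⁻¹ * r ^ s := by positivity
    linarith
  have hnorm_le : ‖(⟨β, hβL⟩ : L) - x‖ ≤ 1 := hd1
  obtain ⟨j, hj⟩ := exists_norm_eq_pow L hπ0 hπ1 hπmax _ hne hnorm_le
  have hdj : d = r ^ j := hj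
  have hj0 : j ≠ 0 := by
    intro h0
    rw [h0, pow_zero] at hdj
    linarith
  have hj1 : j ≠ 1 := by
    intro h1
    rw [h1, pow_one] at hdj
    have h2 := hprodI d hdj.ge hd1
    rw [hΨ] at h2
    have h4 : r ^ I.card ≤ r ^ (e + s) := by
      have := hPle'
      rw [h2, hdj] at this
      exact this
    have h3 : e + s ≤ I.card := (pow_le_pow_iff_right_of_lt_one₀ hπ0 hπ1).mp h4
    omega
  have hj2 : 2 ≤ j := by omega
  refine ⟨j, hj2, ?_⟩
  have hdlt' : d < r := by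
    rw [hdj]
    calc r ^ j ≤ r ^ 2 := pow_le_pow_of_le_one hπ0.le hπ1.le hj2
      _ = r * r := by ring
      _ < 1 * r := mul_lt_mul_of_pos_right hπ1 hπ0
      _ = r := one_mul _
  have hwβ_r : ‖β ^ q - β‖ = r := by
    rw [hwβ_eq, norm_add_eq_right (by rw [hwsub, hwx]; exact hdlt'), hwx]
  rw [← hdj, hΨ, hnormP, hwβ_r, pow_add]

open Classical in
/-- **The perturbation argument.**  If `L` is Galois with property `(P_m)` for the radius
`‖π‖^(e+s)`, `s ≥ 1`, then `‖π‖^(e+s)` is a value of `t ↦ ∏_τ max t (depth τ)` at some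
`t = ‖π‖^j`, `j ≥ 2`. -/
theorem exists_pert {x π : L} {q : ℕ} (h : IsGoodGen L x π q) (hq : ‖(q : PadicAlgCl p)‖ < 1)
    {Pz : ℤ_[p][X]} (hP : IsMinZ L x Pz) {e : ℕ} (he : ‖π‖ ^ e = (p : ℝ)⁻¹)
    (hPM : HasPM p L) {s : ℕ} (hs : 1 ≤ s)
    (hc : (‖π‖ ^ (e + s)) ^ (p - 1) < ((p : ℝ)⁻¹) ^ p) :
    ∃ j : ℕ, 2 ≤ j ∧
      ∏ τ : L ≃ₐ[ℚ_[p]] L, max (‖π‖ ^ j) (depth p L τ) = ‖π‖ ^ (e + s) := by
  have hQmonic := monic_pertPoly hP q s
  have hQdeg := natDegree_pertPoly hP q s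
  -- a root of `Q`
  have hdegne : ((pertPoly p Pz q s).map (phiZ p)).degree ≠ 0 := by
    rw [hQmonic.degree_map, degree_eq_natDegree hQmonic.ne_zero, hQdeg]
    exact_mod_cast hP.natDegree_pos.ne'
  obtain ⟨β, hβroot⟩ := IsAlgClosed.exists_root _ hdegne
  have hβ : (pertPoly p Pz q s).eval₂ (phiZ p) β = 0 := by
    rw [eval₂_eq_eval_map]; exact hβroot
  -- the nearest conjugate
  obtain ⟨τ₁, -, hτ₁⟩ := Finset.exists_min_image Finset.univ
    (fun τ : L ≃ₐ[ℚ_[p]] L => ‖β - ((τ x : L) : PadicAlgCl p)‖) ⟨1, Finset.mem_univ _⟩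
  refine pert_core (h.map τ₁) hq (hP.map τ₁) he hPM hs hc hβ fun τ => ?_
  have := hτ₁ (τ * τ₁) (Finset.mem_univ _)
  simpa [AlgEquiv.mul_apply] using this

end Fermat.Agent.S56.FL.H15

end
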