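import Mathlib
import Fermat.Agent.S56.FL.H15_CKPert

set_option autoImplicit false
set_option linter.style.haveILetI false

/-!
# LOC-p-FL, package CK (helper15): `Stmt_CK`

Converse of Krasner's lemma (Fontaine, Prop. 1.5) with removal of the defect.

`L/ℚ_p` finite Galois containing `μ_p`, with `(P_m)` for all `m > p/(p-1)`.  Let `r = ‖π‖`,
`r^e = p⁻¹`, `e = a (p-1)`, `H_m = {τ : depth τ ≤ r^m}` (ramification subgroups),
`N(j) = Σ_{m ≤ j} #H_m`, so that `∏_τ max (r^j) (depth τ) = r^{N(j)}`.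
If the ramification is not bounded, let `r^b` be the smallest depth of a `σ₁ ≠ 1` and `k = N(b)`;
then `k > a p`, `b ≥ 2` (because `#H_1 ≤ e`), so `p ∣ #H_m` for `m ≤ b` (wild elements have order
divisible by `p`), hence `p ∣ k` and `k ≥ a p + p`.  The perturbation argument with
`s = k - 1 - e` produces `j` with `N(j) = k - 1`, which is impossible since `N(b-1) ≤ k - 2` and
`N(b) = k`.
-/

noncomputable section

namespace Fermat.Agent.S56.FL.H15

open scoped NNReal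
open Fermat.Agent.S56.FL Module Polynomial

variable {p : ℕ} [Fact p.Prime]

variable (L : IntermediateField ℚ_[p] (PadicAlgCl p))

/-- The ramification subgroup `H_m = {τ : depth τ ≤ ‖π‖^m}`. -/
def ramSub (π : L) (m : ℕ) : Subgroup (L ≃ₐ[ℚ_[p]] L) where
  carrier := {τ | depth p L τ ≤ ‖π‖ ^ m}
  one_mem' := by
    change depth p L 1 ≤ ‖π‖ ^ m
    rw [depth_one]
    positivity
  mul_mem' {σ τ} hσ hτ := (depth_mul_le L σ τ).trans (max_le hσ hτ)
  inv_mem' {σ} hσ := by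
    change depth p L σ⁻¹ ≤ ‖π‖ ^ m
    rw [depth_inv]
    exact hσ

theorem mem_ramSub {π : L} {m : ℕ} {τ : L ≃ₐ[ℚ_[p]] L} :
    τ ∈ ramSub L π m ↔ depth p L τ ≤ ‖π‖ ^ m := Iff.rfl

variable [FiniteDimensional ℚ_[p] L]

open Classical in
/-- The order of `H_m`. -/
def ramCard (π : L) (m : ℕ) : ℕ :=
  (Finset.univ.filter fun τ : L ≃ₐ[ℚ_[p]] L => depth p L τ ≤ ‖π‖ ^ m).card

/-- `N(j) = Σ_{1 ≤ m ≤ j} #H_m`. -/
def ramSum (π : L) (j : ℕ) : ℕ := ∑ m ∈ Finset.range j, ramCard L π (m + 1)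

variable {L}

theorem ramCard_eq_natCard (π : L) (m : ℕ) : ramCard L π m = Nat.card (ramSub L π m) := by
  classical
  rw [Nat.card_eq_fintype_card, ramCard]
  exact (Fintype.card_subtype _).symm

theorem ramCard_pos (π : L) (m : ℕ) : 0 < ramCard L π m := by
  classical
  rw [ramCard, Finset.card_pos]
  exact ⟨1, Finset.mem_filter.mpr ⟨Finset.mem_univ _, (ramSub L π m).one_mem⟩⟩

theorem ramSum_succ (π : L) (j : ℕ) : ramSum L π (j + 1) = ramSum L π j + ramCard L π (j + 1) :=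
  Finset.sum_range_succ _ _

theorem ramSum_mono (π : L) {i j : ℕ} (hij : i ≤ j) : ramSum L π i ≤ ramSum L π j := by
  induction j with
  | zero =>
    have : i = 0 := by omega
    rw [this]
  | succ j ih =>
    rcases Nat.eq_or_lt_of_le hij with h | h
    · rw [h]
    · rw [ramSum_succ]
      exact (ih (by omega)).trans (Nat.le_add_right _ _)

/-- `∏_τ max (r^j) (depth τ) = r^{N(j)}`. -/
theorem prod_max_pow {x π : L} {q : ℕ} (h : IsGoodGen L x π q) (j : ℕ) :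
    ∏ τ : L ≃ₐ[ℚ_[p]] L, max (‖π‖ ^ j) (depth p L τ) = ‖π‖ ^ ramSum L π j := by
  classical
  obtain ⟨hx, hπ0, hπ1, hπmax, hxq, hres⟩ := id h
  induction j with
  | zero =>
    rw [ramSum, Finset.range_zero, Finset.sum_empty, pow_zero]
    refine Finset.prod_eq_one fun τ _ => ?_
    exact max_eq_left (depth_le_one L τ)
  | succ j ih =>
    have hpt : ∀ τ : L ≃ₐ[ℚ_[p]] L, max (‖π‖ ^ (j + 1)) (depth p L τ)
        = max (‖π‖ ^ j) (depth p L τ) * (if depth p L τ ≤ ‖π‖ ^ (j + 1) then ‖π‖ else 1) := by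
      intro τ
      split_ifs with hle
      · rw [max_eq_left hle, max_eq_left, pow_succ]
        exact hle.trans (pow_le_pow_of_le_one hπ0.le hπ1.le (Nat.le_succ j))
      · have hlt : ‖π‖ ^ (j + 1) < depth p L τ := not_le.mp hle
        have hge : ‖π‖ ^ j ≤ depth p L τ := by
          by_contra hcon
          exact hle (depth_le_pow_succ h τ j (not_le.mp hcon))
        rw [max_eq_right hlt.le, max_eq_right hge, mul_one]
    calc ∏ τ : L ≃ₐ[ℚ_[p]] L, max (‖π‖ ^ (j + 1)) (depth p L τ)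
        = ∏ τ : L ≃ₐ[ℚ_[p]] L, (max (‖π‖ ^ j) (depth p L τ)
            * (if depth p L τ ≤ ‖π‖ ^ (j + 1) then ‖π‖ else 1)) :=
          Finset.prod_congr rfl fun τ _ => hpt τ
      _ = (∏ τ : L ≃ₐ[ℚ_[p]] L, max (‖π‖ ^ j) (depth p L τ))
            * ∏ τ : L ≃ₐ[ℚ_[p]] L, (if depth p L τ ≤ ‖π‖ ^ (j + 1) then ‖π‖ else 1) :=
          Finset.prod_mul_distrib
      _ = ‖π‖ ^ ramSum L π j * ‖π‖ ^ ramCard L π (j + 1) := by
          rw [ih, Finset.prod_ite, Finset.prod_const, Finset.prod_const_one, mul_one]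
          rfl
      _ = ‖π‖ ^ ramSum L π (j + 1) := by rw [ramSum_succ, pow_add]

/-- `Stmt_CK` for every prime `p` (the hypothesis `p ≠ 2` of `Stmt_CK` is not used). -/
theorem ck_all (p : ℕ) [Fact p.Prime] (L : IntermediateField ℚ_[p] (PadicAlgCl p))
    [FiniteDimensional ℚ_[p] L] (hN : Normal ℚ_[p] L) (hζ : ∃ ζ ∈ L, ζ ≠ 1 ∧ ζ ^ p = 1)
    (hPM : HasPM p L) : IsBddField p L := by
  classical
  have hp : p.Prime := Fact.out
  obtain ⟨x, π, q, h, hq⟩ := exists_goodGen_q L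
  obtain ⟨Pz, hP⟩ := exists_isMinZ hN h
  obtain ⟨hx, hπ0, hπ1, hπmax, hxq, hres⟩ := id h
  obtain ⟨e, he0, he⟩ := exists_ramIdx hπ0 hπ1 hπmax
  set r : ℝ := ‖π‖ with hr
  -- `e = a (p - 1)`
  obtain ⟨ζ, hζL, hζ1, hζp⟩ := hζ
  have hz := norm_zeta_sub_one hζ1 hζp
  have hzne : (⟨ζ, hζL⟩ : L) - 1 ≠ 0 := by
    intro h0
    exact hζ1 (congrArg Subtype.val (sub_eq_zero.mp h0))
  have hzle : ‖(⟨ζ, hζL⟩ : L) - 1‖ ≤ 1 := by
    have h1 : ‖ζ - 1‖ ^ (p - 1) ≤ 1 := by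
      rw [hz]; exact (inv_lt_one_of_one_lt₀ one_lt_p_real).le
    have h2 : ‖ζ - 1‖ ≤ 1 := by
      by_contra hcon
      have := one_lt_pow₀ (not_le.mp hcon) (Nat.sub_ne_zero_of_lt hp.one_lt)
      linarith
    exact h2
  obtain ⟨a, ha⟩ := exists_norm_eq_pow L hπ0 hπ1 hπmax _ hzne hzle
  have ha' : ‖ζ - 1‖ = r ^ a := ha
  have hea : e = a * (p - 1) := by
    rw [ha', ← pow_mul, ← he] at hz
    exact (pow_right_injective₀ hπ0 hπ1.ne hz).symm
  -- assume the ramification is not bounded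
  by_contra hnot
  obtain ⟨σ₀, hσ₀, hlt⟩ : ∃ σ₀ : L ≃ₐ[ℚ_[p]] L, σ₀ ≠ 1 ∧
      (∏ τ : L ≃ₐ[ℚ_[p]] L, max (depth p L σ₀) (depth p L τ)) ^ (p - 1) < ((p : ℝ)⁻¹) ^ p := by
    by_contra hcon
    apply hnot
    intro σ hσ
    by_contra hlt
    exact hcon ⟨σ, hσ, not_le.mp hlt⟩
  -- the deepest nontrivial element
  obtain ⟨σ₁, hσ₁mem, hσ₁min⟩ := Finset.exists_min_image
    (Finset.univ.filter fun σ : L ≃ₐ[ℚ_[p]] L => σ ≠ 1) (fun σ => depth p L σ)
    ⟨σ₀, Finset.mem_filter.mpr ⟨Finset.mem_univ _, hσ₀⟩⟩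
  have hσ₁ : σ₁ ≠ 1 := (Finset.mem_filter.mp hσ₁mem).2
  have hmin : ∀ σ : L ≃ₐ[ℚ_[p]] L, σ ≠ 1 → depth p L σ₁ ≤ depth p L σ := fun σ hσ =>
    hσ₁min σ (Finset.mem_filter.mpr ⟨Finset.mem_univ _, hσ⟩)
  obtain ⟨b, hb⟩ := depth_eq_pow h hσ₁
  set k := ramSum L π b with hk
  -- `k (p - 1) > e p`
  have hΨle : ∏ τ : L ≃ₐ[ℚ_[p]] L, max (r ^ b) (depth p L τ)
      ≤ ∏ τ : L ≃ₐ[ℚ_[p]] L, max (depth p L σ₀) (depth p L τ) := by
    refine Finset.prod_le_prod (fun τ _ => le_max_of_le_right (depth_nonneg L τ)) fun τ _ => ?_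
    exact max_le_max (by rw [← hb]; exact hmin σ₀ hσ₀) le_rfl
  have hklt : (r ^ k) ^ (p - 1) < (r ^ e) ^ p := by
    rw [he, hk, ← prod_max_pow h b]
    refine lt_of_le_of_lt (pow_le_pow_left₀ ?_ hΨle _) hlt
    exact Finset.prod_nonneg fun τ _ => le_max_of_le_right (depth_nonneg L τ)
  have hkp : e * p < k * (p - 1) := by
    rw [← pow_mul, ← pow_mul] at hklt
    exact (pow_lt_pow_iff_right_of_lt_one₀ hπ0 hπ1).mp hklt
  have hp1 : 1 ≤ p - 1 := Nat.le_sub_one_of_lt hp.one_lt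
  have hpp : p - 1 + 1 = p := Nat.sub_add_cancel hp.one_le
  -- `#H_1 ≤ e`
  have hcard1 : ramCard L π 1 ≤ e := by
    refine le_trans (Finset.card_le_card ?_) (card_inertia_le h hq hP he)
    intro τ hτ
    rw [Finset.mem_filter] at hτ ⊢
    refine ⟨hτ.1, lt_of_le_of_lt hτ.2 ?_⟩
    rw [pow_one]; exact hπ1
  -- `b ≥ 2`
  have hb2 : 2 ≤ b := by
    by_contra hcon
    have hb1 : b ≤ 1 := by omega
    have h1 : k ≤ ramSum L π 1 := ramSum_mono π hb1
    have h2 : ramSum L π 1 = ramCard L π 1 := by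
      rw [ramSum, Finset.sum_range_one]
    have h3 : k ≤ e := by rw [h2] at h1; exact h1.trans hcard1
    have h4 : k * (p - 1) ≤ e * (p - 1) := Nat.mul_le_mul_right _ h3
    have h5 : e * (p - 1) ≤ e * p := Nat.mul_le_mul_left _ (Nat.sub_le p 1)
    omega
  -- `p ∣ #H_m` for `m ≤ b`
  have hσ₁wild : depth p L σ₁ < ‖π‖ := by
    rw [hb]
    calc r ^ b ≤ r ^ 2 := pow_le_pow_of_le_one hπ0.le hπ1.le hb2
      _ = r * r := by ring
      _ < 1 * r := mul_lt_mul_of_pos_right hπ1 hπ0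
      _ = r := one_mul _
  have hpord : p ∣ orderOf σ₁ := dvd_orderOf_of_depth_lt h hσ₁ hσ₁wild
  have hpcard : ∀ m, m ≤ b → p ∣ ramCard L π m := by
    intro m hm
    rw [ramCard_eq_natCard]
    refine hpord.trans (Subgroup.orderOf_dvd_natCard _ ?_)
    rw [mem_ramSub, hb]
    exact pow_le_pow_of_le_one hπ0.le hπ1.le hm
  have hpk : p ∣ k := by
    rw [hk, ramSum]
    refine Finset.dvd_sum fun m hm => hpcard (m + 1) ?_
    have := Finset.mem_range.mp hm
    omega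
  -- `k ≥ a p + p`
  have hkap : a * p + p ≤ k := by
    obtain ⟨k', hk'⟩ := hpk
    have h1 : a * (p - 1) * p < p * k' * (p - 1) := by rw [← hk', ← hea]; exact hkp
    have h2 : a * ((p - 1) * p) < k' * ((p - 1) * p) := by
      calc a * ((p - 1) * p) = a * (p - 1) * p := by ring
        _ < p * k' * (p - 1) := h1
        _ = k' * ((p - 1) * p) := by ring
    have h3 : a < k' := lt_of_mul_lt_mul_right h2 (Nat.zero_le _)
    rw [hk']
    calc a * p + p = p * (a + 1) := by ring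
      _ ≤ p * k' := Nat.mul_le_mul_left _ h3
  -- `e ≤ a p`
  have heap : e + a = a * p := by
    rw [hea]
    calc a * (p - 1) + a = a * (p - 1 + 1) := by ring
      _ = a * p := by rw [hpp]
  have hp2' : 2 ≤ p := hp.two_le
  -- the perturbation with `s = k - 1 - e`
  set s := k - 1 - e with hs
  have hs1 : 1 ≤ s := by omega
  have hes : e + s = k - 1 := by omega
  have hc : (‖π‖ ^ (e + s)) ^ (p - 1) < ((p : ℝ)⁻¹) ^ p := by
    rw [← he, ← pow_mul, ← pow_mul, hes]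
    refine (pow_lt_pow_iff_right_of_lt_one₀ hπ0 hπ1).mpr ?_
    have h1 : a * p + 1 ≤ k - 1 := by omega
    calc e * p = a * (p - 1) * p := by rw [hea]
      _ = a * p * (p - 1) := by ring
      _ < (a * p + 1) * (p - 1) := by
          refine Nat.mul_lt_mul_of_pos_right (Nat.lt_succ_self _) (by omega)
      _ ≤ (k - 1) * (p - 1) := Nat.mul_le_mul_right _ h1
  obtain ⟨j, hj2, hj⟩ := exists_pert h hq hP he hPM hs1 hc
  rw [prod_max_pow h j, hes] at hj
  have hNj : ramSum L π j = k - 1 := pow_right_injective₀ hπ0 hπ1.ne hj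
  -- `N(b - 1) ≤ k - 2`
  have hcardb : 2 ≤ ramCard L π b := by
    have h1 := hpcard b le_rfl
    have h2 := ramCard_pos π b
    exact hp2'.trans (Nat.le_of_dvd h2 h1)
  rcases Nat.lt_or_ge j b with hjb | hjb
  · have h1 : ramSum L π j ≤ ramSum L π (b - 1) := ramSum_mono π (by omega)
    have h2 : ramSum L π (b - 1 + 1) = ramSum L π (b - 1) + ramCard L π (b - 1 + 1) :=
      ramSum_succ π (b - 1)
    have h3 : b - 1 + 1 = b := by omega
    rw [h3] at h2
    omega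
  · have h1 : k ≤ ramSum L π j := ramSum_mono π hjb
    omega

theorem stmt_CK : Stmt_CK := fun p _ _ L _ hN hζ hPM => ck_all p L hN hζ hPM

end Fermat.Agent.S56.FL.H15

end
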