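import Mathlib
import Fermat.Agent.S56.FL.H15_Herb

set_option autoImplicit false
set_option linter.style.haveILetI false

/-!
# LOC-p-FL, package HERB (helper15): `Stmt_HERB`

Bounded ramification passes to Galois subextensions (Herbrand's theorem for the upper numbering).
-/

noncomputable section

namespace Fermat.Agent.S56.FL.H15

open scoped NNReal
open Fermat.Agent.S56.FL Module Polynomial

variable {p : ℕ} [Fact p.Prime]

/-- **HERB**: `Stmt_HERB` of `Fermat/Agent/S56/FL/Local.lean`. -/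
theorem stmt_HERB : Stmt_HERB := by
  intro p _ L L' _ _ hL hL' hle hbdd σ' hσ'
  classical
  letI : Algebra L' L := (IntermediateField.inclusion hle).toRingHom.toAlgebra
  haveI : IsScalarTower ℚ_[p] L' L := IsScalarTower.of_algebraMap_eq (fun x => rfl)
  haveI : Normal ℚ_[p] L := hL
  haveI : Normal ℚ_[p] L' := hL'
  haveI : IsGalois ℚ_[p] L := ⟨⟩
  let r : (L ≃ₐ[ℚ_[p]] L) →* (L' ≃ₐ[ℚ_[p]] L') := AlgEquiv.restrictNormalHom L'
  have hsurj : Function.Surjective r := AlgEquiv.restrictNormalHom_surjective L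
  have hcomm : ∀ (σ : L ≃ₐ[ℚ_[p]] L) (a : L'),
      algebraMap L' L (r σ a) = σ (algebraMap L' L a) :=
    fun σ a => AlgEquiv.restrictNormal_commutes σ L' a
  have hcoe : ∀ a : L', ((algebraMap L' L a : L) : PadicAlgCl p) = (a : PadicAlgCl p) :=
    fun a => rfl
  have hinj : Function.Injective (algebraMap L' L) := (algebraMap L' L).injective
  letI : Fintype r.ker := Fintype.ofFinite _
  -- Galois correspondence: elements fixed by `ker r` come from `L'`
  have hgal : ∀ c : L, (∀ ν ∈ r.ker, ν c = c) → ∃ a : L', algebraMap L' L a = c := by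
    intro c hc
    let K : IntermediateField ℚ_[p] L := (IsScalarTower.toAlgHom ℚ_[p] L' L).fieldRange
    have hK : c ∈ IntermediateField.fixedField K.fixingSubgroup := by
      rw [IntermediateField.mem_fixedField_iff]
      intro ν hν
      apply hc
      rw [MonoidHom.mem_ker]
      ext a
      have h1 : ν (algebraMap L' L a) = algebraMap L' L a := by
        have := (IntermediateField.mem_fixingSubgroup_iff K ν).mp hν (algebraMap L' L a)
          ⟨a, rfl⟩
        exact this
      have h2 := hcomm ν a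
      rw [h1] at h2
      have h3 := hinj h2
      simpa using congrArg (fun z : L' => (z : PadicAlgCl p)) h3
    rw [IsGalois.fixedField_fixingSubgroup] at hK
    obtain ⟨a, ha⟩ := hK
    exact ⟨a, ha⟩
  -- `depthOn (ker r) τ ≤ depth L' (r τ)`
  have hd1 : ∀ τ : L ≃ₐ[ℚ_[p]] L, depthOn L r.ker τ ≤ depth p L' (r τ) := by
    intro τ
    refine depthOn_le _ _ fun c hc1 hcfix => ?_
    obtain ⟨a, rfl⟩ := hgal c hcfix
    have ha1 : ‖(a : PadicAlgCl p)‖ ≤ 1 := hc1
    have h1 := norm_sub_le_depth (r τ) ha1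
    have h2 : ‖τ (algebraMap L' L a) - algebraMap L' L a‖
        = ‖((r τ a : L') : PadicAlgCl p) - (a : PadicAlgCl p)‖ := by
      rw [← hcomm τ a]
      rfl
    rw [h2]
    exact h1
  obtain ⟨σ, rfl⟩ := hsurj σ'
  obtain ⟨ν₀, hν₀, hherb⟩ := herbrand_top r.ker σ
  have hne : σ * ν₀ ≠ 1 := by
    intro h
    apply hσ'
    have h1 : r (σ * ν₀) = r σ := by
      rw [map_mul, MonoidHom.mem_ker.mp hν₀, mul_one]
    rw [← h1, h, map_one]
  have hb := hbdd (σ * ν₀) hne
  have hfib := prod_comp_hom r hsurj (fun τ' => max (depth p L' (r σ)) (depth p L' τ'))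
  set R : ℝ := ∏ τ : L ≃ₐ[ℚ_[p]] L, max (depth p L (σ * ν₀)) (depth p L τ) with hR
  set R' : ℝ := ∏ τ' : L' ≃ₐ[ℚ_[p]] L', max (depth p L' (r σ)) (depth p L' τ') with hR'
  have hR0 : 0 ≤ R :=
    Finset.prod_nonneg fun τ _ => (depth_nonneg L _).trans (le_max_left _ _)
  have hR'0 : 0 ≤ R' :=
    Finset.prod_nonneg fun τ _ => (depth_nonneg L' _).trans (le_max_left _ _)
  have hchain : R ^ Fintype.card r.ker ≤ R' ^ Fintype.card r.ker := by
    rw [← hfib]
    refine hherb.trans ?_
    refine Finset.prod_le_prod (fun τ _ => ?_) (fun τ _ => ?_)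
    · exact (depthOn_nonneg _ _).trans (le_max_left _ _)
    · exact max_le_max (hd1 σ) (hd1 τ)
  have hcard : Fintype.card r.ker ≠ 0 := Fintype.card_ne_zero
  have hRR' : R ≤ R' := (pow_le_pow_iff_left₀ hR0 hR'0 hcard).mp hchain
  exact hb.trans (pow_le_pow_left₀ hR0 hRR' _)

end Fermat.Agent.S56.FL.H15

end
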