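import Mathlib
import Fermat.Agent.S56.FL.H15_CK
import Fermat.Agent.S56.FL.H15_HerbFinal

set_option autoImplicit false
set_option linter.style.haveILetI false

/-!
# LOC-p-FL (helper15): bounded ramification is stable under composita

* `ringHom_padicInt_ext` : ring homomorphisms `ℤ_p → Q` agree if `p^N = 0` in `Q`.
* `hasPM_of_isBdd`  : **Krasner direction** (Fontaine, Prop. 1.5 (i)): a finite Galois `L` with
  bounded ramification has property `(P_m)` for all `m > p/(p-1)`.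
* `hasPM_sup`       : `(P_m)` passes to composita.
* `isBdd_of_not_dvd_finrank` : a Galois extension of degree prime to `p` has bounded ramification.
* `cycloField p`    : `ℚ_p(μ_p)`; finite, normal, bounded.
* `isBdd_sup_cyclo`, `isBdd_sup` : composita of bounded fields are bounded.
-/

noncomputable section

namespace Fermat.Agent.S56.FL.H15

open scoped NNReal
open Fermat.Agent.S56.FL Module Polynomial IntermediateField

variable {p : ℕ} [Fact p.Prime]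

/-- Ring homomorphisms out of `ℤ_p` into a ring killed by a power of `p` are unique. -/
theorem ringHom_padicInt_ext {Q : Type*} [Ring Q] (N : ℕ) (hN : (p : Q) ^ N = 0)
    (f g : ℤ_[p] →+* Q) : f = g := by
  ext a
  have h := PadicInt.appr_spec N a
  rw [Ideal.mem_span_singleton] at h
  obtain ⟨b, hb⟩ := h
  have ha : a = (PadicInt.appr a N : ℤ_[p]) + (p : ℤ_[p]) ^ N * b := by
    rw [← hb]; ring
  rw [ha]
  simp only [map_add, map_mul, map_pow, map_natCast, hN, zero_mul]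

variable {L : IntermediateField ℚ_[p] (PadicAlgCl p)} [FiniteDimensional ℚ_[p] L]

/-- Monotonicity of `t ↦ ∏_τ max t (depth τ)`. -/
theorem prod_max_depth_mono {s t : ℝ} (hs : 0 ≤ s) (hst : s ≤ t) :
    ∏ τ : L ≃ₐ[ℚ_[p]] L, max s (depth p L τ) ≤ ∏ τ : L ≃ₐ[ℚ_[p]] L, max t (depth p L τ) :=
  Finset.prod_le_prod (fun _ _ => hs.trans (le_max_left _ _)) fun _ _ => max_le_max hst le_rfl

/-- A field containing a good generator contains `L`. -/
theorem le_of_goodGen_mem {x π : L} {q : ℕ} (h : IsGoodGen L x π q) {Pz : ℤ_[p][X]}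
    (hP : IsMinZ L x Pz) {F : IntermediateField ℚ_[p] (PadicAlgCl p)}
    (hx : (x : PadicAlgCl p) ∈ F) : L ≤ F := by
  intro a haL
  have hp0 : (p : PadicAlgCl p) ≠ 0 := by
    intro h0
    have := norm_p_algCl (p := p)
    rw [h0, norm_zero] at this
    have : (0 : ℝ) < (p : ℝ)⁻¹ := inv_pos.mpr p_pos_real
    linarith
  have hpinv1 : (p : ℝ)⁻¹ < 1 := inv_lt_one_of_one_lt₀ one_lt_p_real
  obtain ⟨N, hN⟩ : ∃ N : ℕ, ‖(p : PadicAlgCl p) ^ N * a‖ ≤ 1 := by
    rcases eq_or_ne a 0 with rfl | ha0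
    · exact ⟨0, by simp⟩
    · have hapos : 0 < ‖a‖ := norm_pos_iff.mpr ha0
      obtain ⟨N, hN⟩ := exists_pow_lt_of_lt_one (inv_pos.mpr hapos) hpinv1
      refine ⟨N, ?_⟩
      rw [norm_mul, norm_pow, norm_p_algCl]
      have := mul_lt_mul_of_pos_right hN hapos
      rw [inv_mul_cancel₀ hapos.ne'] at this
      exact this.le
  have hmem : (p : PadicAlgCl p) ^ N * a ∈ L := L.mul_mem (pow_mem (_root_.natCast_mem L p) N) haL
  obtain ⟨g, hg⟩ := exists_poly_eq h hP ⟨(p : PadicAlgCl p) ^ N * a, hmem⟩ hN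
  have h1 : (p : PadicAlgCl p) ^ N * a ∈ F := by
    have := evZ_mem (F := F) hx g
    rw [hg] at this
    exact this
  have h2 : a = ((p : PadicAlgCl p) ^ N)⁻¹ * ((p : PadicAlgCl p) ^ N * a) := by
    rw [inv_mul_cancel_left₀ (pow_ne_zero N hp0)]
  rw [h2]
  exact F.mul_mem (F.inv_mem (pow_mem (_root_.natCast_mem F p) N)) h1

/-- **Krasner direction.**  Bounded ramification implies property `(P_m)` for `m > p/(p-1)`. -/
theorem hasPM_of_isBdd (hN : Normal ℚ_[p] L) (hb : IsBddField p L) : HasPM p L := by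
  classical
  intro c hc0 hcp F hF ⟨φ⟩
  have hp : p.Prime := Fact.out
  obtain ⟨x, π, q, h, hq⟩ := exists_goodGen_q L
  obtain ⟨Pz, hP⟩ := exists_isMinZ hN h
  have hx1 : ‖(x : PadicAlgCl p)‖ ≤ 1 := h.1
  -- a lift `β` of `φ x`
  obtain ⟨β', hβ'⟩ := Ideal.Quotient.mk_surjective (φ ⟨x, x.2, hx1⟩)
  set β : PadicAlgCl p := β'.1 with hβ
  have hβF : β ∈ F := β'.2.1
  have hβ1 : ‖β‖ ≤ 1 := β'.2.2
  -- `p^N = 0` in the quotient
  have hpinv1 : (p : ℝ)⁻¹ < 1 := inv_lt_one_of_one_lt₀ one_lt_p_real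
  have hc0' : (0 : ℝ) < c := by exact_mod_cast hc0
  obtain ⟨N, hN'⟩ := exists_pow_lt_of_lt_one hc0' hpinv1
  have hpN : ((p : intRing p F ⧸ ballIdeal p F c)) ^ N = 0 := by
    have h1 : ((p : intRing p F ⧸ ballIdeal p F c)) ^ N
        = Ideal.Quotient.mk (ballIdeal p F c) ((p : intRing p F) ^ N) := by
      rw [map_pow, map_natCast]
    rw [h1, Ideal.Quotient.eq_zero_iff_mem, mem_ballIdeal]
    push_cast
    rw [norm_pow, norm_p_algCl]
    exact hN'.le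
  -- the two evaluation homomorphisms agree
  let evF : ℤ_[p][X] →+* intRing p F :=
    (eval₂RingHom (phiZ p) β).codRestrict (intRing p F)
      fun g => ⟨evZ_mem hβF g, norm_evZ_le_one hβ1 g⟩
  let evL : ℤ_[p][X] →+* intRing p L :=
    (eval₂RingHom (phiZ p) (x : PadicAlgCl p)).codRestrict (intRing p L)
      fun g => ⟨evZ_mem x.2 g, norm_evZ_le_one hx1 g⟩
  have hagree : φ.comp evL = (Ideal.Quotient.mk (ballIdeal p F c)).comp evF := by
    refine Polynomial.ringHom_ext' ?_ ?_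
    · exact ringHom_padicInt_ext N hpN _ _
    · change φ (evL X) = Ideal.Quotient.mk (ballIdeal p F c) (evF X)
      have h1 : evL X = ⟨x, x.2, hx1⟩ := Subtype.ext (by simp [evL])
      have h2 : evF X = β' := Subtype.ext (by simp [evF, hβ])
      rw [h1, h2, hβ']
  have hPβ : ‖Pz.eval₂ (phiZ p) β‖ ≤ c := by
    have h1 := congrArg (fun f : ℤ_[p][X] →+* _ => f Pz) hagree
    simp only [RingHom.comp_apply] at h1
    have h2 : evL Pz = 0 := Subtype.ext (by simpa [evL] using hP.eval₂_self)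
    rw [h2, map_zero] at h1
    have h3 := (Ideal.Quotient.eq_zero_iff_mem.mp h1.symm)
    rw [mem_ballIdeal] at h3
    exact h3
  -- the nearest conjugate
  obtain ⟨τ₁, -, hτ₁⟩ := Finset.exists_min_image Finset.univ
    (fun τ : L ≃ₐ[ℚ_[p]] L => ‖β - ((τ x : L) : PadicAlgCl p)‖) ⟨1, Finset.mem_univ _⟩
  have h₁ := h.map τ₁
  have hP₁ := hP.map τ₁
  have hclosest : ∀ τ : L ≃ₐ[ℚ_[p]] L,
      ‖β - ((τ₁ x : L) : PadicAlgCl p)‖ ≤ ‖β - ((τ (τ₁ x) : L) : PadicAlgCl p)‖ := by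
    intro τ
    have := hτ₁ (τ * τ₁) (Finset.mem_univ _)
    simpa [AlgEquiv.mul_apply] using this
  set x₁ : L := τ₁ x with hx₁
  set d : ℝ := ‖β - (x₁ : PadicAlgCl p)‖ with hd
  have hΨ : ∏ τ : L ≃ₐ[ℚ_[p]] L, max d (depth p L τ) = ‖Pz.eval₂ (phiZ p) β‖ := by
    rw [hP₁.norm_eval₂]
    exact (Finset.prod_congr rfl fun τ _ => norm_sub_map_eq_max h₁ hclosest τ).symm
  have hdlt : ∀ σ : L ≃ₐ[ℚ_[p]] L, σ ≠ 1 → d < depth p L σ := by
    intro σ hσ
    by_contra hcon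
    have hle : depth p L σ ≤ d := not_lt.mp hcon
    have h1 := prod_max_depth_mono (L := L) (depth_nonneg L σ) hle
    have h2 := hb σ hσ
    have h3 : (∏ τ : L ≃ₐ[ℚ_[p]] L, max (depth p L σ) (depth p L τ)) ^ (p - 1)
        ≤ (c : ℝ) ^ (p - 1) := by
      refine pow_le_pow_left₀ ?_ (h1.trans (hΨ.le.trans hPβ)) _
      exact Finset.prod_nonneg fun τ _ => (depth_nonneg L σ).trans (le_max_left _ _)
    have h4 : (c : ℝ) ^ (p - 1) < ((p : ℝ)⁻¹) ^ p := by
      have := NNReal.coe_lt_coe.mpr hcp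
      push_cast at this
      exact this
    linarith
  -- Krasner's lemma
  have hint : IsIntegral ℚ_[p] (x₁ : PadicAlgCl p) :=
    (Algebra.IsAlgebraic.isAlgebraic _).isIntegral
  have hintβ : IsIntegral ℚ_[p] β := (Algebra.IsAlgebraic.isAlgebraic _).isIntegral
  haveI : IsKrasner ℚ_[p] (PadicAlgCl p) := IsKrasner.of_completeSpace ℚ_[p] (PadicAlgCl p)
  have hK : (x₁ : PadicAlgCl p) ∈ ℚ_[p]⟮β⟯ := by
    refine IsKrasner.krasner (Irreducible.separable (minpoly.irreducible hint))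
      (IsAlgClosed.splits _) hintβ ?_
    intro x' hx' hne
    -- `x'` is a conjugate `τ x₁`
    have hroot : Pz.eval₂ (phiZ p) x' = 0 := by
      have h1 : aeval x' (minpoly ℚ_[p] (x₁ : PadicAlgCl p)) = 0 := by
        rw [hx']; exact minpoly.aeval _ _
      have h4 : minpoly ℚ_[p] (x₁ : PadicAlgCl p) = minpoly ℚ_[p] x₁ :=
        minpoly.algebraMap_eq (algebraMap L (PadicAlgCl p)).injective x₁
      rw [h4, ← hP₁.map_eq, aeval_def, eval₂_map] at h1
      exact h1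
    rw [hP₁.eval₂_eq_prod, Finset.prod_eq_zero_iff] at hroot
    obtain ⟨τ, -, hτ⟩ := hroot
    have hx'τ : x' = ((τ x₁ : L) : PadicAlgCl p) := sub_eq_zero.mp hτ
    have hτ1 : τ ≠ 1 := by
      rintro rfl
      exact hne (by rw [hx'τ]; rfl)
    have h5 := hdlt τ hτ1
    rw [depth_eq_of_goodGen h₁ τ] at h5
    rw [hx'τ, norm_sub_rev (x₁ : PadicAlgCl p) β]
    have h6 : ‖(x₁ : PadicAlgCl p) - ((τ x₁ : L) : PadicAlgCl p)‖ = ‖τ x₁ - x₁‖ := by
      rw [norm_sub_rev]; rfl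
    rw [h6]
    exact h5
  have hx₁F : (x₁ : PadicAlgCl p) ∈ F := by
    have hle : ℚ_[p]⟮β⟯ ≤ F := by
      rw [adjoin_simple_le_iff]; exact hβF
    exact hle hK
  exact le_of_goodGen_mem h₁ hP₁ hx₁F

omit [FiniteDimensional ℚ_[p] L] in
/-- `(P_m)` passes to composita. -/
theorem hasPM_sup {L₁ L₂ : IntermediateField ℚ_[p] (PadicAlgCl p)} (h₁ : HasPM p L₁)
    (h₂ : HasPM p L₂) : HasPM p (L₁ ⊔ L₂) := by
  intro c hc0 hcp F hF ⟨φ⟩
  have hle₁ : intRing p L₁ ≤ intRing p (L₁ ⊔ L₂) := fun a ha =>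
    ⟨(le_sup_left : L₁ ≤ L₁ ⊔ L₂) ha.1, ha.2⟩
  have hle₂ : intRing p L₂ ≤ intRing p (L₁ ⊔ L₂) := fun a ha =>
    ⟨(le_sup_right : L₂ ≤ L₁ ⊔ L₂) ha.1, ha.2⟩
  exact sup_le (h₁ c hc0 hcp F hF ⟨φ.comp (Subring.inclusion hle₁)⟩)
    (h₂ c hc0 hcp F hF ⟨φ.comp (Subring.inclusion hle₂)⟩)

/-- A Galois extension of degree prime to `p` has bounded ramification. -/
theorem isBdd_of_not_dvd_finrank (hN : Normal ℚ_[p] L) (hdeg : ¬ p ∣ finrank ℚ_[p] L) :
    IsBddField p L := by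
  classical
  intro σ hσ
  have hp : p.Prime := Fact.out
  haveI : Normal ℚ_[p] L := hN
  haveI : IsGalois ℚ_[p] L := ⟨⟩
  obtain ⟨x, π, q, h, hq⟩ := exists_goodGen_q L
  obtain ⟨Pz, hP⟩ := exists_isMinZ hN h
  obtain ⟨hx, hπ0, hπ1, hπmax, hxq, hres⟩ := id h
  obtain ⟨e, he0, he⟩ := exists_ramIdx hπ0 hπ1 hπmax
  have hpinv0 : (0 : ℝ) < (p : ℝ)⁻¹ := inv_pos.mpr p_pos_real
  have hpinv1 : (p : ℝ)⁻¹ < 1 := inv_lt_one_of_one_lt₀ one_lt_p_real
  -- `depth σ ≥ ‖π‖`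
  have hge : ‖π‖ ≤ depth p L σ := by
    by_contra hcon
    have h1 := dvd_orderOf_of_depth_lt h hσ (not_le.mp hcon)
    have h2 : orderOf σ ∣ finrank ℚ_[p] L := by
      rw [← IsGalois.card_aut_eq_finrank ℚ_[p] L]
      exact orderOf_dvd_natCard σ
    exact hdeg (h1.trans h2)
  have h1 : ‖π‖ ^ e ≤ ∏ τ : L ≃ₐ[ℚ_[p]] L, max (depth p L σ) (depth p L τ) := by
    have h2 := prod_max_depth_mono (L := L) hπ0.le hge
    refine le_trans ?_ h2
    have h3 := prod_max_pow h 1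
    rw [pow_one] at h3
    rw [h3]
    refine pow_le_pow_of_le_one hπ0.le hπ1.le ?_
    have h4 : ramSum L π 1 = ramCard L π 1 := by rw [ramSum, Finset.sum_range_one]
    rw [h4]
    refine le_trans (Finset.card_le_card ?_) (card_inertia_le h hq hP he)
    intro τ hτ
    rw [Finset.mem_filter] at hτ ⊢
    refine ⟨hτ.1, lt_of_le_of_lt hτ.2 ?_⟩
    rw [pow_one]; exact hπ1
  rw [he] at h1
  calc ((p : ℝ)⁻¹) ^ p ≤ ((p : ℝ)⁻¹) ^ (p - 1) :=
        pow_le_pow_of_le_one hpinv0.le hpinv1.le (Nat.sub_le p 1)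
    _ ≤ _ := pow_le_pow_left₀ hpinv0.le h1 _

/-! ## The cyclotomic field `ℚ_p(μ_p)` and composita -/

variable (p) in
/-- `ℚ_p(μ_p)`, the splitting field of `X^p - 1` in `K̄`. -/
def cycloField : IntermediateField ℚ_[p] (PadicAlgCl p) :=
  IntermediateField.adjoin ℚ_[p] ((X ^ p - 1 : ℚ_[p][X]).rootSet (PadicAlgCl p))

theorem mem_cycloField_of_pow_eq_one {ζ : PadicAlgCl p} (hζ : ζ ^ p = 1) : ζ ∈ cycloField p := by
  have hp : p.Prime := Fact.out
  refine IntermediateField.subset_adjoin _ _ ?_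
  rw [mem_rootSet]
  refine ⟨X_pow_sub_C_ne_zero hp.pos 1, ?_⟩
  simp [hζ]

instance isSplittingField_cycloField :
    (X ^ p - 1 : ℚ_[p][X]).IsSplittingField ℚ_[p] (cycloField p) :=
  IntermediateField.adjoin_rootSet_isSplittingField (IsAlgClosed.splits _)

instance finiteDimensional_cycloField : FiniteDimensional ℚ_[p] (cycloField p) :=
  Polynomial.IsSplittingField.finiteDimensional (cycloField p) (X ^ p - 1 : ℚ_[p][X])

theorem normal_cycloField : Normal ℚ_[p] (cycloField p) :=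
  Normal.of_isSplittingField (X ^ p - 1 : ℚ_[p][X])

/-- There is a primitive `p`-th root of unity in `K̄`. -/
theorem exists_zeta : ∃ ζ : PadicAlgCl p, ζ ≠ 1 ∧ ζ ^ p = 1 := by
  have hp : p.Prime := Fact.out
  haveI : NeZero (p : PadicAlgCl p) := ⟨by
    intro h0
    have := norm_p_algCl (p := p)
    rw [h0, norm_zero] at this
    have : (0 : ℝ) < (p : ℝ)⁻¹ := inv_pos.mpr p_pos_real
    linarith⟩
  obtain ⟨ζ, hζ⟩ := HasEnoughRootsOfUnity.exists_primitiveRoot (PadicAlgCl p) p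
  exact ⟨ζ, hζ.ne_one hp.one_lt, hζ.pow_eq_one⟩

theorem cycloField_eq_adjoin {ζ : PadicAlgCl p} (h1 : ζ ≠ 1) (hζ : ζ ^ p = 1) :
    cycloField p = ℚ_[p]⟮ζ⟯ := by
  have hp : p.Prime := Fact.out
  haveI : NeZero p := ⟨hp.ne_zero⟩
  have hprim : IsPrimitiveRoot ζ p := by
    rw [IsPrimitiveRoot.iff_orderOf]
    exact orderOf_eq_prime hζ h1
  refine le_antisymm ?_ ?_
  · rw [cycloField, IntermediateField.adjoin_le_iff]
    intro η hη
    rw [mem_rootSet] at hη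
    have hη1 : η ^ p = 1 := by
      have := hη.2
      simpa [sub_eq_zero] using this
    obtain ⟨i, -, rfl⟩ := hprim.eq_pow_of_pow_eq_one hη1
    exact pow_mem (IntermediateField.mem_adjoin_simple_self _ _) i
  · rw [IntermediateField.adjoin_simple_le_iff]
    exact mem_cycloField_of_pow_eq_one hζ

theorem finrank_cycloField_lt : finrank ℚ_[p] (cycloField p) < p := by
  have hp : p.Prime := Fact.out
  obtain ⟨ζ, h1, hζ⟩ := exists_zeta (p := p)
  have hint : IsIntegral ℚ_[p] ζ := (Algebra.IsAlgebraic.isAlgebraic ζ).isIntegral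
  rw [cycloField_eq_adjoin h1 hζ, IntermediateField.adjoin.finrank hint]
  have hprim : IsPrimitiveRoot ζ p := by
    rw [IsPrimitiveRoot.iff_orderOf]
    exact orderOf_eq_prime hζ h1
  have hroot : aeval ζ (cyclotomic p ℚ_[p]) = 0 := by
    have := hprim.isRoot_cyclotomic hp.pos
    rw [IsRoot.def, ← map_cyclotomic p (algebraMap ℚ_[p] (PadicAlgCl p)), eval_map,
      ← aeval_def] at this
    exact this
  have hne : cyclotomic p ℚ_[p] ≠ 0 := cyclotomic_ne_zero p ℚ_[p]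
  have hle := natDegree_le_of_dvd (minpoly.dvd ℚ_[p] ζ hroot) hne
  rw [natDegree_cyclotomic, Nat.totient_prime hp] at hle
  have := hp.pos
  omega

theorem not_dvd_finrank_cycloField : ¬ p ∣ finrank ℚ_[p] (cycloField p) := by
  intro h
  have h1 := Nat.le_of_dvd finrank_pos h
  have h2 := finrank_cycloField_lt (p := p)
  omega

theorem isBdd_cycloField : IsBddField p (cycloField p) :=
  isBdd_of_not_dvd_finrank normal_cycloField not_dvd_finrank_cycloField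

/-- The compositum of two bounded fields and `ℚ_p(μ_p)` is bounded (every prime `p`). -/
theorem isBdd_sup_cyclo_all {L₁ L₂ : IntermediateField ℚ_[p] (PadicAlgCl p)}
    [FiniteDimensional ℚ_[p] L₁] [FiniteDimensional ℚ_[p] L₂]
    (hN₁ : Normal ℚ_[p] L₁) (hN₂ : Normal ℚ_[p] L₂)
    (hb₁ : IsBddField p L₁) (hb₂ : IsBddField p L₂) :
    ∃ (_ : FiniteDimensional ℚ_[p] (L₁ ⊔ L₂ ⊔ cycloField p : IntermediateField ℚ_[p] _)),
      Normal ℚ_[p] (L₁ ⊔ L₂ ⊔ cycloField p : IntermediateField ℚ_[p] _) ∧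
      IsBddField p (L₁ ⊔ L₂ ⊔ cycloField p) := by
  haveI := hN₁
  haveI := hN₂
  haveI : Normal ℚ_[p] (cycloField p) := normal_cycloField
  have hfin : FiniteDimensional ℚ_[p] (L₁ ⊔ L₂ ⊔ cycloField p : IntermediateField ℚ_[p] _) :=
    inferInstance
  have hnorm : Normal ℚ_[p] (L₁ ⊔ L₂ ⊔ cycloField p : IntermediateField ℚ_[p] _) :=
    inferInstance
  refine ⟨hfin, hnorm, ?_⟩
  obtain ⟨ζ, h1, hζ⟩ := exists_zeta (p := p)
  refine ck_all p _ hnorm ⟨ζ, ?_, h1, hζ⟩ ?_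
  · exact (le_sup_right : cycloField p ≤ L₁ ⊔ L₂ ⊔ cycloField p)
      (mem_cycloField_of_pow_eq_one hζ)
  · exact hasPM_sup (hasPM_sup (hasPM_of_isBdd hN₁ hb₁) (hasPM_of_isBdd hN₂ hb₂))
      (hasPM_of_isBdd normal_cycloField isBdd_cycloField)

/-- The compositum of two bounded fields and `ℚ_p(μ_p)` is bounded. -/
theorem isBdd_sup_cyclo (hp2 : p ≠ 2) {L₁ L₂ : IntermediateField ℚ_[p] (PadicAlgCl p)}
    [FiniteDimensional ℚ_[p] L₁] [FiniteDimensional ℚ_[p] L₂]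
    (hN₁ : Normal ℚ_[p] L₁) (hN₂ : Normal ℚ_[p] L₂)
    (hb₁ : IsBddField p L₁) (hb₂ : IsBddField p L₂) :
    ∃ (_ : FiniteDimensional ℚ_[p] (L₁ ⊔ L₂ ⊔ cycloField p : IntermediateField ℚ_[p] _)),
      Normal ℚ_[p] (L₁ ⊔ L₂ ⊔ cycloField p : IntermediateField ℚ_[p] _) ∧
      IsBddField p (L₁ ⊔ L₂ ⊔ cycloField p) :=
  isBdd_sup_cyclo_all hN₁ hN₂ hb₁ hb₂

/-- **The compositum of two bounded fields is bounded** (every prime `p`). -/
theorem isBdd_sup_all {L₁ L₂ : IntermediateField ℚ_[p] (PadicAlgCl p)}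
    [FiniteDimensional ℚ_[p] L₁] [FiniteDimensional ℚ_[p] L₂]
    (hN₁ : Normal ℚ_[p] L₁) (hN₂ : Normal ℚ_[p] L₂)
    (hb₁ : IsBddField p L₁) (hb₂ : IsBddField p L₂) :
    IsBddField p (L₁ ⊔ L₂) := by
  haveI := hN₁
  haveI := hN₂
  obtain ⟨hfin, hnorm, hb⟩ := isBdd_sup_cyclo_all hN₁ hN₂ hb₁ hb₂
  haveI := hfin
  exact stmt_HERB p (L₁ ⊔ L₂ ⊔ cycloField p) (L₁ ⊔ L₂) hnorm inferInstance le_sup_left hb

/-- **The compositum of two bounded fields is bounded.** -/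
theorem isBdd_sup (hp2 : p ≠ 2) {L₁ L₂ : IntermediateField ℚ_[p] (PadicAlgCl p)}
    [FiniteDimensional ℚ_[p] L₁] [FiniteDimensional ℚ_[p] L₂]
    (hN₁ : Normal ℚ_[p] L₁) (hN₂ : Normal ℚ_[p] L₂)
    (hb₁ : IsBddField p L₁) (hb₂ : IsBddField p L₂) :
    IsBddField p (L₁ ⊔ L₂) :=
  isBdd_sup_all hN₁ hN₂ hb₁ hb₂

end Fermat.Agent.S56.FL.H15

end
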