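import Fermat.Agent.S56.FL.Coh

set_option autoImplicit false

/-!
# LOC-p-FL, package UNITS (helper85): the counts `CC1`, `CC2`, `CC3` with `μ_p` in the bounded field

In the cohomological glue the bounded field `L` of a cocycle trivialises `ρbar|G_p`, hence its
determinant, the cyclotomic character; so `μ_p ⊆ L`.  Kummer theory (and `Stmt_KUMBDD`) needs
exactly this.  The statements below are `Stmt_CC1`, `Stmt_CC2`, `Stmt_CC3` of `FL/Coh.lean`,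
`FL/Count.lean` for bounded cocycles whose bounded field contains `μ_p`.

* `IsBddCocycleZ G₁ χ c` : as `IsBddCocycle`, and the bounded field contains `μ_p`.
* `DimLeOneZ G₁ χ`       : any two such cocycles are dependent modulo coboundaries.
* `Stmt_CC1z`, `Stmt_CC2z`, `Stmt_CC3z`.
-/

noncomputable section

namespace Fermat.Agent.S56.FL

open scoped NNReal

variable {p : ℕ} [Fact p.Prime] {k : Type} [Field k]

/-- A bounded `χ`-cocycle on the subgroup `G₁` of the local Galois group, the bounded field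
containing the `p`-th roots of unity. -/
def IsBddCocycleZ (G₁ : Subgroup (Gp p)) (χ : G₁ →* kˣ) (c : G₁ → k) : Prop :=
  (∀ σ τ : G₁, c (σ * τ) = c σ + (χ σ : k) * c τ) ∧
    ∃ (L : IntermediateField ℚ_[p] (PadicAlgCl p)) (_ : FiniteDimensional ℚ_[p] L),
      Normal ℚ_[p] L ∧ IsBddField p L ∧ (∀ ζ : PadicAlgCl p, ζ ^ p = 1 → ζ ∈ L) ∧
        ∀ σ : G₁, (σ : Gp p) ∈ L.fixingSubgroup → χ σ = 1 ∧ c σ = 0

theorem IsBddCocycleZ.isBddCocycle {G₁ : Subgroup (Gp p)} {χ : G₁ →* kˣ} {c : G₁ → k}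
    (h : IsBddCocycleZ G₁ χ c) : IsBddCocycle G₁ χ c := by
  obtain ⟨h1, L, hfd, hN, hB, -, h2⟩ := h
  exact ⟨h1, L, hfd, hN, hB, h2⟩

/-- `dim_k H¹_bdd(G₁, k(χ)) ≤ 1` (bounded fields containing `μ_p`). -/
def DimLeOneZ (G₁ : Subgroup (Gp p)) (χ : G₁ →* kˣ) : Prop :=
  ∀ c₁ c₂ : G₁ → k, IsBddCocycleZ G₁ χ c₁ → IsBddCocycleZ G₁ χ c₂ →
    ∃ l₁ l₂ a : k, (l₁ ≠ 0 ∨ l₂ ≠ 0) ∧ ∀ σ : G₁, l₁ * c₁ σ + l₂ * c₂ σ = ((χ σ : k) - 1) * a

/-- **CC1z.** `χ : G_{ℚ_p} → kˣ` equal to the cyclotomic character on inertia: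
`dim H¹_bdd(G_p, k(χ)) ≤ 1`. -/
def Stmt_CC1z : Prop :=
  ∀ (p : ℕ) [Fact p.Prime], p ≠ 2 →
    ∀ (k : Type) [Field k] [Finite k] [CharP k p] (χ : (⊤ : Subgroup (Gp p)) →* kˣ),
      (∀ σ : (⊤ : Subgroup (Gp p)), (σ : Gp p) ∈ inertiaP p → IsCycloAt (χ σ : k) (σ : Gp p)) →
      DimLeOneZ (⊤ : Subgroup (Gp p)) χ

/-- **CC2z.** As `Stmt_CC2`, for bounded fields containing `μ_p`. -/
def Stmt_CC2z : Prop :=
  ∀ (p : ℕ) [Fact p.Prime], p ≠ 2 →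
    ∀ (k : Type) [Field k] [Finite k] [CharP k p] (G₂ : Subgroup (Gp p)), inertiaP p ≤ G₂ →
      G₂.index = 2 →
      ∀ (χ : G₂ →* kˣ) (ψ : inertiaP p →* kˣ),
        (∀ σ : inertiaP p, IsCycloAt ((ψ σ : k) ^ (p + 1)) (σ : Gp p)) →
        (∀ (σ : G₂) (hσ : (σ : Gp p) ∈ inertiaP p),
          (χ σ : k) * (ψ ⟨σ, hσ⟩ : k) ^ p = (ψ ⟨σ, hσ⟩ : k)) →
        DimLeOneZ G₂ χ

/-- **CC3z.** `χ : G_{ℚ_p} → kˣ` whose restriction to inertia is neither trivial nor the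
cyclotomic character: every bounded `χ`-cocycle (bounded field containing `μ_p`) is a
coboundary. -/
def Stmt_CC3z : Prop :=
  ∀ (p : ℕ) [Fact p.Prime], p ≠ 2 →
    ∀ (k : Type) [Field k] [Finite k] [CharP k p] (χ : (⊤ : Subgroup (Gp p)) →* kˣ),
      (∃ σ : (⊤ : Subgroup (Gp p)), (σ : Gp p) ∈ inertiaP p ∧ χ σ ≠ 1) →
      (∃ σ : (⊤ : Subgroup (Gp p)), (σ : Gp p) ∈ inertiaP p ∧ ¬ IsCycloAt (χ σ : k) (σ : Gp p)) →
      ∀ c : (⊤ : Subgroup (Gp p)) → k, IsBddCocycleZ (⊤ : Subgroup (Gp p)) χ c →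
        ∃ a : k, ∀ σ : (⊤ : Subgroup (Gp p)), c σ = ((χ σ : k) - 1) * a

end Fermat.Agent.S56.FL

end
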