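import Mathlib
import Fermat.Agent.S56.FL.H15_Comp
import Fermat.Agent.S56.FL.H85_CCDefs
import Fermat.Agent.S56.FL.Count

set_option autoImplicit false
set_option linter.style.haveILetI false

/-!
# LOC-p-FL (helper15): the bounded field of a cocycle may be assumed to contain `μ_p`

Since composita of bounded fields are bounded (`H15.isBdd_sup_cyclo`), a bounded cocycle is
bounded with a field containing `μ_p`: `IsBddCocycle → IsBddCocycleZ`.  Hence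
`Stmt_CC1z → Stmt_CC1`, `Stmt_CC2z → Stmt_CC2`, `Stmt_CC3z → Stmt_CC3`.
Moreover two bounded cocycles are bounded with respect to a common field (`exists_common_field`).
-/

noncomputable section

namespace Fermat.Agent.S56.FL.H15

open scoped NNReal
open Fermat.Agent.S56.FL Module IntermediateField

variable {p : ℕ} [Fact p.Prime] {k : Type} [Field k]

theorem fixingSubgroup_sup_le_left {L₁ L₂ : IntermediateField ℚ_[p] (PadicAlgCl p)} :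
    (L₁ ⊔ L₂).fixingSubgroup ≤ L₁.fixingSubgroup :=
  IntermediateField.fixingSubgroup_le (le_sup_left : L₁ ≤ L₁ ⊔ L₂)

/-- A bounded cocycle is bounded with a field containing `μ_p`. -/
theorem isBddCocycleZ_of_isBddCocycle (hp2 : p ≠ 2) {G₁ : Subgroup (Gp p)} {χ : G₁ →* kˣ}
    {c : G₁ → k} (h : IsBddCocycle G₁ χ c) : IsBddCocycleZ G₁ χ c := by
  obtain ⟨h1, L, hfd, hN, hB, h2⟩ := h
  haveI := hfd
  obtain ⟨hfin, hnorm, hb⟩ := isBdd_sup_cyclo hp2 hN hN hB hB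
  refine ⟨h1, L ⊔ L ⊔ cycloField p, hfin, hnorm, hb, ?_, ?_⟩
  · intro ζ hζ
    exact (le_sup_right : cycloField p ≤ L ⊔ L ⊔ cycloField p) (mem_cycloField_of_pow_eq_one hζ)
  · intro σ hσ
    refine h2 σ ?_
    have hle : L ≤ L ⊔ L ⊔ cycloField p := le_sup_left.trans le_sup_left
    exact IntermediateField.fixingSubgroup_le hle hσ

/-- Two bounded cocycles are bounded with respect to a common field containing `μ_p`. -/
theorem exists_common_field (hp2 : p ≠ 2) {G₁ : Subgroup (Gp p)} {χ : G₁ →* kˣ}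
    {c₁ c₂ : G₁ → k} (h₁ : IsBddCocycle G₁ χ c₁) (h₂ : IsBddCocycle G₁ χ c₂) :
    ∃ (L : IntermediateField ℚ_[p] (PadicAlgCl p)) (_ : FiniteDimensional ℚ_[p] L),
      Normal ℚ_[p] L ∧ IsBddField p L ∧ (∀ ζ : PadicAlgCl p, ζ ^ p = 1 → ζ ∈ L) ∧
        ∀ σ : G₁, (σ : Gp p) ∈ L.fixingSubgroup → χ σ = 1 ∧ c₁ σ = 0 ∧ c₂ σ = 0 := by
  obtain ⟨-, L₁, hfd₁, hN₁, hB₁, hc₁⟩ := h₁
  obtain ⟨-, L₂, hfd₂, hN₂, hB₂, hc₂⟩ := h₂
  haveI := hfd₁
  haveI := hfd₂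
  obtain ⟨hfin, hnorm, hb⟩ := isBdd_sup_cyclo hp2 hN₁ hN₂ hB₁ hB₂
  refine ⟨L₁ ⊔ L₂ ⊔ cycloField p, hfin, hnorm, hb, ?_, ?_⟩
  · intro ζ hζ
    exact (le_sup_right : cycloField p ≤ L₁ ⊔ L₂ ⊔ cycloField p)
      (mem_cycloField_of_pow_eq_one hζ)
  · intro σ hσ
    have hle₁ : L₁ ≤ L₁ ⊔ L₂ ⊔ cycloField p := le_sup_left.trans le_sup_left
    have hle₂ : L₂ ≤ L₁ ⊔ L₂ ⊔ cycloField p := le_sup_right.trans le_sup_left
    have r₁ := hc₁ σ (IntermediateField.fixingSubgroup_le hle₁ hσ)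
    have r₂ := hc₂ σ (IntermediateField.fixingSubgroup_le hle₂ hσ)
    exact ⟨r₁.1, r₁.2, r₂.2⟩

theorem dimLeOne_of_dimLeOneZ (hp2 : p ≠ 2) {G₁ : Subgroup (Gp p)} {χ : G₁ →* kˣ}
    (h : DimLeOneZ G₁ χ) : DimLeOne G₁ χ := fun c₁ c₂ h₁ h₂ =>
  h c₁ c₂ (isBddCocycleZ_of_isBddCocycle hp2 h₁) (isBddCocycleZ_of_isBddCocycle hp2 h₂)

theorem stmt_CC1_of_z (h : Stmt_CC1z) : Stmt_CC1 := fun p _ hp2 k _ _ _ χ hχ =>
  dimLeOne_of_dimLeOneZ hp2 (h p hp2 k χ hχ)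

theorem stmt_CC2_of_z (h : Stmt_CC2z) : Stmt_CC2 := fun p _ hp2 k _ _ _ G₂ hI hidx χ ψ h1 h2 =>
  dimLeOne_of_dimLeOneZ hp2 (h p hp2 k G₂ hI hidx χ ψ h1 h2)

theorem stmt_CC3_of_z (h : Stmt_CC3z) : Stmt_CC3 := fun p _ hp2 k _ _ _ χ h1 h2 c hc =>
  h p hp2 k χ h1 h2 c (isBddCocycleZ_of_isBddCocycle hp2 hc)

end Fermat.Agent.S56.FL.H15

end
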