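import Fermat.Agent.S56.FL.H15_CC2Step

set_option autoImplicit false
set_option linter.style.haveILetI false
set_option linter.unusedSectionVars false

/-!
# LOC-p-FL, package UNITS / CC2, leaf TOP (helper50): the top level `p e₀`

A witness of `ψ_x` at the top level `p e₀` forces `ψ_x = 0` on `N`
(`CoreCtx.psi_eq_zero_of_witAt`): at the level `i = p e₀` the tame generator `σ₁` acts on the
leading coefficient by `θ₁^{p e₀} ≡ ω(σ₁)`, and on `ψ_x` by `λ(σ₁) ≠ ω(σ₁)`; so the twist by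
`σ₁` raises the level of `μ x`, `μ = λ(σ₁) - ω(σ₁) ≠ 0`, and the set of `x` with a witness at the
level `p e₀` is stable under `μ`.
-/

noncomputable section

namespace Fermat.Agent.S56.FL.H15

open scoped NNReal
open Fermat.Agent.S56.FL Fermat.Agent.Lib.LocalKummer Fermat.Agent.S56.FL.H85 Module

variable {p : ℕ} [Fact p.Prime] {k : Type} [Field k] [CharP k p]

/-- Natural numbers which are congruent modulo `p` are congruent modulo the maximal ideal. -/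
theorem norm_natCast_sub_lt_of_zmod_eq {a b : ℕ} (h : (a : ZMod p) = (b : ZMod p)) :
    ‖(a : PadicAlgCl p) - (b : PadicAlgCl p)‖ < 1 := by
  have hp : p.Prime := Fact.out
  have h1 : ((a : ℤ) : ZMod p) = ((b : ℤ) : ZMod p) := by exact_mod_cast h
  have h2 : (p : ℤ) ∣ (a : ℤ) - (b : ℤ) := by
    have h3 := (ZMod.intCast_eq_intCast_iff_dvd_sub (b : ℤ) (a : ℤ) p).mp h1.symm
    exact h3
  obtain ⟨c, hc⟩ := h2
  have h4 : (a : PadicAlgCl p) - (b : PadicAlgCl p) = (p : PadicAlgCl p) * (c : PadicAlgCl p) := by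
    have := congrArg (Int.cast : ℤ → PadicAlgCl p) hc
    push_cast at this
    exact this
  rw [h4, norm_mul, norm_p_algCl]
  have hpinv : (p : ℝ)⁻¹ < 1 := inv_lt_one_of_one_lt₀ one_lt_p_real
  calc (p : ℝ)⁻¹ * ‖(c : PadicAlgCl p)‖ ≤ (p : ℝ)⁻¹ * 1 :=
        mul_le_mul_of_nonneg_left (norm_intCast_le_one c) (inv_nonneg.mpr p_pos_real.le)
    _ < 1 := by rw [mul_one]; exact hpinv

/-- Fermat's little theorem modulo the maximal ideal. -/
theorem norm_natCast_pow_sub_lt (n : ℕ) :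
    ‖(n : PadicAlgCl p) ^ p - (n : PadicAlgCl p)‖ < 1 := by
  have h : ((n ^ p : ℕ) : ZMod p) = (n : ZMod p) := by
    push_cast
    exact ZMod.pow_card _
  have := norm_natCast_sub_lt_of_zmod_eq (p := p) h
  push_cast at this
  exact this

namespace CoreCtx

variable {C : CoreCtx p k}

/-- `θ₁^{p e₀} ≡ ω(σ₁)`. -/
theorem IsTameGen.norm_theta_top {σ₁ : Gp p} (hg : C.IsTameGen σ₁) :
    ‖(σ₁ C.ϖ / C.ϖ) ^ (p * C.e₀) - (C.omN σ₁ : PadicAlgCl p)‖ < 1 := by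
  have h1 : ‖((σ₁ C.ϖ / C.ϖ) ^ C.e₀) ^ p - (C.omN σ₁ : PadicAlgCl p) ^ p‖ < 1 := by
    refine (norm_pow_sub_pow_le_algCl ?_ (norm_natCast_le_one _) p).trans_lt hg.norm_theta_e₀
    rw [norm_pow, C.lev.norm_theta, one_pow]
  rw [mul_comm, pow_mul]
  exact norm_sub_lt_trans h1 (norm_natCast_pow_sub_lt _)

/-- `μ = λ(σ₁) - ω(σ₁) ≠ 0`. -/
theorem IsTameGen.lam_sub_ne_zero (hp2 : p ≠ 2) {σ₁ : Gp p} (hg : C.IsTameGen σ₁) :
    C.lam σ₁ - ((C.omN σ₁ : ℕ) : k) ≠ 0 := by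
  have hp : p.Prime := Fact.out
  intro h0
  have hlam : C.lam σ₁ = ((C.omN σ₁ : ℕ) : k) := sub_eq_zero.mp h0
  obtain ⟨q, hq⟩ : ∃ q, p = 2 * q + 1 := by
    rcases hp.eq_two_or_odd' with h | h
    · exact absurd h hp2
    · obtain ⟨q, hq⟩ := h; exact ⟨q, hq⟩
  have hq1 : 1 ≤ q := by
    have := hp.two_le; omega
  have hhalf : (p + 1) / 2 = q + 1 := by omega
  -- `ω₁^q = 1` in `k`
  have h1 := hg.lam
  rw [C.cst_omg, hlam, hhalf, pow_succ] at h1
  have hne : ((C.omN σ₁ : ℕ) : k) ≠ 0 := by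
    rw [← hlam]; exact C.lam_ne_zero hg.memG
  have h2 : ((C.omN σ₁ : ℕ) : k) ^ q = 1 := by
    have h3 : (((C.omN σ₁ : ℕ) : k) ^ q - 1) * ((C.omN σ₁ : ℕ) : k) = 0 := by
      rw [sub_mul, one_mul, h1, sub_self]
    rcases mul_eq_zero.mp h3 with h4 | h4
    · exact sub_eq_zero.mp h4
    · exact absurd h4 hne
  -- hence in `ZMod p`
  have h5 : ((C.omN σ₁ ^ q : ℕ) : ZMod p) = ((1 : ℕ) : ZMod p) := by
    apply (cst p k).injective
    rw [map_natCast, map_natCast]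
    push_cast
    exact h2
  have h6 := norm_natCast_sub_lt_of_zmod_eq (p := p) h5
  push_cast at h6
  -- `θ₁^{e₀ q} ≡ 1`
  have h7 : ‖((σ₁ C.ϖ / C.ϖ) ^ C.e₀) ^ q - (C.omN σ₁ : PadicAlgCl p) ^ q‖ < 1 := by
    refine (norm_pow_sub_pow_le_algCl ?_ (norm_natCast_le_one _) q).trans_lt hg.norm_theta_e₀
    rw [norm_pow, C.lev.norm_theta, one_pow]
  have h8 : ‖(σ₁ C.ϖ / C.ϖ) ^ (C.e₀ * q) - 1‖ < 1 := by
    rw [pow_mul]
    exact norm_sub_lt_trans h7 h6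
  have h9 : (p - 1) * C.e₀ ∣ C.e₀ * q := (hg.ord _).mp h8
  have he₀ : 0 < C.e₀ := C.lev.e₀_pos
  have h10 : 0 < C.e₀ * q := Nat.mul_pos he₀ hq1
  have h11 := Nat.le_of_dvd h10 h9
  have h12 : (p - 1) * C.e₀ = 2 * (C.e₀ * q) := by
    have : p - 1 = 2 * q := by omega
    rw [this]; ring
  omega

/-- The set of `x` with a witness at a level `ρ < 1` is stable under `μ = λ(σ) - m`. -/
theorem WitAt.sub_natCast {h : Gp p → k} (hk : C.IsKum h) {x : k} {ρ : ℝ} (hρ : ρ < 1)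
    (hw : C.WitAt h x ρ) {σ : Gp p} (hσ : σ ∈ C.G₂) (m : ℕ) :
    C.WitAt h ((C.lam σ - (m : k)) * x) ρ := by
  have h1 : (C.lam σ - (m : k)) * x = C.lam σ * x + -((m : k) * x) := by ring
  rw [h1]
  exact WitAt.add hρ.le (WitAt.conj hk hw hσ) (WitAt.neg hρ (WitAt.natCast hρ.le hw m))

theorem WitAt.sub_natCast_pow {h : Gp p → k} (hk : C.IsKum h) {x : k} {ρ : ℝ} (hρ : ρ < 1)
    (hw : C.WitAt h x ρ) {σ : Gp p} (hσ : σ ∈ C.G₂) (m : ℕ) (j : ℕ) :
    C.WitAt h ((C.lam σ - (m : k)) ^ j * x) ρ := by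
  induction j with
  | zero => rwa [pow_zero, one_mul]
  | succ j ih =>
    have := WitAt.sub_natCast hk hρ ih hσ m
    rwa [← mul_assoc, ← pow_succ'] at this

/-- **TOP.**  A witness at the top level `p e₀` forces `ψ_x = 0` on `N`. -/
theorem psi_eq_zero_of_witAt (hp2 : p ≠ 2) [Finite k] [FiniteDimensional ℚ_[p] C.L]
    {h : Gp p → k} (hk : C.IsKum h) {σ₁ : Gp p} (hg : C.IsTameGen σ₁) {x : k}
    (hw : C.WitAt h x (‖C.ϖ‖ ^ (p * C.e₀))) {n : Gp p} (hn : n ∈ C.N) : C.psi h x n = 0 := by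
  classical
  have hp : p.Prime := Fact.out
  haveI : Fintype k := Fintype.ofFinite k
  have he₀ : 0 < C.e₀ := C.lev.e₀_pos
  have hi : 0 < p * C.e₀ := Nat.mul_pos hp.pos he₀
  have hρ : ‖C.ϖ‖ ^ (p * C.e₀) < 1 := C.lev.pow_lt_one' hi
  set μ : k := C.lam σ₁ - ((C.omN σ₁ : ℕ) : k) with hμ
  have hμ0 : μ ≠ 0 := hg.lam_sub_ne_zero hp2
  have hcard : 2 ≤ Fintype.card k := Fintype.one_lt_card
  have hμpow : μ * μ ^ (Fintype.card k - 2) = 1 := by
    rw [← pow_succ']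
    have : Fintype.card k - 2 + 1 = Fintype.card k - 1 := by omega
    rw [this]
    exact FiniteField.pow_card_sub_one_eq_one μ hμ0
  have hw' : C.WitAt h (μ ^ (Fintype.card k - 2) * x) (‖C.ϖ‖ ^ (p * C.e₀)) :=
    WitAt.sub_natCast_pow hk hρ hw hg.memG (C.omN σ₁) _
  have hw'' := twist_witAt hk hi hw' hg.inert hg.memG hg.norm_theta_top
  rw [← hμ, ← mul_assoc, hμpow, one_mul] at hw''
  exact psi_eq_zero_of_witAt_top hw'' hn

end CoreCtx

end Fermat.Agent.S56.FL.H15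

end
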