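import Fermat.Agent.S56.FL.H85_CCBase

set_option autoImplicit false

/-!
# LOC-p-FL, package UNITS / CC2 (helper15): the interface between the core and the assembly

* `Stmt_CC2core` : the count for Kummer homomorphisms on a normal subgroup `N ≤ G₂` of
  `Gal(K̄/ℚ_p)` of exponent-index prime to `p` (helper15, `FL/H15_CC2*.lean`).
* leaf **ASM** : `Stmt_CC2core → Stmt_CC2z` (group theory + `H85.coboundary_of_vanish`).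
-/

noncomputable section

namespace Fermat.Agent.S56.FL.H15

open Fermat.Agent.S56.FL

/-- **CC2-core.**  `L/ℚ_p` finite Galois of bounded ramification, `ζ ∈ L` a primitive `p`-th root
of unity, `I ≤ G₂`, `g² ∈ G₂` for all `g`, `N ≤ G₂` normal in `Gal(K̄/ℚ_p)`, fixing `ζ`, with
`g^m ∈ N` for all `g` (`p ∤ m`); `χ : G₂ → kˣ` (extended to a function on `Gal(K̄/ℚ_p)`), trivial on
`N`, with `(ω χ⁻¹)^{(p+1)/2} = ω` on inertia.  Two homomorphisms `h₁, h₂ : N → k`, trivial on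
`N ∩ Gal(K̄/L)`, with `h (σ n σ⁻¹) = χ σ * h n` (`σ ∈ G₂`) are `k`-linearly dependent. -/
def Stmt_CC2core : Prop :=
  ∀ (p : ℕ) [Fact p.Prime], p ≠ 2 →
    ∀ (k : Type) [Field k] [Finite k] [CharP k p]
      (L : IntermediateField ℚ_[p] (PadicAlgCl p)) [FiniteDimensional ℚ_[p] L],
      Normal ℚ_[p] L → IsBddField p L →
      ∀ (ζ : PadicAlgCl p) (hζ : IsPrimitiveRoot ζ p), ζ ∈ L →
      ∀ (G₂ N : Subgroup (Gp p)), inertiaP p ≤ G₂ → (∀ g : Gp p, g ^ 2 ∈ G₂) →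
        N.Normal → N ≤ G₂ → (∀ n ∈ N, n ζ = ζ) →
        (∃ m : ℕ, ¬ p ∣ m ∧ ∀ g : Gp p, g ^ m ∈ N) →
      ∀ (χ : Gp p → k), (∀ σ ∈ G₂, ∀ τ ∈ G₂, χ (σ * τ) = χ σ * χ τ) → (∀ n ∈ N, χ n = 1) →
        (∀ σ ∈ inertiaP p,
          (H85.cst p k ((H85.omg hζ σ : (ZMod p)ˣ) : ZMod p) * (χ σ)⁻¹) ^ ((p + 1) / 2)
            = H85.cst p k ((H85.omg hζ σ : (ZMod p)ˣ) : ZMod p)) →
      ∀ (h₁ h₂ : Gp p → k),
        (∀ n ∈ N, ∀ n' ∈ N, h₁ (n * n') = h₁ n + h₁ n') →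
        (∀ σ ∈ G₂, ∀ n ∈ N, h₁ (σ * n * σ⁻¹) = χ σ * h₁ n) →
        (∀ n ∈ N, n ∈ L.fixingSubgroup → h₁ n = 0) →
        (∀ n ∈ N, ∀ n' ∈ N, h₂ (n * n') = h₂ n + h₂ n') →
        (∀ σ ∈ G₂, ∀ n ∈ N, h₂ (σ * n * σ⁻¹) = χ σ * h₂ n) →
        (∀ n ∈ N, n ∈ L.fixingSubgroup → h₂ n = 0) →
        ∃ l₁ l₂ : k, (l₁ ≠ 0 ∨ l₂ ≠ 0) ∧ ∀ n ∈ N, l₁ * h₁ n + l₂ * h₂ n = 0

end Fermat.Agent.S56.FL.H15

end
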