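import Fermat.Agent.S56.FL.Local
import Fermat.Prelude.Def_GaloisRep_CompletionBridge

set_option autoImplicit false

/-!
# LOC-p-FL (item 69): interface of the counting side (characters) and of CONN

Plan: `NOTES/plan/T-FL.md`.  All statements are about the local Galois group
`Gp p = Gal(K̄/ℚ_p)`, `K̄ = PadicAlgCl p`.

* `inertiaP p`          : the inertia subgroup of `Gp p`.
* `IsBddCocycle G₁ χ c` : `c : G₁ → k` is a `χ`-cocycle (`c (σ τ) = c σ + χ σ * c τ`) and `χ`, `c` are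
                          trivial on `Gal(K̄/L)` for a finite Galois `L/ℚ_p` of bounded ramification.
* `DimLeOne G₁ χ`       : any two bounded `χ`-cocycles are linearly dependent modulo coboundaries
                          (i.e. `dim_k H¹_bdd(G₁, k(χ)) ≤ 1`).
* `Stmt_CC0`, `Stmt_CC1`, `Stmt_CC2` : the three counts that are needed (package UNITS).
* `pointAct`, `Stmt_SUBQ` : reduction is injective on unramified subquotients (package CONN).
-/

noncomputable section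

namespace Fermat.Agent.S56.FL

open scoped NNReal

variable (p : ℕ) [Fact p.Prime]

/-- The local Galois group `Gal(K̄/ℚ_p)`. -/
abbrev Gp : Type := PadicAlgCl p ≃ₐ[ℚ_[p]] PadicAlgCl p

/-- Galois acts by isometries on `K̄` (prelude `nnnorm_padicAlgCl_algEquiv`). -/
theorem norm_gal (σ : Gp p) (a : PadicAlgCl p) : ‖σ a‖ = ‖a‖ :=
  congrArg NNReal.toReal (nnnorm_padicAlgCl_algEquiv p σ a)

/-- The inertia subgroup of `Gal(K̄/ℚ_p)`: `σ a ≡ a` modulo the maximal ideal for all integers `a`. -/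
def inertiaP : Subgroup (Gp p) where
  carrier := {σ | ∀ a : PadicAlgCl p, ‖a‖ ≤ 1 → ‖σ a - a‖ < 1}
  one_mem' := fun a _ => by simp
  mul_mem' := by
    intro σ τ hσ hτ a ha
    have h1 : (σ * τ) a - a = (σ (τ a) - τ a) + (τ a - a) := by
      simp [AlgEquiv.mul_apply]
    rw [h1]
    refine (IsUltrametricDist.norm_add_le_max _ _).trans_lt (max_lt (hσ (τ a) ?_) (hτ a ha))
    rw [norm_gal]; exact ha
  inv_mem' := by
    intro σ hσ a ha
    have h1 : ‖σ⁻¹ a - a‖ = ‖σ (σ⁻¹ a) - σ⁻¹ a‖ := by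
      have : σ (σ⁻¹ a) = a := AlgEquiv.apply_symm_apply σ a
      rw [this, ← norm_neg, neg_sub]
    rw [h1]
    refine hσ _ ?_
    rw [show σ⁻¹ a = (σ⁻¹ : Gp p) a from rfl, norm_gal]; exact ha

variable {p}

section Characters

variable {k : Type} [Field k]

/-- A bounded `χ`-cocycle on the subgroup `G₁` of the local Galois group. -/
def IsBddCocycle (G₁ : Subgroup (Gp p)) (χ : G₁ →* kˣ) (c : G₁ → k) : Prop :=
  (∀ σ τ : G₁, c (σ * τ) = c σ + (χ σ : k) * c τ) ∧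
    ∃ (L : IntermediateField ℚ_[p] (PadicAlgCl p)) (_ : FiniteDimensional ℚ_[p] L),
      Normal ℚ_[p] L ∧ IsBddField p L ∧
        ∀ σ : G₁, (σ : Gp p) ∈ L.fixingSubgroup → χ σ = 1 ∧ c σ = 0

/-- `dim_k H¹_bdd(G₁, k(χ)) ≤ 1`. -/
def DimLeOne (G₁ : Subgroup (Gp p)) (χ : G₁ →* kˣ) : Prop :=
  ∀ c₁ c₂ : G₁ → k, IsBddCocycle G₁ χ c₁ → IsBddCocycle G₁ χ c₂ →
    ∃ l₁ l₂ a : k, (l₁ ≠ 0 ∨ l₂ ≠ 0) ∧ ∀ σ : G₁, l₁ * c₁ σ + l₂ * c₂ σ = ((χ σ : k) - 1) * a

/-- `χ σ = ω(σ)` (the mod `p` cyclotomic character). -/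
def IsCycloAt (x : k) (σ : Gp p) : Prop :=
  ∃ n : ℕ, (n : k) = x ∧ ∀ ζ : PadicAlgCl p, ζ ^ p = 1 → σ ζ = ζ ^ n

end Characters

/-- **CC0.** A bounded homomorphism `G₁ → k` (`G₁ ⊇` inertia) is unramified.
(Proof: else `ker` cuts out a totally ramified cyclic extension of degree `p` of an unramified field;
for such an extension `Σ_τ min (i σ) (i τ) = p · i(σ) ≥ 2 > p/(p-1)`; HERB.) -/
def Stmt_CC0 : Prop :=
  ∀ (p : ℕ) [Fact p.Prime], p ≠ 2 →
    ∀ (k : Type) [Field k] [CharP k p] (G₁ : Subgroup (Gp p)), inertiaP p ≤ G₁ →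
      ∀ c : G₁ → k, IsBddCocycle G₁ (1 : G₁ →* kˣ) c →
        ∀ σ : G₁, (σ : Gp p) ∈ inertiaP p → c σ = 0

/-- **CC1.** `χ : G_{ℚ_p} → kˣ` equal to the cyclotomic character on inertia:
`dim H¹_bdd(G_p, k(χ)) ≤ 1` (only the peu ramifié classes are bounded). -/
def Stmt_CC1 : Prop :=
  ∀ (p : ℕ) [Fact p.Prime], p ≠ 2 →
    ∀ (k : Type) [Field k] [Finite k] [CharP k p] (χ : (⊤ : Subgroup (Gp p)) →* kˣ),
      (∀ σ : (⊤ : Subgroup (Gp p)), (σ : Gp p) ∈ inertiaP p → IsCycloAt (χ σ : k) (σ : Gp p)) →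
      DimLeOne (⊤ : Subgroup (Gp p)) χ

/-- **CC2.** `G₂` of index `2` containing inertia (the Galois group of the unramified quadratic
extension), `χ : G₂ → kˣ` with `χ = ψ^{1-p}` on inertia where `ψ^{p+1}` is the cyclotomic character
on inertia (`ψ` = a fundamental character of level 2 to a power `≡ 1 mod p-1`):
`dim H¹_bdd(G₂, k(χ)) ≤ 1`. -/
def Stmt_CC2 : Prop :=
  ∀ (p : ℕ) [Fact p.Prime], p ≠ 2 →
    ∀ (k : Type) [Field k] [Finite k] [CharP k p] (G₂ : Subgroup (Gp p)), inertiaP p ≤ G₂ →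
      G₂.index = 2 →
      ∀ (χ : G₂ →* kˣ) (ψ : inertiaP p →* kˣ),
        (∀ σ : inertiaP p, IsCycloAt ((ψ σ : k) ^ (p + 1)) (σ : Gp p)) →
        (∀ (σ : G₂) (hσ : (σ : Gp p) ∈ inertiaP p),
          (χ σ : k) * (ψ ⟨σ, hσ⟩ : k) ^ p = (ψ ⟨σ, hσ⟩ : k)) →
        DimLeOne G₂ χ

/-! ## CONN -/

/-- The action of `Gal(K̄/ℚ_p)` on the `K̄`-points of `H`. -/
def pointAct {H : Type} [CommRing H] [HopfAlgebra (Zloc p) H] (σ : Gp p)
    (x : WithConv (H →ₐ[Zloc p] PadicAlgCl p)) : WithConv (H →ₐ[Zloc p] PadicAlgCl p) :=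
  WithConv.toConv (((σ : PadicAlgCl p →ₐ[ℚ_[p]] PadicAlgCl p).restrictScalars (Zloc p)).comp
    x.ofConv)

/-- **SUBQ** (package CONN).  `E` = the group of `K̄`-points of a finite flat cocommutative Hopf
algebra over `ℤ_(p)`, killed by `p` (`p` odd); `E₁ ≤ E₂` Galois-stable subgroups such that inertia
acts trivially on `E₂/E₁` (submonoids of the finite group `E`, so subgroups).  Then a point of
`E₂` which reduces to the identity
(`‖x h - ε h‖ < 1` for all `h`) lies in `E₁`. -/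
def Stmt_SUBQ : Prop :=
  ∀ (p : ℕ) [Fact p.Prime], p ≠ 2 →
    ∀ (H : Type) [CommRing H] [HopfAlgebra (Zloc p) H] [Module.Finite (Zloc p) H]
      [Module.Flat (Zloc p) H] [Coalgebra.IsCocomm (Zloc p) H],
      (∀ x : WithConv (H →ₐ[Zloc p] PadicAlgCl p), x ^ p = 1) →
      ∀ E₁ E₂ : Submonoid (WithConv (H →ₐ[Zloc p] PadicAlgCl p)), E₁ ≤ E₂ →
        (∀ (σ : Gp p), ∀ x ∈ E₁, pointAct σ x ∈ E₁) →
        (∀ (σ : Gp p), ∀ x ∈ E₂, pointAct σ x ∈ E₂) →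
        (∀ σ ∈ inertiaP p, ∀ x ∈ E₂, ∃ y ∈ E₁, pointAct σ x = x * y) →
        ∀ x ∈ E₂, (∀ h : H, ‖x.ofConv h - algebraMap (Zloc p) (PadicAlgCl p) (Coalgebra.counit h)‖ < 1) →
          x ∈ E₁

end Fermat.Agent.S56.FL

end
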