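import Mathlib
import Fermat.Agent.S56.FL.Coh
import Fermat.Agent.S56.FL.LF.H15_Residue

set_option autoImplicit false

/-!
# LOC-p-FL (helper38): the fixed field of inertia is unramified

`K̄ = PadicAlgCl p`, `inertiaP p ≤ Gal(K̄/ℚ_p)` as in `FL/Coh.lean`.

* `norm_natCast_algCl_eq_one`, `norm_natCast_algCl_lt_one` : `‖(n : K̄)‖` and `p ∣ n`.
* `norm_one_sub_root`      : `ξ ^ m = 1`, `ξ ≠ 1`, `p ∤ m`  ⟹  `‖1 - ξ‖ = 1`.
* `exists_root_near`       : every unit of `K̄` is congruent to a root of unity of order prime to `p`.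
* `unrField p`             : `ℚ_p(μ_{p'})`.
* `fixingSubgroup_unrField_le` : `Gal(K̄/ℚ_p(μ_{p'})) ≤ inertiaP p`.
* `mem_unrField_of_fixed`  : an element fixed by inertia lies in `ℚ_p(μ_{p'})`.
* `norm_eq_zpow_of_mem_adjoin_root` : the value group of `ℚ_p(ζ)`, `ζ ^ m = 1`, `p ∤ m`, is `p^ℤ`.
* `norm_eq_zpow_of_fixed`, `norm_le_inv_of_fixed` : **UNR** an element `a ≠ 0` of `K̄` fixed by
  inertia has `‖a‖ ∈ p^ℤ`; if moreover `‖a‖ < 1` then `‖a‖ ≤ p⁻¹`.
-/

noncomputable section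

namespace Fermat.Agent.S56.FL.H38

open scoped NNReal
open Fermat.Agent.S56.FL Polynomial

variable {p : ℕ} [Fact p.Prime]

theorem norm_natCast_algCl (n : ℕ) : ‖(n : PadicAlgCl p)‖ = ‖(n : ℚ_[p])‖ := by
  have h : (n : PadicAlgCl p) = algebraMap ℚ_[p] (PadicAlgCl p) (n : ℚ_[p]) := by simp
  rw [h, PadicAlgCl.norm_extends]

theorem norm_natCast_algCl_le_one (n : ℕ) : ‖(n : PadicAlgCl p)‖ ≤ 1 := by
  rw [norm_natCast_algCl]
  have := Padic.norm_int_le_one (p := p) (n : ℤ)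
  simpa using this

theorem norm_natCast_algCl_eq_one {n : ℕ} : ‖(n : PadicAlgCl p)‖ = 1 ↔ ¬ p ∣ n := by
  rw [norm_natCast_algCl, Padic.norm_natCast_eq_one_iff]
  exact (Nat.Prime.coprime_iff_not_dvd (Fact.out : p.Prime))

theorem norm_natCast_algCl_lt_one {n : ℕ} : ‖(n : PadicAlgCl p)‖ < 1 ↔ p ∣ n := by
  rw [norm_natCast_algCl, Padic.norm_natCast_lt_one_iff]

theorem norm_p_algCl' : ‖(p : PadicAlgCl p)‖ = (p : ℝ)⁻¹ := by
  rw [norm_natCast_algCl, Padic.norm_p]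

/-- `‖y ^ m - z ^ m‖ ≤ ‖y - z‖` for integers `y`, `z` of `K̄`. -/
theorem norm_pow_sub_pow_le' {y z : PadicAlgCl p} (hy : ‖y‖ ≤ 1) (hz : ‖z‖ ≤ 1) (m : ℕ) :
    ‖y ^ m - z ^ m‖ ≤ ‖y - z‖ := by
  induction m with
  | zero => simp
  | succ m ih =>
    have h : y ^ (m + 1) - z ^ (m + 1) = y * (y ^ m - z ^ m) + (y - z) * z ^ m := by ring
    rw [h]
    refine (IsUltrametricDist.norm_add_le_max _ _).trans (max_le ?_ ?_)
    · rw [norm_mul]
      calc ‖y‖ * ‖y ^ m - z ^ m‖ ≤ 1 * ‖y - z‖ :=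
            mul_le_mul hy ih (norm_nonneg _) zero_le_one
        _ = ‖y - z‖ := one_mul _
    · rw [norm_mul, norm_pow]
      calc ‖y - z‖ * ‖z‖ ^ m ≤ ‖y - z‖ * 1 :=
            mul_le_mul_of_nonneg_left (pow_le_one₀ (norm_nonneg _) hz) (norm_nonneg _)
        _ = ‖y - z‖ := mul_one _

/-- The norm of a finite sum is at most the maximum of the norms (with a bound). -/
theorem norm_sum_le_of_forall_le {ι : Type*} (s : Finset ι) (f : ι → PadicAlgCl p) {C : ℝ}
    (hC : 0 ≤ C) (h : ∀ i ∈ s, ‖f i‖ ≤ C) : ‖∑ i ∈ s, f i‖ ≤ C := by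
  classical
  induction s using Finset.induction_on with
  | empty => simpa using hC
  | insert a s ha ih =>
    rw [Finset.sum_insert ha]
    refine (IsUltrametricDist.norm_add_le_max _ _).trans (max_le ?_ ?_)
    · exact h a (Finset.mem_insert_self a s)
    · exact ih fun i hi => h i (Finset.mem_insert_of_mem hi)

theorem norm_root_eq_one {ξ : PadicAlgCl p} {m : ℕ} (hm : 0 < m) (hξ : ξ ^ m = 1) : ‖ξ‖ = 1 := by
  have h : ‖ξ‖ ^ m = 1 := by rw [← norm_pow, hξ, norm_one]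
  exact (pow_eq_one_iff_of_nonneg (norm_nonneg _) hm.ne').mp h

/-- A root of unity `ξ ≠ 1` of order prime to `p` is not congruent to `1`. -/
theorem norm_one_sub_root {ξ : PadicAlgCl p} {m : ℕ} (hm : 0 < m) (hpm : ¬ p ∣ m)
    (hξ : ξ ^ m = 1) (hξ1 : ξ ≠ 1) : ‖1 - ξ‖ = 1 := by
  have hξn : ‖ξ‖ = 1 := norm_root_eq_one hm hξ
  have hle : ‖1 - ξ‖ ≤ 1 := by
    rw [sub_eq_add_neg]
    refine (IsUltrametricDist.norm_add_le_max _ _).trans (max_le (by simp) ?_)
    rw [norm_neg, hξn]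
  refine le_antisymm hle ?_
  -- `∑_{i<m} ξ^i = 0`
  have hgeom : (∑ i ∈ Finset.range m, ξ ^ i) = 0 := by
    have h1 : (∑ i ∈ Finset.range m, ξ ^ i) * (ξ - 1) = 0 := by
      rw [geom_sum_mul, hξ, sub_self]
    rcases mul_eq_zero.mp h1 with h | h
    · exact h
    · exact absurd (sub_eq_zero.mp h) hξ1
  have hsum : (m : PadicAlgCl p) = ∑ i ∈ Finset.range m, (1 ^ i - ξ ^ i) := by
    rw [Finset.sum_sub_distrib, hgeom, sub_zero]
    simp
  have h2 : ‖(m : PadicAlgCl p)‖ ≤ ‖1 - ξ‖ := by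
    rw [hsum]
    refine norm_sum_le_of_forall_le _ _ (norm_nonneg _) fun i _ => ?_
    exact norm_pow_sub_pow_le' (by simp) hξn.le i
  rwa [norm_natCast_algCl_eq_one.mpr hpm] at h2

/-- Two distinct roots of unity of order prime to `p` are not congruent. -/
theorem norm_sub_root {ξ η : PadicAlgCl p} {m : ℕ} (hm : 0 < m) (hpm : ¬ p ∣ m)
    (hξ : ξ ^ m = 1) (hη : η ^ m = 1) (hne : ξ ≠ η) : ‖ξ - η‖ = 1 := by
  have hξ0 : ξ ≠ 0 := by
    intro h; rw [h, zero_pow hm.ne'] at hξ; exact zero_ne_one hξ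
  have h1 : ξ - η = ξ * (1 - η / ξ) := by field_simp
  have h2 : (η / ξ) ^ m = 1 := by rw [div_pow, hξ, hη, div_one]
  have h3 : η / ξ ≠ 1 := by
    intro h
    rw [div_eq_one_iff_eq hξ0] at h
    exact hne h.symm
  rw [h1, norm_mul, norm_root_eq_one hm hξ, norm_one_sub_root hm hpm h2 h3, one_mul]

theorem one_le_norm_multiset_prod (s : Multiset (PadicAlgCl p)) (h : ∀ x ∈ s, 1 ≤ ‖x‖) :
    1 ≤ ‖s.prod‖ := by
  induction s using Multiset.induction_on with
  | empty => simp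
  | cons a s ih =>
    rw [Multiset.prod_cons, norm_mul]
    have h1 : 1 ≤ ‖a‖ := h a (Multiset.mem_cons_self a s)
    have h2 : 1 ≤ ‖s.prod‖ := ih fun x hx => h x (Multiset.mem_cons_of_mem hx)
    calc (1 : ℝ) = 1 * 1 := (one_mul 1).symm
      _ ≤ ‖a‖ * ‖s.prod‖ := mul_le_mul h1 h2 zero_le_one (zero_le_one.trans h1)

/-- If `‖a ^ n - 1‖ < 1` (`n > 0`) then `a` is congruent to an `n`-th root of unity. -/
theorem exists_root_near_of_pow {a : PadicAlgCl p} {n : ℕ} (hn : 0 < n) (ha : ‖a ^ n - 1‖ < 1) :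
    ∃ ξ : PadicAlgCl p, ξ ^ n = 1 ∧ ‖a - ξ‖ < 1 := by
  have hsplit : (X ^ n - 1 : (PadicAlgCl p)[X]).Splits := IsAlgClosed.splits _
  have hmonic : (X ^ n - 1 : (PadicAlgCl p)[X]).Monic := monic_X_pow_sub_C 1 hn.ne'
  have hev := hsplit.eval_eq_prod_roots a
  rw [hmonic.leadingCoeff, one_mul] at hev
  have hev' : a ^ n - 1 = (Multiset.map (fun r => a - r) (X ^ n - 1 : (PadicAlgCl p)[X]).roots).prod := by
    rw [← hev]; simp
  by_contra hcon
  have hall : ∀ x ∈ Multiset.map (fun r => a - r) (X ^ n - 1 : (PadicAlgCl p)[X]).roots,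
      1 ≤ ‖x‖ := by
    intro x hx
    obtain ⟨r, hr, rfl⟩ := Multiset.mem_map.mp hx
    by_contra hlt
    apply hcon
    refine ⟨r, ?_, not_le.mp hlt⟩
    have hr' := (Polynomial.mem_roots (hmonic.ne_zero)).mp hr
    have : r ^ n - 1 = 0 := by simpa [IsRoot] using hr'
    exact sub_eq_zero.mp this
  have := one_le_norm_multiset_prod _ hall
  rw [← hev'] at this
  exact absurd ha (not_lt.mpr this)

/-- Every unit of `K̄` is congruent to a root of unity of order prime to `p`. -/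
theorem exists_root_near {a : PadicAlgCl p} (ha : ‖a‖ = 1) :
    ∃ (ξ : PadicAlgCl p) (n : ℕ), 0 < n ∧ ¬ p ∣ n ∧ ξ ^ n = 1 ∧ ‖a - ξ‖ < 1 := by
  have hint : IsIntegral ℚ_[p] a := (Algebra.IsAlgebraic.isAlgebraic a).isIntegral
  have : FiniteDimensional ℚ_[p] (IntermediateField.adjoin ℚ_[p] {a}) :=
    IntermediateField.adjoin.finiteDimensional hint
  obtain ⟨-, q, -, hq0, hq1, hpow, -⟩ :=
    H15.exists_residue_generator (IntermediateField.adjoin ℚ_[p] {a})
  have haL : a ∈ IntermediateField.adjoin ℚ_[p] {a} :=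
    IntermediateField.mem_adjoin_simple_self ℚ_[p] a
  have h1 := hpow ⟨a, haL⟩ ha.le
  simp only at h1
  have hpq : p ∣ q := norm_natCast_algCl_lt_one.mp hq1
  have hp2 : 2 ≤ p := (Fact.out : p.Prime).two_le
  have hq2 : 2 ≤ q := hp2.trans (Nat.le_of_dvd hq0 hpq)
  have hn : 0 < q - 1 := by omega
  have hpn : ¬ p ∣ (q - 1) := by
    intro h
    have h3 : p ∣ q - (q - 1) := Nat.dvd_sub hpq h
    have h4 : q - (q - 1) = 1 := by omega
    rw [h4] at h3
    have := Nat.le_of_dvd one_pos h3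
    omega
  have h2 : ‖a ^ (q - 1) - 1‖ < 1 := by
    have h5 : a ^ q - a = a * (a ^ (q - 1) - 1) := by
      have : q = (q - 1) + 1 := by omega
      conv_lhs => rw [this]
      ring
    rw [h5, norm_mul, ha, one_mul] at h1
    exact h1
  obtain ⟨ξ, hξ, hξa⟩ := exists_root_near_of_pow hn h2
  exact ⟨ξ, q - 1, hn, hpn, hξ, hξa⟩

/-! ## The maximal unramified extension -/

variable (p)

/-- `ℚ_p(μ_{p'})`: the field generated by the roots of unity of order prime to `p`. -/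
def unrField : IntermediateField ℚ_[p] (PadicAlgCl p) :=
  IntermediateField.adjoin ℚ_[p] {ξ | ∃ n : ℕ, 0 < n ∧ ¬ p ∣ n ∧ ξ ^ n = 1}

variable {p}

/-- An automorphism fixing the roots of unity of order prime to `p` is in the inertia group. -/
theorem fixingSubgroup_unrField_le : (unrField p).fixingSubgroup ≤ inertiaP p := by
  intro σ hσ a ha
  rw [IntermediateField.mem_fixingSubgroup_iff] at hσ
  rcases lt_or_eq_of_le ha with hlt | heq
  · rw [sub_eq_add_neg]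
    refine (IsUltrametricDist.norm_add_le_max _ _).trans_lt (max_lt ?_ ?_)
    · rw [norm_gal]; exact hlt
    · rw [norm_neg]; exact hlt
  · obtain ⟨ξ, n, hn, hpn, hξ, hξa⟩ := exists_root_near heq
    have hξfix : σ ξ = ξ :=
      hσ ξ (IntermediateField.subset_adjoin ℚ_[p] _ ⟨n, hn, hpn, hξ⟩)
    have h1 : σ a - a = σ (a - ξ) - (a - ξ) := by
      rw [map_sub, hξfix]; ring
    rw [h1, sub_eq_add_neg]
    refine (IsUltrametricDist.norm_add_le_max _ _).trans_lt (max_lt ?_ ?_)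
    · rw [norm_gal]; exact hξa
    · rw [norm_neg]; exact hξa

/-- Inertia fixes the roots of unity of order prime to `p`. -/
theorem inertia_fixes_root {σ : Gp p} (hσ : σ ∈ inertiaP p) {ξ : PadicAlgCl p} {n : ℕ}
    (hn : 0 < n) (hpn : ¬ p ∣ n) (hξ : ξ ^ n = 1) : σ ξ = ξ := by
  by_contra hne
  have h1 : (σ ξ) ^ n = 1 := by rw [← map_pow, hξ, map_one]
  have h2 := norm_sub_root hn hpn h1 hξ hne
  have h3 := hσ ξ (norm_root_eq_one hn hξ).le
  rw [h2] at h3
  exact lt_irrefl _ h3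

/-- An element fixed by inertia lies in `ℚ_p(μ_{p'})`. -/
theorem mem_unrField_of_fixed {a : PadicAlgCl p} (ha : ∀ σ ∈ inertiaP p, σ a = a) :
    a ∈ unrField p := by
  rw [← InfiniteGalois.fixedField_fixingSubgroup (unrField p),
    IntermediateField.mem_fixedField_iff]
  intro σ hσ
  exact ha σ (fixingSubgroup_unrField_le hσ)

/-! ## The value group of `ℚ_p(ζ)`, `ζ` a root of unity of order prime to `p` -/

/-- Polynomials over `K̄` with integral coefficients. -/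
def IntCoeff (Q : (PadicAlgCl p)[X]) : Prop := ∀ n, ‖Q.coeff n‖ ≤ 1

theorem intCoeff_C {c : PadicAlgCl p} (hc : ‖c‖ ≤ 1) : IntCoeff (C c) := by
  intro n
  rw [coeff_C]
  split_ifs
  · exact hc
  · simp

theorem intCoeff_X : IntCoeff (X : (PadicAlgCl p)[X]) := by
  intro n
  rw [coeff_X]
  split_ifs <;> simp

theorem intCoeff_one : IntCoeff (1 : (PadicAlgCl p)[X]) := by
  have := intCoeff_C (p := p) (c := 1) (by simp)
  simpa using this

theorem IntCoeff.mul {Q R : (PadicAlgCl p)[X]} (hQ : IntCoeff Q) (hR : IntCoeff R) :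
    IntCoeff (Q * R) := by
  intro n
  rw [coeff_mul]
  refine norm_sum_le_of_forall_le _ _ zero_le_one fun x _ => ?_
  rw [norm_mul]
  exact mul_le_one₀ (hQ _) (norm_nonneg _) (hR _)

theorem IntCoeff.sub {Q R : (PadicAlgCl p)[X]} (hQ : IntCoeff Q) (hR : IntCoeff R) :
    IntCoeff (Q - R) := by
  intro n
  rw [coeff_sub, sub_eq_add_neg]
  refine (IsUltrametricDist.norm_add_le_max _ _).trans (max_le (hQ n) ?_)
  rw [norm_neg]; exact hR n

theorem intCoeff_prod {ι : Type*} (s : Finset ι) (f : ι → (PadicAlgCl p)[X])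
    (h : ∀ i ∈ s, IntCoeff (f i)) : IntCoeff (∏ i ∈ s, f i) := by
  classical
  induction s using Finset.induction_on with
  | empty => simpa using intCoeff_one
  | insert a s ha ih =>
    rw [Finset.prod_insert ha]
    exact (h a (Finset.mem_insert_self a s)).mul (ih fun i hi => h i (Finset.mem_insert_of_mem hi))

/-- The value group of `ℚ_p(ζ)` is `p^ℤ` when `ζ` is a root of unity of order prime to `p`. -/
theorem norm_eq_zpow_of_mem_adjoin_root {ζ : PadicAlgCl p} {m : ℕ} (hm : 0 < m) (hpm : ¬ p ∣ m)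
    (hζ : ζ ^ m = 1) {a : PadicAlgCl p} (ha : a ∈ IntermediateField.adjoin ℚ_[p] {ζ})
    (ha0 : a ≠ 0) : ∃ k : ℤ, ‖a‖ = (p : ℝ) ^ k := by
  classical
  have hint : IsIntegral ℚ_[p] ζ := (Algebra.IsAlgebraic.isAlgebraic ζ).isIntegral
  have ha' : a ∈ (IntermediateField.adjoin ℚ_[p] {ζ}).toSubalgebra := ha
  rw [IntermediateField.adjoin_simple_toSubalgebra_of_isAlgebraic hint.isAlgebraic,
    Algebra.adjoin_singleton_eq_range_aeval] at ha'
  obtain ⟨P, hP⟩ := ha'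
  have hP : aeval ζ P = a := hP
  set g : ℚ_[p][X] := minpoly ℚ_[p] ζ with hg_def
  have hg : g.Monic := minpoly.monic hint
  set P₁ : ℚ_[p][X] := P %ₘ g with hP₁_def
  have hP₁ : aeval ζ P₁ = a := by
    rw [hP₁_def, aeval_modByMonic_eq_self_of_root (minpoly.aeval _ _)]; exact hP
  have hdeg : P₁.degree < g.degree := degree_modByMonic_lt P hg
  set Q : (PadicAlgCl p)[X] := P₁.map (algebraMap ℚ_[p] (PadicAlgCl p)) with hQ_def
  set Z : Finset (PadicAlgCl p) := (g.map (algebraMap ℚ_[p] (PadicAlgCl p))).roots.toFinset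
    with hZ_def
  have hsep : g.Separable := Algebra.IsSeparable.isSeparable ℚ_[p] ζ
  have hcard : Z.card = g.natDegree := by
    rw [hZ_def, Multiset.toFinset_card_of_nodup (nodup_roots hsep.map),
      ← (IsAlgClosed.splits (g.map (algebraMap ℚ_[p] (PadicAlgCl p)))).natDegree_eq_card_roots,
      natDegree_map]
  have hgm : g ∣ (X ^ m - 1 : ℚ_[p][X]) := by
    apply minpoly.dvd
    simp [hζ]
  have hZroot : ∀ z ∈ Z, aeval z g = 0 := by
    intro z hz
    rw [hZ_def, Multiset.mem_toFinset, mem_roots (map_monic_ne_zero hg)] at hz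
    rw [IsRoot, eval_map_algebraMap] at hz
    exact hz
  have hZm : ∀ z ∈ Z, z ^ m = 1 := by
    intro z hz
    obtain ⟨r, hr⟩ := hgm
    have h1 : aeval z (X ^ m - 1 : ℚ_[p][X]) = 0 := by
      rw [hr, map_mul, hZroot z hz, zero_mul]
    have h2 : z ^ m - 1 = 0 := by simpa using h1
    exact sub_eq_zero.mp h2
  have hZnorm : ∀ z ∈ Z, ‖Q.eval z‖ = ‖a‖ := by
    intro z hz
    obtain ⟨σ, hσ⟩ := minpoly.exists_algEquiv_of_root (K := ℚ_[p]) (L := PadicAlgCl p)
      (x := z) (y := ζ) hint.isAlgebraic (hZroot z hz)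
    have h1 : σ (aeval z P₁) = a := by
      have h2 : aeval (σ z) P₁ = σ (aeval z P₁) :=
        aeval_algHom_apply (σ : PadicAlgCl p →ₐ[ℚ_[p]] PadicAlgCl p) z P₁
      rw [hσ, hP₁] at h2
      exact h2.symm
    rw [hQ_def, eval_map_algebraMap, ← h1, norm_gal]
  have hdegQ : Q.degree < Z.card := by
    rw [hcard, hQ_def, degree_map, ← degree_eq_natDegree hg.ne_zero]
    exact hdeg
  have hQ := Lagrange.eq_interpolate (s := Z) (v := id) (f := Q) (Set.injOn_id _) hdegQ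
  rw [Lagrange.interpolate_apply] at hQ
  have hbasis : ∀ i ∈ Z, IntCoeff (Lagrange.basis Z id i) := by
    intro i hi
    unfold Lagrange.basis
    refine intCoeff_prod _ _ fun j hj => ?_
    rw [Finset.mem_erase] at hj
    unfold Lagrange.basisDivisor
    refine (intCoeff_C ?_).mul (intCoeff_X.sub (intCoeff_C ?_))
    · rw [norm_inv, id, id, norm_sub_root hm hpm (hZm i hi) (hZm j hj.2) (Ne.symm hj.1), inv_one]
    · rw [id, norm_root_eq_one hm (hZm j hj.2)]
  have hcoeff : ∀ n, ‖P₁.coeff n‖ ≤ ‖a‖ := by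
    intro n
    have h1 : ‖P₁.coeff n‖ = ‖Q.coeff n‖ := by
      rw [hQ_def, coeff_map, PadicAlgCl.norm_extends]
    rw [h1, hQ, finsetSum_coeff]
    refine norm_sum_le_of_forall_le _ _ (norm_nonneg _) fun i hi => ?_
    rw [coeff_C_mul, norm_mul, id, hZnorm i hi]
    calc ‖a‖ * ‖(Lagrange.basis Z id i).coeff n‖ ≤ ‖a‖ * 1 :=
          mul_le_mul_of_nonneg_left (hbasis i hi n) (norm_nonneg _)
      _ = ‖a‖ := mul_one _
  have hsum : a = ∑ n ∈ Finset.range (P₁.natDegree + 1),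
      algebraMap ℚ_[p] (PadicAlgCl p) (P₁.coeff n) * ζ ^ n := by
    rw [← hP₁, aeval_eq_sum_range]
    refine Finset.sum_congr rfl fun n _ => ?_
    rw [Algebra.smul_def]
  obtain ⟨n₀, -, hn₀⟩ := IsUltrametricDist.exists_norm_finsetSum_le_of_nonempty
    (t := Finset.range (P₁.natDegree + 1)) ⟨0, by simp⟩
    (fun n => algebraMap ℚ_[p] (PadicAlgCl p) (P₁.coeff n) * ζ ^ n)
  rw [← hsum, norm_mul, norm_pow, norm_root_eq_one hm hζ, one_pow, mul_one,
    PadicAlgCl.norm_extends] at hn₀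
  have heq : ‖a‖ = ‖P₁.coeff n₀‖ := le_antisymm hn₀ (hcoeff n₀)
  have hne : P₁.coeff n₀ ≠ 0 := by
    intro h
    rw [h, norm_zero, norm_eq_zero] at heq
    exact ha0 heq
  exact ⟨-(P₁.coeff n₀).valuation, by rw [heq, Padic.norm_eq_zpow_neg_valuation hne]⟩

/-- An element of `ℚ_p(μ_{p'})` lies in `ℚ_p(ζ)` for a single root of unity `ζ` of order prime
to `p`. -/
theorem exists_single_root {a : PadicAlgCl p} (ha : a ∈ unrField p) :
    ∃ (ζ : PadicAlgCl p) (m : ℕ), 0 < m ∧ ¬ p ∣ m ∧ ζ ^ m = 1 ∧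
      a ∈ IntermediateField.adjoin ℚ_[p] {ζ} := by
  classical
  obtain ⟨T, hTS, haT⟩ := IntermediateField.exists_finset_of_mem_adjoin ha
  have hTS' : ∀ t : PadicAlgCl p, t ∈ T → ∃ n : ℕ, 0 < n ∧ ¬ p ∣ n ∧ t ^ n = 1 :=
    fun t ht => hTS (Finset.mem_coe.mpr ht)
  choose! n hn using hTS'
  set M : ℕ := ∏ t ∈ T, n t with hM_def
  have hM0 : 0 < M := Finset.prod_pos fun t ht => (hn t ht).1
  have hMp : ¬ p ∣ M := by
    intro h
    rw [hM_def, (Nat.Prime.prime (Fact.out : p.Prime)).dvd_finsetProd_iff] at h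
    obtain ⟨t, ht, htp⟩ := h
    exact (hn t ht).2.1 htp
  have : NeZero M := ⟨hM0.ne'⟩
  obtain ⟨ζ, hζ⟩ := HasEnoughRootsOfUnity.exists_primitiveRoot (PadicAlgCl p) M
  refine ⟨ζ, M, hM0, hMp, hζ.pow_eq_one, ?_⟩
  have hle : IntermediateField.adjoin ℚ_[p] (T : Set (PadicAlgCl p))
      ≤ IntermediateField.adjoin ℚ_[p] {ζ} := by
    rw [IntermediateField.adjoin_le_iff]
    intro t ht
    have htM : t ^ M = 1 := by
      obtain ⟨r, hr⟩ := Finset.dvd_prod_of_mem n (Finset.mem_coe.mp ht)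
      rw [hM_def, hr, pow_mul, (hn t (Finset.mem_coe.mp ht)).2.2, one_pow]
    obtain ⟨i, -, hi⟩ := hζ.eq_pow_of_pow_eq_one htM
    rw [← hi]
    exact pow_mem (IntermediateField.mem_adjoin_simple_self ℚ_[p] ζ) i
  exact hle haT

/-- **UNR.** A nonzero element of `K̄` fixed by inertia has norm in `p^ℤ`. -/
theorem norm_eq_zpow_of_fixed {a : PadicAlgCl p} (ha : ∀ σ ∈ inertiaP p, σ a = a)
    (ha0 : a ≠ 0) : ∃ k : ℤ, ‖a‖ = (p : ℝ) ^ k := by
  obtain ⟨ζ, m, hm, hpm, hζ, haζ⟩ := exists_single_root (mem_unrField_of_fixed ha)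
  exact norm_eq_zpow_of_mem_adjoin_root hm hpm hζ haζ ha0

/-- **UNR.** An element of `K̄` fixed by inertia, of norm `< 1`, has norm `≤ p⁻¹`. -/
theorem norm_le_inv_of_fixed {a : PadicAlgCl p} (ha : ∀ σ ∈ inertiaP p, σ a = a)
    (ha1 : ‖a‖ < 1) : ‖a‖ ≤ (p : ℝ)⁻¹ := by
  by_cases ha0 : a = 0
  · rw [ha0, norm_zero]
    exact inv_nonneg.mpr (Nat.cast_nonneg p)
  obtain ⟨k, hk⟩ := norm_eq_zpow_of_fixed ha ha0
  have hp1 : (1 : ℝ) < p := by exact_mod_cast (Fact.out : p.Prime).one_lt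
  have hk1 : k ≤ -1 := by
    by_contra hcon
    have hk0 : 0 ≤ k := by omega
    have := one_le_zpow₀ hp1.le hk0
    rw [← hk] at this
    exact absurd ha1 (not_lt.mpr this)
  rw [hk, ← zpow_neg_one]
  exact zpow_le_zpow_right₀ hp1.le hk1

end Fermat.Agent.S56.FL.H38

end
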