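import Mathlib
import Fermat.Agent.S56.FL.H38_Unr
import Fermat.Agent.S56.FL.H15_Herb

set_option autoImplicit false

/-!
# LOC-p-FL, package CC0 (helper38), part 1: the wild step inside `Gal(L/ℚ_p)`

`L/ℚ_p` finite (inside `K̄`), `N ≤ J ≤ Gal(L/ℚ_p)` with `N` normal, `J` contained in the inertia
group, `L^J` unramified and `τ^p ∈ N` for `τ ∈ J` (`WildData`).  Then, with `π` a uniformizer of
`L^N`:

* `wild_unif`  : `‖τ π - π‖ ≤ ‖π‖²` for `τ ∈ J`;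
* `wild_all`   : `‖τ a - a‖ ≤ ‖π‖²` for `τ ∈ J` and all integers `a` of `L^N`;
* `norm_unif_pow_card` : `‖π‖^|J| ≤ p^{-|N|}`;
* `le_of_wildData` : if the ramification of `L` is bounded and `p ≠ 2`, then `J ≤ N`.
-/

noncomputable section

namespace Fermat.Agent.S56.FL.H38

open scoped NNReal
open Fermat.Agent.S56.FL Polynomial Module

variable {p : ℕ} [Fact p.Prime]

/-- `‖u ^ p - 1‖ < 1` implies `‖u - 1‖ < 1`. -/
theorem norm_sub_one_lt_of_pow {u : PadicAlgCl p} (h : ‖u ^ p - 1‖ < 1) : ‖u - 1‖ < 1 := by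
  have hp : p.Prime := Fact.out
  have hup : ‖u ^ p‖ = 1 := by
    have h1 : u ^ p = (u ^ p - 1) + 1 := by ring
    rw [h1, IsUltrametricDist.norm_add_eq_max_of_norm_ne_norm (by rw [norm_one]; exact h.ne),
      norm_one]
    exact max_eq_right h.le
  have hu : ‖u‖ = 1 := by
    rw [norm_pow] at hup
    exact (pow_eq_one_iff_of_nonneg (norm_nonneg _) hp.ne_zero).mp hup
  obtain ⟨ξ, n, hn, hpn, hξ, hξu⟩ := exists_root_near hu
  have hξn : ‖ξ‖ = 1 := norm_root_eq_one hn hξ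
  have h2 : ‖u ^ p - ξ ^ p‖ < 1 := (norm_pow_sub_pow_le' hu.le hξn.le p).trans_lt hξu
  have h3 : ‖1 - ξ ^ p‖ < 1 := by
    have h4 : 1 - ξ ^ p = (u ^ p - ξ ^ p) + -(u ^ p - 1) := by ring
    rw [h4]
    refine (IsUltrametricDist.norm_add_le_max _ _).trans_lt (max_lt h2 ?_)
    rw [norm_neg]; exact h
  have h5 : ξ ^ p = 1 := by
    by_contra hne
    have h6 : (ξ ^ p) ^ n = 1 := by rw [← pow_mul, mul_comm, pow_mul, hξ, one_pow]
    rw [norm_one_sub_root hn hpn h6 hne] at h3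
    exact lt_irrefl _ h3
  have h7 : ξ = 1 := by
    have h8 : ξ ^ Nat.gcd p n = 1 := pow_gcd_eq_one.mpr ⟨h5, hξ⟩
    have h9 : Nat.gcd p n = 1 := (Nat.Prime.coprime_iff_not_dvd hp).mpr hpn
    rw [h9, pow_one] at h8
    exact h8
  rw [h7] at hξu
  exact hξu

variable {L : IntermediateField ℚ_[p] (PadicAlgCl p)}

theorem norm_add_le_max_L (a b : L) : ‖a + b‖ ≤ max ‖a‖ ‖b‖ :=
  IsUltrametricDist.norm_add_le_max (a : PadicAlgCl p) b

theorem norm_sub_le_max_L (a b : L) : ‖a - b‖ ≤ max ‖a‖ ‖b‖ := by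
  rw [sub_eq_add_neg]
  exact (norm_add_le_max_L a (-b)).trans (le_of_eq (by rw [norm_neg]))

theorem norm_algEquiv_L (σ : L ≃ₐ[ℚ_[p]] L) (a : L) : ‖σ a‖ = ‖a‖ := H15.norm_algEquiv σ a

theorem norm_natCast_L_le_one (n : ℕ) : ‖(n : L)‖ ≤ 1 := norm_natCast_algCl_le_one n

/-- The hypotheses of the wild step. -/
structure WildData (L : IntermediateField ℚ_[p] (PadicAlgCl p))
    (J N : Subgroup (L ≃ₐ[ℚ_[p]] L)) : Prop where
  le : N ≤ J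
  normal : N.Normal
  inertia : ∀ τ ∈ J, ∀ a : L, ‖a‖ ≤ 1 → ‖τ a - a‖ < 1
  unr : ∀ a : L, (∀ τ ∈ J, τ a = a) → ‖a‖ < 1 → ‖a‖ ≤ (p : ℝ)⁻¹
  pow_mem : ∀ τ ∈ J, τ ^ p ∈ N

/-- `π` is a uniformizer of the fixed field of `N`. -/
def IsUnifOf (N : Subgroup (L ≃ₐ[ℚ_[p]] L)) (π : L) : Prop :=
  (∀ ν ∈ N, ν π = π) ∧ 0 < ‖π‖ ∧ ‖π‖ < 1 ∧
    ∀ a : L, (∀ ν ∈ N, ν a = a) → ‖a‖ < 1 → ‖a‖ ≤ ‖π‖

theorem exists_isUnifOf [FiniteDimensional ℚ_[p] L] (N : Subgroup (L ≃ₐ[ℚ_[p]] L)) :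
    ∃ π : L, IsUnifOf N π := by
  classical
  set n := finrank ℚ_[p] L with hn
  have hnpos : 0 < n := finrank_pos
  let S : Set ℤ := {k | ∃ y : L, y ≠ 0 ∧ (∀ ν ∈ N, ν y = y) ∧ ‖y‖ < 1 ∧ ‖y‖ ^ n = (p : ℝ) ^ k}
  have hp1 : (1 : ℝ) < p := H15.one_lt_p_real
  have hSbdd : ∀ k ∈ S, k ≤ -1 := by
    rintro k ⟨y, -, -, hy1, hyk⟩
    by_contra hk
    have hk0 : 0 ≤ k := by omega
    have h1 : (1 : ℝ) ≤ (p : ℝ) ^ k := one_le_zpow₀ hp1.le hk0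
    have h2 : ‖y‖ ^ n < 1 := pow_lt_one₀ (norm_nonneg _) hy1 hnpos.ne'
    rw [hyk] at h2
    exact absurd h1 (not_le.mpr h2)
  have hSne : ∃ k, k ∈ S := by
    have hpL : (p : L) ≠ 0 := by exact_mod_cast (Fact.out : p.Prime).ne_zero
    obtain ⟨k, hk⟩ := H15.norm_pow_finrank L (p : L) hpL
    refine ⟨k, (p : L), hpL, fun ν _ => map_natCast ν p, ?_, hk⟩
    have : ‖(p : L)‖ = (p : ℝ)⁻¹ := norm_p_algCl'
    rw [this]
    exact inv_lt_one_of_one_lt₀ hp1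
  obtain ⟨k₀, hk₀S, hk₀max⟩ := Int.exists_greatest_of_bdd ⟨-1, hSbdd⟩ hSne
  obtain ⟨π, hπ0, hπfix, hπ1, hπk⟩ := hk₀S
  refine ⟨π, hπfix, norm_pos_iff.mpr hπ0, hπ1, ?_⟩
  intro a hafix ha
  by_cases ha0 : a = 0
  · subst ha0; simp
  obtain ⟨k, hk⟩ := H15.norm_pow_finrank L a ha0
  have hkS : k ∈ S := ⟨a, ha0, hafix, ha, hk⟩
  have hle : k ≤ k₀ := hk₀max k hkS
  have hpow : ‖a‖ ^ n ≤ ‖π‖ ^ n := by
    have hk' : ‖a‖ ^ n = (p : ℝ) ^ k := hk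
    rw [hk', hπk]
    exact zpow_le_zpow_right₀ hp1.le hle
  exact le_of_pow_le_pow_left₀ hnpos.ne' (norm_nonneg _) hpow

section Fixed

variable {N : Subgroup (L ≃ₐ[ℚ_[p]] L)}

/-- Fixed elements stay fixed under the whole group when `N` is normal. -/
theorem fixed_map (hN : N.Normal) (τ : L ≃ₐ[ℚ_[p]] L) {a : L} (ha : ∀ ν ∈ N, ν a = a) :
    ∀ ν ∈ N, ν (τ a) = τ a := by
  intro ν hν
  have h1 : τ⁻¹ * ν * τ ∈ N := by
    have := hN.conj_mem ν hν τ⁻¹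
    simpa using this
  have h2 := ha _ h1
  have h3 : ν (τ a) = τ ((τ⁻¹ * ν * τ) a) := by
    simp only [AlgEquiv.mul_apply]
    have : τ (τ⁻¹ (ν (τ a))) = ν (τ a) := by
      rw [← AlgEquiv.mul_apply, mul_inv_cancel, AlgEquiv.one_apply]
    exact this.symm
  rw [h3, h2]

theorem fixed_sub {a b : L} (ha : ∀ ν ∈ N, ν a = a) (hb : ∀ ν ∈ N, ν b = b) :
    ∀ ν ∈ N, ν (a - b) = a - b := fun ν hν => by rw [map_sub, ha ν hν, hb ν hν]

theorem fixed_mul {a b : L} (ha : ∀ ν ∈ N, ν a = a) (hb : ∀ ν ∈ N, ν b = b) :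
    ∀ ν ∈ N, ν (a * b) = a * b := fun ν hν => by rw [map_mul, ha ν hν, hb ν hν]

theorem fixed_div {a b : L} (ha : ∀ ν ∈ N, ν a = a) (hb : ∀ ν ∈ N, ν b = b) :
    ∀ ν ∈ N, ν (a / b) = a / b := fun ν hν => by rw [map_div₀, ha ν hν, hb ν hν]

theorem fixed_pow {a : L} (ha : ∀ ν ∈ N, ν a = a) (n : ℕ) :
    ∀ ν ∈ N, ν (a ^ n) = a ^ n := fun ν hν => by rw [map_pow, ha ν hν]

/-- Discreteness of the value group of the fixed field. -/
theorem IsUnifOf.norm_le_sq {π : L} (hπ : IsUnifOf N π) {a : L} (ha : ∀ ν ∈ N, ν a = a)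
    (hlt : ‖a‖ < ‖π‖) : ‖a‖ ≤ ‖π‖ ^ 2 := by
  obtain ⟨hπfix, hπ0, hπ1, hπmax⟩ := hπ
  have h1 : ‖a / π‖ < 1 := by
    rw [norm_div, div_lt_one hπ0]; exact hlt
  have h2 := hπmax (a / π) (fixed_div ha hπfix) h1
  rw [norm_div, div_le_iff₀ hπ0] at h2
  rw [pow_two]; exact h2

theorem IsUnifOf.norm_le_of_lt_one {π : L} (hπ : IsUnifOf N π) {a : L}
    (ha : ∀ ν ∈ N, ν a = a) (hlt : ‖a‖ < 1) : ‖a‖ ≤ ‖π‖ := hπ.2.2.2 a ha hlt

end Fixed

section Wild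

variable {J N : Subgroup (L ≃ₐ[ℚ_[p]] L)}

/-- Wildness at the uniformizer of `L^N`. -/
theorem wild_unif (hW : WildData L J N) {π : L} (hπ : IsUnifOf N π) {τ : L ≃ₐ[ℚ_[p]] L}
    (hτ : τ ∈ J) : ‖τ π - π‖ ≤ ‖π‖ ^ 2 := by
  have hπfix := hπ.1
  have hπ0 : 0 < ‖π‖ := hπ.2.1
  have hπne : π ≠ 0 := norm_pos_iff.mp hπ0
  set u : L := τ π / π with hu
  have hun : ‖u‖ = 1 := by rw [hu, norm_div, norm_algEquiv_L, div_self hπ0.ne']
  have huπ : u * π = τ π := by rw [hu]; field_simp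
  have key : ∀ j : ℕ, ‖(τ ^ j) π - u ^ j * π‖ < ‖π‖ := by
    intro j
    induction j with
    | zero => simpa using hπ0
    | succ j ih =>
      have h1 : (τ ^ (j + 1)) π - u ^ (j + 1) * π
          = τ ((τ ^ j) π - u ^ j * π) + (τ (u ^ j) - u ^ j) * τ π := by
        rw [pow_succ' τ j, AlgEquiv.mul_apply, map_sub, map_mul, pow_succ, mul_assoc, huπ]
        ring
      rw [h1]
      refine (norm_add_le_max_L _ _).trans_lt (max_lt ?_ ?_)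
      · rw [norm_algEquiv_L]; exact ih
      · rw [norm_mul, norm_algEquiv_L τ π]
        have h2 : ‖τ (u ^ j) - u ^ j‖ < 1 :=
          hW.inertia τ hτ _ (by rw [norm_pow, hun, one_pow])
        calc ‖τ (u ^ j) - u ^ j‖ * ‖π‖ < 1 * ‖π‖ := mul_lt_mul_of_pos_right h2 hπ0
          _ = ‖π‖ := one_mul _
  have hp := key p
  rw [hπfix _ (hW.pow_mem τ hτ)] at hp
  have h3 : ‖u ^ p - 1‖ < 1 := by
    have h4 : π - u ^ p * π = -((u ^ p - 1) * π) := by ring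
    rw [h4, norm_neg, norm_mul] at hp
    by_contra hcon
    have := mul_le_mul_of_nonneg_right (not_lt.mp hcon) hπ0.le
    rw [one_mul] at this
    exact absurd hp (not_lt.mpr this)
  have h5 : ‖u - 1‖ < 1 := by
    have h3' : ‖(u : PadicAlgCl p) ^ p - 1‖ < 1 := h3
    exact norm_sub_one_lt_of_pow h3'
  have h6 : τ π - π = (u - 1) * π := by rw [sub_mul, huπ, one_mul]
  have h7 : ‖τ π - π‖ < ‖π‖ := by
    rw [h6, norm_mul]
    calc ‖u - 1‖ * ‖π‖ < 1 * ‖π‖ := mul_lt_mul_of_pos_right h5 hπ0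
      _ = ‖π‖ := one_mul _
  exact hπ.norm_le_sq (fixed_sub (fixed_map hW.normal τ hπfix) hπfix) h7

/-- Wildness on all integers of `L^N`. -/
theorem wild_all [FiniteDimensional ℚ_[p] L] (hW : WildData L J N) {π : L} (hπ : IsUnifOf N π)
    {τ : L ≃ₐ[ℚ_[p]] L} (hτ : τ ∈ J) {a : L} (ha : ∀ ν ∈ N, ν a = a) (ha1 : ‖a‖ ≤ 1) :
    ‖τ a - a‖ ≤ ‖π‖ ^ 2 := by
  obtain ⟨-, q, -, hq0, hq1, hpowq, -⟩ := H15.exists_residue_generator L
  have hπfix := hπ.1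
  have hπ0 : 0 < ‖π‖ := hπ.2.1
  have hπ1 : ‖π‖ < 1 := hπ.2.2.1
  have hπne : π ≠ 0 := norm_pos_iff.mp hπ0
  have hqδ : ‖(q : L)‖ ≤ ‖π‖ := hπ.norm_le_of_lt_one (fun ν _ => map_natCast ν q) hq1
  set y : L := τ a - a with hy
  have hyfix : ∀ ν ∈ N, ν y = y := fixed_sub (fixed_map hW.normal τ ha) ha
  have hy1 : ‖y‖ < 1 := hW.inertia τ hτ a ha1
  have hyδ : ‖y‖ ≤ ‖π‖ := hπ.norm_le_of_lt_one hyfix hy1
  have hτa1 : ‖τ a‖ ≤ 1 := by rw [norm_algEquiv_L]; exact ha1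
  have hc1 : ‖a - a ^ q‖ < 1 := by rw [norm_sub_rev]; exact hpowq a ha1
  have hcfix : ∀ ν ∈ N, ν (a - a ^ q) = a - a ^ q := fixed_sub ha (fixed_pow ha q)
  set b : L := (a - a ^ q) / π with hb
  have hbfix : ∀ ν ∈ N, ν b = b := fixed_div hcfix hπfix
  have hb1 : ‖b‖ ≤ 1 := by
    rw [hb, norm_div, div_le_one hπ0]
    exact hπ.norm_le_of_lt_one hcfix hc1
  have hab : a = a ^ q + π * b := by rw [hb]; field_simp; ring
  -- first part
  have hA : ‖(τ a) ^ q - a ^ q‖ ≤ ‖π‖ ^ 2 := by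
    have h1 : (τ a) ^ q - a ^ q = (∑ i ∈ Finset.range q, (τ a) ^ i * a ^ (q - 1 - i)) * y := by
      rw [hy]; exact (Commute.geom_sum₂_mul (Commute.all _ _) q).symm
    have h3 : ∑ i ∈ Finset.range q, (τ a) ^ i * a ^ (q - 1 - i)
        = (∑ i ∈ Finset.range q, ((τ a) ^ i - a ^ i) * a ^ (q - 1 - i))
          + (q : L) * a ^ (q - 1) := by
      have h4 : ∀ i ∈ Finset.range q, (τ a) ^ i * a ^ (q - 1 - i)
          = ((τ a) ^ i - a ^ i) * a ^ (q - 1 - i) + a ^ (q - 1) := by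
        intro i hi
        rw [Finset.mem_range] at hi
        have h5 : a ^ (q - 1) = a ^ i * a ^ (q - 1 - i) := by
          rw [← pow_add]; congr 1; omega
        rw [h5]; ring
      rw [Finset.sum_congr rfl h4, Finset.sum_add_distrib, Finset.sum_const, Finset.card_range,
        nsmul_eq_mul]
    have h2 : ‖∑ i ∈ Finset.range q, (τ a) ^ i * a ^ (q - 1 - i)‖ ≤ ‖π‖ := by
      rw [h3]
      refine (norm_add_le_max_L _ _).trans (max_le ?_ ?_)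
      · refine IsUltrametricDist.norm_sum_le_of_forall_le_of_nonneg hπ0.le fun i _ => ?_
        rw [norm_mul]
        have h6 : ‖(τ a) ^ i - a ^ i‖ ≤ ‖y‖ := H15.norm_pow_sub_pow_le hτa1 ha1 i
        have h7 : ‖a ^ (q - 1 - i)‖ ≤ 1 := by
          rw [norm_pow]; exact pow_le_one₀ (norm_nonneg _) ha1
        calc ‖(τ a) ^ i - a ^ i‖ * ‖a ^ (q - 1 - i)‖ ≤ ‖y‖ * 1 :=
              mul_le_mul h6 h7 (norm_nonneg _) (norm_nonneg _)
          _ = ‖y‖ := mul_one _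
          _ ≤ ‖π‖ := hyδ
      · rw [norm_mul]
        have h7 : ‖a ^ (q - 1)‖ ≤ 1 := by
          rw [norm_pow]; exact pow_le_one₀ (norm_nonneg _) ha1
        calc ‖(q : L)‖ * ‖a ^ (q - 1)‖ ≤ ‖π‖ * 1 :=
              mul_le_mul hqδ h7 (norm_nonneg _) hπ0.le
          _ = ‖π‖ := mul_one _
    rw [h1, norm_mul, pow_two]
    exact mul_le_mul h2 hyδ (norm_nonneg _) hπ0.le
  -- second part
  have hB : ‖τ (π * b) - π * b‖ ≤ ‖π‖ ^ 2 := by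
    have h1 : τ (π * b) - π * b = τ π * (τ b - b) + (τ π - π) * b := by
      rw [map_mul]; ring
    rw [h1]
    refine (norm_add_le_max_L _ _).trans (max_le ?_ ?_)
    · rw [norm_mul, norm_algEquiv_L, pow_two]
      have h2 : ‖τ b - b‖ ≤ ‖π‖ :=
        hπ.norm_le_of_lt_one (fixed_sub (fixed_map hW.normal τ hbfix) hbfix)
          (hW.inertia τ hτ b hb1)
      exact mul_le_mul_of_nonneg_left h2 hπ0.le
    · rw [norm_mul]
      calc ‖τ π - π‖ * ‖b‖ ≤ ‖π‖ ^ 2 * 1 :=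
            mul_le_mul (wild_unif hW hπ hτ) hb1 (norm_nonneg _) (pow_nonneg hπ0.le 2)
        _ = ‖π‖ ^ 2 := mul_one _
  have hfin : τ a - a = ((τ a) ^ q - a ^ q) + (τ (π * b) - π * b) := by
    have h1 : τ a = (τ a) ^ q + τ (π * b) := by
      conv_lhs => rw [hab]
      rw [map_add, map_pow]
    have h2 : τ a - a = ((τ a) ^ q + τ (π * b)) - (a ^ q + π * b) := by
      rw [← h1, ← hab]
    rw [h2]; ring
  have hfin' : ‖τ a - a‖ = ‖((τ a) ^ q - a ^ q) + (τ (π * b) - π * b)‖ := congrArg _ hfin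
  rw [hfin']
  exact (norm_add_le_max_L _ _).trans (max_le hA hB)

/-- The depth on `L^N` of an element of `J` is at most `‖π‖²`. -/
theorem depthOn_le_sq [FiniteDimensional ℚ_[p] L] (hW : WildData L J N) {π : L}
    (hπ : IsUnifOf N π) {τ : L ≃ₐ[ℚ_[p]] L} (hτ : τ ∈ J) : H15.depthOn L N τ ≤ ‖π‖ ^ 2 :=
  H15.depthOn_le N τ fun _ ha1 hafix => wild_all hW hπ hτ hafix ha1

end Wild

end Fermat.Agent.S56.FL.H38

end
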