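import Mathlib
import Fermat.Agent.S56.FL.H38_CC0a

set_option autoImplicit false

/-!
# LOC-p-FL, package CC0 (helper38), part 2: the count

* `norm_unif_pow_card` : `‖π‖^|J| ≤ p^{-|N|}` (norm from `L^N` to the unramified field `L^J`);
* `le_of_wildData` : if the ramification of `L` is bounded and `p ≠ 2`, then `J ≤ N`.
-/

noncomputable section

namespace Fermat.Agent.S56.FL.H38

open scoped NNReal
open Fermat.Agent.S56.FL Polynomial Module

variable {p : ℕ} [Fact p.Prime]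
variable {L : IntermediateField ℚ_[p] (PadicAlgCl p)}
variable {J N : Subgroup (L ≃ₐ[ℚ_[p]] L)}

theorem norm_unif_pow_card [FiniteDimensional ℚ_[p] L] (hW : WildData L J N) {π : L}
    (hπ : IsUnifOf N π) : ‖π‖ ^ Nat.card J ≤ ((p : ℝ)⁻¹) ^ Nat.card N := by
  classical
  have hπfix := hπ.1
  have hπ0 : 0 < ‖π‖ := hπ.2.1
  have hπ1 : ‖π‖ < 1 := hπ.2.2.1
  let N' : Subgroup J := N.subgroupOf J
  let f : J ⧸ N' → L := fun q => Quotient.liftOn' q (fun τ : J => (τ : L ≃ₐ[ℚ_[p]] L) π) (by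
    intro τ₁ τ₂ h
    rw [QuotientGroup.leftRel_apply] at h
    have h1 : ((τ₁⁻¹ * τ₂ : J) : L ≃ₐ[ℚ_[p]] L) ∈ N := h
    have h2 := hπfix _ h1
    simp only [Subgroup.coe_mul, Subgroup.coe_inv, AlgEquiv.mul_apply] at h2
    have h3 : (τ₁ : L ≃ₐ[ℚ_[p]] L) ((τ₁ : L ≃ₐ[ℚ_[p]] L)⁻¹ ((τ₂ : L ≃ₐ[ℚ_[p]] L) π))
        = (τ₂ : L ≃ₐ[ℚ_[p]] L) π := by
      rw [← AlgEquiv.mul_apply, mul_inv_cancel, AlgEquiv.one_apply]
    change (τ₁ : L ≃ₐ[ℚ_[p]] L) π = (τ₂ : L ≃ₐ[ℚ_[p]] L) π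
    rw [← h3, h2])
  have hf : ∀ τ : J, f (QuotientGroup.mk τ) = (τ : L ≃ₐ[ℚ_[p]] L) π := fun τ => rfl
  let _ : Fintype (J ⧸ N') := Fintype.ofFinite _
  set b : L := ∏ q : J ⧸ N', f q with hb
  have hbfix : ∀ τ ∈ J, τ b = b := by
    intro τ hτ
    rw [hb, map_prod]
    refine Fintype.prod_equiv (MulAction.toPerm (⟨τ, hτ⟩ : J)) _ _ ?_
    intro q
    induction q using QuotientGroup.induction_on with
    | H σ =>
      rw [hf]
      change τ ((σ : L ≃ₐ[ℚ_[p]] L) π) = f ((⟨τ, hτ⟩ : J) • (QuotientGroup.mk σ : J ⧸ N'))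
      have : ((⟨τ, hτ⟩ : J) • (QuotientGroup.mk σ : J ⧸ N'))
          = QuotientGroup.mk ((⟨τ, hτ⟩ : J) * σ) := rfl
      rw [this, hf]
      rfl
  have hfnorm : ∀ q : J ⧸ N', ‖f q‖ = ‖π‖ := by
    intro q
    induction q using QuotientGroup.induction_on with
    | H σ => rw [hf, norm_algEquiv_L]
  have hbnorm : ‖b‖ = ‖π‖ ^ Nat.card (J ⧸ N') := by
    rw [hb, norm_prod, Finset.prod_congr rfl (fun q _ => hfnorm q), Finset.prod_const,
      Finset.card_univ, Nat.card_eq_fintype_card]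
  have hQpos : 0 < Nat.card (J ⧸ N') := Nat.card_pos
  have hb1 : ‖b‖ < 1 := by
    rw [hbnorm]; exact pow_lt_one₀ hπ0.le hπ1 hQpos.ne'
  have hbp : ‖b‖ ≤ (p : ℝ)⁻¹ := hW.unr b hbfix hb1
  have hcard : Nat.card J = Nat.card (J ⧸ N') * Nat.card N := by
    rw [Subgroup.card_eq_card_quotient_mul_card_subgroup N']
    congr 1
    exact Nat.card_congr (Subgroup.subgroupOfEquivOfLe hW.le).toEquiv
  rw [hcard, pow_mul, ← hbnorm]
  exact pow_le_pow_left₀ (norm_nonneg _) hbp _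

/-- **The wild step.**  If the ramification of `L` is bounded (and `p ≠ 2`) then `J ≤ N`. -/
theorem le_of_wildData [FiniteDimensional ℚ_[p] L] (hp2 : p ≠ 2) (hW : WildData L J N)
    (hbdd : IsBddField p L) : J ≤ N := by
  classical
  intro s hs
  by_contra hsN
  obtain ⟨π, hπ⟩ := exists_isUnifOf N
  have hπ0 : 0 < ‖π‖ := hπ.2.1
  have hπ1 : ‖π‖ < 1 := hπ.2.2.1
  let _ : Fintype N := Fintype.ofFinite _
  obtain ⟨ν₀, hν₀, hherb⟩ := H15.herbrand_top N s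
  have hne : s * ν₀ ≠ 1 := by
    intro h
    apply hsN
    have : s = ν₀⁻¹ := eq_inv_of_mul_eq_one_left h
    rw [this]; exact N.inv_mem hν₀
  have hb := hbdd (s * ν₀) hne
  set P1 : ℝ := ∏ τ : L ≃ₐ[ℚ_[p]] L, max (depth p L (s * ν₀)) (depth p L τ) with hP1
  set P2 : ℝ := ∏ τ : L ≃ₐ[ℚ_[p]] L, max (H15.depthOn L N s) (H15.depthOn L N τ) with hP2
  have hP1nn : 0 ≤ P1 :=
    Finset.prod_nonneg fun τ _ => (H15.depth_nonneg L _).trans (le_max_left _ _)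
  have hP2nn : 0 ≤ P2 :=
    Finset.prod_nonneg fun τ _ => (H15.depthOn_nonneg _ _).trans (le_max_left _ _)
  set δ : ℝ := ‖π‖ with hδ
  have hδ2 : δ ^ 2 ≤ 1 := pow_le_one₀ hπ0.le hπ1.le
  have hds : H15.depthOn L N s ≤ δ ^ 2 := depthOn_le_sq hW hπ hs
  -- bound of `P2`
  have hP2le : P2 ≤ (δ ^ 2) ^ Nat.card J := by
    have h1 : P2 ≤ ∏ τ : L ≃ₐ[ℚ_[p]] L, (if τ ∈ J then δ ^ 2 else 1) := by
      refine Finset.prod_le_prod (fun τ _ => (H15.depthOn_nonneg _ _).trans (le_max_left _ _))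
        fun τ _ => ?_
      split_ifs with hτ
      · exact max_le hds (depthOn_le_sq hW hπ hτ)
      · refine max_le (hds.trans hδ2) ?_
        exact H15.depthOn_le N τ fun a ha1 _ => H15.norm_sub_le_one τ ha1
    refine h1.trans (le_of_eq ?_)
    rw [Finset.prod_ite, Finset.prod_const, Finset.prod_const_one, mul_one]
    congr 1
    rw [Nat.card_eq_fintype_card, Fintype.card_subtype]
  have hcard := norm_unif_pow_card hW hπ
  have hNpos : 0 < Nat.card N := Nat.card_pos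
  have hcN : Fintype.card N = Nat.card N := (Nat.card_eq_fintype_card).symm
  rw [hcN] at hherb
  have hpinv0 : (0 : ℝ) < (p : ℝ)⁻¹ := inv_pos.mpr H15.p_pos_real
  have hpinv1 : (p : ℝ)⁻¹ < 1 := inv_lt_one_of_one_lt₀ H15.one_lt_p_real
  -- the chain
  have hchain : ((p : ℝ)⁻¹) ^ (p * Nat.card N) ≤ ((p : ℝ)⁻¹) ^ (2 * (p - 1) * Nat.card N) := by
    calc ((p : ℝ)⁻¹) ^ (p * Nat.card N) = (((p : ℝ)⁻¹) ^ p) ^ Nat.card N := by rw [pow_mul]
      _ ≤ (P1 ^ (p - 1)) ^ Nat.card N := pow_le_pow_left₀ (pow_nonneg hpinv0.le _) hb _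
      _ = (P1 ^ Nat.card N) ^ (p - 1) := by rw [← pow_mul, ← pow_mul, mul_comm]
      _ ≤ P2 ^ (p - 1) := pow_le_pow_left₀ (pow_nonneg hP1nn _) hherb _
      _ ≤ ((δ ^ 2) ^ Nat.card J) ^ (p - 1) := pow_le_pow_left₀ hP2nn hP2le _
      _ = ((δ ^ Nat.card J) ^ 2) ^ (p - 1) := by
          rw [← pow_mul, ← pow_mul, ← pow_mul, ← pow_mul]; congr 1; ring
      _ ≤ ((((p : ℝ)⁻¹) ^ Nat.card N) ^ 2) ^ (p - 1) :=
          pow_le_pow_left₀ (pow_nonneg (pow_nonneg hπ0.le _) _)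
            (pow_le_pow_left₀ (pow_nonneg hπ0.le _) hcard _) _
      _ = ((p : ℝ)⁻¹) ^ (2 * (p - 1) * Nat.card N) := by
          rw [← pow_mul, ← pow_mul]; congr 1; ring
  have hexp := (pow_le_pow_iff_right_of_lt_one₀ hpinv0 hpinv1).mp hchain
  have hp3 : 3 ≤ p := by
    have := (Fact.out : p.Prime).two_le
    omega
  have h1 : 2 * (p - 1) * Nat.card N ≤ p * Nat.card N := hexp
  have h2 : 2 * (p - 1) ≤ p := Nat.le_of_mul_le_mul_right h1 hNpos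
  omega

end Fermat.Agent.S56.FL.H38

end
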