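import Mathlib
import Fermat.Agent.S56.FL.H38_CC0b

set_option autoImplicit false

/-!
# LOC-p-FL, package CC0 (helper38): `Stmt_CC0`

A bounded homomorphism `c : G₁ → k` (`G₁ ⊇` inertia, `k` of characteristic `p ≠ 2`) vanishes on
inertia.

Proof.  `L/ℚ_p` finite Galois with bounded ramification on which `c` factors, `ρ : G_p → Gal(L/ℚ_p)`
the restriction, `J = ρ(I)`, `Ñ` = the normal core in `G_p` of `ker (c|_I)` and `N = ρ(Ñ)`.  Then
`(J, N)` is a `WildData` (`J` is contained in the inertia group of `L`, `L^J` is unramified by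
`H38.norm_le_inv_of_fixed`, `τ^p ∈ N` for `τ ∈ J` since `k` has characteristic `p`), so `J ≤ N` by
`H38.le_of_wildData` (Herbrand's theorem `H15.herbrand_top` + the count
`2 ≤ Σ_τ min (i σ) (i τ) ≤ p/(p-1)` in `L^N`).
-/

noncomputable section

namespace Fermat.Agent.S56.FL.H38

open scoped NNReal
open Fermat.Agent.S56.FL Polynomial Module

variable {p : ℕ} [Fact p.Prime]

theorem inertiaP_normal : (inertiaP p).Normal := by
  constructor
  intro σ hσ g a ha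
  have h1 : (g * σ * g⁻¹) a - a = g (σ (g⁻¹ a) - g⁻¹ a) := by
    rw [map_sub]
    have h2 : g (g⁻¹ a) = a := by
      rw [← AlgEquiv.mul_apply, mul_inv_cancel, AlgEquiv.one_apply]
    rw [h2]
    rfl
  rw [h1, norm_gal]
  exact hσ _ (by rw [norm_gal]; exact ha)

section Restrict

variable (L : IntermediateField ℚ_[p] (PadicAlgCl p)) [Normal ℚ_[p] L]

/-- The restriction `Gal(K̄/ℚ_p) → Gal(L/ℚ_p)`. -/
def resL : Gp p →* (L ≃ₐ[ℚ_[p]] L) := AlgEquiv.restrictNormalHom L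

variable {L}

theorem resL_apply (σ : Gp p) (a : L) : ((resL L σ a : L) : PadicAlgCl p) = σ (a : PadicAlgCl p) :=
  AlgEquiv.restrictNormal_commutes σ L a

theorem resL_surjective : Function.Surjective (resL L) :=
  AlgEquiv.restrictNormalHom_surjective (PadicAlgCl p)

theorem mem_fixingSubgroup_of_resL_eq_one {σ : Gp p} (h : resL L σ = 1) :
    σ ∈ L.fixingSubgroup := by
  rw [IntermediateField.mem_fixingSubgroup_iff]
  intro a ha
  have h1 := resL_apply σ (⟨a, ha⟩ : L)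
  rw [h] at h1
  exact h1.symm

end Restrict

/-- **CC0**: `Stmt_CC0` of `Fermat/Agent/S56/FL/Coh.lean`. -/
theorem stmt_CC0 : Stmt_CC0 := by
  intro p _ hp2 k _ _ G₁ hIG c hc σ₀ hσ₀
  obtain ⟨hadd, L, hfin, hnormal, hbdd, htriv⟩ := hc
  have hadd' : ∀ σ τ : G₁, c (σ * τ) = c σ + c τ := by
    intro σ τ
    rw [hadd σ τ]
    simp
  -- the homomorphism on inertia
  let φ : inertiaP p →* Multiplicative k :=
    MonoidHom.mk' (fun σ => Multiplicative.ofAdd (c ⟨σ, hIG σ.2⟩)) (by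
      intro a b
      rw [← ofAdd_add, ← hadd']
      rfl)
  have hφ : ∀ σ : inertiaP p, φ σ = Multiplicative.ofAdd (c ⟨σ, hIG σ.2⟩) := fun σ => rfl
  have hInormal : (inertiaP p).Normal := inertiaP_normal
  set Nt : Subgroup (Gp p) := (φ.ker.map (inertiaP p).subtype).normalCore with hNt
  have hNtI : Nt ≤ inertiaP p := by
    refine (Subgroup.normalCore_le _).trans ?_
    rintro x ⟨y, -, rfl⟩
    exact y.2
  have hNtφ : ∀ ν (hν : ν ∈ Nt), φ ⟨ν, hNtI hν⟩ = 1 := by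
    intro ν hν
    obtain ⟨y, hy, hyν⟩ := Subgroup.normalCore_le _ hν
    have : y = ⟨ν, hNtI hν⟩ := Subtype.ext hyν
    rw [← this]
    exact hy
  set J : Subgroup (L ≃ₐ[ℚ_[p]] L) := (inertiaP p).map (resL L) with hJ
  set N : Subgroup (L ≃ₐ[ℚ_[p]] L) := Nt.map (resL L) with hN
  have hpk : ∀ x : Multiplicative k, x ^ p = 1 := by
    intro x
    have h1 : x ^ p = Multiplicative.ofAdd (p • Multiplicative.toAdd x) := rfl
    rw [h1, nsmul_eq_mul, CharP.cast_eq_zero, zero_mul]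
    rfl
  have hW : WildData L J N := by
    refine ⟨Subgroup.map_mono hNtI, ?_, ?_, ?_, ?_⟩
    · exact Subgroup.Normal.map (Subgroup.normalCore_normal _) _ resL_surjective
    · rintro τ ⟨σ, hσ, rfl⟩ a ha
      have h1 : ‖resL L σ a - a‖ = ‖σ (a : PadicAlgCl p) - (a : PadicAlgCl p)‖ := by
        rw [← resL_apply]; rfl
      rw [h1]
      exact hσ _ ha
    · intro a hafix ha1
      refine norm_le_inv_of_fixed (a := (a : PadicAlgCl p)) ?_ ha1
      intro σ hσ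
      have h1 := hafix (resL L σ) ⟨σ, hσ, rfl⟩
      rw [← resL_apply, h1]
    · rintro τ ⟨σ, hσ, rfl⟩
      refine ⟨σ ^ p, ?_, map_pow _ _ _⟩
      rw [hNt]
      intro g
      have hg : g * σ * g⁻¹ ∈ inertiaP p := hInormal.conj_mem σ hσ g
      refine ⟨⟨g * σ * g⁻¹, hg⟩ ^ p, ?_, ?_⟩
      · rw [SetLike.mem_coe, MonoidHom.mem_ker, map_pow]
        exact hpk _
      · simp [conj_pow]
  have hJN : J ≤ N := le_of_wildData hp2 hW hbdd
  have hσJ : resL L (σ₀ : Gp p) ∈ J := ⟨σ₀, hσ₀, rfl⟩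
  obtain ⟨ν, hν, hνσ⟩ := hJN hσJ
  -- `σ₀ ν⁻¹` fixes `L`
  have hνI : ν ∈ inertiaP p := hNtI hν
  have hker : resL L ((σ₀ : Gp p) * ν⁻¹) = 1 := by
    rw [map_mul, map_inv, hνσ, mul_inv_cancel]
  have hfix : (σ₀ : Gp p) * ν⁻¹ ∈ L.fixingSubgroup := mem_fixingSubgroup_of_resL_eq_one hker
  have hG1 : (σ₀ : Gp p) * ν⁻¹ ∈ G₁ := G₁.mul_mem σ₀.2 (G₁.inv_mem (hIG hνI))
  have h1 : c ⟨(σ₀ : Gp p) * ν⁻¹, hG1⟩ = 0 := (htriv ⟨_, hG1⟩ hfix).2
  have h2 : c ⟨ν, hIG hνI⟩ = 0 := by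
    have := hNtφ ν hν
    rw [hφ] at this
    exact this
  have h3 : σ₀ = ⟨(σ₀ : Gp p) * ν⁻¹, hG1⟩ * ⟨ν, hIG hνI⟩ := by
    apply Subtype.ext
    simp
  rw [h3, hadd', h1, h2, add_zero]

end Fermat.Agent.S56.FL.H38

end
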