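import Mathlib
import Fermat.Agent.S56.FL.H15_CC2Core
import Fermat.Agent.S56.FL.H15_CCZ
import Fermat.Agent.S56.FL.H38_CC0

set_option autoImplicit false
set_option linter.style.haveILetI false
set_option linter.unusedSectionVars false

/-!
# LOC-p-FL, package UNITS / CC2z, leaf ASM (helper59): `Stmt_CC2core → Stmt_CC2z`

`H = ker χ ∩ ker ω ≤ G₂`, `N` = the normal core of `H` in `Gal(K̄/ℚ_p)`; `g ^ m ∈ N` for
`m = 2 (#k - 1) (p - 1)`.  The two cocycles restrict to homomorphisms on `N` to which the core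
applies; a combination vanishes on `N`, hence is a coboundary (`H85.coboundary_of_vanish`, the
index of `N` in `G₂` being prime to `p` by Cauchy).
-/

noncomputable section

namespace Fermat.Agent.S56.FL.H59

open Fermat.Agent.S56.FL Fermat.Agent.S56.FL.H85

variable {p : ℕ} [Fact p.Prime]

section cocycleOn

variable {k : Type} [Field k] {G : Type*} [Group G] (χ : G →* kˣ) (c : G → k)

theorem cocG_one (hcoc : ∀ σ τ, c (σ * τ) = c σ + (χ σ : k) * c τ) : c 1 = 0 := by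
  have h := hcoc 1 1
  rw [mul_one, map_one, Units.val_one, one_mul] at h
  linear_combination -h

theorem cocG_conj (hcoc : ∀ σ τ, c (σ * τ) = c σ + (χ σ : k) * c τ) (g h : G)
    (hh : χ h = 1) : c (g * h * g⁻¹) = (χ g : k) * c h := by
  have h1 := hcoc (g * h) g⁻¹
  have h2 := hcoc g h
  have h3 := hcoc g g⁻¹
  rw [mul_inv_cancel, cocG_one χ c hcoc] at h3
  rw [h1, h2, map_mul, hh, mul_one]
  linear_combination -h3

end cocycleOn

theorem stmt_CC2z_of_core (hcore : H15.Stmt_CC2core) : Stmt_CC2z := by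
  intro p _ hp2 k _ _ _ G₂ hI hidx χ ψ hψ hχψ c₁ c₂ hc₁ hc₂
  classical
  have hp : p.Prime := Fact.out
  obtain ⟨L, hfd, hN, hbdd, hμ, htriv⟩ :=
    H15.exists_common_field hp2 hc₁.isBddCocycle hc₂.isBddCocycle
  haveI := hfd
  haveI : Normal ℚ_[p] L := hN
  have hcoc₁ := hc₁.1
  have hcoc₂ := hc₂.1
  obtain ⟨ζ, hζ1, hζp⟩ := H15.exists_zeta (p := p)
  have hζ : IsPrimitiveRoot ζ p := by
    rw [IsPrimitiveRoot.iff_orderOf]
    exact orderOf_eq_prime hζp hζ1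
  have hζL : ζ ∈ L := hμ ζ hζp
  haveI hG₂n : G₂.Normal := Subgroup.normal_of_index_eq_two hidx
  have hsq : ∀ g : Gp p, g ^ 2 ∈ G₂ := fun g => Subgroup.sq_mem_of_index_two hidx g
  -- the extensions by `1`, `0`
  set χE : Gp p → k := fun σ => if h : σ ∈ G₂ then ((χ ⟨σ, h⟩ : kˣ) : k) else 1 with hχEdef
  set cE₁ : Gp p → k := fun σ => if h : σ ∈ G₂ then c₁ ⟨σ, h⟩ else 0 with hcE₁def
  set cE₂ : Gp p → k := fun σ => if h : σ ∈ G₂ then c₂ ⟨σ, h⟩ else 0 with hcE₂def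
  have hχE : ∀ σ (h : σ ∈ G₂), χE σ = ((χ ⟨σ, h⟩ : kˣ) : k) := fun σ h => dif_pos h
  have hcE₁ : ∀ σ (h : σ ∈ G₂), cE₁ σ = c₁ ⟨σ, h⟩ := fun σ h => dif_pos h
  have hcE₂ : ∀ σ (h : σ ∈ G₂), cE₂ σ = c₂ ⟨σ, h⟩ := fun σ h => dif_pos h
  -- the subgroups `H` and `N`
  set H : Subgroup (Gp p) := (χ.ker.map G₂.subtype) ⊓ (omg hζ).ker with hHdef
  have hmemH : ∀ σ, σ ∈ H ↔ (∃ h : σ ∈ G₂, χ ⟨σ, h⟩ = 1) ∧ omg hζ σ = 1 := by
    intro σ
    rw [hHdef, Subgroup.mem_inf, MonoidHom.mem_ker, Subgroup.mem_map]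
    constructor
    · rintro ⟨⟨x, hx, rfl⟩, h2⟩
      exact ⟨⟨x.2, MonoidHom.mem_ker.1 hx⟩, h2⟩
    · rintro ⟨⟨h, h1⟩, h2⟩
      exact ⟨⟨⟨σ, h⟩, MonoidHom.mem_ker.2 h1, rfl⟩, h2⟩
  set N : Subgroup (Gp p) := H.normalCore with hNdef
  have hNH : N ≤ H := Subgroup.normalCore_le H
  have hNn : N.Normal := Subgroup.normalCore_normal H
  have hNG₂ : N ≤ G₂ := fun n hn => ((hmemH n).1 (hNH hn)).1.1
  have hNζ : ∀ n ∈ N, n ζ = ζ := fun n hn =>
    (omg_eq_one_iff hζ n).1 ((hmemH n).1 (hNH hn)).2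
  have hNχ : ∀ n (hn : n ∈ N), χ ⟨n, hNG₂ hn⟩ = 1 := fun n hn =>
    ((hmemH n).1 (hNH hn)).1.2
  -- the exponent
  have hcardk : ∀ u : kˣ, u ^ (Nat.card k - 1) = 1 := by
    intro u
    haveI : Fintype k := Fintype.ofFinite k
    apply Units.ext
    rw [Units.val_pow_eq_pow_val, Units.val_one, Nat.card_eq_fintype_card]
    exact FiniteField.pow_card_sub_one_eq_one (u : k) u.ne_zero
  have hcardp : ∀ u : (ZMod p)ˣ, u ^ (p - 1) = 1 := fun u => ZMod.units_pow_card_sub_one_eq_one p u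
  set m : ℕ := 2 * (Nat.card k - 1) * (p - 1) with hm
  have hpowH : ∀ x : Gp p, x ^ m ∈ H := by
    intro x
    rw [hmemH]
    have hx2 : x ^ (2 * (Nat.card k - 1) * (p - 1)) ∈ G₂ := by
      rw [mul_assoc, pow_mul]
      exact pow_mem (hsq x) _
    refine ⟨⟨hx2, ?_⟩, ?_⟩
    · have e : (⟨x ^ (2 * (Nat.card k - 1) * (p - 1)), hx2⟩ : G₂)
          = ((⟨x ^ 2, hsq x⟩ : G₂) ^ (Nat.card k - 1)) ^ (p - 1) := by
        apply Subtype.ext
        push_cast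
        rw [← pow_mul, ← pow_mul, mul_assoc]
      rw [e, map_pow, map_pow, hcardk, one_pow]
    · rw [hm, map_pow, mul_comm, pow_mul, hcardp, one_pow]
  have hpowN : ∀ g : Gp p, g ^ m ∈ N := by
    intro g b
    have : b * g ^ m * b⁻¹ = (b * g * b⁻¹) ^ m := (conj_pow (a := b) (b := g) (i := m)).symm
    rw [this]
    exact hpowH _
  have hpm : ¬ p ∣ m := by
    haveI : Fintype k := Fintype.ofFinite k
    obtain ⟨n, hn⟩ := FiniteField.card k p
    have hk1 : 1 < Nat.card k := by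
      rw [Nat.card_eq_fintype_card]
      exact Fintype.one_lt_card
    have hpk : p ∣ Nat.card k := by
      rw [Nat.card_eq_fintype_card, hn.2]
      exact dvd_pow_self p n.pos.ne'
    intro hdvd
    rw [hm] at hdvd
    rcases (Nat.Prime.dvd_mul hp).1 hdvd with h1 | h1
    · rcases (Nat.Prime.dvd_mul hp).1 h1 with h2 | h2
      · exact hp2 ((Nat.prime_dvd_prime_iff_eq hp Nat.prime_two).1 h2)
      · have h3 : p ∣ 1 := by
          have := Nat.dvd_sub hpk h2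
          rwa [Nat.sub_sub_self hk1.le] at this
        exact hp.one_lt.ne' (Nat.dvd_one.1 h3)
    · have h2 : p ≤ p - 1 := Nat.le_of_dvd (by have := hp.two_le; omega) h1
      have := hp.two_le
      omega
  -- finite index
  set M : Subgroup (Gp p) := G₂ ⊓ (H38.resL L).ker with hMdef
  haveI hMn : M.Normal := inferInstance
  have hMle : M ≤ N := by
    rw [hNdef, Subgroup.normal_le_normalCore]
    intro σ hσ
    rw [hMdef, Subgroup.mem_inf, MonoidHom.mem_ker] at hσ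
    have hfix : σ ∈ L.fixingSubgroup := H38.mem_fixingSubgroup_of_resL_eq_one hσ.2
    rw [hmemH]
    refine ⟨⟨hσ.1, (htriv ⟨σ, hσ.1⟩ hfix).1⟩, (omg_eq_one_iff hζ σ).2 ?_⟩
    exact (IntermediateField.mem_fixingSubgroup_iff L σ).1 hfix ζ hζL
  haveI : Finite (Gp p ⧸ L.fixingSubgroup) := finite_quotient_of_le (le_refl _)
  haveI hfi1 : L.fixingSubgroup.FiniteIndex := Subgroup.finiteIndex_of_finite_quotient
  have hker : (H38.resL L).ker = L.fixingSubgroup := by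
    ext σ
    rw [MonoidHom.mem_ker]
    exact ⟨H38.mem_fixingSubgroup_of_resL_eq_one, fun h => by
      apply AlgEquiv.ext
      intro a
      apply Subtype.ext
      rw [H38.resL_apply]
      exact (IntermediateField.mem_fixingSubgroup_iff L σ).mp h a a.2⟩
  haveI hfi2 : (H38.resL L).ker.FiniteIndex := by rw [hker]; exact hfi1
  haveI hfi3 : G₂.FiniteIndex := ⟨by rw [hidx]; norm_num⟩
  haveI hfi4 : M.FiniteIndex := inferInstance
  haveI hfi5 : N.FiniteIndex := Subgroup.finiteIndex_of_le hMle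
  haveI hfi6 : (N.subgroupOf G₂).FiniteIndex := inferInstance
  haveI : Finite (↥G₂ ⧸ N.subgroupOf G₂) := Subgroup.finite_quotient_of_finiteIndex
  haveI hNn' : (N.subgroupOf G₂).Normal := inferInstance
  have hidxk : ((Nat.card (↥G₂ ⧸ N.subgroupOf G₂) : ℕ) : k) ≠ 0 := by
    intro h0
    have hdvd : p ∣ Nat.card (↥G₂ ⧸ N.subgroupOf G₂) := (CharP.cast_eq_zero_iff k p _).1 h0
    obtain ⟨x, hx⟩ := exists_prime_orderOf_dvd_card' (G := ↥G₂ ⧸ N.subgroupOf G₂) p hdvd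
    obtain ⟨g, rfl⟩ := QuotientGroup.mk_surjective x
    have h1 : (QuotientGroup.mk g : ↥G₂ ⧸ N.subgroupOf G₂) ^ m = 1 := by
      rw [← QuotientGroup.mk_pow, QuotientGroup.eq_one_iff, Subgroup.mem_subgroupOf]
      push_cast
      exact hpowN _
    have h2 := orderOf_dvd_of_pow_eq_one h1
    rw [hx] at h2
    exact hpm h2
  -- the hypothesis on inertia
  have hχI : ∀ σ ∈ inertiaP p,
      (cst p k ((omg hζ σ : (ZMod p)ˣ) : ZMod p) * (χE σ)⁻¹) ^ ((p + 1) / 2)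
        = cst p k ((omg hζ σ : (ZMod p)ˣ) : ZMod p) := by
    intro σ hσ
    have hσG : σ ∈ G₂ := hI hσ
    have h1 : ((ψ ⟨σ, hσ⟩ : kˣ) : k) ^ (p + 1) = cst p k ((omg hζ σ : (ZMod p)ˣ) : ZMod p) :=
      (isCycloAt_iff hζ _ σ).1 (hψ ⟨σ, hσ⟩)
    have h2 : ((χ ⟨σ, hσG⟩ : kˣ) : k) * ((ψ ⟨σ, hσ⟩ : kˣ) : k) ^ p = ((ψ ⟨σ, hσ⟩ : kˣ) : k) :=
      hχψ ⟨σ, hσG⟩ hσ
    set y : k := ((ψ ⟨σ, hσ⟩ : kˣ) : k) with hy
    have hy0 : y ≠ 0 := Units.ne_zero _
    set x : k := ((χ ⟨σ, hσG⟩ : kˣ) : k) with hx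
    have hx0 : x ≠ 0 := Units.ne_zero _
    rw [hχE σ hσG, ← h1]
    have hodd : 2 * ((p + 1) / 2) = p + 1 := by
      have := hp.eq_two_or_odd'
      rcases this with h | h
      · exact absurd h hp2
      · obtain ⟨j, hj⟩ := h
        omega
    have h3 : x⁻¹ = y ^ (p - 1) := by
      have e : y ^ p = y ^ (p - 1) * y := by
        rw [← pow_succ]
        congr 1
        have := hp.two_le
        omega
      rw [e] at h2
      have h4 : x * y ^ (p - 1) = 1 := by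
        have h5 : (x * y ^ (p - 1)) * y = 1 * y := by rw [one_mul, mul_assoc]; exact h2
        exact mul_right_cancel₀ hy0 h5
      exact inv_eq_of_mul_eq_one_right h4
    rw [h3, ← pow_add, ← pow_mul]
    have e2 : (p + 1 + (p - 1)) * ((p + 1) / 2) = (p + 1) * p := by
      have h6 : p + 1 + (p - 1) = 2 * p := by have := hp.two_le; omega
      rw [h6, mul_comm 2 p, mul_assoc, hodd, mul_comm]
    rw [e2, pow_mul, h1, ← map_pow, ZMod.pow_card]
  -- the homomorphisms on `N`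
  have hadd : ∀ (c : G₂ → k), (∀ σ τ : G₂, c (σ * τ) = c σ + (χ σ : k) * c τ) →
      ∀ (cE : Gp p → k), (∀ σ (h : σ ∈ G₂), cE σ = c ⟨σ, h⟩) →
      (∀ n ∈ N, ∀ n' ∈ N, cE (n * n') = cE n + cE n') ∧
      (∀ σ ∈ G₂, ∀ n ∈ N, cE (σ * n * σ⁻¹) = χE σ * cE n) := by
    intro c hcoc cE hcE
    constructor
    · intro n hn n' hn'
      rw [hcE _ (hNG₂ (N.mul_mem hn hn')), hcE _ (hNG₂ hn), hcE _ (hNG₂ hn')]
      have := hcoc ⟨n, hNG₂ hn⟩ ⟨n', hNG₂ hn'⟩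
      rw [hNχ n hn, Units.val_one, one_mul] at this
      exact this
    · intro σ hσ n hn
      have hmem : σ * n * σ⁻¹ ∈ G₂ := G₂.mul_mem (G₂.mul_mem hσ (hNG₂ hn)) (G₂.inv_mem hσ)
      rw [hcE _ hmem, hcE _ (hNG₂ hn), hχE σ hσ]
      exact cocG_conj χ c hcoc ⟨σ, hσ⟩ ⟨n, hNG₂ hn⟩ (hNχ n hn)
  obtain ⟨hadd₁, hconj₁⟩ := hadd c₁ hcoc₁ cE₁ hcE₁
  obtain ⟨hadd₂, hconj₂⟩ := hadd c₂ hcoc₂ cE₂ hcE₂
  have hχEmul : ∀ σ ∈ G₂, ∀ τ ∈ G₂, χE (σ * τ) = χE σ * χE τ := by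
    intro σ hσ τ hτ
    rw [hχE _ (G₂.mul_mem hσ hτ), hχE σ hσ, hχE τ hτ, ← Units.val_mul, ← map_mul]
    rfl
  have hχEN : ∀ n ∈ N, χE n = 1 := by
    intro n hn
    rw [hχE n (hNG₂ hn), hNχ n hn, Units.val_one]
  obtain ⟨l₁, l₂, hl, hlin⟩ := hcore p hp2 k L hN hbdd ζ hζ hζL G₂ N hI hsq hNn hNG₂ hNζ
    ⟨m, hpm, hpowN⟩ χE hχEmul hχEN hχI cE₁ cE₂ hadd₁ hconj₁
    (fun n hn hnL => by rw [hcE₁ n (hNG₂ hn)]; exact (htriv ⟨n, hNG₂ hn⟩ hnL).2.1)
    hadd₂ hconj₂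
    (fun n hn hnL => by rw [hcE₂ n (hNG₂ hn)]; exact (htriv ⟨n, hNG₂ hn⟩ hnL).2.2)
  -- the combination is a coboundary
  obtain ⟨a, ha⟩ := coboundary_of_vanish χ (fun σ => l₁ * c₁ σ + l₂ * c₂ σ)
    (fun σ τ => by
      rw [hcoc₁, hcoc₂]
      ring)
    (N.subgroupOf G₂)
    (fun n hn => by
      rw [Subgroup.mem_subgroupOf] at hn
      have := hlin n hn
      rw [hcE₁ n n.2, hcE₂ n n.2] at this
      exact this)
    hidxk
  exact ⟨l₁, l₂, a, hl, ha⟩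

end Fermat.Agent.S56.FL.H59

end
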