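import Fermat.Agent.S56.FL.H85_CCDefs

set_option autoImplicit false

/-!
# LOC-p-FL, package UNITS / CC2 (helper15): self-contained sub-leaves

`Stmt_CC2z` is proved in `FL/H15_CC2*.lean` from `H59.stmt_KUMBDD` and the leaves below.

* `Stmt_CNT`  : the semilinear count (pure algebra over finite fields).
* `Stmt_FROB` : a Frobenius element for a finite Galois extension of `ℚ_p`.
-/

noncomputable section

namespace Fermat.Agent.S56.FL.H15

open Fermat.Agent.S56.FL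

/-- **CNT** (semilinear count).  `k`, `κ` fields of characteristic `p`, `k` finite; `z ∈ κ` of
degree `2` over `𝔽_p` (`z^p ≠ z`, `z^{p²} = z`).  The additive maps `f : k → κ` with
`f (y x) = z f x` and `f (w x) = t (f x)^{p²}` form a `k`-vector space (`(l • f) x = f (l x)`) with
at most `#k` elements, so two of them are `k`-linearly dependent.

Proof: if `f ≠ 0` then `y` and `z` have the same minimal polynomial over `𝔽_p`, of degree `2`, so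
`E = 𝔽_p[y] ≅ 𝔽_{p²}`, `ι : E → κ`, `y ↦ z`, and `f (c x) = ι c * f x` for `c ∈ E`.  Let
`k₀ = E[w]`, `Q = Σ_{j ≤ m} q_j T^j` the minimal polynomial of `w` over `E`.  With
`t_0 = 1`, `t_{j+1} = t * t_j^{p²}`: `f (w^j x) = t_j (f x)^{p^{2j}}`, so every value `v = f x` is a
root of `A = Σ_j ι(q_j) t_j V^{p^{2j}}` (degree `p^{2m} = #k₀`, leading coefficient `t_m ≠ 0`), and
`f` is determined by its values on a `k₀`-basis of `k`: at most `(#k₀)^{[k:k₀]} = #k` maps.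
Pigeonhole on `(l₁, l₂) ↦ l₁ • f₁ + l₂ • f₂` (`#k² > #k`). -/
def Stmt_CNT : Prop :=
  ∀ (p : ℕ) [Fact p.Prime] (k κ : Type) [Field k] [Finite k] [CharP k p] [Field κ] [CharP κ p]
    (y w : k) (z t : κ), w ≠ 0 → t ≠ 0 → z ^ p ≠ z → z ^ (p ^ 2) = z →
    ∀ f₁ f₂ : k →+ κ,
      (∀ x, f₁ (y * x) = z * f₁ x) → (∀ x, f₁ (w * x) = t * f₁ x ^ (p ^ 2)) →
      (∀ x, f₂ (y * x) = z * f₂ x) → (∀ x, f₂ (w * x) = t * f₂ x ^ (p ^ 2)) →
      ∃ l₁ l₂ : k, (l₁ ≠ 0 ∨ l₂ ≠ 0) ∧ ∀ x, f₁ (l₁ * x) + f₂ (l₂ * x) = 0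

/-- **FROB** (Frobenius element).  For `M/ℚ_p` finite Galois there is `φ ∈ Gal(K̄/ℚ_p)` acting as
`a ↦ a^p` on the residue field of `M`.

Proof: `x` a generator of the integers of `M` (`H15.exists_poly_eq`), `P ∈ ℤ_p[X]` its minimal
polynomial (`H15.IsMinZ`): `P(x^p) ≡ P(x)^p = 0 mod p`, and `P(x^p) = ∏_τ (x^p - τ x)`, so
`‖x^p - τ x‖ < 1` for some `τ ∈ Gal(M/ℚ_p)`; for `a = g(x)`, `g ∈ ℤ_p[X]`:
`τ a = g(τ x) ≡ g(x^p) ≡ g(x)^p`.  Lift `τ` (`H38.resL_surjective`). -/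
def Stmt_FROB : Prop :=
  ∀ (p : ℕ) [Fact p.Prime] (M : IntermediateField ℚ_[p] (PadicAlgCl p))
    [FiniteDimensional ℚ_[p] M], Normal ℚ_[p] M →
    ∃ φ : Gp p, ∀ a ∈ M, ‖a‖ ≤ 1 → ‖φ a - a ^ p‖ < 1

end Fermat.Agent.S56.FL.H15

end
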