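import Mathlib
import Fermat.Agent.S56.FL.LF.H59_LocTame
import Fermat.Agent.S56.FL.H15_CC2Defs
import Fermat.Agent.S56.FL.H38_CC0

set_option autoImplicit false
set_option linter.style.haveILetI false

/-!
# LOC-p-FL, package UNITS / CC2, leaf FROB (helper59): a Frobenius element of `Gal(K̄/ℚ_p)` for a
finite Galois extension `M/ℚ_p`
-/

noncomputable section

namespace Fermat.Agent.S56.FL.H59

open Fermat.Agent.S56.FL Fermat.Agent.S56.FL.H15

theorem stmt_FROB : H15.Stmt_FROB := by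
  intro p _ M _ hN
  haveI : Normal ℚ_[p] M := hN
  obtain ⟨φ₀, hφ₀⟩ := exists_frobenius M hN
  obtain ⟨φ, hφ⟩ := H38.resL_surjective (L := M) φ₀
  refine ⟨φ, fun a haM ha => ?_⟩
  have h1 := hφ₀ ⟨⟨a, haM⟩, ha⟩
  rw [mem_mL] at h1
  have h2 : (((φ₀ • (⟨⟨a, haM⟩, ha⟩ : OL M) - (⟨⟨a, haM⟩, ha⟩ : OL M) ^ p : OL M) : M) :
      PadicAlgCl p) = φ a - a ^ p := by
    push_cast
    rw [coe_smul_OL, ← hφ, H38.resL_apply]
  rw [h2] at h1
  exact h1

end Fermat.Agent.S56.FL.H59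

end
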