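/-
S56 FL, package UNITS / CC2core (helper61): the small leaves ELL0, LEVX, PHI2, PE0 of helper15's
level analysis.

* `exists_ell0`   : a nonzero `𝔽_p`-linear functional on the finite field `k`.
* `exists_levCtx` : a uniformizer of `K ∋ ζ_p` and the level of `ζ_p - 1`.
* `exists_frob_sq`: the square of a Frobenius element lies in `G₂`.
* `CoreCtx.IsTameGen.not_dvd_e₀` : `p ∤ e₀` in the presence of a tame generator.
-/
import Fermat.Agent.S56.FL.H15_CC2Step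
import Fermat.Agent.S56.FL.H59_Frob

set_option autoImplicit false
set_option linter.style.haveILetI false
set_option linter.unusedSectionVars false

noncomputable section

namespace Fermat.Agent.S56.FL.H61

open scoped NNReal
open Fermat.Agent.S56.FL Fermat.Agent.S56.FL.H15 Fermat.Agent.S56.FL.H85 Module

/-- **ELL0.** -/
theorem exists_ell0 (p : ℕ) [Fact p.Prime] (k : Type) [Field k] [Finite k] [CharP k p] :
    ∃ ℓ₀ : k →+ ZMod p, (∀ (a : ZMod p) (x : k), ℓ₀ (H85.cst p k a * x) = a * ℓ₀ x) ∧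
      ∀ y : k, (∀ x : k, ℓ₀ (x * y) = 0) → y = 0 := by
  letI : Algebra (ZMod p) k := ZMod.algebra k p
  have h1 : ¬ ∀ φ : Module.Dual (ZMod p) k, φ (1 : k) = 0 := by
    intro h
    exact one_ne_zero ((Module.forall_dual_apply_eq_zero_iff (ZMod p) (1 : k)).1 h)
  obtain ⟨φ, hφ⟩ := not_forall.1 h1
  refine ⟨φ.toAddMonoidHom, fun a x => ?_, fun y hy => ?_⟩
  · have h2 : H85.cst p k a * x = a • x := (Algebra.smul_def a x).symm
    change φ (H85.cst p k a * x) = a * φ x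
    rw [h2, map_smul, smul_eq_mul]
  · by_contra hy0
    apply hφ
    have := hy y⁻¹
    rwa [inv_mul_cancel₀ hy0] at this

variable {p : ℕ} [Fact p.Prime]

/-- **LEVX.** -/
theorem exists_levCtx (K : IntermediateField ℚ_[p] (PadicAlgCl p)) [FiniteDimensional ℚ_[p] K]
    {ζ : PadicAlgCl p} (hζK : ζ ∈ K) (hζ1 : ζ ≠ 1) (hζp : ζ ^ p = 1) :
    ∃ (ϖ : PadicAlgCl p) (e₀ : ℕ), H15.LevCtx K ϖ ζ e₀ := by
  have hp : p.Prime := Fact.out
  obtain ⟨π, hπ0, hπ1, hπmax⟩ := H15.exists_uniformizer K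
  have hz := H15.norm_zeta_sub_one hζ1 hζp
  have hz1 : ‖ζ - 1‖ ≤ 1 := by
    by_contra hcon
    have h1 : 1 ≤ ‖ζ - 1‖ ^ (p - 1) := one_le_pow₀ (not_le.mp hcon).le
    rw [hz] at h1
    exact absurd (inv_lt_one_of_one_lt₀ (H15.one_lt_p_real (p := p))) (not_lt.mpr h1)
  have hzK : ζ - 1 ∈ K := K.sub_mem hζK K.one_mem
  have hz0 : (⟨ζ - 1, hzK⟩ : K) ≠ 0 := by
    intro h
    have := congrArg (fun a : K => (a : PadicAlgCl p)) h
    exact hζ1 (sub_eq_zero.mp this)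
  obtain ⟨j, hj⟩ := H15.exists_norm_eq_pow K (π := π) hπ0 hπ1 hπmax ⟨ζ - 1, hzK⟩ hz0 hz1
  exact ⟨(π : PadicAlgCl p), j,
    { hϖK := π.2
      hϖ0 := hπ0
      hϖ1 := hπ1
      hmax := fun a ha h => hπmax ⟨a, ha⟩ h
      hζK := hζK
      hζ1 := hζ1
      hζp := hζp
      he₀ := hj }⟩

/-- **PHI2.** -/
theorem exists_frob_sq (K : IntermediateField ℚ_[p] (PadicAlgCl p)) [FiniteDimensional ℚ_[p] K]
    (hK : Normal ℚ_[p] K) (G₂ : Subgroup (Gp p)) (hsq : ∀ g : Gp p, g ^ 2 ∈ G₂) :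
    ∃ Φ ∈ G₂, ∀ a ∈ K, ‖a‖ ≤ 1 → ‖Φ a - a ^ (p ^ 2)‖ < 1 := by
  haveI : Normal ℚ_[p] K := hK
  obtain ⟨φ, hφ⟩ := H59.stmt_FROB p K hK
  refine ⟨φ ^ 2, hsq φ, fun a haK ha => ?_⟩
  have h1 : φ a ∈ K := H15.map_mem_of_normal φ haK
  have h2 : ‖φ a‖ ≤ 1 := by rw [norm_gal]; exact ha
  have h3 := hφ (φ a) h1 h2
  have h4 := hφ a haK ha
  have h5 : ‖(φ a) ^ p - (a ^ p) ^ p‖ < 1 :=
    (H15.norm_pow_sub_pow_le_algCl h2
      (by rw [norm_pow]; exact pow_le_one₀ (norm_nonneg _) ha) p).trans_lt h4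
  have h6 : (φ ^ 2) a - a ^ (p ^ 2) = (φ (φ a) - (φ a) ^ p) + ((φ a) ^ p - (a ^ p) ^ p) := by
    rw [pow_two, pow_two, pow_mul]
    change φ (φ a) - (a ^ p) ^ p = _
    ring
  rw [h6]
  exact (IsUltrametricDist.norm_add_le_max _ _).trans_lt (max_lt h3 h5)

variable {k : Type} [Field k] [CharP k p]

/-- **PE0.** -/
theorem not_dvd_e₀ {C : CoreCtx p k} {σ₁ : Gp p} (hg : C.IsTameGen σ₁) : ¬ p ∣ C.e₀ := by
  have hp : p.Prime := Fact.out
  rintro ⟨e'', he''⟩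
  have he₀ : 0 < C.e₀ := C.lev.e₀_pos
  have hp1 : 1 ≤ p - 1 := by have := hp.two_le; omega
  have h1 : ‖(σ₁ C.ϖ / C.ϖ) ^ ((p - 1) * C.e₀) - 1‖ < 1 := (hg.ord _).2 dvd_rfl
  have h2 : (σ₁ C.ϖ / C.ϖ) ^ ((p - 1) * C.e₀) = ((σ₁ C.ϖ / C.ϖ) ^ ((p - 1) * e'')) ^ p := by
    rw [← pow_mul, he'']
    congr 1
    ring
  rw [h2] at h1
  have h3 := H38.norm_sub_one_lt_of_pow h1
  have h4 : (p - 1) * C.e₀ ∣ (p - 1) * e'' := (hg.ord _).1 h3
  have h5 : 0 < (p - 1) * e'' := by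
    rcases Nat.eq_zero_or_pos e'' with h0 | h0
    · rw [h0, mul_zero] at he''
      omega
    · exact Nat.mul_pos hp1 h0
  have h6 : (p - 1) * C.e₀ ≤ (p - 1) * e'' := Nat.le_of_dvd h5 h4
  have h7 : C.e₀ ≤ e'' := Nat.le_of_mul_le_mul_left h6 hp1
  have h8 : 2 * e'' ≤ p * e'' := Nat.mul_le_mul_right _ hp.two_le
  have h9 : 0 < e'' := by
    rcases Nat.eq_zero_or_pos e'' with h0 | h0
    · rw [h0, mul_zero] at he''
      omega
    · exact h0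
  omega

end Fermat.Agent.S56.FL.H61

end
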