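import Fermat.Agent.S56.FL.H85_CCDefs

set_option autoImplicit false

/-!
# LOC-p-FL, package UNITS / CC2 (helper15): sub-leaf INERT

* `Stmt_INERT` : the tame character of a tamely ramified finite Galois extension `K/ℚ_p` has exact
  order `e(K/ℚ_p)` on the inertia group.
-/

noncomputable section

namespace Fermat.Agent.S56.FL.H15

open Fermat.Agent.S56.FL

/-- **INERT.**  `K/ℚ_p` finite Galois of degree prime to `p`, `ϖ` a uniformizer of `K`,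
`‖ϖ‖^e = p⁻¹`.  There is `σ` in the inertia group of `K̄/ℚ_p` such that the unit `θ = σ ϖ / ϖ` has
exact order `e` in the residue field: `θ^n ≡ 1 ⟺ e ∣ n`.

Proof.  `Γ = Gal(K/ℚ_p)`, `J = resL K (inertiaP p) ≤ Γ`.
1. `#J ≤ e`: `J ⊆ {τ | depth τ < 1}` (`depth_eq_of_goodGen`), `H15.card_inertia_le`
   (`H15.exists_goodGen_q`, `H15.exists_isMinZ`; the uniformizer of the good generator has the same
   norm as `ϖ`).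
2. `#J ≥ e`: `a = ∏_{τ ∈ J} τ ϖ` is fixed by `inertiaP p`, `‖a‖ = ‖ϖ‖^{#J} < 1`, so
   `‖a‖ ≤ p⁻¹ = ‖ϖ‖^e` (`H38.norm_le_inv_of_fixed`).
3. `Θ : J →* κ = OL K ⧸ mL K`, `τ ↦ [τ ϖ / ϖ]` is a homomorphism (`τ ∈ J` acts trivially on `κ`) and
   is injective: `Θ τ = 1` ⟹ `‖τ ϖ - ϖ‖ < ‖ϖ‖` ⟹ `depth τ < ‖ϖ‖` (for a good generator `x`:
   `depth τ = ‖τ x - x‖ = ‖τ (x^q - x) - (x^q - x)‖` by `H15.norm_w_sub`, and `x^q - x = u ϖ`, `u` a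
   unit) ⟹ `τ = 1` (`H15.dvd_orderOf_of_depth_lt`, `orderOf τ ∣ #Γ = [K:ℚ_p]`).
4. `J` is cyclic (`isCyclic_of_injective_ringHom`); `τ₁ = resL K σ` a generator (`σ ∈ inertiaP p`):
   `Θ(τ₁)^n = 1 ⟺ τ₁^n = 1 ⟺ #J ∣ n`. -/
def Stmt_INERT : Prop :=
  ∀ (p : ℕ) [Fact p.Prime] (K : IntermediateField ℚ_[p] (PadicAlgCl p))
    [FiniteDimensional ℚ_[p] K], Normal ℚ_[p] K → ¬ p ∣ Module.finrank ℚ_[p] K →
    ∀ ϖ ∈ K, 0 < ‖ϖ‖ → ‖ϖ‖ < 1 → (∀ a ∈ K, ‖a‖ < 1 → ‖a‖ ≤ ‖ϖ‖) →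
    ∀ e : ℕ, ‖ϖ‖ ^ e = (p : ℝ)⁻¹ →
      ∃ σ ∈ inertiaP p, ∀ n : ℕ, ‖(σ ϖ / ϖ) ^ n - 1‖ < 1 ↔ e ∣ n

end Fermat.Agent.S56.FL.H15

end
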