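import Fermat.Agent.S56.FL.H38_CC0

set_option autoImplicit false

/-!
# LOC-p-FL (helper38): INERTIA-ONTO — the inertia group of `Gal(L/ℚ_p)` is the image of `inertiaP p`

`L/ℚ_p` finite Galois inside `K̄`, `resL L : Gal(K̄/ℚ_p) → Gal(L/ℚ_p)` the restriction.

* `mem_of_fixed_by_fixingSubgroup` : an element of `K̄` fixed by `Gal(K̄/L)` lies in `L`.
* `exists_root_near_in`  : every unit of `L` is congruent to a root of unity of `L` of order prime
                            to `p` (Teichmüller representative).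
* `inertia_onto`         : if `‖γ a - a‖ < 1` for all integers `a` of `L`, then `γ = resL L ι` with
                            `ι ∈ inertiaP p`.
* `inertia_onto_of_depth`: the same with the hypothesis `depth p L γ < 1`.
* `mem_map_inertiaP_iff` : `γ ∈ resL(inertiaP p) ↔ ∀ a, ‖a‖ ≤ 1 → ‖γ a - a‖ < 1`.
-/

noncomputable section

namespace Fermat.Agent.S56.FL.H38

open scoped NNReal
open Fermat.Agent.S56.FL Polynomial Module

variable {p : ℕ} [Fact p.Prime]
variable {L : IntermediateField ℚ_[p] (PadicAlgCl p)}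

/-- An element of `K̄` fixed by `Gal(K̄/L)` lies in `L`. -/
theorem mem_of_fixed_by_fixingSubgroup {a : PadicAlgCl p}
    (h : ∀ σ ∈ L.fixingSubgroup, σ a = a) : a ∈ L := by
  rw [← InfiniteGalois.fixedField_fixingSubgroup L, IntermediateField.mem_fixedField_iff]
  exact h

/-- Teichmüller representatives: every unit of `L` is congruent to a root of unity of `L` of
order prime to `p`. -/
theorem exists_root_near_in (a : L) (ha : ‖a‖ = 1) :
    ∃ (ξ : L) (n : ℕ), 0 < n ∧ ¬ p ∣ n ∧ ξ ^ n = 1 ∧ ‖a - ξ‖ < 1 := by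
  obtain ⟨ξ, n, hn, hpn, hξ, hξa⟩ := exists_root_near (a := (a : PadicAlgCl p)) ha
  have hξL : ξ ∈ L := by
    apply mem_of_fixed_by_fixingSubgroup
    intro σ hσ
    by_contra hne
    have h1 : (σ ξ) ^ n = 1 := by rw [← map_pow, hξ, map_one]
    have h2 := norm_sub_root hn hpn h1 hξ hne
    have hσa : σ (a : PadicAlgCl p) = a :=
      (IntermediateField.mem_fixingSubgroup_iff L σ).mp hσ a a.2
    have h3 : σ ξ - ξ = -(σ ((a : PadicAlgCl p) - ξ)) + ((a : PadicAlgCl p) - ξ) := by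
      rw [map_sub, hσa]; ring
    rw [h3] at h2
    have h4 : ‖-(σ ((a : PadicAlgCl p) - ξ)) + ((a : PadicAlgCl p) - ξ)‖ < 1 := by
      refine (IsUltrametricDist.norm_add_le_max _ _).trans_lt (max_lt ?_ hξa)
      rw [norm_neg, norm_gal]; exact hξa
    rw [h2] at h4
    exact lt_irrefl _ h4
  refine ⟨⟨ξ, hξL⟩, n, hn, hpn, Subtype.ext ?_, hξa⟩
  simpa using hξ

variable [FiniteDimensional ℚ_[p] L] [Normal ℚ_[p] L]

/-- **INERTIA-ONTO.**  An automorphism of `L` acting trivially on the residue field is the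
restriction of an element of the inertia group `inertiaP p`. -/
theorem inertia_onto (γ : L ≃ₐ[ℚ_[p]] L) (hγ : ∀ a : L, ‖a‖ ≤ 1 → ‖γ a - a‖ < 1) :
    ∃ ι ∈ inertiaP p, resL L ι = γ := by
  have hp1 : (1 : ℝ) < p := H15.one_lt_p_real
  have hp0 : (0 : ℝ) < p := H15.p_pos_real
  have hpinv0 : (0 : ℝ) < (p : ℝ)⁻¹ := inv_pos.mpr hp0
  have hpinv1 : (p : ℝ)⁻¹ < 1 := inv_lt_one_of_one_lt₀ hp1
  have hpL : ‖(p : L)‖ = (p : ℝ)⁻¹ := norm_p_algCl'
  have hpL0 : (p : L) ≠ 0 := by
    rw [← norm_pos_iff, hpL]; exact hpinv0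
  set J : Subgroup (L ≃ₐ[ℚ_[p]] L) := (inertiaP p).map (resL L) with hJ
  -- elements of `L^J` are fixed by inertia in `K̄`
  have hfixK : ∀ a : L, (∀ τ ∈ J, τ a = a) → ∀ σ ∈ inertiaP p, σ (a : PadicAlgCl p) = a := by
    intro a ha σ hσ
    have h1 := ha (resL L σ) ⟨σ, hσ, rfl⟩
    rw [← resL_apply, h1]
  -- the key estimate
  have key : ∀ n : ℕ, ∀ a : L, (∀ τ ∈ J, τ a = a) → ‖a‖ ≤ 1 → ‖γ a - a‖ ≤ ((p : ℝ)⁻¹) ^ n := by
    intro n
    induction n with
    | zero =>
      intro a _ ha1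
      rw [pow_zero]
      exact (hγ a ha1).le
    | succ n ih =>
      intro a haJ ha1
      -- the Teichmüller representative
      obtain ⟨ξ, hξJ, hξγ, hξa⟩ : ∃ ξ : L, (∀ τ ∈ J, τ ξ = ξ) ∧ γ ξ = ξ ∧ ‖a - ξ‖ < 1 := by
        rcases lt_or_eq_of_le ha1 with hlt | heq
        · exact ⟨0, fun τ _ => map_zero τ, map_zero γ, by rw [sub_zero]; exact hlt⟩
        · obtain ⟨ξ, m, hm, hpm, hξ, hξa⟩ := exists_root_near_in a heq
          have hξK : (ξ : PadicAlgCl p) ^ m = 1 := by
            have := congrArg (fun z : L => (z : PadicAlgCl p)) hξ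
            simpa using this
          refine ⟨ξ, ?_, ?_, hξa⟩
          · rintro τ ⟨σ, hσ, rfl⟩
            apply Subtype.ext
            rw [resL_apply]
            exact inertia_fixes_root hσ hm hpm hξK
          · by_contra hne
            have h1 : ((γ ξ : L) : PadicAlgCl p) ^ m = 1 := by
              have := congrArg (fun z : L => (z : PadicAlgCl p)) (congrArg γ hξ)
              simpa using this
            have hne' : ((γ ξ : L) : PadicAlgCl p) ≠ (ξ : PadicAlgCl p) :=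
              fun h => hne (Subtype.ext h)
            have h2 := norm_sub_root hm hpm h1 hξK hne'
            have hξ1 : ‖ξ‖ ≤ 1 := (norm_root_eq_one hm hξK).le
            have h3 : ‖γ ξ - ξ‖ < 1 := hγ ξ hξ1
            have h3' : ‖((γ ξ : L) : PadicAlgCl p) - (ξ : PadicAlgCl p)‖ < 1 := h3
            rw [h2] at h3'
            exact lt_irrefl _ h3'
      have hdJ : ∀ τ ∈ J, τ (a - ξ) = a - ξ := fixed_sub haJ hξJ
      have hd : ‖a - ξ‖ ≤ (p : ℝ)⁻¹ :=
        norm_le_inv_of_fixed (a := ((a - ξ : L) : PadicAlgCl p)) (hfixK _ hdJ) hξa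
      set a₁ : L := (a - ξ) / (p : L) with ha₁
      have ha₁J : ∀ τ ∈ J, τ a₁ = a₁ := fixed_div hdJ (fun τ _ => map_natCast τ p)
      have ha₁1 : ‖a₁‖ ≤ 1 := by
        rw [ha₁, norm_div, hpL, div_le_one hpinv0]; exact hd
      have hdecomp : a = ξ + (p : L) * a₁ := by
        rw [ha₁]; field_simp; ring
      have h1 : γ a - a = (p : L) * (γ a₁ - a₁) := by
        have h2 : γ a = ξ + (p : L) * γ a₁ := by
          conv_lhs => rw [hdecomp]
          rw [map_add, map_mul, map_natCast, hξγ]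
        rw [h2]
        conv_lhs => rw [hdecomp]
        ring
      have h1' : ‖γ a - a‖ = ‖(p : L) * (γ a₁ - a₁)‖ := congrArg _ h1
      rw [h1', norm_mul, hpL, pow_succ']
      exact mul_le_mul_of_nonneg_left (ih a₁ ha₁J ha₁1) hpinv0.le
  -- `γ` is trivial on the integers of `L^J`
  have hint : ∀ a : L, (∀ τ ∈ J, τ a = a) → ‖a‖ ≤ 1 → γ a = a := by
    intro a haJ ha1
    by_contra hne
    have hpos : 0 < ‖γ a - a‖ := norm_pos_iff.mpr (sub_ne_zero.mpr hne)
    obtain ⟨n, hn⟩ := exists_pow_lt_of_lt_one hpos hpinv1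
    exact absurd (key n a haJ ha1) (not_le.mpr hn)
  -- `γ` is trivial on `L^J`
  have hall : ∀ a : L, (∀ τ ∈ J, τ a = a) → γ a = a := by
    intro a haJ
    by_cases ha0 : a = 0
    · rw [ha0, map_zero]
    have hapos : 0 < ‖a‖ := norm_pos_iff.mpr ha0
    obtain ⟨n, hn⟩ := exists_pow_lt_of_lt_one (inv_pos.mpr hapos) hpinv1
    have h1 : ‖(p : L) ^ n * a‖ ≤ 1 := by
      rw [norm_mul, norm_pow, hpL]
      have := mul_lt_mul_of_pos_right hn hapos
      rw [inv_mul_cancel₀ hapos.ne'] at this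
      exact this.le
    have h2 := hint ((p : L) ^ n * a)
      (fixed_mul (fixed_pow (fun τ _ => map_natCast τ p) n) haJ) h1
    rw [map_mul, map_pow, map_natCast] at h2
    exact mul_left_cancel₀ (pow_ne_zero n hpL0) h2
  -- Galois correspondence
  have hmem : γ ∈ J := by
    rw [← IntermediateField.fixingSubgroup_fixedField J, IntermediateField.mem_fixingSubgroup_iff]
    intro a ha
    exact hall a ((IntermediateField.mem_fixedField_iff J a).mp ha)
  exact hmem

theorem inertia_onto_of_depth (γ : L ≃ₐ[ℚ_[p]] L) (hγ : depth p L γ < 1) :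
    ∃ ι ∈ inertiaP p, resL L ι = γ :=
  inertia_onto γ fun _ ha => (H15.norm_sub_le_depth γ ha).trans_lt hγ

/-- The image of `inertiaP p` in `Gal(L/ℚ_p)` is the inertia group of `L/ℚ_p`. -/
theorem mem_map_inertiaP_iff (γ : L ≃ₐ[ℚ_[p]] L) :
    γ ∈ (inertiaP p).map (resL L) ↔ ∀ a : L, ‖a‖ ≤ 1 → ‖γ a - a‖ < 1 := by
  constructor
  · rintro ⟨σ, hσ, rfl⟩ a ha
    have h1 : ‖resL L σ a - a‖ = ‖σ (a : PadicAlgCl p) - (a : PadicAlgCl p)‖ := by
      rw [← resL_apply]; rfl
    rw [h1]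
    exact hσ _ ha
  · intro h
    exact inertia_onto γ h

end Fermat.Agent.S56.FL.H38

end
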