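import Mathlib
import Fermat.Agent.S56.FL.H38_Unr
import Fermat.Agent.S56.FL.LF.H15_Gen

set_option autoImplicit false
set_option linter.style.haveILetI false

/-!
# LOC-p-FL, package KUM (helper59), part 2: what is used of "the fixed field of inertia is
unramified"

* `uvfin` : finite level form of `H38.norm_le_inv_of_fixed`.
* `norm_pow_card_orbit_le` : for `c ∈ L` of norm `< 1`, `‖c‖ ^ #(orbit of c under inertia) ≤ p⁻¹`.
* `prod_not_mem_le` : the tame base change that is needed for KUM: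
  `∏_{τ ∉ H} max (depth σ) (depth τ) · ‖c‖ ≤ p⁻¹` for `σ` of depth `< 1` and `c` fixed by `H`,
  `0 < ‖c‖ < 1`.
-/

noncomputable section

namespace Fermat.Agent.S56.FL.H59

open scoped NNReal
open Fermat.Agent.S56.FL Fermat.Agent.S56.FL.H15

variable {p : ℕ} [Fact p.Prime]

variable (L : IntermediateField ℚ_[p] (PadicAlgCl p)) [FiniteDimensional ℚ_[p] L]

/-- An element of a finite Galois extension that is fixed by the inertia group (`depth < 1`) and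
has norm `< 1` has norm `≤ p⁻¹`. -/
theorem uvfin (hN : Normal ℚ_[p] L) (b : L)
    (hb : ∀ τ : L ≃ₐ[ℚ_[p]] L, depth p L τ < 1 → τ b = b) (hb1 : ‖b‖ < 1) :
    ‖b‖ ≤ (p : ℝ)⁻¹ := by
  haveI := hN
  have key : ∀ σ ∈ inertiaP p, σ (b : PadicAlgCl p) = (b : PadicAlgCl p) := by
    intro σ hσ
    have hcomm : ∀ a : L, ((σ.restrictNormal L a : L) : PadicAlgCl p) = σ (a : PadicAlgCl p) :=
      fun a => AlgEquiv.restrictNormal_commutes σ L a
    obtain ⟨x, π, q, hg⟩ := exists_goodGen L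
    have hd : depth p L (σ.restrictNormal L) < 1 := by
      rw [depth_eq_of_goodGen hg]
      have h1 : ‖σ.restrictNormal L x - x‖ = ‖σ (x : PadicAlgCl p) - (x : PadicAlgCl p)‖ := by
        rw [← hcomm x]; rfl
      rw [h1]
      exact hσ _ hg.1
    rw [← hcomm b, hb _ hd]
  exact H38.norm_le_inv_of_fixed key hb1

open Classical in
/-- The inertia group as a finset. -/
def inertiaSet : Finset (L ≃ₐ[ℚ_[p]] L) :=
  Finset.univ.filter fun τ : L ≃ₐ[ℚ_[p]] L => depth p L τ < 1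

variable {L}

theorem mem_inertiaSet {τ : L ≃ₐ[ℚ_[p]] L} : τ ∈ inertiaSet L ↔ depth p L τ < 1 := by
  classical
  simp [inertiaSet]

theorem one_mem_inertiaSet : (1 : L ≃ₐ[ℚ_[p]] L) ∈ inertiaSet L := by
  rw [mem_inertiaSet, depth_one]; exact zero_lt_one

theorem mul_mem_inertiaSet {σ τ : L ≃ₐ[ℚ_[p]] L} (hσ : σ ∈ inertiaSet L)
    (hτ : τ ∈ inertiaSet L) : σ * τ ∈ inertiaSet L := by
  rw [mem_inertiaSet] at *
  exact (depth_mul_le L σ τ).trans_lt (max_lt hσ hτ)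

theorem inv_mem_inertiaSet {σ : L ≃ₐ[ℚ_[p]] L} (hσ : σ ∈ inertiaSet L) :
    σ⁻¹ ∈ inertiaSet L := by
  rw [mem_inertiaSet] at *
  rwa [depth_inv]

open Classical in
/-- Left translation by an element of the inertia group permutes the inertia group. -/
theorem image_mul_inertiaSet {σ : L ≃ₐ[ℚ_[p]] L} (hσ : σ ∈ inertiaSet L) :
    (inertiaSet L).image (fun τ => σ * τ) = inertiaSet L := by
  ext τ
  simp only [Finset.mem_image]
  constructor
  · rintro ⟨ν, hν, rfl⟩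
    exact mul_mem_inertiaSet hσ hν
  · intro hτ
    exact ⟨σ⁻¹ * τ, mul_mem_inertiaSet (inv_mem_inertiaSet hσ) hτ, by group⟩

open Classical in
/-- The orbit of `c` under the inertia group. -/
def inertiaOrbit (c : L) : Finset L := (inertiaSet L).image fun τ => τ c

open Classical in
theorem inertiaOrbit_nonempty (c : L) : (inertiaOrbit c).Nonempty :=
  ⟨c, Finset.mem_image.mpr ⟨1, one_mem_inertiaSet, rfl⟩⟩

open Classical in
/-- `‖c‖ ^ #(orbit of c under inertia) ≤ p⁻¹` if `‖c‖ < 1`. -/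
theorem norm_pow_card_orbit_le (hN : Normal ℚ_[p] L) (c : L) (hc1 : ‖c‖ < 1) :
    ‖c‖ ^ (inertiaOrbit c).card ≤ (p : ℝ)⁻¹ := by
  set w : L := ∏ z ∈ inertiaOrbit c, z with hw
  have hnorm : ‖w‖ = ‖c‖ ^ (inertiaOrbit c).card := by
    rw [hw, norm_prod]
    rw [Finset.prod_eq_pow_card]
    intro z hz
    obtain ⟨τ, -, rfl⟩ := Finset.mem_image.mp hz
    exact norm_algEquiv τ c
  have hfix : ∀ τ : L ≃ₐ[ℚ_[p]] L, depth p L τ < 1 → τ w = w := by
    intro τ hτ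
    have hτ' : τ ∈ inertiaSet L := mem_inertiaSet.mpr hτ
    rw [hw, map_prod]
    have h1 : ∏ z ∈ inertiaOrbit c, τ z = ∏ z ∈ (inertiaOrbit c).image (fun z => τ z), z := by
      rw [Finset.prod_image]
      intro a _ b _ hab
      exact τ.injective hab
    rw [h1]
    congr 1
    unfold inertiaOrbit
    rw [Finset.image_image]
    conv_rhs => rw [← image_mul_inertiaSet hτ']
    rw [Finset.image_image]
    rfl
  have hw1 : ‖w‖ < 1 := by
    rw [hnorm]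
    exact pow_lt_one₀ (norm_nonneg _) hc1 (Finset.card_pos.mpr (inertiaOrbit_nonempty c)).ne'
  rw [← hnorm]
  exact uvfin L hN w hfix hw1

open Classical in
/-- The fibres of `τ ↦ τ c` on the inertia group have at least `#(H ∩ inertia)` elements if `H`
fixes `c`. -/
theorem card_orbit_mul_le (H : Subgroup (L ≃ₐ[ℚ_[p]] L)) (c : L) (hc : ∀ τ ∈ H, τ c = c) :
    (inertiaOrbit c).card * ((inertiaSet L).filter fun τ => τ ∈ H).card
      ≤ (inertiaSet L).card := by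
  rw [Finset.card_eq_sum_card_fiberwise (f := fun τ : L ≃ₐ[ℚ_[p]] L => τ c)
    (s := inertiaSet L) (t := inertiaOrbit c)
    (fun τ hτ => Finset.mem_image.mpr ⟨τ, hτ, rfl⟩)]
  rw [← smul_eq_mul, ← Finset.sum_const]
  refine Finset.sum_le_sum fun z hz => ?_
  obtain ⟨τ₀, hτ₀, rfl⟩ := Finset.mem_image.mp hz
  refine Finset.card_le_card_of_injOn (fun ν => τ₀ * ν) ?_ ?_
  · intro ν hν
    have hν' := Finset.mem_filter.mp (Finset.mem_coe.mp hν)
    refine Finset.mem_coe.mpr (Finset.mem_filter.mpr ⟨mul_mem_inertiaSet hτ₀ hν'.1, ?_⟩)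
    change τ₀ (ν c) = τ₀ c
    rw [hc ν hν'.2]
  · intro a _ b _ hab
    exact mul_left_cancel hab

/-- Arithmetic: `x^A ≤ P`, `y^m ≤ P`, `m h ≤ A`, `1 ≤ m`, `h ≤ A` imply `x^(A-h) y ≤ P`
(`0 ≤ x ≤ 1`, `0 ≤ y`, `0 < P ≤ 1`). -/
theorem arith_count {x y P : ℝ} (hx0 : 0 ≤ x) (hx1 : x ≤ 1) (hy0 : 0 ≤ y) (hP0 : 0 < P)
    {A h m : ℕ} (hm : 1 ≤ m) (hmh : m * h ≤ A)
    (h1 : x ^ A ≤ P) (h2 : y ^ m ≤ P) : x ^ (A - h) * y ≤ P := by
  have hm0 : m ≠ 0 := by omega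
  refine le_of_pow_le_pow_left₀ hm0 hP0.le ?_
  have hhA : h ≤ A := le_trans (Nat.le_mul_of_pos_left h (by omega)) hmh
  rw [mul_pow, ← pow_mul]
  have e1 : A * (m - 1) ≤ (A - h) * m := by
    have : (A - h) * m = A * m - h * m := Nat.sub_mul A h m
    have h3 : A * (m - 1) = A * m - A := by rw [Nat.mul_sub, mul_one]
    rw [this, h3]
    have : h * m ≤ A := by rw [mul_comm]; exact hmh
    omega
  calc x ^ ((A - h) * m) * y ^ m ≤ x ^ (A * (m - 1)) * y ^ m :=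
        mul_le_mul_of_nonneg_right (pow_le_pow_of_le_one hx0 hx1 e1) (pow_nonneg hy0 _)
    _ = (x ^ A) ^ (m - 1) * y ^ m := by rw [pow_mul]
    _ ≤ P ^ (m - 1) * P := by
        refine mul_le_mul (pow_le_pow_left₀ (pow_nonneg hx0 _) h1 _) h2 (pow_nonneg hy0 _)
          (pow_nonneg hP0.le _)
    _ = P ^ m := by
        rw [← pow_succ]; congr 1; omega

open Classical in
/-- **Tame base change, in the form needed for KUM.**  `σ` of depth `< 1`, `H` a subgroup, `c`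
fixed by `H` with `0 < ‖c‖ < 1`: `(∏_{τ ∉ H} max (depth σ) (depth τ)) · ‖c‖ ≤ p⁻¹`. -/
theorem prod_not_mem_le (hN : Normal ℚ_[p] L) (H : Subgroup (L ≃ₐ[ℚ_[p]] L))
    {σ : L ≃ₐ[ℚ_[p]] L} (hσ : depth p L σ < 1) {c : L} (hc : ∀ τ ∈ H, τ c = c)
    (hc1 : ‖c‖ < 1) :
    (∏ τ ∈ Finset.univ.filter (fun τ : L ≃ₐ[ℚ_[p]] L => τ ∉ H),
      max (depth p L σ) (depth p L τ)) * ‖c‖ ≤ (p : ℝ)⁻¹ := by
  obtain ⟨x, π, q, hg⟩ := exists_goodGen L
  obtain ⟨hx, hπ0, hπ1, hπmax, -, -⟩ := id hg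
  have hdle : ∀ τ : L ≃ₐ[ℚ_[p]] L, depth p L τ < 1 → depth p L τ ≤ ‖π‖ := by
    intro τ hτ
    rw [depth_eq_of_goodGen hg] at hτ ⊢
    exact hπmax _ hτ
  set f : (L ≃ₐ[ℚ_[p]] L) → ℝ := fun τ => max (depth p L σ) (depth p L τ) with hf
  have hf0 : ∀ τ, 0 ≤ f τ := fun τ => le_max_of_le_left (depth_nonneg L σ)
  have hf1 : ∀ τ, f τ ≤ 1 := fun τ => max_le hσ.le (depth_le_one L τ)
  have hfπ : ∀ τ ∈ inertiaSet L, f τ ≤ ‖π‖ := fun τ hτ =>
    max_le (hdle σ hσ) (hdle τ (mem_inertiaSet.mp hτ))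
  set T : Finset (L ≃ₐ[ℚ_[p]] L) := Finset.univ.filter (fun τ : L ≃ₐ[ℚ_[p]] L => τ ∉ H) with hT
  set T₀ : Finset (L ≃ₐ[ℚ_[p]] L) := (inertiaSet L).filter (fun τ => τ ∉ H) with hT₀
  have hsub : T₀ ⊆ T := by
    intro τ hτ
    exact Finset.mem_filter.mpr ⟨Finset.mem_univ _, (Finset.mem_filter.mp hτ).2⟩
  have hprod1 : ∏ τ ∈ T, f τ ≤ ∏ τ ∈ T₀, f τ := by
    rw [← Finset.prod_sdiff hsub]
    calc (∏ τ ∈ T \ T₀, f τ) * ∏ τ ∈ T₀, f τ ≤ 1 * ∏ τ ∈ T₀, f τ :=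
          mul_le_mul_of_nonneg_right
            (Finset.prod_le_one (fun τ _ => hf0 τ) (fun τ _ => hf1 τ))
            (Finset.prod_nonneg fun τ _ => hf0 τ)
      _ = ∏ τ ∈ T₀, f τ := one_mul _
  have hprod2 : ∏ τ ∈ T₀, f τ ≤ ‖π‖ ^ T₀.card := by
    calc ∏ τ ∈ T₀, f τ ≤ ∏ _τ ∈ T₀, ‖π‖ :=
          Finset.prod_le_prod (fun τ _ => hf0 τ)
            (fun τ hτ => hfπ τ (Finset.mem_filter.mp hτ).1)
      _ = ‖π‖ ^ T₀.card := by rw [Finset.prod_const]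
  set A := (inertiaSet L).card with hA
  set h₀ := ((inertiaSet L).filter fun τ => τ ∈ H).card with hh₀
  have hcard : T₀.card = A - h₀ := by
    have e : h₀ + T₀.card = A :=
      Finset.card_filter_add_card_filter_not (s := inertiaSet L) (fun τ => τ ∈ H)
    omega
  by_cases hc0 : ‖c‖ = 0
  · rw [hc0, mul_zero]
    exact inv_nonneg.mpr (Nat.cast_nonneg p)
  have hcpos : 0 < ‖c‖ := lt_of_le_of_ne (norm_nonneg _) (Ne.symm hc0)
  have hP0 : (0 : ℝ) < (p : ℝ)⁻¹ := inv_pos.mpr (by exact_mod_cast (Fact.out : p.Prime).pos)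
  have hm1 : 1 ≤ (inertiaOrbit c).card := Finset.card_pos.mpr (inertiaOrbit_nonempty c)
  have h1 : ‖π‖ ^ A ≤ (p : ℝ)⁻¹ := by
    have h3 : (inertiaOrbit π).card ≤ A := Finset.card_image_le
    exact (pow_le_pow_of_le_one hπ0.le hπ1.le h3).trans (norm_pow_card_orbit_le hN π hπ1)
  have h2 : ‖c‖ ^ (inertiaOrbit c).card ≤ (p : ℝ)⁻¹ := norm_pow_card_orbit_le hN c hc1
  have := arith_count hπ0.le hπ1.le hcpos.le hP0 hm1 (card_orbit_mul_le H c hc) h1 h2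
  calc (∏ τ ∈ T, f τ) * ‖c‖ ≤ ‖π‖ ^ T₀.card * ‖c‖ :=
        mul_le_mul_of_nonneg_right (hprod1.trans hprod2) hcpos.le
    _ = ‖π‖ ^ (A - h₀) * ‖c‖ := by rw [hcard]
    _ ≤ (p : ℝ)⁻¹ := this

end Fermat.Agent.S56.FL.H59

end
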