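/-
S56 FL, package UNITS / CC2, sub-leaf INERT (helper61): `H15.Stmt_INERT`.

`K/ℚ_p` finite Galois of degree prime to `p`, `ϖ` a uniformizer, `‖ϖ‖ ^ e = p⁻¹`.  The tame
character `τ ↦ [τ ϖ / ϖ]` of the inertia group `I` of `Gal(K/ℚ_p)` (`H9.tameChar`) has kernel the
wild inertia, which is trivial (`H59.wild_pow_eq_one`, `p ∤ [K : ℚ_p]`); so `I` is cyclic, of
order `e` (`H15.card_inertia_le`, `H59.norm_pow_card_orbit_le`); a generator lifts to the inertia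
group of `K̄/ℚ_p` (`H38.inertia_onto_of_depth`).
-/
import Fermat.Agent.S56.FL.H15_CC2Defs2
import Fermat.Agent.S56.FL.LF.H59_LocTame
import Fermat.Agent.S56.FL.H59_KumUV
import Fermat.Agent.S56.FL.H38_InertiaOnto
import Fermat.Agent.S56.FL.LF.H15_Value

set_option autoImplicit false
set_option linter.style.haveILetI false
set_option linter.unusedSectionVars false

noncomputable section

namespace Fermat.Agent.S56.FL.H61

open scoped NNReal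
open Fermat.Agent.S56.FL Fermat.Agent.S56.FL.H15 Fermat.Agent.S56.H9 Module Polynomial

variable {p : ℕ} [Fact p.Prime]

variable (K : IntermediateField ℚ_[p] (PadicAlgCl p)) [FiniteDimensional ℚ_[p] K]

/-- In the tame case the wild inertia group is trivial. -/
theorem eq_one_of_mem_wild (hN : Normal ℚ_[p] K) (hdeg : ¬ p ∣ finrank ℚ_[p] K)
    {w : K ≃ₐ[ℚ_[p]] K} (hw : w ∈ wild (mL K) (K ≃ₐ[ℚ_[p]] K)) : w = 1 := by
  have hp : p.Prime := Fact.out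
  haveI : Normal ℚ_[p] K := hN
  haveI : IsGalois ℚ_[p] K := ⟨⟩
  obtain ⟨n, hn⟩ := H59.wild_pow_eq_one K hw
  have h3 : orderOf w ∣ p ^ n := orderOf_dvd_of_pow_eq_one hn
  have h4 : orderOf w ∣ finrank ℚ_[p] K := by
    rw [← IsGalois.card_aut_eq_finrank ℚ_[p] K]
    exact orderOf_dvd_natCard w
  have hcop : Nat.Coprime (p ^ n) (finrank ℚ_[p] K) :=
    Nat.Coprime.pow_left _ ((Nat.Prime.coprime_iff_not_dvd hp).2 hdeg)
  exact orderOf_eq_one_iff.1 (Nat.eq_one_of_dvd_coprimes hcop h3 h4)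

open Classical in
/-- The inertia group of a finite Galois extension has `e` elements. -/
theorem card_inertiaSet_eq (hN : Normal ℚ_[p] K) {ϖ : K} (h0 : 0 < ‖ϖ‖) (h1 : ‖ϖ‖ < 1)
    (hmax : ∀ a : K, ‖a‖ < 1 → ‖a‖ ≤ ‖ϖ‖) {e : ℕ} (he : ‖ϖ‖ ^ e = (p : ℝ)⁻¹) :
    (H59.inertiaSet K).card = e := by
  obtain ⟨x, π, q, h, hq⟩ := exists_goodGen_q K
  obtain ⟨Pz, hP⟩ := exists_isMinZ hN h
  obtain ⟨hx, hπ0, hπ1, hπmax, hxq, hres⟩ := id h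
  have hπϖ : ‖π‖ = ‖ϖ‖ := le_antisymm (hmax π hπ1) (hπmax ϖ h1)
  refine le_antisymm ?_ ?_
  · have := card_inertia_le h hq hP (e := e) (by rw [hπϖ]; exact he)
    exact this
  · have h2 := H59.norm_pow_card_orbit_le hN ϖ h1
    rw [← he] at h2
    have h3 : e ≤ (H59.inertiaOrbit ϖ).card := (pow_le_pow_iff_right_of_lt_one₀ h0 h1).mp h2
    exact h3.trans Finset.card_image_le

variable {K}

/-- The tame relation for `d = σ ϖ / ϖ`. -/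
theorem tameRel_unif {ϖ : K} (h0 : 0 < ‖ϖ‖) (h1 : ‖ϖ‖ < 1)
    (hmax : ∀ a : K, ‖a‖ < 1 → ‖a‖ ≤ ‖ϖ‖) {σ : K ≃ₐ[ℚ_[p]] K}
    (hσ : σ ∈ (mL K).inertia (K ≃ₐ[ℚ_[p]] K)) (d : OL K) (hd : (d : K) = σ ϖ / ϖ) :
    TameRel (mL K) σ d := by
  have hϖ0 : ϖ ≠ 0 := norm_pos_iff.mp h0
  have hσϖ : ‖σ ϖ‖ = ‖ϖ‖ := norm_algEquiv σ ϖ
  intro x hx
  have hx1 : ‖(x : K)‖ < 1 := hx
  have hxϖ : ‖(x : K)‖ ≤ ‖ϖ‖ := hmax _ hx1
  have hu : ‖(x : K) / ϖ‖ ≤ 1 := by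
    rw [norm_div, div_le_one h0]; exact hxϖ
  let u : OL K := ⟨(x : K) / ϖ, hu⟩
  let b : OL K := ⟨σ ϖ, by
    change ‖σ ϖ‖ ≤ 1
    rw [hσϖ]; exact h1.le⟩
  have hb : b ∈ mL K := by
    change ‖σ ϖ‖ < 1
    rw [hσϖ]; exact h1
  have ha : σ • u - u ∈ mL K := hσ u
  have key : σ • x - d * x = (σ • u - u) * b := by
    apply Subtype.ext
    change σ (x : K) - (d : K) * (x : K) = (σ ((x : K) / ϖ) - (x : K) / ϖ) * σ ϖ
    rw [hd, map_div₀]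
    have hσϖ0 : σ ϖ ≠ 0 := by
      intro h; rw [h, norm_zero] at hσϖ; exact h0.ne hσϖ
    field_simp
  rw [key, pow_two]
  exact Ideal.mul_mem_mul ha hb

variable (K) in
open Classical in
/-- The number of elements of the inertia subgroup. -/
theorem natCard_inertia_eq (hN : Normal ℚ_[p] K) {ϖ : K} (h0 : 0 < ‖ϖ‖) (h1 : ‖ϖ‖ < 1)
    (hmax : ∀ a : K, ‖a‖ < 1 → ‖a‖ ≤ ‖ϖ‖) {e : ℕ} (he : ‖ϖ‖ ^ e = (p : ℝ)⁻¹) :
    Nat.card ((mL K).inertia (K ≃ₐ[ℚ_[p]] K)) = e := by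
  rw [← card_inertiaSet_eq K hN h0 h1 hmax he]
  have h2 : Nat.card ((mL K).inertia (K ≃ₐ[ℚ_[p]] K))
      = Nat.card {τ // τ ∈ H59.inertiaSet K} :=
    Nat.card_congr (Equiv.subtypeEquivRight fun τ => by
      rw [H59.mem_inertiaSet]; exact H59.mem_inertia_iff K τ)
  rw [h2, Nat.card_eq_fintype_card, Fintype.card_coe]

/-- **INERT.** -/
theorem stmt_INERT : H15.Stmt_INERT := by
  intro p _ K _ hN hdeg ϖ hϖK h0 h1 hmax e he
  classical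
  haveI : Normal ℚ_[p] K := hN
  let ϖK : K := ⟨ϖ, hϖK⟩
  have h0' : 0 < ‖ϖK‖ := h0
  have h1' : ‖ϖK‖ < 1 := h1
  have hmax' : ∀ a : K, ‖a‖ < 1 → ‖a‖ ≤ ‖ϖK‖ := fun a ha => hmax a a.2 ha
  have he' : ‖ϖK‖ ^ e = (p : ℝ)⁻¹ := he
  have hϖ0 : ϖ ≠ 0 := norm_pos_iff.mp h0
  have hcard := natCard_inertia_eq K hN h0' h1' hmax' he'
  haveI hdom : IsDomain (OL K ⧸ mL K) := Ideal.Quotient.isDomain _
  let f : (mL K).inertia (K ≃ₐ[ℚ_[p]] K) →* (OL K ⧸ mL K) := tameChar (H59.mL_ne_bot K)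
  let F : (mL K).inertia (K ≃ₐ[ℚ_[p]] K) →* (OL K ⧸ mL K)ˣ := f.toHomUnits
  have hF : ∀ a, ((F a : (OL K ⧸ mL K)ˣ) : OL K ⧸ mL K) = f a := fun a => rfl
  have hFinj : Function.Injective F := by
    rw [injective_iff_map_eq_one]
    intro a ha
    have h2 : f a = 1 := by rw [← hF, ha]; rfl
    have hw := (tameChar_eq_one_iff (H59.mL_ne_bot K) a).1 h2
    exact Subtype.ext (eq_one_of_mem_wild K hN hdeg hw)
  haveI hcyc : IsCyclic ((mL K).inertia (K ≃ₐ[ℚ_[p]] K)) :=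
    isCyclic_of_injective_ringHom ((Units.coeHom (OL K ⧸ mL K)).comp F)
      (Units.val_injective.comp hFinj)
  obtain ⟨g, hg⟩ := hcyc.exists_generator
  have hord : orderOf g = e := by
    rw [orderOf_eq_card_of_forall_mem_zpowers hg, hcard]
  have hgd : depth p K (g : K ≃ₐ[ℚ_[p]] K) < 1 := (H59.mem_inertia_iff K g).1 g.2
  obtain ⟨σ, hσ, hσg⟩ := H38.inertia_onto_of_depth (g : K ≃ₐ[ℚ_[p]] K) hgd
  refine ⟨σ, hσ, fun n => ?_⟩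
  -- the unit `d = g ϖ / ϖ`
  have hgϖ : ‖(g : K ≃ₐ[ℚ_[p]] K) ϖK‖ = ‖ϖK‖ := norm_algEquiv _ ϖK
  have hdn : ‖(g : K ≃ₐ[ℚ_[p]] K) ϖK / ϖK‖ ≤ 1 := by
    rw [norm_div, hgϖ, div_self h0'.ne']
  let d : OL K := ⟨(g : K ≃ₐ[ℚ_[p]] K) ϖK / ϖK, hdn⟩
  have hTR : TameRel (mL K) (g : K ≃ₐ[ℚ_[p]] K) d := tameRel_unif h0' h1' hmax' g.2 d rfl
  have hfg : f g = Ideal.Quotient.mk (mL K) d := tameChar_eq (H59.mL_ne_bot K) g hTR
  have hσϖ : σ ϖ = (((g : K ≃ₐ[ℚ_[p]] K) ϖK : K) : PadicAlgCl p) := by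
    rw [← hσg]; exact (H38.resL_apply σ ϖK).symm
  have hcoe : (σ ϖ / ϖ) ^ n - 1 = (((d ^ n - 1 : OL K) : K) : PadicAlgCl p) := by
    rw [hσϖ]
    rfl
  have h3 : ‖(σ ϖ / ϖ) ^ n - 1‖ < 1 ↔ f g ^ n = 1 := by
    rw [hcoe, hfg, ← map_pow, ← sub_eq_zero, ← map_one (Ideal.Quotient.mk (mL K)), ← map_sub,
      Ideal.Quotient.eq_zero_iff_mem]
    exact Iff.rfl
  rw [h3, ← map_pow, ← hord, orderOf_dvd_iff_pow_eq_one]
  constructor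
  · intro h
    apply hFinj
    apply Units.ext
    rw [hF, h, map_one]; rfl
  · intro h
    rw [h, map_one]

end Fermat.Agent.S56.FL.H61

end
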