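import Mathlib

/-!
# LOC-p-FL, package CC2z, leaf CNT (helper61): the semilinear count

`stmt_CNT : H15.Stmt_CNT`.  `k`, `κ` fields of characteristic `p`, `k` finite.  The additive maps
`g : k → κ` with `g (y x) = z g x` and `g (w x) = t (g x)^{p²}` (`IsSemi`) take their values in the
root set `R` of one additive polynomial of degree `p^{2m}`, `m = [E(w) : E]`, `E = 𝔽_p(y)`, and
vanish on a line `E(w) x` as soon as they vanish at `x`.  Evaluating at an `E(w)`-basis of `k`
and counting (`#R^d ≤ #E(w)^d = #k < #k²`) gives a linear dependency.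
-/

set_option autoImplicit false
set_option linter.style.haveILetI false

noncomputable section

namespace Fermat.Agent.S56.FL.H61

open Polynomial IntermediateField

section Semi

variable (p : ℕ) [hp : Fact p.Prime] {k κ : Type} [Field k] [Field κ] [CharP k p] [CharP κ p]

/-- The semilinear additive maps. -/
structure IsSemi (y w : k) (z t : κ) (g : k →+ κ) : Prop where
  hy : ∀ x, g (y * x) = z * g x
  hw : ∀ x, g (w * x) = t * g x ^ (p ^ 2)

/-- The combination `x ↦ f₁ (l₁ x) + f₂ (l₂ x)`. -/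
def comb (f₁ f₂ : k →+ κ) (l₁ l₂ : k) : k →+ κ :=
  f₁.comp (AddMonoidHom.mulLeft l₁) + f₂.comp (AddMonoidHom.mulLeft l₂)

omit [CharP k p] [CharP κ p] in
@[simp] theorem comb_apply (f₁ f₂ : k →+ κ) (l₁ l₂ x : k) :
    comb f₁ f₂ l₁ l₂ x = f₁ (l₁ * x) + f₂ (l₂ * x) := rfl

omit [CharP k p] in
theorem isSemi_comb {y w : k} {z t : κ} {f₁ f₂ : k →+ κ} (h₁ : IsSemi p y w z t f₁)
    (h₂ : IsSemi p y w z t f₂) (l₁ l₂ : k) : IsSemi p y w z t (comb f₁ f₂ l₁ l₂) where
  hy x := by
    rw [comb_apply, comb_apply, mul_left_comm l₁, mul_left_comm l₂, h₁.hy, h₂.hy, mul_add]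
  hw x := by
    rw [comb_apply, comb_apply, mul_left_comm l₁, mul_left_comm l₂, h₁.hw, h₂.hw,
      add_pow_char_pow, mul_add]

/-- The iterated twists: `t_0 = 1`, `t_{j+1} = t * t_j^{p²}`. -/
def tw (t : κ) : ℕ → κ
  | 0 => 1
  | j + 1 => t * tw t j ^ (p ^ 2)

omit [CharP κ p] hp in
theorem tw_ne_zero {t : κ} (ht : t ≠ 0) (j : ℕ) : tw p t j ≠ 0 := by
  induction j with
  | zero => exact one_ne_zero
  | succ j ih => exact mul_ne_zero ht (pow_ne_zero _ ih)

omit [CharP k p] [CharP κ p] hp in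
theorem IsSemi.map_pow_mul {y w : k} {z t : κ} {g : k →+ κ} (h : IsSemi p y w z t g) (j : ℕ)
    (x : k) : g (w ^ j * x) = tw p t j * g x ^ (p ^ (2 * j)) := by
  induction j with
  | zero => simp [tw]
  | succ j ih =>
    rw [pow_succ', mul_assoc, h.hw, ih, tw, mul_pow, ← pow_mul, mul_assoc]
    congr 2
    rw [← pow_add]
    congr 1

omit [CharP k p] [CharP κ p] hp in
theorem IsSemi.map_natCast_mul {y w : k} {z t : κ} {g : k →+ κ} (_h : IsSemi p y w z t g)
    (n : ℕ) (x : k) : g ((n : k) * x) = (n : κ) * g x := by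
  rw [← nsmul_eq_mul, map_nsmul, nsmul_eq_mul]

end Semi

section Alg

variable (p : ℕ) [hp : Fact p.Prime] {k κ : Type} [Field k] [Field κ]
  [Algebra (ZMod p) k] [Algebra (ZMod p) κ]

theorem algebraMap_zmod_eq_natCast (A : Type) [Field A] [Algebra (ZMod p) A] [NeZero p]
    (a : ZMod p) : algebraMap (ZMod p) A a = ((a.val : ℕ) : A) := by
  conv_lhs => rw [← ZMod.natCast_zmod_val a]
  rw [map_natCast]

/-- semilinearity with respect to polynomials in `y` over `𝔽_p`. -/
theorem IsSemi.map_aeval_mul {y w : k} {z t : κ} {g : k →+ κ} (h : IsSemi p y w z t g)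
    (P : (ZMod p)[X]) (x : k) : g (aeval y P * x) = aeval z P * g x := by
  haveI : NeZero p := ⟨hp.out.ne_zero⟩
  induction P using Polynomial.induction_on generalizing x with
  | C a =>
    rw [aeval_C, aeval_C, algebraMap_zmod_eq_natCast, algebraMap_zmod_eq_natCast,
      h.map_natCast_mul]
  | add P Q hP hQ =>
    rw [map_add, map_add, add_mul, add_mul, map_add, hP, hQ]
  | monomial n a ih =>
    have e1 : aeval y (C a * X ^ (n + 1)) = aeval y (C a * X ^ n) * y := by
      rw [pow_succ, ← mul_assoc, _root_.map_mul (aeval y), aeval_X]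
    have e2 : aeval z (C a * X ^ (n + 1)) = aeval z (C a * X ^ n) * z := by
      rw [pow_succ, ← mul_assoc, _root_.map_mul (aeval z), aeval_X]
    rw [e1, e2, mul_assoc, ih, h.hy, mul_assoc]

end Alg

section Core

variable (p : ℕ) [hp : Fact p.Prime] {k κ : Type} [Field k] [Finite k] [Field κ]
  [Algebra (ZMod p) k] [Algebra (ZMod p) κ]

/-- The field `E = 𝔽_p(y)`. -/
abbrev fE (y : k) : IntermediateField (ZMod p) k := (ZMod p)⟮y⟯

/-- The field `E(w)`. -/
abbrev fK (y w : k) : IntermediateField (fE p y) k := (fE p y)⟮w⟯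

/-- The elements of `E` are polynomials in `y`. -/
theorem exists_aeval_eq (y : k) (e : fE p y) : ∃ P : (ZMod p)[X], (e : k) = aeval y P := by
  have hy : IsAlgebraic (ZMod p) y := (IsIntegral.of_finite (ZMod p) y).isAlgebraic
  have h1 := IntermediateField.adjoin_simple_toSubalgebra_of_isAlgebraic hy
  have he : (e : k) ∈ ((ZMod p)⟮y⟯).toSubalgebra := e.2
  rw [h1, Algebra.adjoin_singleton_eq_range_aeval] at he
  obtain ⟨P, hP⟩ := he
  exact ⟨P, hP.symm⟩

/-- Semilinearity along `E`. -/
theorem exists_scalar (y w : k) (z t : κ) (e : fE p y) :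
    ∃ c : κ, ∀ g : k →+ κ, IsSemi p y w z t g → ∀ x, g ((e : k) * x) = c * g x := by
  obtain ⟨P, hP⟩ := exists_aeval_eq p y e
  exact ⟨aeval z P, fun g hg x => by rw [hP, hg.map_aeval_mul]⟩

/-- Vanishing propagates along the lines `E[w] x`. -/
theorem IsSemi.map_mul_eq_zero_aux {y w : k} {z t : κ} {g : k →+ κ} (h : IsSemi p y w z t g)
    {c : k} (hc : c ∈ Algebra.adjoin (fE p y) {w}) : ∀ x : k, g x = 0 → g (c * x) = 0 := by
  induction hc using Algebra.adjoin_induction with
  | mem c hc =>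
    intro x hx
    rw [Set.mem_singleton_iff] at hc
    rw [hc, h.hw, hx, zero_pow (pow_ne_zero 2 hp.out.ne_zero), mul_zero]
  | algebraMap e =>
    intro x hx
    obtain ⟨c, hc⟩ := exists_scalar p y w z t e
    have := hc g h x
    rw [hx, mul_zero] at this
    exact this
  | add a b _ _ ha hb =>
    intro x hx
    rw [add_mul, map_add, ha x hx, hb x hx, add_zero]
  | mul a b _ _ ha hb =>
    intro x hx
    rw [mul_assoc]
    exact ha _ (hb x hx)

/-- Vanishing propagates along the lines `E(w) x`. -/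
theorem IsSemi.map_mul_eq_zero {y w : k} {z t : κ} {g : k →+ κ} (h : IsSemi p y w z t g)
    {c : k} (hc : c ∈ fK p y w) {x : k} (hx : g x = 0) : g (c * x) = 0 := by
  have hw : IsAlgebraic (fE p y) w := (IsIntegral.of_finite (fE p y) w).isAlgebraic
  have h1 := IntermediateField.adjoin_simple_toSubalgebra_of_isAlgebraic hw
  have hc' : c ∈ ((fE p y)⟮w⟯).toSubalgebra := hc
  rw [h1] at hc'
  exact h.map_mul_eq_zero_aux p hc' x hx

/-- The values of the semilinear maps lie in a set with at most `p^{2m}` elements. -/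
theorem exists_root_set (y w : k) (z t : κ) (ht : t ≠ 0) :
    ∃ R : Finset κ, R.card ≤ p ^ (2 * (minpoly (fE p y) w).natDegree) ∧
      ∀ g : k →+ κ, IsSemi p y w z t g → ∀ x, g x ∈ R := by
  classical
  have hw : IsIntegral (fE p y) w := IsIntegral.of_finite _ _
  have hmonic : (minpoly (fE p y) w).Monic := minpoly.monic hw
  choose c hc using fun j : ℕ => exists_scalar p y w z t ((minpoly (fE p y) w).coeff j)
  generalize hm : (minpoly (fE p y) w).natDegree = m at *
  let A : κ[X] := C (tw p t m) * X ^ (p ^ (2 * m)) +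
    ∑ j ∈ Finset.range m, C (c j * tw p t j) * X ^ (p ^ (2 * j))
  have hA_coeff : A.coeff (p ^ (2 * m)) = tw p t m := by
    simp only [A, coeff_add, coeff_C_mul, coeff_X_pow, if_true, mul_one, finsetSum_coeff]
    rw [Finset.sum_eq_zero, add_zero]
    intro j hj
    rw [Finset.mem_range] at hj
    have hne : p ^ (2 * m) ≠ p ^ (2 * j) := by
      intro h
      have := Nat.pow_right_injective hp.out.two_le h
      omega
    rw [if_neg hne, mul_zero]
  have hA0 : A ≠ 0 := by
    intro h
    rw [h, coeff_zero] at hA_coeff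
    exact tw_ne_zero p ht m hA_coeff.symm
  have hAdeg : A.natDegree ≤ p ^ (2 * m) := by
    refine (natDegree_add_le _ _).trans (max_le (natDegree_C_mul_X_pow_le _ _) ?_)
    refine natDegree_sum_le_of_forall_le _ _ ?_
    intro j hj
    rw [Finset.mem_range] at hj
    refine (natDegree_C_mul_X_pow_le _ _).trans ?_
    exact Nat.pow_le_pow_right hp.out.pos (by omega)
  refine ⟨A.roots.toFinset, ?_, fun g hg x => ?_⟩
  · exact (Multiset.toFinset_card_le _).trans ((card_roots' A).trans hAdeg)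
  · rw [Multiset.mem_toFinset, mem_roots hA0, IsRoot.def]
    have hQw : aeval w (minpoly (fE p y) w) = 0 := minpoly.aeval _ _
    have hsum : w ^ m +
        ∑ j ∈ Finset.range m, (((minpoly (fE p y) w).coeff j : fE p y) : k) * w ^ j = 0 := by
      rw [← hQw, aeval_eq_sum_range, hm, Finset.sum_range_succ, ← hm, hmonic.coeff_natDegree,
        one_smul, add_comm]
      congr 1
    simp only [A, eval_add, eval_mul, eval_C, eval_pow, eval_X, eval_finsetSum]
    have e1 : tw p t m * g x ^ (p ^ (2 * m)) = g (w ^ m * x) := (hg.map_pow_mul p m x).symm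
    have e2 : ∀ j, c j * tw p t j * g x ^ (p ^ (2 * j))
        = g ((((minpoly (fE p y) w).coeff j : fE p y) : k) * (w ^ j * x)) := by
      intro j
      rw [hc j g hg, hg.map_pow_mul, mul_assoc]
    rw [e1, Finset.sum_congr rfl (fun j _ => e2 j), ← map_sum, ← map_add]
    have h0 : w ^ m * x + ∑ j ∈ Finset.range m,
        (((minpoly (fE p y) w).coeff j : fE p y) : k) * (w ^ j * x) = 0 := by
      have := congrArg (· * x) hsum
      simp only [add_mul, Finset.sum_mul, zero_mul, mul_assoc] at this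
      exact this
    rw [h0, map_zero]

/-- `#E ≥ p²` if `y ∉ 𝔽_p`. -/
theorem sq_le_card_fE (y : k) (hy : y ∉ Set.range (algebraMap (ZMod p) k)) :
    p ^ 2 ≤ Nat.card (fE p y) := by
  have h1 : Nat.card (fE p y) = Nat.card (ZMod p) ^ Module.finrank (ZMod p) (fE p y) :=
    Module.natCard_eq_pow_finrank
  rw [h1, Nat.card_zmod]
  refine Nat.pow_le_pow_right hp.out.pos ?_
  have hpos : 0 < Module.finrank (ZMod p) (fE p y) := Module.finrank_pos
  have hne1 : Module.finrank (ZMod p) (fE p y) ≠ 1 := by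
    intro h
    rw [IntermediateField.finrank_adjoin_simple_eq_one_iff] at h
    exact hy (IntermediateField.mem_bot.1 h)
  omega

/-- **The semilinear count.** -/
theorem cnt_core [CharP κ p] (y w : k) (z t : κ) (ht : t ≠ 0) (hz : z ^ p ≠ z)
    (f₁ f₂ : k →+ κ) (h₁ : IsSemi p y w z t f₁) (h₂ : IsSemi p y w z t f₂) :
    ∃ l₁ l₂ : k, (l₁ ≠ 0 ∨ l₂ ≠ 0) ∧ ∀ x, f₁ (l₁ * x) + f₂ (l₂ * x) = 0 := by
  classical
  by_cases hf : f₁ = 0
  · exact ⟨1, 0, Or.inl one_ne_zero, fun x => by simp [hf]⟩
  obtain ⟨x₀, hx₀⟩ : ∃ x₀, f₁ x₀ ≠ 0 := by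
    by_contra hcon
    simp only [not_exists, not_not] at hcon
    exact hf (AddMonoidHom.ext hcon)
  -- `y ∉ 𝔽_p`
  have hy : y ∉ Set.range (algebraMap (ZMod p) k) := by
    rintro ⟨a, rfl⟩
    have e := h₁.map_aeval_mul p (C a) x₀
    rw [aeval_C, aeval_C] at e
    have e' := h₁.hy x₀
    rw [e] at e'
    have hza : z = algebraMap (ZMod p) κ a := (mul_right_cancel₀ hx₀ e').symm
    apply hz
    rw [hza, ← map_pow, ZMod.pow_card]
  obtain ⟨R, hRcard, hR⟩ := exists_root_set p y w z t ht
  -- cardinalities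
  have hK : Nat.card (fK p y w) = Nat.card (fE p y) ^ (minpoly (fE p y) w).natDegree := by
    rw [Module.natCard_eq_pow_finrank (K := fE p y) (V := fK p y w),
      IntermediateField.adjoin.finrank (IsIntegral.of_finite _ _)]
  have hRK : R.card ≤ Nat.card (fK p y w) := by
    rw [hK]
    calc R.card ≤ p ^ (2 * (minpoly (fE p y) w).natDegree) := hRcard
      _ = (p ^ 2) ^ (minpoly (fE p y) w).natDegree := by rw [pow_mul]
      _ ≤ _ := Nat.pow_le_pow_left (sq_le_card_fE p y hy) _
  have hk : Nat.card k = Nat.card (fK p y w) ^ Module.finrank (fK p y w) k :=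
    Module.natCard_eq_pow_finrank
  let b := Module.finBasis (fK p y w) k
  -- the evaluation map
  let ev : k × k → (Fin (Module.finrank (fK p y w) k) → R) := fun l i =>
    ⟨comb f₁ f₂ l.1 l.2 (b i), hR _ (isSemi_comb p h₁ h₂ l.1 l.2) _⟩
  have hlt : Nat.card (Fin (Module.finrank (fK p y w) k) → R) < Nat.card (k × k) := by
    rw [Nat.card_fun, Nat.card_prod, Nat.card_eq_fintype_card (α := Fin _), Fintype.card_fin,
      Nat.card_eq_fintype_card (α := R), Fintype.card_coe]
    calc R.card ^ Module.finrank (fK p y w) k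
        ≤ Nat.card (fK p y w) ^ Module.finrank (fK p y w) k := Nat.pow_le_pow_left hRK _
      _ = Nat.card k := hk.symm
      _ < Nat.card k * Nat.card k := by
          have : 1 < Nat.card k := Finite.one_lt_card
          nlinarith
  obtain ⟨l, l', hne, heq⟩ : ∃ l l', l ≠ l' ∧ ev l = ev l' := by
    haveI := Fintype.ofFinite k
    exact Fintype.exists_ne_map_eq_of_card_lt ev
      (by rwa [← Nat.card_eq_fintype_card, ← Nat.card_eq_fintype_card])
  refine ⟨l.1 - l'.1, l.2 - l'.2, ?_, ?_⟩
  · by_contra hcon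
    simp only [not_or, not_not, sub_eq_zero] at hcon
    exact hne (Prod.ext hcon.1 hcon.2)
  · have hg : IsSemi p y w z t (comb f₁ f₂ (l.1 - l'.1) (l.2 - l'.2)) :=
      isSemi_comb p h₁ h₂ _ _
    have hb : ∀ i, comb f₁ f₂ (l.1 - l'.1) (l.2 - l'.2) (b i) = 0 := by
      intro i
      have := congrArg (fun φ => (φ i : κ)) heq
      simp only [ev, comb_apply] at this
      rw [comb_apply, sub_mul, sub_mul, map_sub, map_sub]
      linear_combination this
    intro x
    rw [← comb_apply, ← b.sum_repr x, map_sum]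
    refine Finset.sum_eq_zero fun i _ => ?_
    exact hg.map_mul_eq_zero p (b.repr x i).2 (hb i)

end Core

end Fermat.Agent.S56.FL.H61
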