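import Fermat.Agent.S56.FL.H15_CC2Defs3
import Fermat.Agent.S56.FL.H61_CntCore
import Fermat.Agent.S56.FL.LF.H15_Residue

set_option autoImplicit false
set_option linter.unusedSectionVars false
set_option linter.style.haveILetI false
set_option linter.unusedVariables false

/-!
# LOC-p-FL, package UNITS / CC2 (helper85): the leaf LEADCNT

`stmt_LEADCNT : H15.Stmt_LEADCNT` : the semilinear count `H61.cnt_core` for leading coefficient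
relations with values in the integers of `K` modulo the maximal ideal.
-/

noncomputable section

namespace Fermat.Agent.S56.FL.H85

open scoped NNReal
open Fermat.Agent.S56.FL Fermat.Agent.S56.FL.H15

variable {p : ℕ} [Fact p.Prime]

section residue

variable (K : IntermediateField ℚ_[p] (PadicAlgCl p))

/-- The residue class of an integer of `K`. -/
def clK (u : PadicAlgCl p) (hu : u ∈ K ∧ ‖u‖ ≤ 1) : OL K ⧸ mL K :=
  Ideal.Quotient.mk (mL K) ⟨⟨u, hu.1⟩, hu.2⟩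

variable {K}

theorem clK_eq_iff {u v : PadicAlgCl p} (hu : u ∈ K ∧ ‖u‖ ≤ 1) (hv : v ∈ K ∧ ‖v‖ ≤ 1) :
    clK K u hu = clK K v hv ↔ ‖u - v‖ < 1 := by
  unfold clK
  rw [Ideal.Quotient.eq, mem_mL]
  rfl

theorem clK_eq_zero_iff {u : PadicAlgCl p} (hu : u ∈ K ∧ ‖u‖ ≤ 1) :
    clK K u hu = 0 ↔ ‖u‖ < 1 := by
  unfold clK
  rw [Ideal.Quotient.eq_zero_iff_mem, mem_mL]

theorem mem_add {u v : PadicAlgCl p} (hu : u ∈ K ∧ ‖u‖ ≤ 1) (hv : v ∈ K ∧ ‖v‖ ≤ 1) :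
    u + v ∈ K ∧ ‖u + v‖ ≤ 1 :=
  ⟨K.add_mem hu.1 hv.1, (IsUltrametricDist.norm_add_le_max u v).trans (max_le hu.2 hv.2)⟩

theorem mem_mul {u v : PadicAlgCl p} (hu : u ∈ K ∧ ‖u‖ ≤ 1) (hv : v ∈ K ∧ ‖v‖ ≤ 1) :
    u * v ∈ K ∧ ‖u * v‖ ≤ 1 :=
  ⟨K.mul_mem hu.1 hv.1, by rw [norm_mul]; exact mul_le_one₀ hu.2 (norm_nonneg _) hv.2⟩

theorem mem_pow {u : PadicAlgCl p} (hu : u ∈ K ∧ ‖u‖ ≤ 1) (n : ℕ) :
    u ^ n ∈ K ∧ ‖u ^ n‖ ≤ 1 :=
  ⟨pow_mem hu.1 n, by rw [norm_pow]; exact pow_le_one₀ (norm_nonneg _) hu.2⟩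

theorem clK_add {u v : PadicAlgCl p} (hu : u ∈ K ∧ ‖u‖ ≤ 1) (hv : v ∈ K ∧ ‖v‖ ≤ 1) :
    clK K (u + v) (mem_add hu hv) = clK K u hu + clK K v hv := rfl

theorem clK_mul {u v : PadicAlgCl p} (hu : u ∈ K ∧ ‖u‖ ≤ 1) (hv : v ∈ K ∧ ‖v‖ ≤ 1) :
    clK K (u * v) (mem_mul hu hv) = clK K u hu * clK K v hv := rfl

theorem clK_pow {u : PadicAlgCl p} (hu : u ∈ K ∧ ‖u‖ ≤ 1) (n : ℕ) :
    clK K (u ^ n) (mem_pow hu n) = clK K u hu ^ n := by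
  unfold clK
  rw [← map_pow]
  rfl

end residue

/-- The map attached to a leading coefficient relation. -/
theorem exists_lead_map {k : Type} [Field k] (K : IntermediateField ℚ_[p] (PadicAlgCl p))
    (Lead : k → PadicAlgCl p → Prop) (y w : k) (θ t : PadicAlgCl p)
    (hθ : θ ∈ K ∧ ‖θ‖ ≤ 1) (ht : t ∈ K ∧ ‖t‖ ≤ 1)
    (h1 : ∀ x u, Lead x u → u ∈ K ∧ ‖u‖ ≤ 1)
    (h2 : ∀ x, ∃ u, Lead x u)
    (h3 : ∀ x u u', Lead x u → Lead x u' → ‖u - u'‖ < 1)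
    (h4 : ∀ x x' u u', Lead x u → Lead x' u' → Lead (x + x') (u + u'))
    (h5 : ∀ x u, Lead x u → Lead (y * x) (θ * u))
    (h6 : ∀ x u, Lead x u → Lead (w * x) (t * u ^ (p ^ 2))) :
    ∃ f : k →+ (OL K ⧸ mL K),
      (∀ x u (hu : Lead x u), f x = clK K u (h1 x u hu)) ∧
      (∀ x, f (y * x) = clK K θ hθ * f x) ∧
      (∀ x, f (w * x) = clK K t ht * f x ^ (p ^ 2)) := by
  choose U hU using h2
  have hf : ∀ x u (hu : Lead x u), clK K (U x) (h1 x _ (hU x)) = clK K u (h1 x u hu) := by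
    intro x u hu
    rw [clK_eq_iff]
    exact h3 x _ _ (hU x) hu
  have hadd : ∀ x x' : k, clK K (U (x + x')) (h1 _ _ (hU (x + x')))
      = clK K (U x) (h1 x _ (hU x)) + clK K (U x') (h1 x' _ (hU x')) := by
    intro x x'
    rw [hf _ _ (h4 x x' _ _ (hU x) (hU x')), clK_add]
  let f : k →+ (OL K ⧸ mL K) := AddMonoidHom.mk' (fun x => clK K (U x) (h1 x _ (hU x))) hadd
  have hfF : ∀ z, f z = clK K (U z) (h1 z _ (hU z)) := fun z => rfl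
  refine ⟨f, fun x u hu => by rw [hfF]; exact hf x u hu, ?_, ?_⟩
  · intro x
    rw [hfF, hfF, hf _ _ (h5 x _ (hU x)), clK_mul]
  · intro x
    rw [hfF, hfF, hf _ _ (h6 x _ (hU x)), clK_mul ht (mem_pow (h1 x _ (hU x)) _), clK_pow]

/-- **LEADCNT.** -/
theorem stmt_LEADCNT : H15.Stmt_LEADCNT := by
  intro p _ k _ _ _ K _ Lead₁ Lead₂ y w θ t hθK hθ1 htK ht1 hθp
    a1 a2 a3 a4 a5 a6 b1 b2 b3 b4 b5 b6
  haveI : (mL K).IsMaximal := mL_isMaximal K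
  letI : Field (OL K ⧸ mL K) := Ideal.Quotient.field (mL K)
  haveI : CharP (OL K ⧸ mL K) p := by
    have hp : p.Prime := Fact.out
    rw [CharP.charP_iff_prime_eq_zero hp]
    rw [← map_natCast (Ideal.Quotient.mk (mL K)), Ideal.Quotient.eq_zero_iff_mem, mem_mL]
    have : ((((p : ℕ) : OL K) : K) : PadicAlgCl p) = (p : PadicAlgCl p) := by
      push_cast
      rfl
    rw [this, H15.norm_p_algCl]
    exact inv_lt_one_of_one_lt₀ (by exact_mod_cast hp.one_lt)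
  letI : Algebra (ZMod p) k := ZMod.algebra k p
  letI : Algebra (ZMod p) (OL K ⧸ mL K) := ZMod.algebra _ p
  have hθ : θ ∈ K ∧ ‖θ‖ ≤ 1 := ⟨hθK, hθ1.le⟩
  have ht : t ∈ K ∧ ‖t‖ ≤ 1 := ⟨htK, ht1.le⟩
  obtain ⟨f₁, hf₁, hy₁, hw₁⟩ := exists_lead_map K Lead₁ y w θ t hθ ht a1 a2 a3 a4 a5 a6
  obtain ⟨f₂, hf₂, hy₂, hw₂⟩ := exists_lead_map K Lead₂ y w θ t hθ ht b1 b2 b3 b4 b5 b6
  have ht0 : clK K t ht ≠ 0 := by
    rw [Ne, clK_eq_zero_iff, ht1]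
    exact lt_irrefl _
  have hz : clK K θ hθ ^ p ≠ clK K θ hθ := by
    rw [← clK_pow, Ne, clK_eq_iff]
    exact hθp
  obtain ⟨l₁, l₂, hl, h⟩ := H61.cnt_core p y w (clK K θ hθ) (clK K t ht) ht0 hz f₁ f₂
    ⟨hy₁, hw₁⟩ ⟨hy₂, hw₂⟩
  refine ⟨l₁, l₂, hl, fun x u₁ u₂ hu₁ hu₂ => ?_⟩
  have h1 := h x
  rw [hf₁ _ _ hu₁, hf₂ _ _ hu₂, ← clK_add, clK_eq_zero_iff] at h1
  exact h1

end Fermat.Agent.S56.FL.H85

end
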