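import Fermat.Agent.S56.FL.H15_CC2Main
import Fermat.Agent.S56.FL.H15_CCZ
import Fermat.Agent.S56.FL.H50_CC2Top
import Fermat.Agent.S56.FL.H59_CC2Asm
import Fermat.Agent.S56.FL.H61_CC2Small
import Fermat.Agent.S56.FL.H61_Inert
import Fermat.Agent.S56.FL.H85_LeadCnt

set_option autoImplicit false
set_option linter.style.haveILetI false

/-!
# LOC-p-FL, package UNITS / CC2: `stmt_CC2 : Stmt_CC2`

Wiring of the leaves: `INERT`, `ELL0`, `LEVX`, `PHI2`, `PE0` (helper61), `LEADCNT` (helper85, with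
`CNT` of helper61), `TOP` (helper50), `ASM` (helper59), `FROB`, `KUMBDD` (helper59) and the level
analysis (helper15).
-/

noncomputable section

namespace Fermat.Agent.S56.FL.H15

open Fermat.Agent.S56.FL

theorem stmt_TOP : Stmt_TOP := fun _ _ hp2 _ _ _ _ _ _ _ hk _ hg _ hw _ hn =>
  CoreCtx.psi_eq_zero_of_witAt hp2 hk hg hw hn

theorem stmt_ELL0 : Stmt_ELL0 := fun p _ k _ _ _ => H61.exists_ell0 p k

theorem stmt_LEVX : Stmt_LEVX := fun _ _ K _ _ hζK hζ1 hζp => H61.exists_levCtx K hζK hζ1 hζp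

theorem stmt_PHI2 : Stmt_PHI2 := fun _ _ K _ hK G₂ hsq => H61.exists_frob_sq K hK G₂ hsq

theorem stmt_PE0 : Stmt_PE0 := fun _ _ _ _ _ _ _ hg => H61.not_dvd_e₀ hg

/-- **CC2-core.** -/
theorem stmt_CC2core : Stmt_CC2core :=
  core_of H61.stmt_INERT H85.stmt_LEADCNT stmt_TOP stmt_ELL0 stmt_LEVX stmt_PHI2 stmt_PE0

/-- **CC2z.** -/
theorem stmt_CC2z : Stmt_CC2z := H59.stmt_CC2z_of_core stmt_CC2core

/-- **CC2**: `Stmt_CC2` of `Fermat/Agent/S56/FL/Coh.lean`. -/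
theorem stmt_CC2 : Stmt_CC2 := stmt_CC2_of_z stmt_CC2z

end Fermat.Agent.S56.FL.H15

end
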