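import Fermat.Agent.S56.FL.H50_Final1
import Fermat.Agent.S56.FL.H15_CC2Final

set_option autoImplicit false

/-!
# LOC-p-FL (item 69): the flat local condition at `p`, unconditionally

`stmt_loc_p_Fl : Stmt_loc_p_Fl` (`S56/LeavesNT.lean`): `dim H¹_f(ℚ_p, ad⁰) ≤ h⁰ + 1` for flat
deformations.  Assembly of the packages of `NOTES/plan/T-FL.md`:
LIFT, PM (helper50, helper54), CK, HERB, CC2 (helper15), KUM, CC3 (helper59), CC0, ORD, TAME
(helper38), CC1 (helper85), CONN, BRIDGE (helper54), COH-RED (helper57), COH-SS, CYC, WIRE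
(helper50), leaves by helper41, helper61.
-/

namespace Fermat.Agent.S56.FL.H50

open Fermat.Agent.S56 Fermat.Agent.S56.FL

/-- **LOC-p-FL.** -/
theorem stmt_loc_p_Fl : Stmt_loc_p_Fl := stmt_loc_p_Fl_of_core H15.stmt_CC2core

end Fermat.Agent.S56.FL.H50
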