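import Fermat.Agent.S56.FL.Local

set_option autoImplicit false

/-!
# LOC-p-FL, package LIFT-a: uniqueness of `p`-th roots of unity near `1`

Also provides the coordinate sup-norm `cnorm` on a finite free `𝒪_F`-algebra (reusable for LIFT-b,
PM, CONN): ultrametric, submultiplicative, `cnorm (r • z) = ‖r‖₊ * cnorm z`.
-/

noncomputable section

namespace Fermat.Agent.S56.FL.H50

open scoped NNReal
open Fermat.Agent.S56.FL

variable {p : ℕ} [Fact p.Prime] {F : IntermediateField ℚ_[p] (PadicAlgCl p)}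
variable {C : Type} [CommRing C] [Algebra (intRing p F) C]
variable {ι : Type} [Fintype ι] (b : Module.Basis ι (intRing p F) C)

/-- The sup-norm of the coordinates of `z` in the basis `b`. -/
def cnorm (z : C) : ℝ≥0 := Finset.univ.sup fun i => ‖((b.repr z i : intRing p F) : PadicAlgCl p)‖₊

theorem cnorm_le_iff {z : C} {B : ℝ≥0} :
    cnorm b z ≤ B ↔ ∀ i, ‖((b.repr z i : intRing p F) : PadicAlgCl p)‖₊ ≤ B := by
  simp [cnorm, Finset.sup_le_iff]

theorem coord_le_cnorm (z : C) (i : ι) :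
    ‖((b.repr z i : intRing p F) : PadicAlgCl p)‖₊ ≤ cnorm b z :=
  Finset.le_sup (f := fun i => ‖((b.repr z i : intRing p F) : PadicAlgCl p)‖₊) (Finset.mem_univ i)

theorem nnnorm_intRing_le_one (r : intRing p F) : ‖(r : PadicAlgCl p)‖₊ ≤ 1 := r.2.2

theorem cnorm_le_one (z : C) : cnorm b z ≤ 1 :=
  (cnorm_le_iff b).2 fun _ => nnnorm_intRing_le_one _

theorem cnorm_zero : cnorm b (0 : C) = 0 := by
  apply le_antisymm _ bot_le
  rw [cnorm_le_iff]; intro i; simp

theorem cnorm_add_le (z w : C) : cnorm b (z + w) ≤ max (cnorm b z) (cnorm b w) := by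
  rw [cnorm_le_iff]
  intro i
  rw [map_add, Finsupp.add_apply, Subring.coe_add]
  have h := IsUltrametricDist.norm_add_le_max ((b.repr z i : intRing p F) : PadicAlgCl p)
    ((b.repr w i : intRing p F) : PadicAlgCl p)
  have h' : ‖((b.repr z i : intRing p F) : PadicAlgCl p) + ((b.repr w i : intRing p F) : PadicAlgCl p)‖₊
      ≤ max ‖((b.repr z i : intRing p F) : PadicAlgCl p)‖₊
        ‖((b.repr w i : intRing p F) : PadicAlgCl p)‖₊ := by
    exact_mod_cast h
  exact h'.trans (max_le_max (coord_le_cnorm b z i) (coord_le_cnorm b w i))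

theorem cnorm_neg (z : C) : cnorm b (-z) = cnorm b z := by
  simp [cnorm]

theorem cnorm_sum_le {α : Type} (s : Finset α) (f : α → C) (B : ℝ≥0)
    (h : ∀ a ∈ s, cnorm b (f a) ≤ B) : cnorm b (∑ a ∈ s, f a) ≤ B := by
  classical
  induction s using Finset.induction_on with
  | empty => simp [cnorm_zero]
  | insert a s ha ih =>
    rw [Finset.sum_insert ha]
    exact (cnorm_add_le b _ _).trans (max_le (h a (Finset.mem_insert_self a s))
      (ih fun x hx => h x (Finset.mem_insert_of_mem hx)))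

theorem cnorm_smul (r : intRing p F) (z : C) :
    cnorm b (r • z) = ‖(r : PadicAlgCl p)‖₊ * cnorm b z := by
  simp only [cnorm, map_smul, Finsupp.smul_apply, smul_eq_mul, Subring.coe_mul, nnnorm_mul]
  rw [NNReal.mul_finset_sup]

theorem cnorm_eq_zero {z : C} (h : cnorm b z = 0) : z = 0 := by
  have h1 : ∀ i, b.repr z i = 0 := fun i => by
    have := coord_le_cnorm b z i
    rw [h] at this
    have h2 : ‖((b.repr z i : intRing p F) : PadicAlgCl p)‖₊ = 0 := le_antisymm this bot_le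
    rw [nnnorm_eq_zero] at h2
    exact Subtype.ext h2
  apply b.repr.injective
  ext i
  simpa using h1 i

theorem cnorm_mul_le (z w : C) : cnorm b (z * w) ≤ cnorm b z * cnorm b w := by
  have hz : z = ∑ i, b.repr z i • b i := (b.sum_repr z).symm
  have hw : w = ∑ j, b.repr w j • b j := (b.sum_repr w).symm
  have : z * w = ∑ i, ∑ j, (b.repr z i * b.repr w j) • (b i * b j) := by
    conv_lhs => rw [hz, hw]
    rw [Finset.sum_mul]
    refine Finset.sum_congr rfl fun i _ => ?_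
    rw [Finset.mul_sum]
    refine Finset.sum_congr rfl fun j _ => ?_
    rw [smul_mul_smul_comm]
  rw [this]
  refine cnorm_sum_le b _ _ _ fun i _ => cnorm_sum_le b _ _ _ fun j _ => ?_
  rw [cnorm_smul, Subring.coe_mul, nnnorm_mul]
  calc ‖((b.repr z i : intRing p F) : PadicAlgCl p)‖₊ * ‖((b.repr w j : intRing p F) : PadicAlgCl p)‖₊
        * cnorm b (b i * b j)
      ≤ cnorm b z * cnorm b w * 1 :=
        mul_le_mul' (mul_le_mul' (coord_le_cnorm b z i) (coord_le_cnorm b w j)) (cnorm_le_one b _)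
    _ = cnorm b z * cnorm b w := mul_one _

theorem cnorm_pow_le (z : C) (n : ℕ) (hn : n ≠ 0) : cnorm b (z ^ n) ≤ cnorm b z ^ n := by
  induction n with
  | zero => exact absurd rfl hn
  | succ m ih =>
    rcases Nat.eq_zero_or_pos m with rfl | hm
    · simp
    · rw [pow_succ, pow_succ]
      exact (cnorm_mul_le b _ _).trans (mul_le_mul' (ih hm.ne') le_rfl)

theorem cnorm_le_of_mem_map {c : ℝ≥0} {z : C}
    (hz : z ∈ Ideal.map (algebraMap (intRing p F) C) (ballIdeal p F c)) : cnorm b z ≤ c := by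
  rw [Ideal.map, Ideal.span] at hz
  induction hz using Submodule.span_induction with
  | mem x hx =>
    obtain ⟨r, hr, rfl⟩ := hx
    rw [Algebra.algebraMap_eq_smul_one, cnorm_smul]
    have hr' : ‖(r : PadicAlgCl p)‖₊ ≤ c := by
      have := (mem_ballIdeal p).1 hr
      exact_mod_cast this
    calc ‖(r : PadicAlgCl p)‖₊ * cnorm b (1 : C) ≤ c * 1 := mul_le_mul' hr' (cnorm_le_one b _)
      _ = c := mul_one _
  | zero => simp [cnorm_zero]
  | add x y _ _ hx hy => exact (cnorm_add_le b x y).trans (max_le hx hy)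
  | smul a x _ hx =>
    rw [smul_eq_mul]
    calc cnorm b (a * x) ≤ cnorm b a * cnorm b x := cnorm_mul_le b _ _
      _ ≤ 1 * c := mul_le_mul' (cnorm_le_one b _) hx
      _ = c := one_mul _

/-- `n • z` for a natural number `n`: the norm is multiplied by `‖n‖₊`. -/
theorem cnorm_natCast_mul (n : ℕ) (z : C) :
    cnorm b ((n : C) * z) = ‖(n : PadicAlgCl p)‖₊ * cnorm b z := by
  have : (n : C) * z = ((n : intRing p F)) • z := by
    rw [Algebra.smul_def, map_natCast]
  rw [this, cnorm_smul]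
  simp

theorem nnnorm_natCast_le_one (n : ℕ) : ‖(n : PadicAlgCl p)‖₊ ≤ 1 := by
  have h : ((n : intRing p (⊥ : IntermediateField ℚ_[p] (PadicAlgCl p))) : PadicAlgCl p)
      = (n : PadicAlgCl p) := by simp
  rw [← h]
  exact nnnorm_intRing_le_one (p := p) (F := ⊥) _

theorem nnnorm_p : ‖(p : PadicAlgCl p)‖₊ = (p : ℝ≥0)⁻¹ := by
  have := PadicAlgCl.valuation_p p
  rw [PadicAlgCl.valuation_def] at this
  rw [this, one_div]


theorem nnnorm_choose_le {m : ℕ} (hm0 : m ≠ 0) (hmp : m < p) :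
    ‖((p.choose m : ℕ) : PadicAlgCl p)‖₊ ≤ (p : ℝ≥0)⁻¹ := by
  obtain ⟨q, hq⟩ := Nat.Prime.dvd_choose_self (Fact.out : p.Prime) hm0 hmp
  rw [hq, Nat.cast_mul, nnnorm_mul, nnnorm_p]
  calc (p : ℝ≥0)⁻¹ * ‖(q : PadicAlgCl p)‖₊ ≤ (p : ℝ≥0)⁻¹ * 1 :=
        mul_le_mul' le_rfl (nnnorm_natCast_le_one q)
    _ = (p : ℝ≥0)⁻¹ := mul_one _

/-- The binomial expansion of `(1 + z)^p` with the terms `m = 0, 1, p` split off. -/
theorem one_add_pow_prime (z : C) :
    (1 + z) ^ p = 1 + (p : C) * z + (∑ m ∈ Finset.Ico 2 p, (p.choose m : C) * z ^ m) + z ^ p := by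
  have hp2 : 2 ≤ p := (Fact.out : p.Prime).two_le
  rw [add_comm 1 z, add_pow, Finset.range_eq_Ico,
    Finset.sum_eq_sum_Ico_succ_bot (by omega : 0 < p + 1),
    Finset.sum_eq_sum_Ico_succ_bot (by omega : 0 + 1 < p + 1),
    Finset.sum_Ico_succ_top (by omega : 0 + 1 + 1 ≤ p)]
  simp only [one_pow, mul_one, pow_zero, Nat.choose_zero_right, Nat.cast_one, zero_add, pow_one,
    Nat.choose_one_right, Nat.choose_self]
  have : (∑ m ∈ Finset.Ico (1 + 1) p, z ^ m * (p.choose m : C))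
      = ∑ m ∈ Finset.Ico 2 p, (p.choose m : C) * z ^ m :=
    Finset.sum_congr rfl fun m _ => mul_comm _ _
  rw [this]
  ring

theorem lift_a_core {c : ℝ≥0} (hc : c ^ (p - 1) < (p : ℝ≥0)⁻¹) (z : C) (hz : cnorm b z ≤ c)
    (h : (1 + z) ^ p = 1) : z = 0 := by
  have hp : p.Prime := Fact.out
  have hp2 : 2 ≤ p := hp.two_le
  set t := cnorm b z with ht
  by_contra hne
  have ht0 : t ≠ 0 := fun h0 => hne (cnorm_eq_zero b h0)
  have htpos : 0 < t := pos_iff_ne_zero.2 ht0
  have hppos : (0 : ℝ≥0) < (p : ℝ≥0)⁻¹ := by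
    rw [inv_pos]; exact_mod_cast hp.pos
  have hplt : (p : ℝ≥0)⁻¹ < 1 := by
    rw [inv_lt_one₀ (by exact_mod_cast hp.pos)]; exact_mod_cast hp.one_lt
  have hc1 : c < 1 := by
    by_contra hcon
    have hcon' : (1 : ℝ≥0) ≤ c := not_lt.1 hcon
    have : (1 : ℝ≥0) ≤ c ^ (p - 1) := one_le_pow₀ hcon'
    exact absurd (this.trans_lt hc) (not_lt.2 hplt.le)
  have ht1 : t < 1 := hz.trans_lt hc1
  -- the equation
  have heq : (p : C) * z = -((∑ m ∈ Finset.Ico 2 p, (p.choose m : C) * z ^ m) + z ^ p) := by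
    have := one_add_pow_prime (p := p) z
    rw [h] at this
    have h2 : (p : C) * z + ((∑ m ∈ Finset.Ico 2 p, (p.choose m : C) * z ^ m) + z ^ p) = 0 := by
      have h3 : (1 : C) + ((p : C) * z + ((∑ m ∈ Finset.Ico 2 p, (p.choose m : C) * z ^ m) + z ^ p))
          = 1 + 0 := by
        rw [add_zero]
        calc (1 : C) + ((p : C) * z + ((∑ m ∈ Finset.Ico 2 p, (p.choose m : C) * z ^ m) + z ^ p))
            = 1 + (p : C) * z + (∑ m ∈ Finset.Ico 2 p, (p.choose m : C) * z ^ m) + z ^ p := by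
              simp only [add_assoc]
          _ = 1 := this.symm
      exact add_left_cancel h3
    exact eq_neg_of_add_eq_zero_left h2
  have hL : cnorm b ((p : C) * z) = (p : ℝ≥0)⁻¹ * t := by
    rw [cnorm_natCast_mul, nnnorm_p]
  have hS : cnorm b (∑ m ∈ Finset.Ico 2 p, (p.choose m : C) * z ^ m) ≤ (p : ℝ≥0)⁻¹ * t ^ 2 := by
    refine cnorm_sum_le b _ _ _ fun m hm => ?_
    rw [Finset.mem_Ico] at hm
    rw [cnorm_natCast_mul]
    refine mul_le_mul' (nnnorm_choose_le (by omega) hm.2) ?_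
    refine (cnorm_pow_le b z m (by omega)).trans ?_
    exact pow_le_pow_of_le_one bot_le ht1.le hm.1
  have hP : cnorm b (z ^ p) ≤ t ^ p := cnorm_pow_le b z p hp.ne_zero
  have hR : (p : ℝ≥0)⁻¹ * t ≤ max ((p : ℝ≥0)⁻¹ * t ^ 2) (t ^ p) := by
    rw [← hL, heq, cnorm_neg]
    exact (cnorm_add_le b _ _).trans (max_le_max hS hP)
  rcases le_max_iff.1 hR with hA | hB
  · -- t ≤ t^2, impossible
    have h1 : t ≤ t ^ 2 := by
      have := (mul_le_mul_iff_right₀ hppos).1 hA
      exact this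
    have h2 : t ^ 2 < t := by
      calc t ^ 2 = t * t := sq t
        _ < 1 * t := mul_lt_mul_of_pos_right ht1 htpos
        _ = t := one_mul t
    exact absurd h1 (not_le.2 h2)
  · -- p⁻¹ ≤ t^(p-1) ≤ c^(p-1)
    have h1 : t ^ p = t ^ (p - 1) * t := by
      rw [← pow_succ]; congr 1; omega
    rw [h1] at hB
    have h2 : (p : ℝ≥0)⁻¹ ≤ t ^ (p - 1) := (mul_le_mul_iff_left₀ htpos).1 hB
    have h3 : t ^ (p - 1) ≤ c ^ (p - 1) := pow_le_pow_left₀ bot_le hz _
    exact absurd (h2.trans h3) (not_le.2 hc)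

/-- **LIFT-a.** -/
theorem stmt_LIFT_a : Stmt_LIFT_a := by
  intro p _ F C _ _ _ _ c hc u hu hmem
  let b := Module.Free.chooseBasis (intRing p F) C
  have hz : cnorm b (u - 1) ≤ c := cnorm_le_of_mem_map b hmem
  have h : (1 + (u - 1)) ^ p = 1 := by rw [add_sub_cancel]; exact hu
  have := lift_a_core b hc (u - 1) hz h
  exact sub_eq_zero.1 this

end Fermat.Agent.S56.FL.H50

end
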