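import Fermat.Agent.S56.FL.H54_ConnBC
import Fermat.Agent.R.Flat.H54_Subquot
import Fermat.Agent.S56.FL.H50_LiftA

/-!
# LOC-p-FL, package CONN (helper54): `Stmt_SUBQ`

Reduction is injective on unramified subquotients: `stmt_SUBQ_of : Stmt_UnramVal → Stmt_SUBQ`,
where `Stmt_UnramVal` is the local-field fact "an element of `K̄` fixed by inertia with norm `< 1`
has norm `≤ 1/p`".

Proof: base change to `ℤ_p`, the subquotient Hopf algebra `A` of `E₂/E₁`
(`exists_subquotient_model`), the point `u` of `A` attached to `x`, and LIFT-a in the convolution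
ring `Hom_{ℤ_p}(A, 𝒪_{K̄})`.
-/

set_option autoImplicit false
set_option linter.unusedSectionVars false
set_option linter.style.haveILetI false

noncomputable section

namespace Fermat.Agent.S56.FL.H54

open scoped NNReal TensorProduct
open Fermat.Agent.S56.FL Fermat.Agent.R.H54 WithConv

/-- **The local-field input of CONN**: an element of `K̄` fixed by inertia with norm `< 1` has
norm `≤ 1/p` (the value group of the maximal unramified extension of `ℚ_p` is `p^ℤ`). -/
def Stmt_UnramVal : Prop :=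
  ∀ (p : ℕ) [Fact p.Prime] (b : PadicAlgCl p),
    (∀ σ ∈ inertiaP p, σ b = b) → ‖b‖ < 1 → ‖b‖ ≤ (p : ℝ)⁻¹

section Generic

variable {R₀ A O : Type} [CommRing R₀] [AddCommGroup A] [Module R₀ A] [Module.Free R₀ A]
  [Module.Finite R₀ A] [CommRing O] [Algebra R₀ O]

theorem free_conv : Module.Free O (WithConv (A →ₗ[R₀] O)) :=
  Module.Free.of_equiv (WithConv.linearEquiv O (A →ₗ[R₀] O)).symm

theorem finite_conv : Module.Finite O (WithConv (A →ₗ[R₀] O)) :=
  Module.Finite.equiv (WithConv.linearEquiv O (A →ₗ[R₀] O)).symm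

end Generic

variable {p : ℕ} [Fact p.Prime]

/-- The numerical fact `(1/p)^{p-1} < 1/p` for `p ≥ 3`. -/
theorem radius_inv (hp2 : p ≠ 2) : ((p : ℝ≥0)⁻¹) ^ (p - 1) < (p : ℝ≥0)⁻¹ := by
  have hp : p.Prime := Fact.out
  have hp3 : 2 ≤ p - 1 := by
    have := hp.two_le
    omega
  have hpp : (1 : ℝ≥0) < (p : ℝ≥0) := by exact_mod_cast hp.one_lt
  have h0 : (0 : ℝ≥0) < (p : ℝ≥0)⁻¹ := inv_pos.mpr (lt_trans zero_lt_one hpp)
  have h1 : (p : ℝ≥0)⁻¹ < 1 := inv_lt_one_of_one_lt₀ hpp
  calc ((p : ℝ≥0)⁻¹) ^ (p - 1) ≤ ((p : ℝ≥0)⁻¹) ^ 2 := pow_le_pow_of_le_one h0.le h1.le hp3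
    _ = (p : ℝ≥0)⁻¹ * (p : ℝ≥0)⁻¹ := sq _
    _ < (p : ℝ≥0)⁻¹ * 1 := mul_lt_mul_of_pos_left h1 h0
    _ = (p : ℝ≥0)⁻¹ := mul_one _

/-- **LIFT-a for points**: a point `u` of a finite free cocommutative Hopf algebra `A` over `ℤ_p`
which is killed by `p` and is congruent to the identity modulo `p` is the identity. -/
theorem point_eq_one_of_small (hp2 : p ≠ 2) {A : Type} [CommRing A] [HopfAlgebra ℤ_[p] A]
    [Module.Finite ℤ_[p] A] [Module.Free ℤ_[p] A] [Coalgebra.IsCocomm ℤ_[p] A]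
    (u : Pts ℤ_[p] A (PadicAlgCl p)) (hu : u ^ p = 1)
    (hsmall : ∀ a : A, ‖u a - algebraMap ℤ_[p] (PadicAlgCl p) (Coalgebra.counit a)‖ ≤
      (p : ℝ)⁻¹) : u = 1 := by
  classical
  set F : IntermediateField ℚ_[p] (PadicAlgCl p) := ⊤ with hF
  haveI : Module.Free (intRing p F) (WithConv (A →ₗ[ℤ_[p]] intRing p F)) := free_conv
  haveI : Module.Finite (intRing p F) (WithConv (A →ₗ[ℤ_[p]] intRing p F)) := finite_conv
  -- the point with values in `𝒪`
  let uO : A →ₐ[ℤ_[p]] intRing p F :=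
    { toFun := fun a => ⟨u a, IntermediateField.mem_top, norm_pointP_le_one u.ofConv a⟩
      map_one' := Subtype.ext (map_one u.ofConv)
      map_mul' := fun a b => Subtype.ext (map_mul u.ofConv a b)
      map_zero' := Subtype.ext (map_zero u.ofConv)
      map_add' := fun a b => Subtype.ext (map_add u.ofConv a b)
      commutes' := fun r => Subtype.ext (u.ofConv.commutes r) }
  set U : WithConv (A →ₗ[ℤ_[p]] intRing p F) := toConv uO.toLinearMap with hU
  have hpostU : postC (inclAlgP F) U = toConv u.ofConv.toLinearMap := by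
    apply WithConv.ext
    apply LinearMap.ext
    intro a
    rfl
  have hpost_inj : Function.Injective
      (postC (H := A) (inclAlgP F) : WithConv (A →ₗ[ℤ_[p]] intRing p F) → _) := by
    intro f g hfg
    apply WithConv.ext
    apply LinearMap.ext
    intro a
    apply inclAlgP_injective F
    have := congrArg (fun φ : WithConv (A →ₗ[ℤ_[p]] PadicAlgCl p) => φ a) hfg
    exact this
  have hUp : U ^ p = 1 := by
    apply hpost_inj
    rw [map_pow, hpostU, ← AlgHom.toLinearMap_convPow, hu, map_one]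
    rfl
  have hmem : U - 1 ∈ Ideal.map (algebraMap (intRing p F) _) (ballIdeal p F ((p : ℝ≥0)⁻¹)) := by
    apply mem_map_of_apply_mem
    intro a
    rw [mem_ballIdeal]
    have h1 : (((U - 1) a : intRing p F) : PadicAlgCl p) =
        u a - algebraMap ℤ_[p] (PadicAlgCl p) (Coalgebra.counit a) := rfl
    rw [h1]
    have := hsmall a
    simpa using this
  have hU1 : U = 1 := H50.stmt_LIFT_a p F _ ((p : ℝ≥0)⁻¹) (radius_inv hp2) U hUp hmem
  apply WithConv.ext
  apply AlgHom.ext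
  intro a
  have h2 := congrArg (fun φ : WithConv (A →ₗ[ℤ_[p]] intRing p F) =>
    ((φ a : intRing p F) : PadicAlgCl p)) hU1
  exact h2

/-- Powers in a `G`-stable subgroup. -/
theorem IsGSubgroup_pow_mem {R K G : Type} [CommRing R] [Field K] [Algebra R K] [Group G]
    [MulSemiringAction G K] {H : Type} [CommRing H] [HopfAlgebra R H] [Coalgebra.IsCocomm R H]
    {hD : DescentData R K G} {X : Set (Pts R H K)} (hX : IsGSubgroup hD X) {f : Pts R H K}
    (hf : f ∈ X) (n : ℕ) : f ^ n ∈ X := by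
  induction n with
  | zero => rw [pow_zero]; exact hX.one_mem
  | succ n ih => rw [pow_succ]; exact hX.mul_mem _ ih _ hf

/-- **SUBQ** from the local-field input. -/
theorem stmt_SUBQ_of (hUV : Stmt_UnramVal) : Stmt_SUBQ := by
  intro p _ hp2 H _ _ _ _ _ hkill E₁ E₂ h12 hE₁ hE₂ hin x hx hred
  classical
  have hp : p.Prime := Fact.out
  have hD := descentData_padic (p := p)
  have hp1 : p - 1 + 1 = p := Nat.sub_add_cancel hp.one_le
  -- the subgroups of the points of the base change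
  have hsub : ∀ E : Submonoid (WithConv (H →ₐ[Zloc p] PadicAlgCl p)),
      (∀ (σ : Gp p), ∀ x ∈ E, pointAct σ x ∈ E) →
      IsGSubgroup hD {φ : Pts ℤ_[p] (ℤ_[p] ⊗[Zloc p] H) (PadicAlgCl p) | resBC φ ∈ E} := by
    intro E hE
    refine ⟨?_, ?_, ?_, ?_⟩
    · show resBC 1 ∈ E
      rw [resBC_one]
      exact E.one_mem
    · intro f hf g hg
      show resBC (f * g) ∈ E
      rw [resBC_mul]
      exact E.mul_mem hf hg
    · intro f hf
      show resBC (pinv f) ∈ E
      have h1 : resBC (pinv f) * resBC f = 1 := by rw [← resBC_mul, pinv_mul, resBC_one]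
      have h2 : resBC f ^ (p - 1) * resBC f = 1 := by rw [← pow_succ, hp1, hkill]
      have h3 : resBC (pinv f) = resBC f ^ (p - 1) := by
        calc resBC (pinv f) = resBC (pinv f) * (resBC f ^ (p - 1) * resBC f) := by
              rw [h2, mul_one]
          _ = (resBC (pinv f) * resBC f) * resBC f ^ (p - 1) := by
              rw [mul_comm (resBC f ^ (p - 1)), mul_assoc]
          _ = resBC f ^ (p - 1) := by rw [h1, one_mul]
      rw [h3]
      exact E.pow_mem hf _
    · intro σ f hf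
      show resBC (gconj hD σ f) ∈ E
      rw [resBC_gconj]
      exact hE σ _ hf
  have hX₁ := hsub E₁ hE₁
  have hX₂ := hsub E₂ hE₂
  set X₁ : Set (Pts ℤ_[p] (ℤ_[p] ⊗[Zloc p] H) (PadicAlgCl p)) := {φ | resBC φ ∈ E₁} with hX₁def
  set X₂ : Set (Pts ℤ_[p] (ℤ_[p] ⊗[Zloc p] H) (PadicAlgCl p)) := {φ | resBC φ ∈ E₂} with hX₂def
  obtain ⟨A, _, _, hfin, hfree, hcoc, q, hq_mul, hq_ker, hq_gal, hq_val⟩ :=
    exists_subquotient_model hD hX₁ hX₂
  haveI := hfin
  haveI := hfree
  haveI := hcoc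
  set xh := extBC x with hxh
  have hxh2 : xh ∈ X₂ := by
    show resBC (extBC x) ∈ E₂
    rw [resBC_extBC]
    exact hx
  have hq_one : q 1 = 1 := (hq_ker 1 hX₂.one_mem).mpr hX₁.one_mem
  have hq_pow : ∀ n : ℕ, q (xh ^ n) = q xh ^ n := by
    intro n
    induction n with
    | zero => rw [pow_zero, pow_zero, hq_one]
    | succ n ih =>
      rw [pow_succ, pow_succ, hq_mul _ (IsGSubgroup_pow_mem hX₂ hxh2 n) _ hxh2, ih]
  have hxhp : xh ^ p = 1 := by
    apply resBC_injective
    rw [resBC_pow, resBC_extBC, hkill, resBC_one]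
  set u := q xh with hu
  have hup : u ^ p = 1 := by rw [hu, ← hq_pow, hxhp, hq_one]
  have hu_val : ∀ a : A, ‖u a - algebraMap ℤ_[p] (PadicAlgCl p) (Coalgebra.counit a)‖ < 1 := by
    intro a
    obtain ⟨t, hc, hv⟩ := hq_val a
    rw [hu, hv xh hxh2, hc]
    exact norm_extBC_sub_counit_lt x hred t
  have hu_inert : ∀ σ ∈ inertiaP p, ∀ a : A, σ (u a) = u a := by
    intro σ hσ a
    obtain ⟨y, hy, hσx⟩ := hin σ hσ x hx
    have hyh1 : extBC y ∈ X₁ := by
      show resBC (extBC y) ∈ E₁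
      rw [resBC_extBC]
      exact hy
    have hyh2 : extBC y ∈ X₂ := by
      show resBC (extBC y) ∈ E₂
      rw [resBC_extBC]
      exact h12 hy
    have h1 : gconj hD σ xh = xh * extBC y := by
      rw [hxh, ← extBC_pointAct, hσx, extBC_mul]
    have h2 : gconj hD σ u = u := by
      rw [hu, ← hq_gal σ xh hxh2, h1, hq_mul xh hxh2 _ hyh2, (hq_ker _ hyh2).mpr hyh1, mul_one]
    have h3 := congrArg (fun φ : Pts ℤ_[p] A (PadicAlgCl p) => φ a) h2
    exact h3
  have hu_small : ∀ a : A,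
      ‖u a - algebraMap ℤ_[p] (PadicAlgCl p) (Coalgebra.counit a)‖ ≤ (p : ℝ)⁻¹ := by
    intro a
    refine hUV p _ (fun σ hσ => ?_) (hu_val a)
    rw [map_sub, hu_inert σ hσ a]
    congr 1
    rw [algebraMap_padicInt_eq]
    exact σ.commutes _
  have hu1 : u = 1 := point_eq_one_of_small hp2 u hup hu_small
  have hxh1 : xh ∈ X₁ := (hq_ker xh hxh2).mp hu1
  have : resBC (extBC x) ∈ E₁ := hxh1
  rwa [resBC_extBC] at this

end Fermat.Agent.S56.FL.H54

end
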