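import Fermat.Agent.S56.FL.H54_UnramCyc
import Fermat.Agent.S56.FL.H54_Conn
import Fermat.Agent.S56.FL.LF.H15_Residue

/-!
# LOC-p-FL (helper54): elements fixed by inertia are unramified (`Stmt_UnramVal`), and `Stmt_SUBQ`

* `exists_root_of_unity_near` : every integer of `K̄` is congruent modulo the maximal ideal to `0`
  or to a root of unity of order prime to `p`;
* `mem_inertiaP_of_fix_roots` : an automorphism fixing the roots of unity of order prime to `p`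
  is in the inertia group;
* `mem_unrField_of_fixed` : an element fixed by inertia lies in `ℚ_p(μ_{p'})`;
* `stmt_UnramVal : Stmt_UnramVal`, `stmt_SUBQ : Stmt_SUBQ`.
-/

set_option autoImplicit false
set_option linter.unusedSectionVars false
set_option linter.style.haveILetI false

noncomputable section

namespace Fermat.Agent.S56.FL.H54

open scoped NNReal IntermediateField
open Fermat.Agent.S56.FL Polynomial

variable {p : ℕ} [Fact p.Prime]

/-- The roots of unity of order prime to `p`. -/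
def primeRoots (p : ℕ) [Fact p.Prime] : Set (PadicAlgCl p) :=
  {ζ | ∃ n : ℕ, 0 < n ∧ ¬ p ∣ n ∧ ζ ^ n = 1}

/-- Every integer of `K̄` is congruent to `0` or to a root of unity of order prime to `p`. -/
theorem exists_root_of_unity_near (a : PadicAlgCl p) (ha : ‖a‖ ≤ 1) :
    ∃ ζ : PadicAlgCl p, (ζ = 0 ∨ ζ ∈ primeRoots p) ∧ ‖a - ζ‖ < 1 := by
  classical
  have hp : p.Prime := Fact.out
  by_cases ha1 : ‖a‖ < 1
  · exact ⟨0, Or.inl rfl, by rwa [sub_zero]⟩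
  have hnorm : ‖a‖ = 1 := le_antisymm ha (not_lt.mp ha1)
  have hint : IsIntegral ℚ_[p] a := (Algebra.IsAlgebraic.isAlgebraic a).isIntegral
  set L : IntermediateField ℚ_[p] (PadicAlgCl p) := ℚ_[p]⟮a⟯ with hL
  haveI : FiniteDimensional ℚ_[p] L := IntermediateField.adjoin.finiteDimensional hint
  obtain ⟨-, q, -, hq0, hq1, hpow, -⟩ := H15.exists_residue_generator L
  have haL : a ∈ L := IntermediateField.mem_adjoin_simple_self ℚ_[p] a
  have h1 : ‖a ^ q - a‖ < 1 := hpow ⟨a, haL⟩ ha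
  -- `p ∣ q`
  have hpq : p ∣ q := by
    have h : (q : PadicAlgCl p) = algebraMap ℚ_[p] (PadicAlgCl p) (q : ℚ_[p]) := by simp
    rw [h, PadicAlgCl.norm_extends] at hq1
    exact Padic.norm_natCast_lt_one_iff.mp hq1
  have hq2 : 2 ≤ q := le_trans hp.two_le (Nat.le_of_dvd hq0 hpq)
  set n := q - 1 with hn
  have hn0 : 0 < n := by omega
  have hpn : ¬ p ∣ n := by
    intro h
    have : p ∣ q - n := Nat.dvd_sub hpq h
    have hqn : q - n = 1 := by omega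
    rw [hqn] at this
    exact hp.one_lt.ne' (Nat.dvd_one.mp this)
  have h2 : ‖a ^ n - 1‖ < 1 := by
    have h3 : a ^ q - a = a * (a ^ n - 1) := by
      have : q = n + 1 := by omega
      rw [this]
      ring
    rw [h3, norm_mul, hnorm, one_mul] at h1
    exact h1
  -- factor `X ^ n - 1`
  haveI : NeZero (n : ℚ_[p]) := ⟨by exact_mod_cast hn0.ne'⟩
  obtain ⟨ξ, hξ⟩ := HasEnoughRootsOfUnity.exists_primitiveRoot (PadicAlgCl p) n
  have hfac := X_pow_sub_one_eq_prod hn0 hξ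
  have heval : a ^ n - 1 = ∏ ζ ∈ nthRootsFinset n (1 : PadicAlgCl p), (a - ζ) := by
    have := congrArg (Polynomial.eval a) hfac
    simpa [Polynomial.eval_prod] using this
  rw [heval, norm_prod] at h2
  by_contra hcon
  have hall : ∀ ζ ∈ nthRootsFinset n (1 : PadicAlgCl p), 1 ≤ ‖a - ζ‖ := by
    intro ζ hζ
    by_contra hlt
    apply hcon
    refine ⟨ζ, Or.inr ⟨n, hn0, hpn, ?_⟩, not_le.mp hlt⟩
    exact (mem_nthRootsFinset hn0 1).mp hζ
  have : (1 : ℝ) ≤ ∏ ζ ∈ nthRootsFinset n (1 : PadicAlgCl p), ‖a - ζ‖ := by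
    calc (1 : ℝ) = ∏ _ζ ∈ nthRootsFinset n (1 : PadicAlgCl p), (1 : ℝ) := by simp
      _ ≤ ∏ ζ ∈ nthRootsFinset n (1 : PadicAlgCl p), ‖a - ζ‖ :=
        Finset.prod_le_prod (fun _ _ => zero_le_one) hall
  exact absurd this (not_le.mpr h2)

/-- An automorphism fixing all roots of unity of order prime to `p` is in the inertia group. -/
theorem mem_inertiaP_of_fix_roots (σ : Gp p) (h : ∀ ζ ∈ primeRoots p, σ ζ = ζ) :
    σ ∈ inertiaP p := by
  intro a ha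
  obtain ⟨ζ, hζ, hnear⟩ := exists_root_of_unity_near a ha
  have hσζ : σ ζ = ζ := by
    rcases hζ with rfl | hζ
    · exact map_zero σ
    · exact h ζ hζ
  have h1 : σ a - a = σ (a - ζ) - (a - ζ) := by
    rw [map_sub, hσζ]
    ring
  rw [h1, sub_eq_add_neg]
  refine (IsUltrametricDist.norm_add_le_max _ _).trans_lt (max_lt ?_ ?_)
  · rw [norm_gal]
    exact hnear
  · rw [norm_neg]
    exact hnear

/-- The maximal unramified extension `ℚ_p(μ_{p'})`. -/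
def unrField (p : ℕ) [Fact p.Prime] : IntermediateField ℚ_[p] (PadicAlgCl p) :=
  IntermediateField.adjoin ℚ_[p] (primeRoots p)

/-- An element fixed by inertia lies in `ℚ_p(μ_{p'})`. -/
theorem mem_unrField_of_fixed (b : PadicAlgCl p) (hb : ∀ σ ∈ inertiaP p, σ b = b) :
    b ∈ unrField p := by
  haveI : Algebra.IsAlgebraic ℚ_[p] (PadicAlgCl p) := AlgebraicClosure.isAlgebraic ℚ_[p]
  haveI : IsAlgClosure ℚ_[p] (PadicAlgCl p) := ⟨inferInstance, inferInstance⟩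
  haveI : IsGalois ℚ_[p] (PadicAlgCl p) := inferInstance
  rw [← InfiniteGalois.fixedField_fixingSubgroup (unrField p), IntermediateField.mem_fixedField_iff]
  intro σ hσ
  apply hb
  apply mem_inertiaP_of_fix_roots
  intro ζ hζ
  have hζ' : ζ ∈ unrField p := IntermediateField.subset_adjoin ℚ_[p] _ hζ
  exact (IntermediateField.mem_fixingSubgroup_iff (unrField p) σ).mp hσ ζ hζ'

/-- Two roots of unity of order prime to `p` lie in the field generated by a third one. -/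
theorem exists_common_root {ζ₁ ζ₂ : PadicAlgCl p} (h₁ : ζ₁ ∈ primeRoots p)
    (h₂ : ζ₂ ∈ primeRoots p) :
    ∃ ζ ∈ primeRoots p, ℚ_[p]⟮ζ₁⟯ ≤ ℚ_[p]⟮ζ⟯ ∧ ℚ_[p]⟮ζ₂⟯ ≤ ℚ_[p]⟮ζ⟯ := by
  have hp : p.Prime := Fact.out
  obtain ⟨n₁, hn₁, hp₁, hz₁⟩ := h₁
  obtain ⟨n₂, hn₂, hp₂, hz₂⟩ := h₂
  have hn : 0 < n₁ * n₂ := Nat.mul_pos hn₁ hn₂
  have hpn : ¬ p ∣ n₁ * n₂ := by
    intro h
    rcases (Nat.Prime.dvd_mul hp).mp h with h | h
    · exact hp₁ h
    · exact hp₂ h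
  haveI : NeZero (n₁ * n₂) := ⟨hn.ne'⟩
  haveI : NeZero ((n₁ * n₂ : ℕ) : ℚ_[p]) := ⟨by exact_mod_cast hn.ne'⟩
  obtain ⟨ξ, hξ⟩ := HasEnoughRootsOfUnity.exists_primitiveRoot (PadicAlgCl p) (n₁ * n₂)
  refine ⟨ξ, ⟨n₁ * n₂, hn, hpn, hξ.pow_eq_one⟩, ?_, ?_⟩
  · rw [IntermediateField.adjoin_simple_le_iff]
    obtain ⟨i, -, hi⟩ := hξ.eq_pow_of_pow_eq_one (ξ := ζ₁) (by rw [pow_mul, hz₁, one_pow])
    rw [← hi]
    exact pow_mem (IntermediateField.mem_adjoin_simple_self ℚ_[p] ξ) i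
  · rw [IntermediateField.adjoin_simple_le_iff]
    obtain ⟨i, -, hi⟩ := hξ.eq_pow_of_pow_eq_one (ξ := ζ₂)
      (by rw [mul_comm, pow_mul, hz₂, one_pow])
    rw [← hi]
    exact pow_mem (IntermediateField.mem_adjoin_simple_self ℚ_[p] ξ) i

/-- Every element of `ℚ_p(μ_{p'})` lies in `ℚ_p(ζ)` for a single root of unity `ζ` of order
prime to `p`. -/
theorem exists_root_of_mem_unrField {b : PadicAlgCl p} (hb : b ∈ unrField p) :
    ∃ ζ ∈ primeRoots p, b ∈ ℚ_[p]⟮ζ⟯ := by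
  have h1mem : (1 : PadicAlgCl p) ∈ primeRoots p := ⟨1, one_pos, by
    intro h
    exact (Fact.out : p.Prime).one_lt.ne' (Nat.dvd_one.mp h), by simp⟩
  refine IntermediateField.adjoin_induction ℚ_[p]
    (p := fun x _ => ∃ ζ ∈ primeRoots p, x ∈ ℚ_[p]⟮ζ⟯) ?_ ?_ ?_ ?_ ?_ hb
  · intro x hx
    exact ⟨x, hx, IntermediateField.mem_adjoin_simple_self ℚ_[p] x⟩
  · intro x
    exact ⟨1, h1mem, IntermediateField.algebraMap_mem _ x⟩
  · rintro x y - - ⟨ζ₁, h₁, hx⟩ ⟨ζ₂, h₂, hy⟩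
    obtain ⟨ζ, hζ, hle₁, hle₂⟩ := exists_common_root h₁ h₂
    exact ⟨ζ, hζ, add_mem (hle₁ hx) (hle₂ hy)⟩
  · rintro x - ⟨ζ₁, h₁, hx⟩
    exact ⟨ζ₁, h₁, inv_mem hx⟩
  · rintro x y - - ⟨ζ₁, h₁, hx⟩ ⟨ζ₂, h₂, hy⟩
    obtain ⟨ζ, hζ, hle₁, hle₂⟩ := exists_common_root h₁ h₂
    exact ⟨ζ, hζ, mul_mem (hle₁ hx) (hle₂ hy)⟩

/-- **The local-field input of CONN.** -/
theorem stmt_UnramVal : Stmt_UnramVal := by
  intro p _ b hb hb1
  obtain ⟨ζ, ⟨n, hn, hpn, hζ⟩, hbζ⟩ := exists_root_of_mem_unrField (mem_unrField_of_fixed b hb)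
  exact norm_le_inv_of_mem_adjoin_root hn hpn hζ hbζ hb1

/-- **SUBQ** (package CONN): reduction is injective on unramified subquotients. -/
theorem stmt_SUBQ : Stmt_SUBQ := stmt_SUBQ_of stmt_UnramVal

end Fermat.Agent.S56.FL.H54

end
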