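import Fermat.Agent.S56.FL.H54_BridgeField
import Fermat.Agent.S56.FL.H54_Unram
import Fermat.Agent.S56.FL.Count

/-!
# LOC-p-FL, package BRIDGE-2 (helper54): `Stmt_FL_B`

`Stmt_SUBQ` transported to flat Galois modules: for a finite flat `G_ℚ`-module `M` killed by `p`
and `G_p`-stable subgroups `M₁ ≤ M₂` with inertia acting trivially on `M₂/M₁`:
`M₂ ∩ (I - 1) M ⊆ M₁`.

* `IsRed x` : the point `x` reduces to the identity; `isRed_one`, `isRed_mul`, `isRed_pow`;
* `isRed_comm` : for `σ` in the inertia group and `x * z = 1`, the point `σ x * z` reduces to the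
  identity.
-/

set_option autoImplicit false
set_option linter.unusedSectionVars false
set_option linter.style.haveILetI false

noncomputable section

namespace Fermat.Agent.S56.FL.H54

open scoped NNReal TensorProduct
open Fermat.Agent.S56.FL Fermat.Agent.R.H54 WithConv

variable {p : ℕ} [Fact p.Prime]
variable {H : Type} [CommRing H] [HopfAlgebra (Zloc p) H] [Module.Finite (Zloc p) H]

/-- The point `x` reduces to the identity. -/
def IsRed (x : WithConv (H →ₐ[Zloc p] PadicAlgCl p)) : Prop :=
  ∀ h : H, ‖x.ofConv h - algebraMap (Zloc p) (PadicAlgCl p) (Coalgebra.counit h)‖ < 1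

theorem one_apply_eq (h : H) :
    (1 : WithConv (H →ₐ[Zloc p] PadicAlgCl p)).ofConv h =
      algebraMap (Zloc p) (PadicAlgCl p) (Coalgebra.counit h) := by
  have h1 : (1 : WithConv (H →ₐ[Zloc p] PadicAlgCl p)).ofConv h =
      (1 : WithConv (H →ₐ[Zloc p] PadicAlgCl p)) h := rfl
  rw [h1, AlgHom.convOne_apply]

theorem isRed_one : IsRed (1 : WithConv (H →ₐ[Zloc p] PadicAlgCl p)) := by
  intro h
  rw [one_apply_eq, sub_self, norm_zero]
  exact zero_lt_one

/-- Congruent points have congruent products. -/
theorem norm_conv_sub_lt (x x' y y' : WithConv (H →ₐ[Zloc p] PadicAlgCl p))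
    (hx : ∀ h : H, ‖x.ofConv h - x'.ofConv h‖ < 1)
    (hy : ∀ h : H, ‖y.ofConv h - y'.ofConv h‖ < 1) (h : H) :
    ‖(x * y).ofConv h - (x' * y').ofConv h‖ < 1 := by
  have key : ∀ t : H ⊗[Zloc p] H,
      ‖LinearMap.mul' (Zloc p) (PadicAlgCl p)
          (TensorProduct.map x.ofConv.toLinearMap y.ofConv.toLinearMap t) -
        LinearMap.mul' (Zloc p) (PadicAlgCl p)
          (TensorProduct.map x'.ofConv.toLinearMap y'.ofConv.toLinearMap t)‖ < 1 := by
    intro t
    induction t using TensorProduct.induction_on with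
    | zero => simp
    | tmul a b =>
      simp only [TensorProduct.map_tmul, LinearMap.mul'_apply, AlgHom.toLinearMap_apply]
      have h1 : x.ofConv a * y.ofConv b - x'.ofConv a * y'.ofConv b =
          (x.ofConv a - x'.ofConv a) * y.ofConv b +
            x'.ofConv a * (y.ofConv b - y'.ofConv b) := by ring
      rw [h1]
      refine (IsUltrametricDist.norm_add_le_max _ _).trans_lt (max_lt ?_ ?_)
      · rw [norm_mul]
        calc ‖x.ofConv a - x'.ofConv a‖ * ‖y.ofConv b‖
            ≤ ‖x.ofConv a - x'.ofConv a‖ * 1 :=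
              mul_le_mul_of_nonneg_left (norm_point_le_one y.ofConv b) (norm_nonneg _)
          _ < 1 := by rw [mul_one]; exact hx a
      · rw [norm_mul]
        calc ‖x'.ofConv a‖ * ‖y.ofConv b - y'.ofConv b‖
            ≤ 1 * ‖y.ofConv b - y'.ofConv b‖ :=
              mul_le_mul_of_nonneg_right (norm_point_le_one x'.ofConv a) (norm_nonneg _)
          _ < 1 := by rw [one_mul]; exact hy b
    | add s t hs ht =>
      have h1 : LinearMap.mul' (Zloc p) (PadicAlgCl p)
            (TensorProduct.map x.ofConv.toLinearMap y.ofConv.toLinearMap (s + t)) -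
          LinearMap.mul' (Zloc p) (PadicAlgCl p)
            (TensorProduct.map x'.ofConv.toLinearMap y'.ofConv.toLinearMap (s + t)) =
          (LinearMap.mul' (Zloc p) (PadicAlgCl p)
            (TensorProduct.map x.ofConv.toLinearMap y.ofConv.toLinearMap s) -
          LinearMap.mul' (Zloc p) (PadicAlgCl p)
            (TensorProduct.map x'.ofConv.toLinearMap y'.ofConv.toLinearMap s)) +
          (LinearMap.mul' (Zloc p) (PadicAlgCl p)
            (TensorProduct.map x.ofConv.toLinearMap y.ofConv.toLinearMap t) -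
          LinearMap.mul' (Zloc p) (PadicAlgCl p)
            (TensorProduct.map x'.ofConv.toLinearMap y'.ofConv.toLinearMap t)) := by
        simp only [map_add]
        ring
      rw [h1]
      exact (IsUltrametricDist.norm_add_le_max _ _).trans_lt (max_lt hs ht)
  have h1 : (x * y).ofConv h = (x * y : Pts (Zloc p) H (PadicAlgCl p)) h := rfl
  have h2 : (x' * y').ofConv h = (x' * y' : Pts (Zloc p) H (PadicAlgCl p)) h := rfl
  rw [h1, h2, convMul_apply', convMul_apply']
  exact key _

theorem isRed_mul {x y : WithConv (H →ₐ[Zloc p] PadicAlgCl p)} (hx : IsRed x) (hy : IsRed y) :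
    IsRed (x * y) := by
  intro h
  have h1 := norm_conv_sub_lt x 1 y 1
    (fun a => by rw [one_apply_eq]; exact hx a) (fun a => by rw [one_apply_eq]; exact hy a) h
  rw [mul_one, one_apply_eq] at h1
  exact h1

theorem isRed_pow {x : WithConv (H →ₐ[Zloc p] PadicAlgCl p)} (hx : IsRed x) (n : ℕ) :
    IsRed (x ^ n) := by
  induction n with
  | zero => rw [pow_zero]; exact isRed_one
  | succ n ih => rw [pow_succ]; exact isRed_mul ih hx

/-- For `σ` in the inertia group and `x * z = 1`, the point `σ x * z` reduces to the identity. -/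
theorem isRed_comm {σ : Gp p} (hσ : σ ∈ inertiaP p)
    {x z : WithConv (H →ₐ[Zloc p] PadicAlgCl p)} (hxz : x * z = 1) :
    IsRed (pointAct σ x * z) := by
  intro h
  have h1 := norm_conv_sub_lt (pointAct σ x) x z z
    (fun a => hσ (x.ofConv a) (norm_point_le_one x.ofConv a))
    (fun a => by rw [sub_self, norm_zero]; exact zero_lt_one) h
  rw [hxz, one_apply_eq] at h1
  exact h1

/-- **FL_B** (BRIDGE-2). -/
theorem stmt_FL_B : Stmt_FL_B := by
  intro p _ hp2 M _ act hkill hflat M₁ M₂ h12 hst1 hst2 hin m hm2 hmI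
  have hp : p.Prime := Fact.out
  obtain ⟨H, _, _, hfin, hflatH, hcoc, e, hmul, hact⟩ := exists_local_model hflat
  haveI := hfin
  haveI := hflatH
  haveI := hcoc
  have hkillH : ∀ x : WithConv (H →ₐ[Zloc p] PadicAlgCl p), x ^ p = 1 :=
    pow_eq_one_of_kill e hmul hkill
  have he1 : e 1 = 0 := by
    have := hmul 1 1
    rw [mul_one] at this
    exact left_eq_add.mp this
  have hepow : ∀ (x : WithConv (H →ₐ[Zloc p] PadicAlgCl p)) (n : ℕ), e (x ^ n) = n • e x := by
    intro x n
    induction n with
    | zero => rw [pow_zero, zero_smul, he1]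
    | succ n ih => rw [pow_succ, hmul, ih, succ_nsmul]
  have hneg : ∀ x : WithConv (H →ₐ[Zloc p] PadicAlgCl p), e (x ^ (p - 1)) = - e x := by
    intro x
    have h1 : e (x ^ (p - 1)) + e x = 0 := by
      rw [← hmul, ← pow_succ, Nat.sub_add_cancel hp.one_le, hkillH, he1]
    exact eq_neg_of_add_eq_zero_left h1
  -- the submonoids of points
  let E₁ : Submonoid (WithConv (H →ₐ[Zloc p] PadicAlgCl p)) :=
    { carrier := {x | e x ∈ M₁}
      mul_mem' := fun {a b} ha hb => by
        show e (a * b) ∈ M₁
        rw [hmul]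
        exact M₁.add_mem ha hb
      one_mem' := by
        show e 1 ∈ M₁
        rw [he1]
        exact M₁.zero_mem }
  let E₂ : Submonoid (WithConv (H →ₐ[Zloc p] PadicAlgCl p)) :=
    { carrier := {x | e x ∈ M₂}
      mul_mem' := fun {a b} ha hb => by
        show e (a * b) ∈ M₂
        rw [hmul]
        exact M₂.add_mem ha hb
      one_mem' := by
        show e 1 ∈ M₂
        rw [he1]
        exact M₂.zero_mem }
  -- the point of `m` reduces to the identity
  have hred : IsRed (e.symm m) := by
    refine AddSubgroup.closure_induction (p := fun y _ => IsRed (e.symm y)) ?_ ?_ ?_ ?_ hmI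
    · rintro y ⟨σ, hσ, m', rfl⟩
      have h1 : e.symm (act (localGaloisToGlobal p σ) m' - m') =
          pointAct σ (e.symm m') * (e.symm m') ^ (p - 1) := by
        apply e.injective
        rw [e.apply_symm_apply, hmul, hact, hneg, e.apply_symm_apply]
        abel
      rw [h1]
      apply isRed_comm hσ
      rw [← pow_succ', Nat.sub_add_cancel hp.one_le, hkillH]
    · have h1 : e.symm 0 = 1 := by
        apply e.injective
        rw [e.apply_symm_apply, he1]
      rw [h1]
      exact isRed_one
    · intro a b _ _ ha hb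
      have h1 : e.symm (a + b) = e.symm a * e.symm b := by
        apply e.injective
        rw [e.apply_symm_apply, hmul, e.apply_symm_apply, e.apply_symm_apply]
      rw [h1]
      exact isRed_mul ha hb
    · intro a _ ha
      have h1 : e.symm (-a) = (e.symm a) ^ (p - 1) := by
        apply e.injective
        rw [e.apply_symm_apply, hneg, e.apply_symm_apply]
      rw [h1]
      exact isRed_pow ha _
  have hmain := stmt_SUBQ p hp2 H hkillH E₁ E₂ (fun x hx => h12 hx)
    (fun σ x hx => by
      show e (pointAct σ x) ∈ M₁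
      rw [hact]
      exact hst1 σ _ hx)
    (fun σ x hx => by
      show e (pointAct σ x) ∈ M₂
      rw [hact]
      exact hst2 σ _ hx)
    (fun σ hσ x hx => by
      refine ⟨x ^ (p - 1) * pointAct σ x, ?_, ?_⟩
      · show e (x ^ (p - 1) * pointAct σ x) ∈ M₁
        rw [hmul, hneg, hact]
        have := hin σ hσ (e x) hx
        rwa [sub_eq_neg_add] at this
      · rw [← mul_assoc, ← pow_succ', Nat.sub_add_cancel hp.one_le, hkillH, one_mul])
    (e.symm m) (by
      show e (e.symm m) ∈ M₂
      rw [e.apply_symm_apply]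
      exact hm2) hred
  have : e (e.symm m) ∈ M₁ := hmain
  rwa [e.apply_symm_apply] at this

end Fermat.Agent.S56.FL.H54

end
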