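import Fermat.Agent.S56.FL.H38_CC0
import Fermat.Agent.S56.FL.H15_Comp

set_option autoImplicit false

/-!
# LOC-p-FL, shared TAME lemma (T4): the cyclotomic character is onto on inertia

`ℚ_p(μ_p)/ℚ_p` is totally ramified of degree `p - 1`:
* `norm_pi_sum`            : `‖Σ_{i ∈ s} c_i (ζ - 1)^i‖^(p-1) = p^(z (p-1) - i)` for some `i ∈ s`
                             (`s ⊆ [0, p-1)`, `c_i ∈ ℚ_p` nonzero);
* `finrank_cycloField`     : `[ℚ_p(μ_p) : ℚ_p] = p - 1`;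
* `mem_bot_of_fixed`       : an element of `ℚ_p(μ_p)` fixed by inertia is in `ℚ_p`;
* `inertia_cyclo_surj`     : every `σ` agrees on `μ_p` with an element of the inertia group;
* `exists_gal_pow`, `exists_inertia_pow` : for `p ∤ g` there is `τ` (in inertia) with `τ ζ = ζ ^ g`
                             on `μ_p`.
-/

noncomputable section

namespace Fermat.Agent.S56.FL.H50

open scoped NNReal
open Polynomial Module IntermediateField Fermat.Agent.S56.FL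

variable {p : ℕ} [Fact p.Prime]

theorem norm_algebraMap_padic (c : ℚ_[p]) : ‖algebraMap ℚ_[p] (PadicAlgCl p) c‖ = ‖c‖ :=
  PadicAlgCl.norm_extends p c

/-- `‖c (ζ - 1)^i‖^(p-1) = p^(-(v c) (p-1) - i)`. -/
theorem norm_term_pow {ζ : PadicAlgCl p} (h1 : ζ ≠ 1) (hζ : ζ ^ p = 1) {c : ℚ_[p]} (hc : c ≠ 0)
    (i : ℕ) :
    ‖algebraMap ℚ_[p] (PadicAlgCl p) c * (ζ - 1) ^ i‖ ^ (p - 1)
      = (p : ℝ) ^ ((-c.valuation) * ((p - 1 : ℕ) : ℤ) - (i : ℤ)) := by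
  have hp : p.Prime := Fact.out
  have hp0 : (p : ℝ) ≠ 0 := by exact_mod_cast hp.ne_zero
  rw [norm_mul, norm_pow, mul_pow, norm_algebraMap_padic, Padic.norm_eq_zpow_neg_valuation hc,
    ← pow_mul, mul_comm i (p - 1), pow_mul, H15.norm_zeta_sub_one h1 hζ, zpow_sub₀ hp0,
    zpow_mul, zpow_natCast, zpow_natCast, inv_pow, div_eq_mul_inv]

theorem norm_pi_sum {ζ : PadicAlgCl p} (h1 : ζ ≠ 1) (hζ : ζ ^ p = 1) (c : ℕ → ℚ_[p])
    (s : Finset ℕ) (hs : ∀ i ∈ s, i < p - 1) (hc : ∀ i ∈ s, c i ≠ 0) (hne : s.Nonempty) :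
    ∃ i ∈ s, ∃ z : ℤ,
      ‖∑ i ∈ s, algebraMap ℚ_[p] (PadicAlgCl p) (c i) * (ζ - 1) ^ i‖ ^ (p - 1)
        = (p : ℝ) ^ (z * ((p - 1 : ℕ) : ℤ) - (i : ℤ)) := by
  have hp : p.Prime := Fact.out
  have hp1 : (1 : ℝ) < p := by exact_mod_cast hp.one_lt
  have hp0 : (0 : ℝ) < p := by exact_mod_cast hp.pos
  have hpw : Set.Pairwise (s : Set ℕ) (fun i j =>
      ‖algebraMap ℚ_[p] (PadicAlgCl p) (c i) * (ζ - 1) ^ i‖
        ≠ ‖algebraMap ℚ_[p] (PadicAlgCl p) (c j) * (ζ - 1) ^ j‖) := by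
    intro i hi j hj hij heq
    have h2 : ‖algebraMap ℚ_[p] (PadicAlgCl p) (c i) * (ζ - 1) ^ i‖ ^ (p - 1)
        = ‖algebraMap ℚ_[p] (PadicAlgCl p) (c j) * (ζ - 1) ^ j‖ ^ (p - 1) := by rw [heq]
    rw [norm_term_pow h1 hζ (hc i hi), norm_term_pow h1 hζ (hc j hj)] at h2
    have h3 := zpow_right_injective₀ hp0 hp1.ne' h2
    have hi' := hs i hi
    have hj' := hs j hj
    apply hij
    have h4 : (((p - 1 : ℕ) : ℤ)) ∣ (i : ℤ) - (j : ℤ) := by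
      refine ⟨(c j).valuation - (c i).valuation, ?_⟩
      linear_combination (-1 : ℤ) * h3
    have h5 : ((i : ℤ) - (j : ℤ)).natAbs < p - 1 := by omega
    have h6 : (i : ℤ) - (j : ℤ) = 0 := by
      by_contra hne0
      have := Int.natAbs_dvd_natAbs.mpr h4
      rw [Int.natAbs_natCast] at this
      have hpos : 0 < ((i : ℤ) - (j : ℤ)).natAbs := Int.natAbs_pos.mpr hne0
      have := Nat.le_of_dvd hpos this
      omega
    omega
  have hsum := IsUltrametricDist.norm_sum_eq_sup'_of_pairwise_ne hne hpw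
  obtain ⟨i, hi, hi'⟩ := Finset.exists_mem_eq_sup' hne
    (fun i => ‖algebraMap ℚ_[p] (PadicAlgCl p) (c i) * (ζ - 1) ^ i‖)
  refine ⟨i, hi, -(c i).valuation, ?_⟩
  rw [hsum, hi', norm_term_pow h1 hζ (hc i hi)]

/-- The norm of a polynomial of degree `< p - 1` in `ζ - 1`. -/
theorem norm_aeval_pi {ζ : PadicAlgCl p} (h1 : ζ ≠ 1) (hζ : ζ ^ p = 1) {f : ℚ_[p][X]}
    (hf : f ≠ 0) (hdeg : f.natDegree < p - 1) :
    ∃ i ∈ f.support, ∃ z : ℤ,
      ‖aeval (ζ - 1) f‖ ^ (p - 1) = (p : ℝ) ^ (z * ((p - 1 : ℕ) : ℤ) - (i : ℤ)) := by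
  have hsum : aeval (ζ - 1) f
      = ∑ i ∈ f.support, algebraMap ℚ_[p] (PadicAlgCl p) (f.coeff i) * (ζ - 1) ^ i := by
    rw [aeval_def, eval₂_eq_sum, Polynomial.sum_def]
  rw [hsum]
  refine norm_pi_sum h1 hζ f.coeff f.support (fun i hi => ?_) (fun i hi => ?_) ?_
  · exact lt_of_le_of_lt (le_natDegree_of_mem_supp i hi) hdeg
  · exact mem_support_iff.mp hi
  · exact nonempty_support_iff.mpr hf

theorem aeval_pi_ne_zero {ζ : PadicAlgCl p} (h1 : ζ ≠ 1) (hζ : ζ ^ p = 1) {f : ℚ_[p][X]}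
    (hf : f ≠ 0) (hdeg : f.natDegree < p - 1) : aeval (ζ - 1) f ≠ 0 := by
  have hp : p.Prime := Fact.out
  have hp0 : (0 : ℝ) < p := by exact_mod_cast hp.pos
  obtain ⟨i, -, z, hz⟩ := norm_aeval_pi h1 hζ hf hdeg
  intro h0
  rw [h0, norm_zero, zero_pow (by have := hp.two_le; omega)] at hz
  exact (zpow_pos hp0 _).ne hz

theorem isIntegral_algCl (x : PadicAlgCl p) : IsIntegral ℚ_[p] x :=
  (Algebra.IsAlgebraic.isAlgebraic x).isIntegral

/-- `[ℚ_p(ζ - 1) : ℚ_p] ≥ p - 1`. -/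
theorem le_natDegree_minpoly_pi {ζ : PadicAlgCl p} (h1 : ζ ≠ 1) (hζ : ζ ^ p = 1) :
    p - 1 ≤ (minpoly ℚ_[p] (ζ - 1)).natDegree := by
  by_contra hlt
  rw [not_le] at hlt
  exact aeval_pi_ne_zero h1 hζ (minpoly.ne_zero (isIntegral_algCl _)) hlt (minpoly.aeval _ _)

theorem adjoin_pi_eq {ζ : PadicAlgCl p} : ℚ_[p]⟮ζ - 1⟯ = ℚ_[p]⟮ζ⟯ := by
  refine le_antisymm ?_ ?_
  · rw [IntermediateField.adjoin_simple_le_iff]
    exact sub_mem (IntermediateField.mem_adjoin_simple_self _ _) (one_mem _)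
  · rw [IntermediateField.adjoin_simple_le_iff]
    have h : (ζ - 1) + 1 ∈ ℚ_[p]⟮ζ - 1⟯ :=
      add_mem (IntermediateField.mem_adjoin_simple_self _ _) (one_mem _)
    simpa using h

theorem natDegree_minpoly_pi {ζ : PadicAlgCl p} (h1 : ζ ≠ 1) (hζ : ζ ^ p = 1) :
    (minpoly ℚ_[p] (ζ - 1)).natDegree = p - 1 := by
  refine le_antisymm ?_ (le_natDegree_minpoly_pi h1 hζ)
  have h2 := H15.finrank_cycloField_lt (p := p)
  rw [H15.cycloField_eq_adjoin h1 hζ, ← adjoin_pi_eq,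
    IntermediateField.adjoin.finrank (isIntegral_algCl _)] at h2
  omega

/-- `[ℚ_p(μ_p) : ℚ_p] = p - 1`. -/
theorem finrank_cycloField : finrank ℚ_[p] (H15.cycloField p) = p - 1 := by
  obtain ⟨ζ, h1, hζ⟩ := H15.exists_zeta (p := p)
  rw [H15.cycloField_eq_adjoin h1 hζ, ← adjoin_pi_eq,
    IntermediateField.adjoin.finrank (isIntegral_algCl _), natDegree_minpoly_pi h1 hζ]

/-- Every element of `ℚ_p(ζ)` is a polynomial of degree `< p - 1` in `ζ - 1`. -/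
theorem exists_aeval_pi {ζ : PadicAlgCl p} (h1 : ζ ≠ 1) (hζ : ζ ^ p = 1) {a : PadicAlgCl p}
    (ha : a ∈ H15.cycloField p) :
    ∃ f : ℚ_[p][X], f.natDegree < p - 1 ∧ aeval (ζ - 1) f = a := by
  have hp : p.Prime := Fact.out
  rw [H15.cycloField_eq_adjoin h1 hζ, ← adjoin_pi_eq] at ha
  have hint : IsIntegral ℚ_[p] (ζ - 1) := isIntegral_algCl _
  have ha' : a ∈ (ℚ_[p]⟮ζ - 1⟯).toSubalgebra := ha
  rw [IntermediateField.adjoin_simple_toSubalgebra_of_isAlgebraic hint.isAlgebraic,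
    Algebra.adjoin_singleton_eq_range_aeval] at ha'
  obtain ⟨f, rfl⟩ := ha'
  refine ⟨f %ₘ minpoly ℚ_[p] (ζ - 1), ?_, ?_⟩
  · have hmon : (minpoly ℚ_[p] (ζ - 1)).Monic := minpoly.monic hint
    have hne1 : minpoly ℚ_[p] (ζ - 1) ≠ 1 := minpoly.ne_one _ _
    have := natDegree_modByMonic_lt f hmon hne1
    rwa [natDegree_minpoly_pi h1 hζ] at this
  · exact (minpoly.aeval_modByMonic_minpoly (A := ℚ_[p]) f (ζ - 1)).symm ▸ rfl

/-- An element of `ℚ_p(μ_p)` fixed by the inertia group lies in `ℚ_p`. -/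
theorem mem_bot_of_fixed {a : PadicAlgCl p} (ha : a ∈ H15.cycloField p)
    (hfix : ∀ σ ∈ inertiaP p, σ a = a) : ∃ c : ℚ_[p], algebraMap ℚ_[p] (PadicAlgCl p) c = a := by
  have hp : p.Prime := Fact.out
  have hp1 : (1 : ℝ) < p := by exact_mod_cast hp.one_lt
  have hp0 : (0 : ℝ) < p := by exact_mod_cast hp.pos
  obtain ⟨ζ, h1, hζ⟩ := H15.exists_zeta (p := p)
  obtain ⟨f, hdeg, rfl⟩ := exists_aeval_pi h1 hζ ha
  refine ⟨f.coeff 0, ?_⟩
  by_contra hne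
  set g : ℚ_[p][X] := f - C (f.coeff 0) with hg
  have hg0 : g.coeff 0 = 0 := by simp [hg]
  have hgne : g ≠ 0 := by
    intro h0
    apply hne
    have : f = C (f.coeff 0) := by
      rw [← sub_eq_zero]; exact h0
    conv_rhs => rw [this]
    simp
  have hgdeg : g.natDegree < p - 1 :=
    lt_of_le_of_lt ((natDegree_sub_le _ _).trans (by simp)) hdeg
  have hgval : aeval (ζ - 1) g = aeval (ζ - 1) f - algebraMap ℚ_[p] (PadicAlgCl p) (f.coeff 0) := by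
    simp [hg]
  have hgfix : ∀ σ ∈ inertiaP p, σ (aeval (ζ - 1) g) = aeval (ζ - 1) g := by
    intro σ hσ
    rw [hgval, map_sub, hfix σ hσ, AlgEquiv.commutes]
  have hgne0 : aeval (ζ - 1) g ≠ 0 := aeval_pi_ne_zero h1 hζ hgne hgdeg
  obtain ⟨k, hk⟩ := H38.norm_eq_zpow_of_fixed hgfix hgne0
  obtain ⟨i, hi, z, hz⟩ := norm_aeval_pi h1 hζ hgne hgdeg
  have hi0 : i ≠ 0 := by
    rintro rfl
    exact (mem_support_iff.mp hi) hg0
  have hilt : i < p - 1 := lt_of_le_of_lt (le_natDegree_of_mem_supp i hi) hgdeg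
  rw [hk, ← zpow_natCast, ← zpow_mul] at hz
  have h3 := zpow_right_injective₀ hp0 hp1.ne' hz
  have h4 : (((p - 1 : ℕ) : ℤ)) ∣ (i : ℤ) := ⟨z - k, by linear_combination h3⟩
  have h5 := Int.natCast_dvd_natCast.mp h4
  have := Nat.le_of_dvd (Nat.pos_of_ne_zero hi0) h5
  omega

/-- **T4.** Every element of `Gal(K̄/ℚ_p)` agrees on `μ_p` with an element of the inertia group. -/
theorem inertia_cyclo_surj (σ : Gp p) :
    ∃ τ ∈ inertiaP p, ∀ ζ : PadicAlgCl p, ζ ^ p = 1 → τ ζ = σ ζ := by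
  have : Normal ℚ_[p] (H15.cycloField p) := H15.normal_cycloField
  set F := H15.cycloField p with hF
  set J : Subgroup (F ≃ₐ[ℚ_[p]] F) := (inertiaP p).map (H38.resL F) with hJ
  have hfixed : IntermediateField.fixedField J = ⊥ := by
    rw [eq_bot_iff]
    intro a ha
    have hfix : ∀ τ ∈ inertiaP p, τ (a : PadicAlgCl p) = (a : PadicAlgCl p) := by
      intro τ hτ
      have h1 : H38.resL F τ ∈ J := Subgroup.mem_map_of_mem _ hτ
      have h2 : H38.resL F τ a = a := ha ⟨_, h1⟩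
      rw [← H38.resL_apply τ a, h2]
    obtain ⟨c, hc⟩ := mem_bot_of_fixed a.2 hfix
    rw [IntermediateField.mem_bot]
    refine ⟨c, ?_⟩
    apply Subtype.ext
    rw [← hc]
    rfl
  have hJtop : J = ⊤ := by
    rw [← IntermediateField.fixingSubgroup_fixedField J, hfixed,
      IntermediateField.fixingSubgroup_bot]
  have hmem : H38.resL F σ ∈ J := by rw [hJtop]; exact Subgroup.mem_top _
  obtain ⟨τ, hτ, hτσ⟩ := Subgroup.mem_map.mp hmem
  refine ⟨τ, hτ, fun ζ hζ => ?_⟩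
  have hζF : ζ ∈ F := H15.mem_cycloField_of_pow_eq_one hζ
  have h1 := H38.resL_apply (L := F) τ ⟨ζ, hζF⟩
  have h2 := H38.resL_apply (L := F) σ ⟨ζ, hζF⟩
  rw [hτσ] at h1
  exact h1.symm.trans h2

/-- For `p ∤ g` there is `σ ∈ Gal(K̄/ℚ_p)` with `σ ζ = ζ ^ g` on `μ_p`. -/
theorem exists_gal_pow {g : ℕ} (hg : ¬ p ∣ g) :
    ∃ σ : Gp p, ∀ ζ : PadicAlgCl p, ζ ^ p = 1 → σ ζ = ζ ^ g := by
  have hp : p.Prime := Fact.out
  have : NeZero p := ⟨hp.ne_zero⟩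
  obtain ⟨ζ₀, h1, hζ₀⟩ := H15.exists_zeta (p := p)
  have hprim : IsPrimitiveRoot ζ₀ p := by
    rw [IsPrimitiveRoot.iff_orderOf]
    exact orderOf_eq_prime hζ₀ h1
  have hg1 : ζ₀ ^ g ≠ 1 := by
    intro h
    exact hg ((hprim.pow_eq_one_iff_dvd g).mp h)
  have hgp : (ζ₀ ^ g) ^ p = 1 := by rw [← pow_mul, mul_comm, pow_mul, hζ₀, one_pow]
  -- the minimal polynomial of `ζ₀ - 1` has degree `p - 1`, so does the one of `ζ₀`
  have hdeg : ∀ ζ : PadicAlgCl p, ζ ≠ 1 → ζ ^ p = 1 → (minpoly ℚ_[p] ζ).natDegree = p - 1 := by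
    intro ζ hζ1 hζp
    rw [← IntermediateField.adjoin.finrank (isIntegral_algCl ζ), ← adjoin_pi_eq,
      IntermediateField.adjoin.finrank (isIntegral_algCl _), natDegree_minpoly_pi hζ1 hζp]
  have hcyc : ∀ ζ : PadicAlgCl p, ζ ≠ 1 → ζ ^ p = 1 → minpoly ℚ_[p] ζ = cyclotomic p ℚ_[p] := by
    intro ζ hζ1 hζp
    have hprimζ : IsPrimitiveRoot ζ p := by
      rw [IsPrimitiveRoot.iff_orderOf]
      exact orderOf_eq_prime hζp hζ1
    have hroot : aeval ζ (cyclotomic p ℚ_[p]) = 0 := by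
      have := hprimζ.isRoot_cyclotomic hp.pos
      rw [IsRoot.def, ← map_cyclotomic p (algebraMap ℚ_[p] (PadicAlgCl p)), eval_map,
        ← aeval_def] at this
      exact this
    have hdvd := minpoly.dvd ℚ_[p] ζ hroot
    have hmon : (minpoly ℚ_[p] ζ).Monic := minpoly.monic (isIntegral_algCl ζ)
    have hmonc : (cyclotomic p ℚ_[p]).Monic := cyclotomic.monic p ℚ_[p]
    have hd : (cyclotomic p ℚ_[p]).natDegree ≤ (minpoly ℚ_[p] ζ).natDegree := by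
      rw [natDegree_cyclotomic, Nat.totient_prime hp, hdeg ζ hζ1 hζp]
    exact (Polynomial.eq_of_monic_of_dvd_of_natDegree_le hmon hmonc hdvd hd).symm
  have hmin : minpoly ℚ_[p] (ζ₀ ^ g) = minpoly ℚ_[p] ζ₀ := by
    rw [hcyc _ hg1 hgp, hcyc _ h1 hζ₀]
  obtain ⟨σ, hσ⟩ := (Normal.minpoly_eq_iff_mem_orbit (F := ℚ_[p]) (PadicAlgCl p)).mp hmin
  refine ⟨σ, fun ζ hζ => ?_⟩
  obtain ⟨j, -, rfl⟩ := hprim.eq_pow_of_pow_eq_one hζ
  have hσ' : σ ζ₀ = ζ₀ ^ g := hσ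
  rw [map_pow, hσ', ← pow_mul, ← pow_mul, mul_comm]

/-- For `p ∤ g` there is `τ` in the inertia group with `τ ζ = ζ ^ g` on `μ_p`. -/
theorem exists_inertia_pow {g : ℕ} (hg : ¬ p ∣ g) :
    ∃ τ ∈ inertiaP p, ∀ ζ : PadicAlgCl p, ζ ^ p = 1 → τ ζ = ζ ^ g := by
  obtain ⟨σ, hσ⟩ := exists_gal_pow (p := p) hg
  obtain ⟨τ, hτ, hτσ⟩ := inertia_cyclo_surj σ
  exact ⟨τ, hτ, fun ζ hζ => (hτσ ζ hζ).trans (hσ ζ hζ)⟩

end Fermat.Agent.S56.FL.H50

end
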