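import Fermat.Agent.S56.FL.H85_CCDefs
import Fermat.Agent.S56.FL.H38_Unr
import Fermat.Agent.Lib.LocalKummer.Roots

set_option autoImplicit false
set_option linter.unusedSectionVars false
set_option linter.style.haveILetI false

/-!
# LOC-p-FL, package UNITS (helper85): shared small leaves

* `omg hζ`            : the mod `p` cyclotomic character `Gal(K̄/ℚ_p) → (ℤ/p)ˣ` (`σ ζ = ζ ^ ω(σ)`).
* `isCycloAt_iff`     : `IsCycloAt x σ ↔ x = ω(σ)` in `k`.
* `coboundary_of_vanish` (**AVG**): a `χ`-cocycle vanishing on a subgroup of finite index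
                        prime to the characteristic is a coboundary.
* `mem_of_fixed_of_le` : an element fixed by a subgroup containing `Gal(K̄/L)` lies in `L`.
-/

noncomputable section

namespace Fermat.Agent.S56.FL.H85

open scoped NNReal
open Fermat.Agent.S56.FL Fermat.Agent.Lib.LocalKummer

variable {p : ℕ} [Fact p.Prime]

instance neZero_p : NeZero p := ⟨(Fact.out : p.Prime).ne_zero⟩

/-! ## The cyclotomic character -/

section omega

variable {ζ : PadicAlgCl p} (hζ : IsPrimitiveRoot ζ p)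

/-- The mod `p` cyclotomic character of `Gal(K̄/ℚ_p)`. -/
def omg : Gp p →* (ZMod p)ˣ := hζ.autToPow ℚ_[p]

theorem omg_spec (σ : Gp p) : σ ζ = ζ ^ ((omg hζ σ : (ZMod p)ˣ) : ZMod p).val :=
  (hζ.autToPow_spec ℚ_[p] σ).symm

/-- The action on all `p`-th roots of unity. -/
theorem omg_spec' (σ : Gp p) {ξ : PadicAlgCl p} (hξ : ξ ^ p = 1) :
    σ ξ = ξ ^ ((omg hζ σ : (ZMod p)ˣ) : ZMod p).val := by
  obtain ⟨i, -, rfl⟩ := hζ.eq_pow_of_pow_eq_one hξ
  rw [map_pow, omg_spec hζ σ, ← pow_mul, ← pow_mul, mul_comm]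

theorem omg_zpowZ (σ : Gp p) (a : ZMod p) :
    σ (zpowZ ζ a) = zpowZ ζ (((omg hζ σ : (ZMod p)ˣ) : ZMod p) * a) := by
  have h1 : σ (zpowZ ζ a) = zpowZ (σ ζ) a := by
    unfold zpowZ
    rw [map_pow]
  rw [h1, omg_spec hζ σ]
  exact zpowZ_zpowZ hζ.pow_eq_one _ _

theorem omg_eq_one_iff (σ : Gp p) : omg hζ σ = 1 ↔ σ ζ = ζ := by
  constructor
  · intro h
    rw [omg_spec hζ σ, h, Units.val_one, ZMod.val_one'' ?_, pow_one]
    exact (Fact.out : p.Prime).ne_one
  · intro h
    have h1 := omg_zpowZ hζ σ 1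
    have h2 : zpowZ ζ (1 : ZMod p) = ζ := by
      unfold zpowZ
      rw [ZMod.val_one'' (Fact.out : p.Prime).ne_one, pow_one]
    rw [h2, h, mul_one] at h1
    have h3 := zpowZ_injective hζ (h2.trans h1)
    exact Units.ext h3.symm

include hζ in
theorem pow_eq_iff_natCast_eq {a b : ℕ} : ζ ^ a = ζ ^ b ↔ (a : ZMod p) = (b : ZMod p) := by
  rw [← zpowZ_natCast hζ.pow_eq_one, ← zpowZ_natCast hζ.pow_eq_one]
  exact (zpowZ_injective hζ).eq_iff

end omega

/-! ## `IsCycloAt` -/

section cyclo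

variable {k : Type} [Field k] [CharP k p]

/-- The embedding `𝔽_p → k`. -/
abbrev cst (p : ℕ) [Fact p.Prime] (k : Type) [Field k] [CharP k p] : ZMod p →+* k :=
  ZMod.castHom (dvd_refl p) k

theorem isCycloAt_iff {ζ : PadicAlgCl p} (hζ : IsPrimitiveRoot ζ p) (x : k) (σ : Gp p) :
    IsCycloAt x σ ↔ x = cst p k ((omg hζ σ : (ZMod p)ˣ) : ZMod p) := by
  constructor
  · rintro ⟨n, rfl, h⟩
    have h1 := h ζ hζ.pow_eq_one
    rw [omg_spec hζ σ, eq_comm, pow_eq_iff_natCast_eq hζ, ZMod.natCast_zmod_val] at h1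
    rw [← h1, map_natCast]
  · intro h
    refine ⟨(((omg hζ σ : (ZMod p)ˣ) : ZMod p)).val, ?_, fun ξ hξ => omg_spec' hζ σ hξ⟩
    rw [h]
    conv_rhs => rw [← ZMod.natCast_zmod_val ((omg hζ σ : (ZMod p)ˣ) : ZMod p)]
    rw [map_natCast]

end cyclo

/-! ## AVG: a cocycle vanishing on a subgroup of index prime to `p` is a coboundary -/

section avg

variable {G : Type*} [Group G] {k : Type*} [Field k]

theorem coboundary_of_vanish (χ : G →* kˣ) (c : G → k)
    (hc : ∀ σ τ : G, c (σ * τ) = c σ + (χ σ : k) * c τ)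
    (N : Subgroup G) [Finite (G ⧸ N)] (hN : ∀ n ∈ N, c n = 0)
    (hidx : (Nat.card (G ⧸ N) : k) ≠ 0) :
    ∃ a : k, ∀ σ : G, c σ = ((χ σ : k) - 1) * a := by
  classical
  haveI : Fintype (G ⧸ N) := Fintype.ofFinite _
  -- `c` is constant on left cosets
  have hcos : ∀ g h : G, g⁻¹ * h ∈ N → c h = c g := by
    intro g h hgh
    have : h = g * (g⁻¹ * h) := by group
    rw [this, hc, hN _ hgh, mul_zero, add_zero]
  set S : k := ∑ x : G ⧸ N, c x.out with hS
  have hperm : ∀ σ : G, ∑ x : G ⧸ N, c (σ * x.out) = S := by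
    intro σ
    have h1 : ∀ x : G ⧸ N, c (σ * x.out) = c ((σ • x).out) := by
      intro x
      apply hcos
      have h2 : ((σ • x).out : G ⧸ N) = ((σ * x.out : G) : G ⧸ N) := by
        rw [QuotientGroup.out_eq']
        conv_lhs => rw [← QuotientGroup.out_eq' x]
        rfl
      exact QuotientGroup.eq.mp h2
    rw [Finset.sum_congr rfl (fun x _ => h1 x), hS]
    exact Fintype.sum_equiv (MulAction.toPerm σ) _ _ (fun x => rfl)
  refine ⟨-(S / (Nat.card (G ⧸ N) : k)), fun σ => ?_⟩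
  have h3 := hperm σ
  simp only [hc, Finset.sum_add_distrib, Finset.sum_const, Finset.card_univ, nsmul_eq_mul,
    ← Finset.mul_sum] at h3
  rw [← hS, ← Nat.card_eq_fintype_card] at h3
  field_simp
  linear_combination h3

end avg

/-! ## Elements fixed by a subgroup containing `Gal(K̄/L)` -/

theorem mem_of_fixed_of_le {L : IntermediateField ℚ_[p] (PadicAlgCl p)}
    {N : Subgroup (Gp p)} (hN : L.fixingSubgroup ≤ N) {x : PadicAlgCl p}
    (hx : ∀ s ∈ N, s x = x) : x ∈ L := by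
  rw [← InfiniteGalois.fixedField_fixingSubgroup L, IntermediateField.mem_fixedField_iff]
  exact fun s hs => hx s (hN hs)

theorem finite_quotient_of_le {L : IntermediateField ℚ_[p] (PadicAlgCl p)}
    [FiniteDimensional ℚ_[p] L] {N : Subgroup (Gp p)} (hN : L.fixingSubgroup ≤ N) :
    Finite (Gp p ⧸ N) := by
  have h1 : L.fixingSubgroup.index ≠ 0 := by
    rw [← IntermediateField.finrank_eq_fixingSubgroup_index]
    exact Module.finrank_pos.ne'
  haveI : L.fixingSubgroup.FiniteIndex := ⟨h1⟩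
  haveI : N.FiniteIndex := Subgroup.finiteIndex_of_le hN
  exact Subgroup.finite_quotient_of_finiteIndex

end Fermat.Agent.S56.FL.H85

end
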