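import Fermat.Agent.S56.FL.H50_PMa

set_option autoImplicit false
set_option linter.unusedSectionVars false

/-!
# LOC-p-FL, package PM (helper50): Fontaine's lifting argument

`stmt_PM : Stmt_PM`.  `H` finite flat cocommutative over `ℤ_(p)`, all `K̄`-points killed by `p`,
`L` the field generated by the points.  If `φ : 𝒪_L → 𝒪_F/𝔞_c` is a ring homomorphism
(`c^{p-1} < p^{-p}`, `F/ℚ_p` finite) then `L ⊆ F`:
every point `x` gives `φ ∘ x : H → 𝒪_F/𝔞_c`, which lifts (LIFT-c, helper54) to a point `Θ x` with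
values in `𝒪_F`; `Θ` is injective (LIFT-a over `𝒪_L` and the valuation step), hence bijective as
the set of points is finite; so all points have values in `F`.
-/

noncomputable section

namespace Fermat.Agent.S56.FL.H50

open scoped NNReal TensorProduct
open Fermat.Agent.S56.FL WithConv

variable {p : ℕ} [Fact p.Prime]

theorem lt_inv_p_of_radius {c : ℝ≥0} (hc : c ^ (p - 1) < ((p : ℝ≥0)⁻¹) ^ p) :
    c < (p : ℝ≥0)⁻¹ := by
  have hp : p.Prime := Fact.out
  have hpp : (0 : ℝ≥0) < (p : ℝ≥0) := p_pos_nn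
  have h1 : ((p : ℝ≥0)⁻¹) ^ p ≤ ((p : ℝ≥0)⁻¹) ^ (p - 1) := by
    apply pow_le_pow_of_le_one bot_le
    · rw [inv_le_one₀ hpp]; exact_mod_cast hp.one_le
    · exact Nat.sub_le p 1
  exact lt_of_pow_lt_pow_left₀ (p - 1) bot_le (hc.trans_le h1)

/-- The valuation step: if `φ a` vanishes modulo `𝔞_{pc}` then `‖a‖^{p-1} < p⁻¹`. -/
theorem nnnorm_pow_lt_of_forall_mem {L F : IntermediateField ℚ_[p] (PadicAlgCl p)} {c : ℝ≥0}
    (hc : c ^ (p - 1) < ((p : ℝ≥0)⁻¹) ^ p)
    (φ : intRing p L →+* (intRing p F ⧸ ballIdeal p F c)) (a : intRing p L)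
    (ha : ∀ r : intRing p F, Ideal.Quotient.mk (ballIdeal p F c) r = φ a →
      r ∈ ballIdeal p F ((p : ℝ≥0) * c)) :
    ‖(a : PadicAlgCl p)‖₊ ^ (p - 1) < (p : ℝ≥0)⁻¹ := by
  have hp : p.Prime := Fact.out
  have hpp : (0 : ℝ≥0) < (p : ℝ≥0) := p_pos_nn
  by_contra hcon
  have hge : (p : ℝ≥0)⁻¹ ≤ ‖(a : PadicAlgCl p)‖₊ ^ (p - 1) := not_lt.1 hcon
  have hpow0 : (0 : ℝ≥0) < ‖(a : PadicAlgCl p)‖₊ ^ (p - 1) :=
    lt_of_lt_of_le (inv_pos.2 hpp) hge
  have ha0 : ((a : PadicAlgCl p)) ^ (p - 1) ≠ 0 := by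
    intro h0
    rw [← nnnorm_pow, h0, nnnorm_zero] at hpow0
    exact lt_irrefl _ hpow0
  -- `w = p / a^{p-1}` is an integer of `L`
  set w : PadicAlgCl p := (p : PadicAlgCl p) / (a : PadicAlgCl p) ^ (p - 1) with hw
  have hwL : w ∈ L := L.div_mem (natCast_mem L p) (pow_mem a.2.1 _)
  have hwn : ‖w‖₊ ≤ 1 := by
    rw [hw, nnnorm_div, nnnorm_p, nnnorm_pow]
    exact div_le_one_of_le₀ hge bot_le
  let wL : intRing p L := ⟨w, hwL, hwn⟩
  have hmul : a ^ (p - 1) * wL = (p : intRing p L) := by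
    apply Subtype.ext
    simp only [Subring.coe_mul, Subring.coe_pow, Subring.coe_natCast, wL]
    rw [hw, mul_div_cancel₀ _ ha0]
  obtain ⟨r, hr⟩ := Ideal.Quotient.mk_surjective (φ a)
  obtain ⟨s, hs⟩ := Ideal.Quotient.mk_surjective (φ wL)
  have hr' : ‖(r : PadicAlgCl p)‖₊ ≤ (p : ℝ≥0) * c := by
    have := (mem_ballIdeal p).1 (ha r hr)
    exact_mod_cast this
  have hdiff : (p : intRing p F) - r ^ (p - 1) * s ∈ ballIdeal p F c := by
    rw [← Ideal.Quotient.eq]
    rw [map_mul, map_pow, hr, hs, ← map_pow, ← map_mul, hmul, map_natCast, map_natCast]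
  have hdiff' : ‖(p : PadicAlgCl p) - (r : PadicAlgCl p) ^ (p - 1) * (s : PadicAlgCl p)‖₊ ≤ c := by
    have := (mem_ballIdeal p).1 hdiff
    simp only [AddSubgroupClass.coe_sub, Subring.coe_natCast, Subring.coe_mul,
      Subring.coe_pow] at this
    exact_mod_cast this
  have hprod : ‖(r : PadicAlgCl p) ^ (p - 1) * (s : PadicAlgCl p)‖₊ ≤
      ((p : ℝ≥0) * c) ^ (p - 1) := by
    rw [nnnorm_mul, nnnorm_pow]
    calc ‖(r : PadicAlgCl p)‖₊ ^ (p - 1) * ‖(s : PadicAlgCl p)‖₊
        ≤ ((p : ℝ≥0) * c) ^ (p - 1) * 1 :=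
          mul_le_mul' (pow_le_pow_left₀ bot_le hr' _) s.2.2
      _ = ((p : ℝ≥0) * c) ^ (p - 1) := mul_one _
  have hsplit : (p : PadicAlgCl p) =
      ((p : PadicAlgCl p) - (r : PadicAlgCl p) ^ (p - 1) * (s : PadicAlgCl p)) +
        (r : PadicAlgCl p) ^ (p - 1) * (s : PadicAlgCl p) := by ring
  have hle : ‖(p : PadicAlgCl p)‖₊ ≤ max c (((p : ℝ≥0) * c) ^ (p - 1)) := by
    conv_lhs => rw [hsplit]
    exact (IsUltrametricDist.nnnorm_add_le_max _ _).trans (max_le_max hdiff' hprod)
  rw [nnnorm_p] at hle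
  exact absurd hle (not_le.2 (max_lt (lt_inv_p_of_radius hc) (H54.radius_pc hc)))

section Main

variable {H : Type} [CommRing H] [HopfAlgebra (Zloc p) H] [Module.Finite (Zloc p) H]
  [Module.Free (Zloc p) H] [Coalgebra.IsCocomm (Zloc p) H]

/-- A point killed by `p` all of whose values are congruent to the counit modulo elements `a` with
`‖a‖^{p-1} < p⁻¹` is trivial (LIFT-a over `𝒪_L`). -/
theorem point_eq_one_of_close (L : IntermediateField ℚ_[p] (PadicAlgCl p))
    (y : WithConv (H →ₐ[Zloc p] intRing p L)) (hy : y ^ p = 1)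
    (hval : ∀ h : H, ‖((y.ofConv h - algebraMap (Zloc p) (intRing p L) (Coalgebra.counit h) :
      intRing p L) : PadicAlgCl p)‖₊ ^ (p - 1) < (p : ℝ≥0)⁻¹) : y = 1 := by
  classical
  have hp : p.Prime := Fact.out
  haveI := H54.free_cv (p := p) (F := L) (H := H)
  haveI := H54.finite_cv (p := p) (F := L) (H := H)
  set u : WithConv (H →ₗ[Zloc p] intRing p L) := toConv y.ofConv.toLinearMap with hu
  have hup : u ^ p = 1 := by
    rw [hu, ← AlgHom.toLinearMap_convPow, hy]
    rfl
  have hu1 : ∀ h : H, (u - 1).ofConv h =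
      y.ofConv h - algebraMap (Zloc p) (intRing p L) (Coalgebra.counit h) := fun h => rfl
  set bH := Module.Free.chooseBasis (Zloc p) H with hbH
  set c' : ℝ≥0 := Finset.univ.sup fun i => ‖(((u - 1).ofConv (bH i) : intRing p L) :
    PadicAlgCl p)‖₊ with hc'
  have hc'lt : c' ^ (p - 1) < (p : ℝ≥0)⁻¹ := by
    rw [hc']
    refine Finset.sup_induction (p := fun v : ℝ≥0 => v ^ (p - 1) < (p : ℝ≥0)⁻¹) ?_ ?_ ?_
    · have h1 : p - 1 ≠ 0 := Nat.sub_ne_zero_of_lt hp.one_lt
      show (⊥ : ℝ≥0) ^ (p - 1) < _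
      rw [NNReal.bot_eq_zero, zero_pow h1]
      exact inv_pos.2 p_pos_nn
    · intro a ha b hb
      rcases le_total a b with hab | hab
      · rw [sup_eq_right.2 hab]; exact hb
      · rw [sup_eq_left.2 hab]; exact ha
    · intro i _
      rw [hu1]
      exact hval _
  have hmem : u - 1 ∈ Ideal.map (algebraMap (intRing p L) (WithConv (H →ₗ[Zloc p] intRing p L)))
      (ballIdeal p L c') := by
    rw [H54.mem_map_iff]
    have hle : (⊤ : Submodule (Zloc p) H) ≤
        Submodule.comap (u - 1).ofConv ((ballIdeal p L c').restrictScalars (Zloc p)) := by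
      rw [← bH.span_eq, Submodule.span_le]
      rintro _ ⟨i, rfl⟩
      show (u - 1).ofConv (bH i) ∈ ballIdeal p L c'
      rw [mem_ballIdeal]
      have : ‖(((u - 1).ofConv (bH i) : intRing p L) : PadicAlgCl p)‖₊ ≤ c' :=
        Finset.le_sup (f := fun i => ‖(((u - 1).ofConv (bH i) : intRing p L) :
          PadicAlgCl p)‖₊) (Finset.mem_univ i)
      exact_mod_cast this
    intro d
    exact hle (Submodule.mem_top (x := d))
  have hu_one : u = 1 := stmt_LIFT_a p L _ c' hc'lt u hup hmem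
  apply WithConv.ofConv_injective
  apply AlgHom.toLinearMap_injective
  exact WithConv.toConv_injective hu_one

/-- The core of PM, for `H` free. -/
theorem pm_core (hkill : ∀ x : WithConv (H →ₐ[Zloc p] PadicAlgCl p), x ^ p = 1) :
    HasPM p (pointField p H) := by
  classical
  intro c _ hc F hF ⟨φ⟩
  haveI := hF
  have hp : p.Prime := Fact.out
  set L := pointField p H with hL
  set φa : intRing p L →ₐ[Zloc p] (intRing p F ⧸ ballIdeal p F c) := algOfRingHom φ with hφa
  -- points with values in `𝒪_L`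
  set PI : WithConv (H →ₐ[Zloc p] PadicAlgCl p) → WithConv (H →ₐ[Zloc p] intRing p L) :=
    fun x => toConv (pointInt x.ofConv) with hPIdef
  have hPI : ∀ x, postAlg (H54.inclAlg L) (PI x) = x := fun x => by
    apply WithConv.ofConv_injective
    exact inclAlg_comp_pointInt x.ofConv
  have hinjL := postAlg_injective (H := H) (H54.inclAlg L) (H54.inclAlg_injective L)
  have hinjF := postAlg_injective (H := H) (H54.inclAlg F) (H54.inclAlg_injective F)
  have hPImul : ∀ x y, PI (x * y) = PI x * PI y := fun x y => by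
    apply hinjL; rw [map_mul, hPI, hPI, hPI]
  have hPIone : PI 1 = 1 := by apply hinjL; rw [map_one, hPI]
  have hPIpow : ∀ x (n : ℕ), PI (x ^ n) = PI x ^ n := by
    intro x n
    induction n with
    | zero => rw [pow_zero, pow_zero, hPIone]
    | succ n ih => rw [pow_succ, pow_succ, hPImul, ih]
  -- the reductions
  set G : WithConv (H →ₐ[Zloc p] PadicAlgCl p) →
      WithConv (H →ₐ[Zloc p] (intRing p F ⧸ ballIdeal p F c)) := fun x => postAlg φa (PI x)
    with hGdef
  have hG : ∀ x, G x ^ p = 1 := fun x => by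
    have h1 : postAlg φa (PI x ^ p) = postAlg φa (PI x) ^ p := map_pow (postAlg φa) (PI x) p
    have h2 : PI x ^ p = 1 := by rw [← hPIpow, hkill, hPIone]
    rw [h2, map_one] at h1
    exact h1.symm
  -- lifting (LIFT-c)
  have hlift : ∀ x : WithConv (H →ₐ[Zloc p] PadicAlgCl p), ∃ x' : H →ₐ[Zloc p] intRing p F,
      ∀ (h : H) (r : intRing p F), Ideal.Quotient.mk (ballIdeal p F c) r = (G x).ofConv h →
        x' h - r ∈ ballIdeal p F ((p : ℝ≥0) * c) := fun x =>
    H54.lift_c c hc (G x).ofConv (hG x)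
  choose X' hX' using hlift
  set Θ : WithConv (H →ₐ[Zloc p] PadicAlgCl p) → WithConv (H →ₐ[Zloc p] PadicAlgCl p) :=
    fun x => postAlg (H54.inclAlg F) (toConv (X' x)) with hΘdef
  have hII' : ballIdeal p F c ≤ ballIdeal p F ((p : ℝ≥0) * c) :=
    H54.ballIdeal_mono (H54.le_p_mul c)
  set q : (intRing p F ⧸ ballIdeal p F c) →ₐ[Zloc p]
      (intRing p F ⧸ ballIdeal p F ((p : ℝ≥0) * c)) := Ideal.Quotient.factorₐ (Zloc p) hII'
    with hq
  set m' : intRing p F →ₐ[Zloc p] (intRing p F ⧸ ballIdeal p F ((p : ℝ≥0) * c)) :=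
    Ideal.Quotient.mkₐ (Zloc p) _ with hm'
  have hqG : ∀ x, postAlg q (G x) = postAlg m' (toConv (X' x)) := by
    intro x
    apply WithConv.ofConv_injective
    apply AlgHom.ext
    intro h
    obtain ⟨r, hr⟩ := Ideal.Quotient.mk_surjective ((G x).ofConv h)
    have h1 := hX' x h r hr
    show q ((G x).ofConv h) = m' (X' x h)
    rw [← hr]
    show Ideal.Quotient.mk (ballIdeal p F ((p : ℝ≥0) * c)) r =
      Ideal.Quotient.mk (ballIdeal p F ((p : ℝ≥0) * c)) (X' x h)
    exact (Ideal.Quotient.eq.2 h1).symm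
  have hΘinj : Function.Injective Θ := by
    intro x₁ x₂ h12
    have hy : (toConv (X' x₁) : WithConv (H →ₐ[Zloc p] intRing p F)) = toConv (X' x₂) :=
      hinjF h12
    have hYp : (toConv (X' x₁) : WithConv (H →ₐ[Zloc p] intRing p F)) ^ p = 1 := by
      apply hinjF
      have h1 : postAlg (H54.inclAlg F)
          ((toConv (X' x₁) : WithConv (H →ₐ[Zloc p] intRing p F)) ^ p) =
          postAlg (H54.inclAlg F) (toConv (X' x₁)) ^ p :=
        map_pow (postAlg (H54.inclAlg F)) (toConv (X' x₁)) p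
      rw [h1, map_one]
      exact hkill _
    set x := x₁ * x₂ ^ (p - 1) with hx
    have hGx : postAlg q (G x) = 1 := by
      have h0 : postAlg φa (PI x₂ ^ (p - 1)) = postAlg φa (PI x₂) ^ (p - 1) :=
        map_pow (postAlg φa) (PI x₂) (p - 1)
      have h1 : G x = G x₁ * G x₂ ^ (p - 1) := by
        simp only [hGdef]
        rw [hx, hPImul, hPIpow, map_mul, h0]
      have h2 : postAlg q (G x₂ ^ (p - 1)) = postAlg q (G x₂) ^ (p - 1) :=
        map_pow (postAlg q) (G x₂) (p - 1)
      have h3 : postAlg m' ((toConv (X' x₁) : WithConv (H →ₐ[Zloc p] intRing p F)) ^ p) =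
          postAlg m' (toConv (X' x₁)) ^ p := map_pow (postAlg m') (toConv (X' x₁)) p
      have h4 : postAlg m' (toConv (X' x₁)) * postAlg m' (toConv (X' x₁)) ^ (p - 1) =
          postAlg m' (toConv (X' x₁)) ^ p := by
        have h5 := pow_succ' (postAlg m' (toConv (X' x₁))) (p - 1)
        rw [Nat.sub_add_cancel hp.one_le] at h5
        exact h5.symm
      rw [h1, map_mul, h2, hqG x₁, hqG x₂, ← hy, h4, ← h3, hYp, map_one]
    have hx1 : x = 1 := by
      have hPIx : PI x = 1 := by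
        apply point_eq_one_of_close L (PI x)
        · rw [← hPIpow, hkill, hPIone]
        · intro h
          apply nnnorm_pow_lt_of_forall_mem hc φ
          intro r hr
          have h1 := congrArg (fun z => z.ofConv h) hGx
          have h2 : q (φ (pointInt x.ofConv h)) =
              algebraMap (Zloc p) _ (Coalgebra.counit h) := h1
          have h3 : q (Ideal.Quotient.mk (ballIdeal p F c) r) = 0 := by
            rw [hr]
            have h4 : φ (algebraMap (Zloc p) (intRing p L) (Coalgebra.counit h)) =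
                algebraMap (Zloc p) _ (Coalgebra.counit h) := φa.commutes _
            have h5 : (PI x).ofConv h = pointInt x.ofConv h := rfl
            rw [h5, map_sub, map_sub, h2, h4, AlgHom.commutes, sub_self]
          exact Ideal.Quotient.eq_zero_iff_mem.1 h3
      rw [← hPI x, hPIx, map_one]
    have h6 : x₂ ^ (p - 1) * x₂ = x₂ ^ p := by
      have h5 := pow_succ x₂ (p - 1)
      rw [Nat.sub_add_cancel hp.one_le] at h5
      exact h5.symm
    calc x₁ = x₁ * x₂ ^ p := by rw [hkill, mul_one]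
      _ = x₁ * x₂ ^ (p - 1) * x₂ := by rw [mul_assoc, h6]
      _ = x₂ := by rw [← hx, hx1, one_mul]
  -- counting
  haveI hfin : Finite (WithConv (H →ₐ[Zloc p] PadicAlgCl p)) :=
    Finite.of_equiv (H →ₐ[Zloc p] PadicAlgCl p) (WithConv.equiv _).symm
  have hΘsurj : Function.Surjective Θ := Finite.surjective_of_injective hΘinj
  -- conclusion
  rw [hL]
  unfold pointField
  rw [IntermediateField.adjoin_le_iff]
  rintro y ⟨x, h, rfl⟩
  obtain ⟨x₀, hx₀⟩ := hΘsurj (toConv x)
  have h1 : x h = ((X' x₀ h : intRing p F) : PadicAlgCl p) := by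
    have := congrArg (fun z => z.ofConv h) hx₀
    exact this.symm
  rw [h1]
  exact (X' x₀ h).2.1

end Main

/-- **PM** (Fontaine's lifting argument). -/
theorem stmt_PM : Stmt_PM := by
  intro p _ _ H _ _ _ _ _ hkill
  haveI : Module.Free (Zloc p) H := Module.free_of_flat_of_isLocalRing
  exact pm_core hkill

end Fermat.Agent.S56.FL.H50

end
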