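import Fermat.Agent.S56.FL.H54_BridgeMu
import Fermat.Agent.S56.FL.Count
import Fermat.Agent.S56.FL.H50_PM
import Fermat.Agent.S56.FL.H15_CK

/-!
# LOC-p-FL, package BRIDGE-1 (helper54): `Stmt_FL_A`

Fontaine's bound for flat Galois modules: a finite flat `G_ℚ`-module killed by `p` (`p` odd) is
trivial on `Gal(K̄/L)` for a finite Galois `L/ℚ_p` of bounded ramification.

Proof: local model `H` (`exists_local_model`), `L` = the field generated by the points of
`H ⊗ ℤ_(p)[μ_p]`; `(P_m)` for `L` by `H50.stmt_PM`, bounded ramification by `H15.stmt_CK`.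
-/

set_option autoImplicit false
set_option linter.unusedSectionVars false
set_option linter.style.haveILetI false

noncomputable section

namespace Fermat.Agent.S56.FL.H54

open scoped NNReal TensorProduct
open Fermat.Agent.S56.FL Fermat.Agent.R.H54 WithConv

/-- **FL_A** (BRIDGE-1). -/
theorem stmt_FL_A : Stmt_FL_A := by
  intro p _ hp2 M _ act hkill hflat
  obtain ⟨H, _, _, hfin, hflatH, hcoc, e, hmul, hact⟩ := exists_local_model hflat
  haveI := hfin
  haveI := hflatH
  haveI := hcoc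
  have hkillH : ∀ x : WithConv (H →ₐ[Zloc p] PadicAlgCl p), x ^ p = 1 :=
    pow_eq_one_of_kill e hmul hkill
  haveI hfd : FiniteDimensional ℚ_[p] (pointField p (H ⊗[Zloc p] MuAlg p)) :=
    finiteDimensional_pointField
  have hN : Normal ℚ_[p] (pointField p (H ⊗[Zloc p] MuAlg p)) := normal_pointField
  have hPM : HasPM p (pointField p (H ⊗[Zloc p] MuAlg p)) :=
    H50.stmt_PM p hp2 (H ⊗[Zloc p] MuAlg p) (prod_mu_pow_eq_one hkillH)
  obtain ⟨ζ, hζ1, hζp⟩ := exists_root_ne_one (p := p)
  have hB : IsBddField p (pointField p (H ⊗[Zloc p] MuAlg p)) :=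
    H15.stmt_CK p hp2 _ hN ⟨ζ, root_mem_pointField_prod_mu ζ hζp, hζ1, hζp⟩ hPM
  refine ⟨pointField p (H ⊗[Zloc p] MuAlg p), hfd, hN, hB, ?_⟩
  intro σ hσ m
  obtain ⟨x, rfl⟩ := e.surjective m
  have hσ' : σ ∈ (pointField p H).fixingSubgroup :=
    (IntermediateField.mem_fixingSubgroup_iff _ σ).mpr (fun y hy =>
      (IntermediateField.mem_fixingSubgroup_iff _ σ).mp hσ y (pointField_le_prod_mu hy))
  rw [← hact, pointAct_eq_of_mem_fixingSubgroup σ hσ' x]

end Fermat.Agent.S56.FL.H54

end
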