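import Mathlib

set_option autoImplicit false

/-!
# LOC-p-FL, package KUM (helper59), part 1: Lagrange resolvents

Pure algebra.  `E` a field, `H` a group of automorphisms of `E`, `ζ ∈ E` a primitive `p`-th root
of unity fixed by `H`, `α ∈ Eˣ` with `h α ∈ μ_p · α` for all `h ∈ H`, and `σ ∈ H` with
`σ α = ζ α`.  Then every `x ∈ E` that is fixed by the stabiliser of `α` in `H` is
`∑_{j<p} c_j α^j` with `c_j` fixed by `H`.
-/

noncomputable section

namespace Fermat.Agent.S56.FL.H59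

open Finset

section Periodic

variable {M : Type*} [AddCommGroup M]

/-- Sum of a `p`-periodic function over a shifted period. -/
theorem sum_range_shift_of_periodic (f : ℕ → M) (p : ℕ) (hf : ∀ i, f (i + p) = f i) (k : ℕ) :
    ∑ i ∈ range p, f (i + k) = ∑ i ∈ range p, f i := by
  induction k with
  | zero => simp
  | succ k ih =>
    rw [← ih]
    have h1 : ∑ i ∈ range p, f (i + (k + 1)) + f (0 + k) = ∑ i ∈ range (p + 1), f (i + k) := by
      rw [Finset.sum_range_succ']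
      refine congrArg₂ _ (Finset.sum_congr rfl fun i _ => ?_) rfl
      congr 1; ring
    have h2 : ∑ i ∈ range (p + 1), f (i + k) = ∑ i ∈ range p, f (i + k) + f (p + k) :=
      Finset.sum_range_succ _ _
    have h3 : f (p + k) = f (0 + k) := by
      rw [show p + k = (0 + k) + p by ring]; exact hf _
    rw [h2, h3] at h1
    exact add_right_cancel h1

end Periodic

variable {k E : Type*} [Field k] [Field E] [Algebra k E]

/-- Orthogonality of characters of `ℤ/p`. -/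
theorem sum_inv_pow_mul {p : ℕ} (hp : p.Prime) {ζ : E} (hζ : IsPrimitiveRoot ζ p) {i : ℕ}
    (hi : i < p) : ∑ j ∈ range p, (ζ⁻¹) ^ (i * j) = if i = 0 then (p : E) else 0 := by
  split_ifs with h0
  · subst h0; simp
  · have hcop : Nat.Coprime i p := by
      rw [Nat.coprime_comm]
      exact (Nat.Prime.coprime_iff_not_dvd hp).mpr fun hd =>
        h0 (Nat.eq_zero_of_dvd_of_lt hd hi)
    have h1 : IsPrimitiveRoot ((ζ⁻¹) ^ i) p := (hζ.inv).pow_of_coprime i hcop
    have := h1.geom_sum_eq_zero hp.one_lt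
    simpa [pow_mul] using this

variable (H : Subgroup (E ≃ₐ[k] E))

/-- The Lagrange resolvent decomposition. -/
theorem exists_resolvent_expansion {p : ℕ} (hp : p.Prime) (hpE : (p : E) ≠ 0)
    {ζ : E} (hζ : IsPrimitiveRoot ζ p) (hζH : ∀ h ∈ H, h ζ = ζ)
    {α : E} (hα0 : α ≠ 0) (hαp : ∀ h ∈ H, h (α ^ p) = α ^ p)
    {σ : E ≃ₐ[k] E} (hσH : σ ∈ H) (hσα : σ α = ζ * α)
    {x : E} (hx : ∀ ν ∈ H, ν α = α → ν x = x) :
    ∃ c : ℕ → E, (∀ j, ∀ h ∈ H, h (c j) = c j) ∧ x = ∑ j ∈ range p, c j * α ^ j := by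
  classical
  have hζ0 : ζ ≠ 0 := hζ.ne_zero hp.ne_zero
  have hζp : ζ ^ p = 1 := hζ.pow_eq_one
  -- powers of `σ` on `α` and `ζ`
  have hσζ : ∀ i : ℕ, (σ ^ i) ζ = ζ := fun i => hζH _ (H.pow_mem hσH i)
  have hσpow : ∀ i : ℕ, (σ ^ i) α = ζ ^ i * α := by
    intro i
    induction i with
    | zero => simp
    | succ i ih =>
      rw [pow_succ', AlgEquiv.mul_apply, ih, map_mul, map_pow, hζH σ hσH, hσα]
      ring
  -- every `h ∈ H` multiplies `α` by a power of `ζ`
  have hexp : ∀ h ∈ H, ∃ m : ℕ, h α = ζ ^ m * α := by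
    intro h hh
    have h1 : (h α / α) ^ p = 1 := by
      rw [div_pow, ← map_pow, hαp h hh, div_self (pow_ne_zero _ hα0)]
    haveI : NeZero p := ⟨hp.ne_zero⟩
    obtain ⟨m, -, hm⟩ := hζ.eq_pow_of_pow_eq_one h1
    refine ⟨m, ?_⟩
    rw [hm]; field_simp
  -- the key relation
  have hkey : ∀ h ∈ H, ∀ m : ℕ, h α = ζ ^ m * α → ∀ i : ℕ, h ((σ ^ i) x) = (σ ^ (i + m)) x := by
    intro h hh m hm i
    have hν : ((σ ^ (i + m))⁻¹ * h * σ ^ i) ∈ H :=
      H.mul_mem (H.mul_mem (H.inv_mem (H.pow_mem hσH _)) hh) (H.pow_mem hσH _)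
    have hνα : ((σ ^ (i + m))⁻¹ * h * σ ^ i) α = α := by
      rw [AlgEquiv.mul_apply, AlgEquiv.mul_apply, hσpow i, map_mul, map_pow, hζH h hh, hm]
      have h2 : ζ ^ i * (ζ ^ m * α) = (σ ^ (i + m)) α := by rw [hσpow (i + m)]; ring
      rw [h2]
      exact (σ ^ (i + m)).symm_apply_apply α
    have := hx _ hν hνα
    rw [AlgEquiv.mul_apply, AlgEquiv.mul_apply] at this
    have h3 := congrArg (σ ^ (i + m)) this
    rw [show (σ ^ (i + m)) ((σ ^ (i + m))⁻¹ (h ((σ ^ i) x))) = h ((σ ^ i) x) from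
      (σ ^ (i + m)).apply_symm_apply _] at h3
    exact h3
  -- periodicity
  have hper : ∀ i : ℕ, (σ ^ (i + p)) x = (σ ^ i) x := by
    intro i
    have h1 : (1 : E ≃ₐ[k] E) α = ζ ^ p * α := by rw [hζp, one_mul]; rfl
    have := hkey 1 H.one_mem p h1 i
    rw [← this]; rfl
  -- the resolvents
  set X : ℕ → E := fun j => (p : E)⁻¹ * ∑ i ∈ range p, (ζ⁻¹) ^ (i * j) * (σ ^ i) x with hX
  have hsum : ∑ j ∈ range p, X j = x := by
    simp only [hX]
    rw [← Finset.mul_sum, Finset.sum_comm]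
    have h1 : ∀ i ∈ range p, ∑ j ∈ range p, (ζ⁻¹) ^ (i * j) * (σ ^ i) x
        = (if i = 0 then (p : E) else 0) * (σ ^ i) x := by
      intro i hi
      rw [← Finset.sum_mul, sum_inv_pow_mul hp hζ (Finset.mem_range.mp hi)]
    rw [Finset.sum_congr rfl h1]
    have h2 : ∑ i ∈ range p, (if i = 0 then (p : E) else 0) * (σ ^ i) x = (p : E) * x := by
      rw [Finset.sum_eq_single 0]
      · simp
      · intro i _ hi; simp [hi]
      · intro h; exact absurd (Finset.mem_range.mpr hp.pos) h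
    rw [h2, ← mul_assoc, inv_mul_cancel₀ hpE, one_mul]
  have hact : ∀ h ∈ H, ∀ m : ℕ, h α = ζ ^ m * α → ∀ j : ℕ, h (X j) = ζ ^ (m * j) * X j := by
    intro h hh m hm j
    simp only [hX]
    rw [map_mul, map_inv₀, map_natCast, map_sum]
    have h1 : ∀ i ∈ range p, h ((ζ⁻¹) ^ (i * j) * (σ ^ i) x)
        = ζ ^ (m * j) * ((ζ⁻¹) ^ ((i + m) * j) * (σ ^ (i + m)) x) := by
      intro i _
      rw [map_mul, map_pow, map_inv₀, hζH h hh, hkey h hh m hm i, ← mul_assoc]
      congr 1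
      rw [add_mul, pow_add, inv_pow, inv_pow]
      have hz : ζ ^ (m * j) ≠ 0 := pow_ne_zero _ hζ0
      field_simp
    rw [Finset.sum_congr rfl h1, ← Finset.mul_sum]
    have h2 : ∑ i ∈ range p, (ζ⁻¹) ^ ((i + m) * j) * (σ ^ (i + m)) x
        = ∑ i ∈ range p, (ζ⁻¹) ^ (i * j) * (σ ^ i) x := by
      refine sum_range_shift_of_periodic (fun i => (ζ⁻¹) ^ (i * j) * (σ ^ i) x) p ?_ m
      intro i
      rw [hper i, add_mul, pow_add]
      have : (ζ⁻¹) ^ (p * j) = 1 := by rw [pow_mul, inv_pow, hζp, inv_one, one_pow]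
      rw [this, mul_one]
    rw [h2]; ring
  refine ⟨fun j => X j / α ^ j, ?_, ?_⟩
  · intro j h hh
    obtain ⟨m, hm⟩ := hexp h hh
    rw [map_div₀, map_pow, hact h hh m hm j, hm, mul_pow, ← pow_mul]
    have : ζ ^ (m * j) ≠ 0 := pow_ne_zero _ hζ0
    field_simp
  · rw [← hsum]
    refine Finset.sum_congr rfl fun j _ => ?_
    field_simp

end Fermat.Agent.S56.FL.H59

end
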