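import Mathlib

set_option autoImplicit false
set_option linter.unusedSectionVars false

/-!
# LOC-p-FL, package KUM (helper59), part 3: ultrametric estimates

Generic lemmas in an ultrametric normed field `F` with a subfield `S`:

* `norm_pow_succ_sub_le`, `norm_term_le_norm_sum`, `norm_one_add_pow_sub_le`;
* `InV S t` : `t` is the norm of a nonzero element of `S`; `InV.of_pow_of_pow` (Bézout);
* `kummer_estimate` : if `‖y‖ ∉ ‖Sˣ‖`, `‖y‖^p ∈ ‖Sˣ‖` and `τ` is an isometric endomorphism fixing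
  `S` with `‖τ y - y‖ ≤ θ ‖α‖`, `δ ‖α‖^p ≤ ‖y‖^p`, then for `x = ∑_{j<p} c_j y^j` (`c_j ∈ S`) of norm
  `≤ 1`: `δ ‖τ x - x‖^p ≤ θ^p ϖ`, where `ϖ` bounds the norms `< 1` of the elements of `S`.
-/

noncomputable section

namespace Fermat.Agent.S56.FL.H59

open Finset

variable {F : Type*} [NormedField F] [IsUltrametricDist F]

theorem norm_pow_succ_sub_le {u v : F} {r : ℝ} (hu : ‖u‖ ≤ r) (hv : ‖v‖ ≤ r) (j : ℕ) :
    ‖u ^ (j + 1) - v ^ (j + 1)‖ ≤ ‖u - v‖ * r ^ j := by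
  have hr : 0 ≤ r := (norm_nonneg u).trans hu
  induction j with
  | zero => simp
  | succ j ih =>
    have h : u ^ (j + 1 + 1) - v ^ (j + 1 + 1)
        = u * (u ^ (j + 1) - v ^ (j + 1)) + (u - v) * v ^ (j + 1) := by ring
    rw [h]
    refine (IsUltrametricDist.norm_add_le_max _ _).trans (max_le ?_ ?_)
    · rw [norm_mul]
      calc ‖u‖ * ‖u ^ (j + 1) - v ^ (j + 1)‖ ≤ r * (‖u - v‖ * r ^ j) :=
            mul_le_mul hu ih (norm_nonneg _) hr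
        _ = ‖u - v‖ * r ^ (j + 1) := by ring
    · rw [norm_mul, norm_pow]
      exact mul_le_mul_of_nonneg_left (pow_le_pow_left₀ (norm_nonneg _) hv _) (norm_nonneg _)

/-- In a finite sum whose nonzero terms have pairwise distinct norms, every term has norm at most
the norm of the sum. -/
theorem norm_term_le_norm_sum (s : Finset ℕ) (f : ℕ → F)
    (hf : ∀ i ∈ s, ∀ j ∈ s, i ≠ j → f i ≠ 0 → ‖f i‖ ≠ ‖f j‖) :
    ∀ i ∈ s, ‖f i‖ ≤ ‖∑ j ∈ s, f j‖ := by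
  classical
  intro i hi
  obtain ⟨j₀, hj₀, hmax⟩ := Finset.exists_max_image s (fun j => ‖f j‖) ⟨i, hi⟩
  by_cases h0 : f j₀ = 0
  · have : ‖f i‖ ≤ 0 := by
      have := hmax i hi
      rwa [h0, norm_zero] at this
    exact this.trans (norm_nonneg _)
  have hrest : ‖∑ j ∈ s.erase j₀, f j‖ < ‖f j₀‖ := by
    obtain ⟨i₁, hi₁, hle⟩ := IsUltrametricDist.exists_norm_finsetSum_le (s.erase j₀) f
    by_cases hne : (s.erase j₀).Nonempty
    · have hi₁' := hi₁ hne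
      have hi₁s : i₁ ∈ s := Finset.mem_of_mem_erase hi₁'
      have hi₁ne : i₁ ≠ j₀ := Finset.ne_of_mem_erase hi₁'
      have h1 : ‖f i₁‖ ≤ ‖f j₀‖ := hmax i₁ hi₁s
      have h2 : ‖f j₀‖ ≠ ‖f i₁‖ := hf j₀ hj₀ i₁ hi₁s (Ne.symm hi₁ne) h0
      exact hle.trans_lt (lt_of_le_of_ne h1 (Ne.symm h2))
    · rw [Finset.not_nonempty_iff_eq_empty.mp hne, Finset.sum_empty, norm_zero]
      exact norm_pos_iff.mpr h0
  have hsum : ∑ j ∈ s, f j = f j₀ + ∑ j ∈ s.erase j₀, f j :=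
    (Finset.add_sum_erase s f hj₀).symm
  have hnorm : ‖∑ j ∈ s, f j‖ = ‖f j₀‖ := by
    rw [hsum, IsUltrametricDist.norm_add_eq_max_of_norm_ne_norm (ne_of_gt hrest)]
    exact max_eq_left hrest.le
  rw [hnorm]
  exact hmax i hi

/-- `‖(1 + z)^p - 1 - z^p‖ ≤ ‖p‖ ‖z‖` for `‖z‖ ≤ 1`. -/
theorem norm_one_add_pow_sub_le {p : ℕ} (hp : p.Prime) {z : F} (hz : ‖z‖ ≤ 1) :
    ‖(1 + z) ^ p - 1 - z ^ p‖ ≤ ‖(p : F)‖ * ‖z‖ := by
  have hp1 : 1 ≤ p := hp.one_lt.le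
  have h : (1 + z) ^ p - 1 - z ^ p = ∑ m ∈ Finset.Ico 1 p, (p.choose m : F) * z ^ m := by
    rw [add_comm 1 z, add_pow, Finset.range_eq_Ico,
      Finset.sum_eq_sum_Ico_succ_bot (by omega : 0 < p + 1),
      Finset.sum_Ico_succ_top (by omega : 0 + 1 ≤ p)]
    simp only [one_pow, mul_one, pow_zero, Nat.choose_zero_right, Nat.cast_one, zero_add,
      Nat.choose_self, Nat.sub_self]
    have : ∑ m ∈ Finset.Ico 1 p, z ^ m * (p.choose m : F)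
        = ∑ m ∈ Finset.Ico 1 p, (p.choose m : F) * z ^ m :=
      Finset.sum_congr rfl fun m _ => mul_comm _ _
    rw [this]; ring
  rw [h]
  refine IsUltrametricDist.norm_sum_le_of_forall_le_of_nonneg
    (mul_nonneg (norm_nonneg _) (norm_nonneg _)) ?_
  intro m hm
  obtain ⟨hm1, hm2⟩ := Finset.mem_Ico.mp hm
  obtain ⟨k, hk⟩ := hp.dvd_choose_self (by omega) hm2
  rw [hk, Nat.cast_mul, norm_mul, norm_mul, norm_pow, mul_assoc]
  refine mul_le_mul_of_nonneg_left ?_ (norm_nonneg _)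
  calc ‖(k : F)‖ * ‖z‖ ^ m ≤ 1 * ‖z‖ ^ m :=
        mul_le_mul_of_nonneg_right (IsUltrametricDist.norm_natCast_le_one F k)
          (pow_nonneg (norm_nonneg _) _)
    _ = ‖z‖ ^ m := one_mul _
    _ ≤ ‖z‖ ^ 1 := pow_le_pow_of_le_one (norm_nonneg _) hz hm1
    _ = ‖z‖ := pow_one _

/-! ### The value group of a subfield -/

/-- `t` is the norm of a nonzero element of `S`. -/
def InV (S : Subfield F) (t : ℝ) : Prop := ∃ c ∈ S, c ≠ 0 ∧ ‖c‖ = t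

namespace InV

variable {S : Subfield F} {s t : ℝ}

theorem pos (h : InV S t) : 0 < t := by
  obtain ⟨c, -, hc0, rfl⟩ := h
  exact norm_pos_iff.mpr hc0

theorem one : InV S 1 := ⟨1, S.one_mem, one_ne_zero, norm_one⟩

theorem mul (hs : InV S s) (ht : InV S t) : InV S (s * t) := by
  obtain ⟨c, hc, hc0, rfl⟩ := hs
  obtain ⟨d, hd, hd0, rfl⟩ := ht
  exact ⟨c * d, S.mul_mem hc hd, mul_ne_zero hc0 hd0, norm_mul _ _⟩

theorem inv (hs : InV S s) : InV S s⁻¹ := by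
  obtain ⟨c, hc, hc0, rfl⟩ := hs
  exact ⟨c⁻¹, S.inv_mem hc, inv_ne_zero hc0, norm_inv _⟩

theorem pow (hs : InV S s) (n : ℕ) : InV S (s ^ n) := by
  obtain ⟨c, hc, hc0, rfl⟩ := hs
  exact ⟨c ^ n, S.pow_mem hc n, pow_ne_zero _ hc0, norm_pow _ _⟩

theorem zpow (hs : InV S s) (n : ℤ) : InV S (s ^ n) := by
  obtain ⟨c, hc, hc0, rfl⟩ := hs
  exact ⟨c ^ n, S.zpow_mem hc n, zpow_ne_zero _ hc0, norm_zpow _ _⟩

/-- Bézout: if `t^p` and `t^m` (`0 < m < p`, `p` prime) are norms of `S`, so is `t`. -/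
theorem of_pow_of_pow {p : ℕ} (hp : p.Prime) {m : ℕ} (hm0 : 0 < m) (hmp : m < p)
    (ht0 : 0 < t) (h1 : InV S (t ^ p)) (h2 : InV S (t ^ m)) : InV S t := by
  have hcop : IsCoprime (m : ℤ) (p : ℤ) := by
    rw [Int.isCoprime_iff_gcd_eq_one]
    have : Nat.Coprime m p := by
      rw [Nat.coprime_comm]
      exact (Nat.Prime.coprime_iff_not_dvd hp).mpr fun hd =>
        absurd (Nat.le_of_dvd hm0 hd) (not_le.mpr hmp)
    simpa [Int.gcd_natCast_natCast] using this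
  obtain ⟨a, b, hab⟩ := hcop
  have h3 := (h2.zpow a).mul (h1.zpow b)
  have h4 : (t ^ m) ^ a * (t ^ p) ^ b = t := by
    rw [← zpow_natCast t m, ← zpow_natCast t p, ← zpow_mul, ← zpow_mul,
      ← zpow_add₀ ht0.ne']
    have : (m : ℤ) * a + (p : ℤ) * b = 1 := by rw [← hab]; ring
    rw [this, zpow_one]
  rwa [h4] at h3

/-- If `t^p` is a norm of `S` but `t` is not, then `t^m` is not a norm of `S` for `0 < m < p`. -/
theorem not_pow {p : ℕ} (hp : p.Prime) {m : ℕ} (hm0 : 0 < m) (hmp : m < p)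
    (ht0 : 0 < t) (h1 : InV S (t ^ p)) (h2 : ¬ InV S t) : ¬ InV S (t ^ m) :=
  fun h => h2 (of_pow_of_pow hp hm0 hmp ht0 h1 h)

end InV

/-- **The Kummer estimate.** -/
theorem kummer_estimate {p : ℕ} (hp : p.Prime) (S : Subfield F) (τ : F →+* F)
    (hτn : ∀ a, ‖τ a‖ = ‖a‖) (hτS : ∀ c ∈ S, τ c = c)
    {y α : F} {θ δ ϖ : ℝ} (hθ : 0 ≤ θ) (hδ : 0 < δ)
    (hϖ : ∀ c ∈ S, ‖c‖ < 1 → ‖c‖ ≤ ϖ)
    (hy0 : y ≠ 0) (hyp : InV S (‖y‖ ^ p)) (hyn : ¬ InV S ‖y‖)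
    (hτy : ‖τ y - y‖ ≤ θ * ‖α‖) (hα : δ * ‖α‖ ^ p ≤ ‖y‖ ^ p)
    (c : ℕ → F) (hc : ∀ j, c j ∈ S) (hx1 : ‖∑ j ∈ range p, c j * y ^ j‖ ≤ 1) :
    δ * ‖τ (∑ j ∈ range p, c j * y ^ j) - ∑ j ∈ range p, c j * y ^ j‖ ^ p ≤ θ ^ p * ϖ := by
  classical
  have hp0 : p ≠ 0 := hp.ne_zero
  have hyt : 0 < ‖y‖ := norm_pos_iff.mpr hy0
  set x := ∑ j ∈ range p, c j * y ^ j with hx
  -- distinct norms
  have hdist : ∀ i ∈ range p, ∀ j ∈ range p, i ≠ j → c i * y ^ i ≠ 0 →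
      ‖c i * y ^ i‖ ≠ ‖c j * y ^ j‖ := by
    intro i hi j hj hij hne heq
    have hci : c i ≠ 0 := left_ne_zero_of_mul hne
    have hcj : c j ≠ 0 := by
      intro h0
      rw [h0, zero_mul, norm_zero] at heq
      exact hne (norm_eq_zero.mp heq)
    rw [norm_mul, norm_mul, norm_pow, norm_pow] at heq
    have hi' := Finset.mem_range.mp hi
    have hj' := Finset.mem_range.mp hj
    have hci' : InV S ‖c i‖ := ⟨c i, hc i, hci, rfl⟩
    have hcj' : InV S ‖c j‖ := ⟨c j, hc j, hcj, rfl⟩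
    rcases Nat.lt_or_gt_of_ne hij with hlt | hlt
    · -- `‖y‖^(j-i) = ‖c i‖ / ‖c j‖`
      have h1 : ‖y‖ ^ (j - i) = ‖c i‖ * ‖c j‖⁻¹ := by
        have hpow : ‖y‖ ^ j = ‖y‖ ^ (j - i) * ‖y‖ ^ i := by
          rw [← pow_add]; congr 1; omega
        rw [hpow] at heq
        have hyi : ‖y‖ ^ i ≠ 0 := pow_ne_zero _ hyt.ne'
        have hcjn : ‖c j‖ ≠ 0 := norm_ne_zero_iff.mpr hcj
        field_simp
        have := mul_right_cancel₀ hyi (by rw [mul_assoc]; exact heq.symm :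
          ‖c j‖ * ‖y‖ ^ (j - i) * ‖y‖ ^ i = ‖c i‖ * ‖y‖ ^ i)
        rw [mul_comm] at this
        exact this
      exact InV.not_pow hp (by omega) (by omega) hyt hyp hyn (h1 ▸ hci'.mul hcj'.inv)
    · have h1 : ‖y‖ ^ (i - j) = ‖c j‖ * ‖c i‖⁻¹ := by
        have hpow : ‖y‖ ^ i = ‖y‖ ^ (i - j) * ‖y‖ ^ j := by
          rw [← pow_add]; congr 1; omega
        rw [hpow] at heq
        have hyj : ‖y‖ ^ j ≠ 0 := pow_ne_zero _ hyt.ne'
        have hcin : ‖c i‖ ≠ 0 := norm_ne_zero_iff.mpr hci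
        field_simp
        have := mul_right_cancel₀ hyj (by rw [mul_assoc]; exact heq :
          ‖c i‖ * ‖y‖ ^ (i - j) * ‖y‖ ^ j = ‖c j‖ * ‖y‖ ^ j)
        rw [mul_comm] at this
        exact this
      exact InV.not_pow hp (by omega) (by omega) hyt hyp hyn (h1 ▸ hcj'.mul hci'.inv)
  have hterm : ∀ j ∈ range p, ‖c j * y ^ j‖ ≤ 1 := fun j hj =>
    (norm_term_le_norm_sum (range p) (fun j => c j * y ^ j) hdist j hj).trans hx1
  -- terms with `j ≥ 1`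
  have hterm' : ∀ j, j + 1 < p → ‖c (j + 1) * y ^ (j + 1)‖ ^ p ≤ ϖ := by
    intro j hj
    by_cases hc0 : c (j + 1) = 0
    · rw [hc0, zero_mul, norm_zero, zero_pow hp0]
      obtain ⟨d, hd, hd0, hdn⟩ := hyp
      -- `ϖ ≥ 0`
      have := hϖ 0 S.zero_mem (by simp)
      simpa using this
    have hcv : InV S ‖c (j + 1)‖ := ⟨c (j + 1), hc _, hc0, rfl⟩
    have hle := hterm (j + 1) (Finset.mem_range.mpr hj)
    have hne1 : ‖c (j + 1) * y ^ (j + 1)‖ ≠ 1 := by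
      intro h1
      rw [norm_mul, norm_pow] at h1
      have h2 : ‖y‖ ^ (j + 1) = ‖c (j + 1)‖⁻¹ := by
        have hcn : ‖c (j + 1)‖ ≠ 0 := norm_ne_zero_iff.mpr hc0
        field_simp
        rw [mul_comm]; exact h1
      exact InV.not_pow hp (by omega) hj hyt hyp hyn (h2 ▸ hcv.inv)
    have hlt : ‖c (j + 1) * y ^ (j + 1)‖ < 1 := lt_of_le_of_ne hle hne1
    obtain ⟨d, hd, hd0, hdn⟩ := hyp
    have h3 : ‖c (j + 1) * y ^ (j + 1)‖ ^ p = ‖c (j + 1) ^ p * d ^ (j + 1)‖ := by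
      rw [norm_mul, norm_mul, norm_pow, norm_pow, norm_pow, hdn, mul_pow, ← pow_mul, ← pow_mul,
        mul_comm (j + 1) p]
    rw [h3]
    refine hϖ _ (S.mul_mem (S.pow_mem (hc _) _) (S.pow_mem hd _)) ?_
    rw [← h3]
    exact pow_lt_one₀ (norm_nonneg _) hlt hp0
  -- the difference
  have hτx : τ x - x = ∑ j ∈ range p, c j * ((τ y) ^ j - y ^ j) := by
    rw [hx, map_sum, ← Finset.sum_sub_distrib]
    refine Finset.sum_congr rfl fun j _ => ?_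
    rw [map_mul, map_pow, hτS _ (hc j)]; ring
  have hϖ0 : 0 ≤ ϖ := by
    have := hϖ 0 S.zero_mem (by simp)
    simpa using this
  have hB : 0 ≤ θ ^ p * ϖ := mul_nonneg (pow_nonneg hθ _) hϖ0
  -- bound each term
  have hbound : ∀ j ∈ range p, δ * ‖c j * ((τ y) ^ j - y ^ j)‖ ^ p ≤ θ ^ p * ϖ := by
    intro j hj
    rcases Nat.eq_zero_or_pos j with h0 | hpos
    · subst h0
      simpa [zero_pow hp0] using hB
    obtain ⟨i, rfl⟩ : ∃ i, j = i + 1 := ⟨j - 1, by omega⟩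
    have hj' := Finset.mem_range.mp hj
    have h1 : ‖(τ y) ^ (i + 1) - y ^ (i + 1)‖ ≤ ‖τ y - y‖ * ‖y‖ ^ i :=
      norm_pow_succ_sub_le (hτn y).le le_rfl i
    have h2 : ‖c (i + 1) * ((τ y) ^ (i + 1) - y ^ (i + 1))‖
        ≤ ‖c (i + 1)‖ * (θ * ‖α‖ * ‖y‖ ^ i) := by
      rw [norm_mul]
      refine mul_le_mul_of_nonneg_left (h1.trans ?_) (norm_nonneg _)
      exact mul_le_mul_of_nonneg_right hτy (pow_nonneg (norm_nonneg _) _)
    have h3 : ‖c (i + 1) * ((τ y) ^ (i + 1) - y ^ (i + 1))‖ ^ p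
        ≤ (‖c (i + 1)‖ * (θ * ‖α‖ * ‖y‖ ^ i)) ^ p :=
      pow_le_pow_left₀ (norm_nonneg _) h2 p
    have h4 : δ * (‖c (i + 1)‖ * (θ * ‖α‖ * ‖y‖ ^ i)) ^ p
        = θ ^ p * (‖c (i + 1)‖ ^ p * (‖y‖ ^ i) ^ p * (δ * ‖α‖ ^ p)) := by ring
    have h5 : ‖c (i + 1)‖ ^ p * (‖y‖ ^ i) ^ p * (δ * ‖α‖ ^ p)
        ≤ ‖c (i + 1) * y ^ (i + 1)‖ ^ p := by
      have e : ‖c (i + 1) * y ^ (i + 1)‖ ^ p = ‖c (i + 1)‖ ^ p * (‖y‖ ^ i) ^ p * ‖y‖ ^ p := by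
        rw [norm_mul, norm_pow, mul_pow, pow_succ, mul_pow, ← mul_assoc]
      rw [e]
      exact mul_le_mul_of_nonneg_left hα
        (mul_nonneg (pow_nonneg (norm_nonneg _) _) (pow_nonneg (pow_nonneg (norm_nonneg _) _) _))
    calc δ * ‖c (i + 1) * ((τ y) ^ (i + 1) - y ^ (i + 1))‖ ^ p
        ≤ δ * (‖c (i + 1)‖ * (θ * ‖α‖ * ‖y‖ ^ i)) ^ p := mul_le_mul_of_nonneg_left h3 hδ.le
      _ = θ ^ p * (‖c (i + 1)‖ ^ p * (‖y‖ ^ i) ^ p * (δ * ‖α‖ ^ p)) := h4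
      _ ≤ θ ^ p * ‖c (i + 1) * y ^ (i + 1)‖ ^ p :=
          mul_le_mul_of_nonneg_left h5 (pow_nonneg hθ _)
      _ ≤ θ ^ p * ϖ := mul_le_mul_of_nonneg_left (hterm' i hj') (pow_nonneg hθ _)
  rw [hτx]
  obtain ⟨j₁, hj₁, hle⟩ := IsUltrametricDist.exists_norm_finsetSum_le (range p)
    (fun j => c j * ((τ y) ^ j - y ^ j))
  have hj₁' := hj₁ ⟨0, Finset.mem_range.mpr hp.pos⟩
  calc δ * ‖∑ j ∈ range p, c j * ((τ y) ^ j - y ^ j)‖ ^ p
      ≤ δ * ‖c j₁ * ((τ y) ^ j₁ - y ^ j₁)‖ ^ p :=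
        mul_le_mul_of_nonneg_left (pow_le_pow_left₀ (norm_nonneg _) hle p) hδ.le
    _ ≤ θ ^ p * ϖ := hbound j₁ hj₁'

end Fermat.Agent.S56.FL.H59

end
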