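import Mathlib
import Fermat.Agent.S56.FL.H59_KumAlg
import Fermat.Agent.S56.FL.H59_KumUV
import Fermat.Agent.S56.FL.H59_KumNorm
import Fermat.Agent.S56.FL.H15_Herb
import Fermat.Agent.S56.FL.LF.H15_Inertia

set_option autoImplicit false
set_option linter.style.haveILetI false
set_option linter.unusedSectionVars false

/-!
# LOC-p-FL, package KUM (helper59): `Stmt_KUMBDD`

`K' ⊆ L` finite Galois over `ℚ_p`, `μ_p ⊆ K'`, `L` of bounded ramification, `a ∈ K'ˣ` with a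
`p`-th root in `L`.  Then `‖a b^p - 1‖ ≤ p⁻¹` for some `b ∈ K'ˣ`.

Proof (multiplicative norms; the tameness of `K'` is not used).  Descent: if
`p⁻¹ < δ = ‖a₁ - 1‖ ≤ 1` and `δ` cannot be improved by `p`-th powers, put `y = α₁ - 1` (`δ < 1`) or
`y = α₁` (`δ = 1`); then `‖y‖ ∉ ‖K'ˣ‖` (the residue field is perfect), `‖y‖^p ∈ ‖K'ˣ‖`, every integer
of `M = K'(α₁)` is `∑_{j<p} c_j y^j` (Lagrange resolvents) and the Kummer estimate bounds the depth
of `Gal(M/K')` on the integers of `M`.  Herbrand (`H15.herbrand_rel`) lifts this to a `σ₁` in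
`Gal(L/K')`, the elements outside `Gal(L/K')` are controlled by `prod_not_mem_le`, and the product
contradicts the ramification bound.
-/

noncomputable section

namespace Fermat.Agent.S56.FL.H59

open scoped NNReal
open Fermat.Agent.S56.FL Fermat.Agent.S56.FL.H15 Polynomial

variable {p : ℕ} [Fact p.Prime]

variable {L : IntermediateField ℚ_[p] (PadicAlgCl p)}

theorem norm_p_L : ‖(p : L)‖ = (p : ℝ)⁻¹ := by
  have : ‖((p : L) : PadicAlgCl p)‖ = (p : ℝ)⁻¹ := by push_cast; exact norm_p_algCl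
  exact this

/-- All nontrivial `p`-th roots of unity have the same distance to `1`. -/
theorem norm_root_sub_one_le {ζ ξ : L} (hζ1 : ζ ≠ 1) (hζp : ζ ^ p = 1) (hξp : ξ ^ p = 1) :
    ‖ξ - 1‖ ≤ ‖ζ - 1‖ := by
  have hp : p.Prime := Fact.out
  by_cases hξ1 : ξ = 1
  · rw [hξ1, sub_self, norm_zero]; exact norm_nonneg _
  have key : ∀ z : L, z ≠ 1 → z ^ p = 1 → ‖z - 1‖ ^ (p - 1) = (p : ℝ)⁻¹ := by
    intro z hz1 hzp
    have h1 : (z : PadicAlgCl p) ≠ 1 := fun h => hz1 (by exact_mod_cast h)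
    have h2 : (z : PadicAlgCl p) ^ p = 1 := by exact_mod_cast congrArg (fun t : L => (t : PadicAlgCl p)) hzp
    have := norm_zeta_sub_one h1 h2
    exact this
  have h := (key ξ hξ1 hξp).trans (key ζ hζ1 hζp).symm
  have hp1 : p - 1 ≠ 0 := by have := hp.two_le; omega
  exact ((pow_left_inj₀ (norm_nonneg _) (norm_nonneg _) hp1).mp h).le

/-- Galois correspondence: an element of `L` fixed by `Gal(L/K')` lies in `K'`. -/
theorem mem_of_fixed [FiniteDimensional ℚ_[p] L] (hN : Normal ℚ_[p] L)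
    (KL : IntermediateField ℚ_[p] L) (c : L) (hc : ∀ τ ∈ KL.fixingSubgroup, τ c = c) :
    c ∈ KL := by
  haveI := hN
  haveI : IsGalois ℚ_[p] L := ⟨⟩
  have : c ∈ IntermediateField.fixedField KL.fixingSubgroup := by
    rw [IntermediateField.mem_fixedField_iff]
    exact hc
  rwa [IsGalois.fixedField_fixingSubgroup] at this

section Shift

variable {F : Type*} [Field F]

/-- Re-expansion of `∑_{j<n} c_j (y + ε)^j` in powers of `y`, with coefficients in the subfield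
`S`. -/
theorem exists_shift_expansion (S : Subfield F) (n : ℕ) (c : ℕ → F) (hc : ∀ j, c j ∈ S) {ε : F}
    (hε : ε ∈ S) (y : F) :
    ∃ c' : ℕ → F, (∀ j, c' j ∈ S) ∧
      ∑ j ∈ Finset.range n, c j * (y + ε) ^ j = ∑ j ∈ Finset.range n, c' j * y ^ j := by
  classical
  set P : (↥S)[X] := ∑ j ∈ Finset.range n, C (⟨c j, hc j⟩ : S) * X ^ j with hP
  set Q : (↥S)[X] := P.comp (X + C (⟨ε, hε⟩ : S)) with hQ
  have hPdeg : P.natDegree < n ∨ n = 0 := by
    rcases Nat.eq_zero_or_pos n with h0 | hpos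
    · exact Or.inr h0
    left
    have : P.natDegree ≤ n - 1 := by
      refine Polynomial.natDegree_sum_le_of_forall_le _ _ fun j hj => ?_
      refine (Polynomial.natDegree_C_mul_X_pow_le _ _).trans ?_
      have := Finset.mem_range.mp hj
      omega
    omega
  rcases hPdeg with hPdeg | h0
  · have hQdeg : Q.natDegree < n := by
      have h1 : Q.natDegree ≤ P.natDegree * (X + C (⟨ε, hε⟩ : S)).natDegree :=
        Polynomial.natDegree_comp_le
      have h2 : (X + C (⟨ε, hε⟩ : S)).natDegree ≤ 1 := by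
        rw [Polynomial.natDegree_X_add_C]
      calc Q.natDegree ≤ P.natDegree * (X + C (⟨ε, hε⟩ : S)).natDegree := h1
        _ ≤ P.natDegree * 1 := Nat.mul_le_mul_left _ h2
        _ = P.natDegree := mul_one _
        _ < n := hPdeg
    refine ⟨fun j => ((Q.coeff j : S) : F), fun j => (Q.coeff j).2, ?_⟩
    have e1 : Polynomial.aeval (y + ε) P = ∑ j ∈ Finset.range n, c j * (y + ε) ^ j := by
      simp only [hP, map_sum, map_mul, map_pow, Polynomial.aeval_C, Polynomial.aeval_X]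
      exact Finset.sum_congr rfl fun j _ => rfl
    have e2 : Polynomial.aeval y Q = Polynomial.aeval (y + ε) P := by
      rw [hQ, Polynomial.aeval_comp]
      simp only [map_add, Polynomial.aeval_C, Polynomial.aeval_X]
      rfl
    have e3 : Polynomial.aeval y Q = ∑ j ∈ Finset.range n, ((Q.coeff j : S) : F) * y ^ j := by
      rw [Polynomial.aeval_eq_sum_range' hQdeg]
      refine Finset.sum_congr rfl fun j _ => ?_
      rw [Algebra.smul_def]; rfl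
    rw [← e1, ← e2, e3]
  · subst h0
    exact ⟨fun _ => 0, fun _ => S.zero_mem, by simp⟩

end Shift


variable [FiniteDimensional ℚ_[p] L]

/-- **The contradiction of the descent.** -/
theorem descent_false (hNL : Normal ℚ_[p] L) (hbdd : IsBddField p L)
    (KL : IntermediateField ℚ_[p] L)
    {ζ : L} (hζK : ζ ∈ KL) (hζ1 : ζ ≠ 1) (hζp : ζ ^ p = 1)
    {π' : L} (hπ'K : π' ∈ KL) (hπ'0 : 0 < ‖π'‖) (hπ'1 : ‖π'‖ < 1)
    (hϖ : ∀ c ∈ KL, ‖c‖ < 1 → ‖c‖ ≤ ‖π'‖)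
    {α y ε : L} (hαy : α = y + ε) (hε : ε ∈ KL) (hαp : α ^ p ∈ KL) (hα0 : α ≠ 0)
    {δ : ℝ} (hδ : (p : ℝ)⁻¹ < δ)
    (hyp : InV KL.toSubfield (‖y‖ ^ p)) (hyn : ¬ InV KL.toSubfield ‖y‖)
    (hαδ : δ * ‖α‖ ^ p ≤ ‖y‖ ^ p) : False := by
  classical
  have hp : p.Prime := Fact.out
  have hp0 : p ≠ 0 := hp.ne_zero
  have hpR : (0 : ℝ) < (p : ℝ) := by exact_mod_cast hp.pos
  have hpinv : (0 : ℝ) < (p : ℝ)⁻¹ := inv_pos.mpr hpR
  have hδ0 : 0 < δ := hpinv.trans hδ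
  haveI := hNL
  haveI : IsGalois ℚ_[p] L := ⟨⟩
  haveI : NeZero p := ⟨hp0⟩
  set H : Subgroup (L ≃ₐ[ℚ_[p]] L) := KL.fixingSubgroup with hH
  have hHfix : ∀ τ ∈ H, ∀ c ∈ KL, τ c = c := fun τ hτ c hc =>
    (IntermediateField.mem_fixingSubgroup_iff KL τ).mp hτ c hc
  have hy0 : y ≠ 0 := by
    intro h
    have := hyp.pos
    rw [h, norm_zero, zero_pow hp0] at this
    exact lt_irrefl _ this
  -- some `σ₀ ∈ H` moves `α`
  have hmove : ∃ σ₀ ∈ H, σ₀ α ≠ α := by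
    by_contra hcon
    have hall : ∀ τ ∈ H, τ α = α := fun τ hτ => by_contra fun h => hcon ⟨τ, hτ, h⟩
    have hαK : α ∈ KL := mem_of_fixed hNL KL α hall
    have hyK : y ∈ KL := by
      have : y = α - ε := by rw [hαy]; ring
      rw [this]; exact KL.sub_mem hαK hε
    exact hyn ⟨y, hyK, hy0, rfl⟩
  obtain ⟨σ₀, hσ₀H, hσ₀α⟩ := hmove
  have hζprim : IsPrimitiveRoot ζ p := IsPrimitiveRoot.iff_orderOf.mpr (orderOf_eq_prime hζp hζ1)
  set ζ₀ : L := σ₀ α / α with hζ₀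
  have hζ₀p : ζ₀ ^ p = 1 := by
    rw [hζ₀, div_pow, ← map_pow, hHfix σ₀ hσ₀H _ hαp, div_self (pow_ne_zero _ hα0)]
  have hζ₀1 : ζ₀ ≠ 1 := by
    intro h
    apply hσ₀α
    rw [hζ₀, div_eq_one_iff_eq hα0] at h
    exact h
  have hζ₀K : ζ₀ ∈ KL := by
    obtain ⟨m, -, hm⟩ := hζprim.eq_pow_of_pow_eq_one hζ₀p
    rw [← hm]; exact pow_mem hζK m
  have hζ₀prim : IsPrimitiveRoot ζ₀ p :=
    IsPrimitiveRoot.iff_orderOf.mpr (orderOf_eq_prime hζ₀p hζ₀1)
  have hσ₀α' : σ₀ α = ζ₀ * α := by rw [hζ₀]; field_simp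
  have hσ₀pow : ∀ i : ℕ, (σ₀ ^ i) α = ζ₀ ^ i * α := by
    intro i
    induction i with
    | zero => simp
    | succ i ih =>
      rw [pow_succ', AlgEquiv.mul_apply, ih, map_mul, map_pow, hHfix σ₀ hσ₀H _ hζ₀K, hσ₀α']
      ring
  -- the stabiliser of `α` in `H`
  set N : Subgroup (L ≃ₐ[ℚ_[p]] L) := H ⊓ MulAction.stabilizer (L ≃ₐ[ℚ_[p]] L) α with hN
  have hNmem : ∀ τ, τ ∈ N ↔ τ ∈ H ∧ τ α = α := fun τ => by
    rw [hN, Subgroup.mem_inf, MulAction.mem_stabilizer_iff]; rfl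
  have hNH : N ≤ H := inf_le_left
  letI : Fintype H := Fintype.ofFinite _
  letI : Fintype N := Fintype.ofFinite _
  -- `p * #N ≤ #H`
  have hcard : p * Fintype.card N ≤ Fintype.card H := by
    let g : Fin p × N → H := fun x =>
      ⟨σ₀ ^ (x.1 : ℕ) * (x.2 : L ≃ₐ[ℚ_[p]] L),
        H.mul_mem (H.pow_mem hσ₀H _) (hNH x.2.2)⟩
    have hg : Function.Injective g := by
      rintro ⟨i, ν⟩ ⟨j, ν'⟩ h
      have h1 : σ₀ ^ (i : ℕ) * (ν : L ≃ₐ[ℚ_[p]] L) = σ₀ ^ (j : ℕ) * (ν' : L ≃ₐ[ℚ_[p]] L) :=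
        congrArg Subtype.val h
      have h2 := congrArg (fun τ : L ≃ₐ[ℚ_[p]] L => τ α) h1
      simp only [AlgEquiv.mul_apply] at h2
      rw [((hNmem _).mp ν.2).2, ((hNmem _).mp ν'.2).2, hσ₀pow, hσ₀pow] at h2
      have h3 : ζ₀ ^ (i : ℕ) = ζ₀ ^ (j : ℕ) := mul_right_cancel₀ hα0 h2
      have h4 : (i : ℕ) = j := hζ₀prim.pow_inj i.2 j.2 h3
      have h5 : i = j := Fin.ext h4
      subst h5
      have h6 : (ν : L ≃ₐ[ℚ_[p]] L) = ν' := mul_left_cancel h1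
      rw [Subtype.ext h6]
    have := Fintype.card_le_of_injective g hg
    simpa [Fintype.card_prod] using this
  -- the Kummer estimate
  set θ : ℝ := ‖ζ - 1‖ with hθ
  have hθ0 : 0 ≤ θ := norm_nonneg _
  have hθp : θ ^ (p - 1) = (p : ℝ)⁻¹ := by
    have h1 : (ζ : PadicAlgCl p) ≠ 1 := fun h => hζ1 (by exact_mod_cast h)
    have h2 : (ζ : PadicAlgCl p) ^ p = 1 := by
      exact_mod_cast congrArg (fun t : L => (t : PadicAlgCl p)) hζp
    exact norm_zeta_sub_one h1 h2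
  have hkum : ∀ τ ∈ H, ∀ x : L, ‖x‖ ≤ 1 → (∀ ν ∈ N, ν x = x) →
      δ * ‖τ x - x‖ ^ p ≤ θ ^ p * ‖π'‖ := by
    intro τ hτ x hx1 hxN
    have hpL : (p : L) ≠ 0 := Nat.cast_ne_zero.mpr hp0
    obtain ⟨c, hcfix, hxc⟩ := exists_resolvent_expansion H hp hpL hζ₀prim
      (fun h hh => hHfix h hh _ hζ₀K) hα0 (fun h hh => hHfix h hh _ hαp) hσ₀H hσ₀α'
      (x := x) (fun ν hν hνα => hxN ν ((hNmem ν).mpr ⟨hν, hνα⟩))
    have hcK : ∀ j, c j ∈ KL.toSubfield := fun j => mem_of_fixed hNL KL (c j) (hcfix j)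
    obtain ⟨c', hc'K, hshift⟩ := exists_shift_expansion KL.toSubfield p c hcK
      (show ε ∈ KL.toSubfield from hε) y
    have hxc' : x = ∑ j ∈ Finset.range p, c' j * y ^ j := by
      rw [← hshift, ← hαy]; exact hxc
    have hτy : ‖(τ : L →+* L) y - y‖ ≤ θ * ‖α‖ := by
      have h1 : (τ : L →+* L) y - y = (τ α / α - 1) * α := by
        have hy : y = α - ε := by rw [hαy]; ring
        have : τ y = τ α - ε := by rw [hy, map_sub, hHfix τ hτ _ hε]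
        change τ y - y = _
        rw [this, hy]
        field_simp
        ring
      rw [h1, norm_mul]
      refine mul_le_mul_of_nonneg_right ?_ (norm_nonneg _)
      refine norm_root_sub_one_le hζ1 hζp ?_
      rw [div_pow, ← map_pow, hHfix τ hτ _ hαp, div_self (pow_ne_zero _ hα0)]
    have := kummer_estimate hp KL.toSubfield (τ : L →+* L) (fun a => norm_algEquiv τ a)
      (fun c hc => hHfix τ hτ c hc) hθ0 hδ0 (fun c hc => hϖ c hc) hy0 hyp hyn hτy hαδ c' hc'K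
      (by rw [← hxc']; exact hx1)
    rw [← hxc'] at this
    exact this
  -- the bound `B`
  set Cp : ℝ := θ ^ p * ‖π'‖ / δ with hCp
  have hCp0 : 0 ≤ Cp := div_nonneg (mul_nonneg (pow_nonneg hθ0 _) hπ'0.le) hδ0.le
  have hθ1 : θ < 1 := by
    by_contra hcon
    have : 1 ≤ θ ^ (p - 1) := one_le_pow₀ (not_lt.mp hcon)
    rw [hθp] at this
    have h2 : (p : ℝ)⁻¹ < 1 := inv_lt_one_of_one_lt₀ (by exact_mod_cast hp.one_lt)
    exact absurd this (not_le.mpr h2)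
  have hθpp : θ ^ p = θ * (p : ℝ)⁻¹ := by
    rw [← hθp, ← pow_succ']
    congr 1
    have := hp.two_le
    omega
  have hCp1 : Cp < 1 := by
    rw [hCp, div_lt_one hδ0, hθpp]
    calc θ * (p : ℝ)⁻¹ * ‖π'‖ ≤ 1 * (p : ℝ)⁻¹ * 1 := by
          refine mul_le_mul (mul_le_mul_of_nonneg_right hθ1.le hpinv.le) hπ'1.le
            (norm_nonneg _) (by positivity)
      _ = (p : ℝ)⁻¹ := by ring
      _ < δ := hδ
  set B : ℝ := Cp ^ ((p : ℝ)⁻¹) with hB
  have hB0 : 0 ≤ B := Real.rpow_nonneg hCp0 _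
  have hBp : B ^ p = Cp := Real.rpow_inv_natCast_pow hCp0 hp0
  have hB1 : B ≤ 1 := by
    by_contra hcon
    have : 1 < B ^ p := one_lt_pow₀ (not_le.mp hcon) hp0
    rw [hBp] at this
    exact absurd hCp1 (not_lt.mpr this.le)
  have hdB : ∀ τ ∈ H, depthOn L N τ ≤ B := by
    intro τ hτ
    refine depthOn_le N τ fun a ha hfix => ?_
    have h1 := hkum τ hτ a ha hfix
    have h2 : ‖τ a - a‖ ^ p ≤ B ^ p := by
      rw [hBp, hCp, le_div_iff₀ hδ0, mul_comm]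
      exact h1
    exact (pow_le_pow_iff_left₀ (norm_nonneg _) hB0 hp0).mp h2
  -- Herbrand
  obtain ⟨ν₀, hν₀, hherb⟩ := herbrand_rel H N hNH σ₀
  set σ₁ : L ≃ₐ[ℚ_[p]] L := σ₀ * ν₀ with hσ₁
  set R : ℝ := ∏ τ : H, max (depth p L σ₁) (depth p L (τ : L ≃ₐ[ℚ_[p]] L)) with hR
  have hR0 : 0 ≤ R := Finset.prod_nonneg fun τ _ => (depth_nonneg L _).trans (le_max_left _ _)
  have hRle : R ≤ Cp := by
    have h1 : R ^ Fintype.card N ≤ B ^ Fintype.card H := by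
      refine hherb.trans ?_
      calc ∏ τ : H, max (depthOn L N σ₀) (depthOn L N (τ : L ≃ₐ[ℚ_[p]] L))
          ≤ ∏ _τ : H, B :=
            Finset.prod_le_prod (fun τ _ => (depthOn_nonneg _ _).trans (le_max_left _ _))
              (fun τ _ => max_le (hdB σ₀ hσ₀H) (hdB τ τ.2))
        _ = B ^ Fintype.card H := by rw [Finset.prod_const, Finset.card_univ]
    have h2 : B ^ Fintype.card H ≤ Cp ^ Fintype.card N := by
      rw [← hBp, ← pow_mul]
      exact pow_le_pow_of_le_one hB0 hB1 hcard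
    have hN0 : Fintype.card N ≠ 0 := Fintype.card_ne_zero
    exact (pow_le_pow_iff_left₀ hR0 hCp0 hN0).mp (h1.trans h2)
  have hσ₁α : σ₁ α = σ₀ α := by
    rw [hσ₁, AlgEquiv.mul_apply, ((hNmem ν₀).mp hν₀).2]
  have hσ₁ne : σ₁ ≠ 1 := by
    intro h
    apply hσ₀α
    rw [← hσ₁α, h]; rfl
  have hσ₁d : depth p L σ₁ < 1 := by
    by_contra hcon
    have hd1 : depth p L σ₁ = 1 := le_antisymm (depth_le_one L σ₁) (not_lt.mp hcon)
    have : R = 1 := by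
      rw [hR]
      refine Finset.prod_eq_one fun τ _ => ?_
      rw [hd1]
      exact max_eq_left (depth_le_one L _)
    rw [this] at hRle
    exact absurd hCp1 (not_lt.mpr hRle)
  -- the elements outside `H`
  have hout := prod_not_mem_le hNL H hσ₁d (c := π') (fun τ hτ => hHfix τ hτ _ hπ'K) hπ'1
  set Q : ℝ := ∏ τ ∈ Finset.univ.filter (fun τ : L ≃ₐ[ℚ_[p]] L => τ ∉ H),
      max (depth p L σ₁) (depth p L τ) with hQ
  have hQ0 : 0 ≤ Q := Finset.prod_nonneg fun τ _ => (depth_nonneg L _).trans (le_max_left _ _)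
  -- the total product
  have hb := hbdd σ₁ hσ₁ne
  have htot : (∏ τ : L ≃ₐ[ℚ_[p]] L, max (depth p L σ₁) (depth p L τ)) = R * Q := by
    rw [← Finset.prod_filter_mul_prod_filter_not Finset.univ (fun τ : L ≃ₐ[ℚ_[p]] L => τ ∈ H)]
    congr 1
    rw [hR]
    exact Finset.prod_subtype (Finset.univ.filter (fun τ : L ≃ₐ[ℚ_[p]] L => τ ∈ H))
      (fun τ => by simp) (fun τ => max (depth p L σ₁) (depth p L τ))
  have hTle : R * Q ≤ θ ^ p * (p : ℝ)⁻¹ / δ := by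
    calc R * Q ≤ Cp * Q := mul_le_mul_of_nonneg_right hRle hQ0
      _ = θ ^ p * (Q * ‖π'‖) / δ := by rw [hCp]; ring
      _ ≤ θ ^ p * (p : ℝ)⁻¹ / δ := by
          refine div_le_div_of_nonneg_right ?_ hδ0.le
          exact mul_le_mul_of_nonneg_left hout (pow_nonneg hθ0 _)
  have hfinal : (θ ^ p * (p : ℝ)⁻¹ / δ) ^ (p - 1) < ((p : ℝ)⁻¹) ^ p := by
    have e : (θ ^ p * (p : ℝ)⁻¹ / δ) ^ (p - 1) = ((p : ℝ)⁻¹) ^ p * ((p : ℝ)⁻¹ / δ) ^ (p - 1) := by
      have e1 : (θ ^ p) ^ (p - 1) = (θ ^ (p - 1)) ^ p := by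
        rw [← pow_mul, ← pow_mul, mul_comm]
      rw [mul_div_assoc, mul_pow, e1, hθp]
    rw [e]
    have hlt : (p : ℝ)⁻¹ / δ < 1 := (div_lt_one hδ0).mpr hδ
    have hp1 : p - 1 ≠ 0 := by have := hp.two_le; omega
    have h2 : ((p : ℝ)⁻¹ / δ) ^ (p - 1) < 1 :=
      pow_lt_one₀ (div_nonneg hpinv.le hδ0.le) hlt hp1
    calc ((p : ℝ)⁻¹) ^ p * ((p : ℝ)⁻¹ / δ) ^ (p - 1) < ((p : ℝ)⁻¹) ^ p * 1 :=
          mul_lt_mul_of_pos_left h2 (pow_pos hpinv _)
      _ = ((p : ℝ)⁻¹) ^ p := mul_one _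
  have hRQ0 : 0 ≤ R * Q := mul_nonneg hR0 hQ0
  have hchain : ((p : ℝ)⁻¹) ^ p ≤ (R * Q) ^ (p - 1) := by
    rw [← htot]
    convert hb using 2
  exact absurd (hchain.trans (pow_le_pow_left₀ hRQ0 hTle _)) (not_le.mpr hfinal)


/-- `‖a + b‖ = ‖a‖` if `‖b‖ < ‖a‖`. -/
theorem norm_add_eq_of_lt {a b : L} (h : ‖b‖ < ‖a‖) : ‖a + b‖ = ‖a‖ := by
  rw [IsUltrametricDist.norm_add_eq_max_of_norm_ne_norm (ne_of_gt h)]
  exact max_eq_left h.le

/-- **The descent step.**  If `p⁻¹ < ‖a - 1‖ ≤ 1`, then `‖a - 1‖` can be improved by a `p`-th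
power of `K'`. -/
theorem exists_improve (hNL : Normal ℚ_[p] L) (hbdd : IsBddField p L)
    (KL : IntermediateField ℚ_[p] L)
    {ζ : L} (hζK : ζ ∈ KL) (hζ1 : ζ ≠ 1) (hζp : ζ ^ p = 1)
    {π' : L} (hπ'K : π' ∈ KL) (hπ'0 : 0 < ‖π'‖) (hπ'1 : ‖π'‖ < 1)
    (hϖ : ∀ c ∈ KL, ‖c‖ < 1 → ‖c‖ ≤ ‖π'‖)
    {q : ℕ} (hq : p ∣ q) (hres : ∀ c ∈ KL, ‖c‖ ≤ 1 → ‖c ^ q - c‖ < 1)
    {a α : L} (haK : a ∈ KL) (ha0 : a ≠ 0) (hα : α ^ p = a)
    (hδ : (p : ℝ)⁻¹ < ‖a - 1‖) (hδ1 : ‖a - 1‖ ≤ 1) :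
    ∃ b ∈ KL, b ≠ 0 ∧ ‖a * b ^ p - 1‖ < ‖a - 1‖ := by
  classical
  have hp : p.Prime := Fact.out
  have hp0 : p ≠ 0 := hp.ne_zero
  have hpinv : (0 : ℝ) < (p : ℝ)⁻¹ := inv_pos.mpr (by exact_mod_cast hp.pos)
  by_contra hcon
  have hcon' : ∀ b ∈ KL, b ≠ 0 → ‖a - 1‖ ≤ ‖a * b ^ p - 1‖ := by
    intro b hb hb0
    by_contra h
    exact hcon ⟨b, hb, hb0, not_le.mp h⟩
  set δ : ℝ := ‖a - 1‖ with hδdef
  have hδ0 : 0 < δ := hpinv.trans hδ
  have hα0 : α ≠ 0 := by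
    intro h
    rw [h, zero_pow hp0] at hα
    exact ha0 hα.symm
  have ha1K : a - 1 ∈ KL := KL.sub_mem haK KL.one_mem
  have ha10 : a - 1 ≠ 0 := norm_pos_iff.mp hδ0
  -- `p`-th roots in the residue field
  obtain ⟨k, hk⟩ := hq
  have hroot : ∀ u ∈ KL, ‖u‖ = 1 → ∃ w ∈ KL, ‖w‖ = 1 ∧ ‖w ^ p - u‖ < 1 := by
    intro u hu hu1
    refine ⟨u ^ k, pow_mem hu k, by rw [norm_pow, hu1, one_pow], ?_⟩
    rw [← pow_mul, mul_comm, ← hk]
    exact hres u hu hu1.le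
  have hαpK : α ^ p ∈ KL := by rw [hα]; exact haK
  by_cases hcase : δ < 1
  · -- Case A
    have hanorm : ‖a‖ = 1 := by
      have h1 : a = 1 + (a - 1) := by ring
      rw [h1, norm_add_eq_of_lt (by rw [norm_one]; exact hcase), norm_one]
    have hαnorm : ‖α‖ = 1 := by
      have : ‖α‖ ^ p = 1 := by rw [← norm_pow, hα, hanorm]
      exact (pow_eq_one_iff_of_nonneg (norm_nonneg _) hp0).mp this
    set y : L := α - 1 with hy
    have hαy : α = y + 1 := by rw [hy]; ring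
    have hy1 : ‖y‖ ≤ 1 := by
      rw [hy, sub_eq_add_neg]
      refine (IsUltrametricDist.norm_add_le_max _ _).trans (max_le hαnorm.le ?_)
      rw [norm_neg, norm_one]
    have hbin := norm_one_add_pow_sub_le hp hy1
    rw [norm_p_L, show (1 : L) + y = α by rw [hy]; ring, hα] at hbin
    have hypow : ‖y‖ ^ p = δ := by
      have h1 : y ^ p = (a - 1) + -(a - 1 - y ^ p) := by ring
      rw [← norm_pow, h1]
      refine norm_add_eq_of_lt ?_
      rw [norm_neg]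
      calc ‖a - 1 - y ^ p‖ ≤ (p : ℝ)⁻¹ * ‖y‖ := hbin
        _ ≤ (p : ℝ)⁻¹ * 1 := mul_le_mul_of_nonneg_left hy1 hpinv.le
        _ = (p : ℝ)⁻¹ := mul_one _
        _ < ‖a - 1‖ := hδ
    refine descent_false hNL hbdd KL hζK hζ1 hζp hπ'K hπ'0 hπ'1 hϖ hαy KL.one_mem hαpK hα0 hδ
      ⟨a - 1, ha1K, ha10, hypow.symm⟩ ?_ (by rw [hαnorm, one_pow, mul_one, hypow])
    rintro ⟨c, hcK, hc0, hcn⟩
    have hcp : ‖c‖ ^ p = δ := by rw [hcn, hypow]
    have hc1 : ‖c‖ < 1 := by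
      by_contra h
      have : 1 ≤ ‖c‖ ^ p := one_le_pow₀ (not_lt.mp h)
      rw [hcp] at this
      exact absurd hcase (not_lt.mpr this)
    set u : L := -(a - 1) / c ^ p with hu
    have huK : u ∈ KL := KL.div_mem (KL.neg_mem ha1K) (pow_mem hcK p)
    have hun : ‖u‖ = 1 := by
      rw [hu, norm_div, norm_neg, norm_pow, hcp]
      exact div_self hδ0.ne'
    obtain ⟨w, hwK, hwn, hwu⟩ := hroot u huK hun
    set b : L := 1 + w * c with hb
    have hwc : ‖w * c‖ = ‖c‖ := by rw [norm_mul, hwn, one_mul]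
    have hbn : ‖b‖ = 1 := by
      rw [hb, norm_add_eq_of_lt (by rw [norm_one, hwc]; exact hc1), norm_one]
    have hb0 : b ≠ 0 := by
      intro h; rw [h, norm_zero] at hbn; exact zero_ne_one hbn
    have hbK : b ∈ KL := KL.add_mem KL.one_mem (KL.mul_mem hwK hcK)
    have hbin2 := norm_one_add_pow_sub_le hp (z := w * c) (by rw [hwc]; exact hc1.le)
    rw [norm_p_L, hwc] at hbin2
    have hexp : a * b ^ p - 1 = c ^ p * (w ^ p - u) + (a - 1) * (w * c) ^ p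
        + a * ((1 + w * c) ^ p - 1 - (w * c) ^ p) := by
      have hcp0 : c ^ p ≠ 0 := pow_ne_zero _ hc0
      rw [hb, hu]
      field_simp
      ring
    have h1 : ‖c ^ p * (w ^ p - u)‖ < δ := by
      rw [norm_mul, norm_pow, hcp]
      calc δ * ‖w ^ p - u‖ < δ * 1 := mul_lt_mul_of_pos_left hwu hδ0
        _ = δ := mul_one _
    have h2 : ‖(a - 1) * (w * c) ^ p‖ < δ := by
      rw [norm_mul, norm_pow, hwc, hcp]
      calc δ * δ < δ * 1 := mul_lt_mul_of_pos_left hcase hδ0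
        _ = δ := mul_one _
    have h3 : ‖a * ((1 + w * c) ^ p - 1 - (w * c) ^ p)‖ < δ := by
      rw [norm_mul, hanorm, one_mul]
      calc ‖(1 + w * c) ^ p - 1 - (w * c) ^ p‖ ≤ (p : ℝ)⁻¹ * ‖c‖ := hbin2
        _ ≤ (p : ℝ)⁻¹ * 1 := mul_le_mul_of_nonneg_left hc1.le hpinv.le
        _ = (p : ℝ)⁻¹ := mul_one _
        _ < δ := hδ
    have hlt : ‖a * b ^ p - 1‖ < δ := by
      rw [hexp]
      refine (IsUltrametricDist.norm_add_le_max _ _).trans_lt (max_lt ?_ h3)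
      exact (IsUltrametricDist.norm_add_le_max _ _).trans_lt (max_lt h1 h2)
    exact absurd (hcon' b hbK hb0) (not_le.mpr hlt)
  · -- Case B
    have hδeq : δ = 1 := le_antisymm hδ1 (not_lt.mp hcase)
    have hαnorm : ‖α‖ ^ p = ‖a‖ := by rw [← norm_pow, hα]
    refine descent_false hNL hbdd KL hζK hζ1 hζp hπ'K hπ'0 hπ'1 hϖ (y := α) (ε := 0)
      (by rw [add_zero]) KL.zero_mem hαpK hα0 hδ ⟨a, haK, ha0, hαnorm.symm⟩ ?_
      (by rw [hδeq, one_mul])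
    rintro ⟨c, hcK, hc0, hcn⟩
    have hcp : ‖c‖ ^ p = ‖a‖ := by rw [hcn, hαnorm]
    set u : L := a / c ^ p with hu
    have huK : u ∈ KL := KL.div_mem haK (pow_mem hcK p)
    have hun : ‖u‖ = 1 := by
      rw [hu, norm_div, norm_pow, hcp]
      exact div_self (norm_ne_zero_iff.mpr ha0)
    obtain ⟨w, hwK, hwn, hwu⟩ := hroot u huK hun
    have hw0 : w ≠ 0 := by
      intro h; rw [h, norm_zero] at hwn; exact zero_ne_one hwn
    set b : L := (c * w)⁻¹ with hb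
    have hbK : b ∈ KL := KL.inv_mem (KL.mul_mem hcK hwK)
    have hb0 : b ≠ 0 := inv_ne_zero (mul_ne_zero hc0 hw0)
    have hexp : a * b ^ p - 1 = (u - w ^ p) / w ^ p := by
      have hcp0 : c ^ p ≠ 0 := pow_ne_zero _ hc0
      have hwp0 : w ^ p ≠ 0 := pow_ne_zero _ hw0
      rw [hb, hu, inv_pow, mul_pow]
      field_simp
    have hlt : ‖a * b ^ p - 1‖ < δ := by
      rw [hexp, norm_div, norm_pow, hwn, one_pow, div_one, hδeq, ← norm_neg, neg_sub]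
      exact hwu
    exact absurd (hcon' b hbK hb0) (not_le.mpr hlt)

/-- **KUMBDD**: `Stmt_KUMBDD` of `Fermat/Agent/S56/FL/Local.lean`. -/
theorem stmt_KUMBDD : Stmt_KUMBDD := by
  intro p _ _ L K' _ _ hNL _ hKL hbdd _ hζ a haK ha0 hα
  classical
  obtain ⟨ζ, hζK, hζ1, hζp⟩ := hζ
  obtain ⟨α, hαL, hα⟩ := hα
  have hp : p.Prime := Fact.out
  have hp0 : p ≠ 0 := hp.ne_zero
  have hpinv : (0 : ℝ) < (p : ℝ)⁻¹ := inv_pos.mpr (by exact_mod_cast hp.pos)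
  set KL : IntermediateField ℚ_[p] L := IntermediateField.restrict hKL with hKLdef
  have hmem : ∀ x : L, x ∈ KL ↔ (x : PadicAlgCl p) ∈ K' := fun x =>
    IntermediateField.mem_restrict hKL x
  -- uniformizer and residue field of `K'`
  obtain ⟨π, hπ0, hπ1, hπmax⟩ := exists_uniformizer (L := K')
  obtain ⟨-, q, -, -, hq1, hpowq, -⟩ := exists_residue_generator K'
  have hpq : p ∣ q := by
    by_contra h
    rw [norm_natCast_eq_one h] at hq1
    exact lt_irrefl _ hq1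
  set π' : L := ⟨(π : PadicAlgCl p), hKL π.2⟩ with hπ'
  have hπ'K : π' ∈ KL := (hmem π').mpr π.2
  have hπ'0 : 0 < ‖π'‖ := hπ0
  have hπ'1 : ‖π'‖ < 1 := hπ1
  have hϖ : ∀ c ∈ KL, ‖c‖ < 1 → ‖c‖ ≤ ‖π'‖ := fun c hc hc1 =>
    hπmax ⟨(c : PadicAlgCl p), (hmem c).mp hc⟩ hc1
  have hres : ∀ c ∈ KL, ‖c‖ ≤ 1 → ‖c ^ q - c‖ < 1 := fun c hc hc1 =>
    hpowq ⟨(c : PadicAlgCl p), (hmem c).mp hc⟩ hc1
  obtain ⟨e, -, he⟩ := exists_ramIdx (L := K') hπ0 hπ1 hπmax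
  have he' : ‖π'‖ ^ e = (p : ℝ)⁻¹ := he
  -- the data in `L`
  set aL : L := ⟨a, hKL haK⟩ with haL
  set αL : L := ⟨α, hαL⟩ with hαLdef
  set ζL : L := ⟨ζ, hKL hζK⟩ with hζL
  have haLK : aL ∈ KL := (hmem aL).mpr haK
  have haL0 : aL ≠ 0 := fun h => ha0 (congrArg (fun t : L => (t : PadicAlgCl p)) h)
  have hαLp : αL ^ p = aL := Subtype.ext (by simpa using hα)
  have hζLK : ζL ∈ KL := (hmem ζL).mpr hζK
  have hζL1 : ζL ≠ 1 := fun h => hζ1 (congrArg (fun t : L => (t : PadicAlgCl p)) h)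
  have hζLp : ζL ^ p = 1 := Subtype.ext (by simpa using hζp)
  -- the induction
  have key : ∀ n : ℕ, ∃ b ∈ KL, b ≠ 0 ∧ ‖aL * b ^ p - 1‖ ≤ max ((p : ℝ)⁻¹) (‖π'‖ ^ n) := by
    intro n
    induction n with
    | zero =>
      rw [pow_zero]
      have hmax : max ((p : ℝ)⁻¹) 1 = 1 :=
        max_eq_right (inv_le_one_of_one_le₀ (by exact_mod_cast hp.one_lt.le))
      rw [hmax]
      by_cases h1 : ‖aL‖ ≤ 1
      · refine ⟨1, KL.one_mem, one_ne_zero, ?_⟩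
        rw [one_pow, mul_one, sub_eq_add_neg]
        refine (IsUltrametricDist.norm_add_le_max _ _).trans (max_le h1 ?_)
        rw [norm_neg, norm_one]
      · refine ⟨aL⁻¹, KL.inv_mem haLK, inv_ne_zero haL0, ?_⟩
        rw [sub_eq_add_neg]
        refine (IsUltrametricDist.norm_add_le_max _ _).trans (max_le ?_ ?_)
        · have h2 : 1 ≤ ‖aL‖ := (not_le.mp h1).le
          have h3 : aL * aL⁻¹ ^ p = (aL⁻¹) ^ (p - 1) := by
            have e1 : aL⁻¹ ^ p = aL⁻¹ ^ (p - 1) * aL⁻¹ := by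
              rw [← pow_succ]; congr 1; have := hp.two_le; omega
            rw [e1]
            field_simp
          rw [h3, norm_pow, norm_inv]
          exact pow_le_one₀ (inv_nonneg.mpr (norm_nonneg _)) (inv_le_one_of_one_le₀ h2)
        · rw [norm_neg, norm_one]
    | succ n ih =>
      obtain ⟨b, hbK, hb0, hb⟩ := ih
      by_cases hdone : ‖aL * b ^ p - 1‖ ≤ (p : ℝ)⁻¹
      · exact ⟨b, hbK, hb0, hdone.trans (le_max_left _ _)⟩
      have hδ : (p : ℝ)⁻¹ < ‖aL * b ^ p - 1‖ := not_le.mp hdone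
      have hδn : ‖aL * b ^ p - 1‖ ≤ ‖π'‖ ^ n := by
        rcases le_max_iff.mp hb with h | h
        · exact absurd h hdone
        · exact h
      have hδ1 : ‖aL * b ^ p - 1‖ ≤ 1 := hδn.trans (pow_le_one₀ hπ'0.le hπ'1.le)
      have ha1K : aL * b ^ p ∈ KL := KL.mul_mem haLK (pow_mem hbK p)
      have ha10 : aL * b ^ p ≠ 0 := mul_ne_zero haL0 (pow_ne_zero _ hb0)
      have hα1 : (αL * b) ^ p = aL * b ^ p := by rw [mul_pow, hαLp]
      obtain ⟨b', hb'K, hb'0, hlt⟩ := exists_improve hNL hbdd KL hζLK hζL1 hζLp hπ'K hπ'0 hπ'1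
        hϖ hpq hres ha1K ha10 hα1 hδ hδ1
      refine ⟨b * b', KL.mul_mem hbK hb'K, mul_ne_zero hb0 hb'0, ?_⟩
      have heq : aL * (b * b') ^ p - 1 = aL * b ^ p * b' ^ p - 1 := by ring
      rw [heq]
      refine le_trans ?_ (le_max_right _ _)
      set c : L := aL * b ^ p * b' ^ p - 1 with hc
      have hcK : c ∈ KL := KL.sub_mem (KL.mul_mem ha1K (pow_mem hb'K p)) KL.one_mem
      have hclt : ‖c‖ < ‖π'‖ ^ n := hlt.trans_le hδn
      have hπn0 : π' ^ n ≠ 0 := pow_ne_zero _ (norm_pos_iff.mp hπ'0)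
      have h1 : ‖c / π' ^ n‖ < 1 := by
        rw [norm_div, norm_pow, div_lt_one (pow_pos hπ'0 _)]
        exact hclt
      have h2 := hϖ _ (KL.div_mem hcK (pow_mem hπ'K n)) h1
      rw [norm_div, norm_pow, div_le_iff₀ (pow_pos hπ'0 _)] at h2
      rw [pow_succ']
      exact h2
  obtain ⟨b, hbK, hb0, hb⟩ := key e
  rw [he', max_self] at hb
  refine ⟨(b : PadicAlgCl p), (hmem b).mp hbK, fun h => hb0 (Subtype.ext h), ?_⟩
  exact hb

end Fermat.Agent.S56.FL.H59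

end
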