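import Mathlib
import Fermat.Agent.S56.FL.H59_KumMain

set_option autoImplicit false
set_option linter.style.haveILetI false
set_option linter.unusedSectionVars false

/-!
# LOC-p-FL, package UNITS (helper85): `KUMBDD` without normality / tameness of `K'`

This is helper59's proof of `Stmt_KUMBDD` (`FL/H59_KumMain.lean`) verbatim; the hypotheses
`Normal ℚ_p K'` and `IsTameField p K'` are not used there.
-/

noncomputable section

namespace Fermat.Agent.S56.FL.H85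

open scoped NNReal
open Fermat.Agent.S56.FL Fermat.Agent.S56.FL.H15 Fermat.Agent.S56.FL.H59 Polynomial

/-- **KUMBDD, core form** (helper59's proof of `Stmt_KUMBDD`, which uses neither the normality nor
the tameness of `K'`). -/
theorem kumbdd_core {p : ℕ} [Fact p.Prime]
    (L K' : IntermediateField ℚ_[p] (PadicAlgCl p))
    [FiniteDimensional ℚ_[p] L] [FiniteDimensional ℚ_[p] K']
    (hNL : Normal ℚ_[p] L) (hKL : K' ≤ L) (hbdd : IsBddField p L)
    (hζ : ∃ ζ ∈ K', ζ ≠ 1 ∧ ζ ^ p = 1)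
    (a : PadicAlgCl p) (haK : a ∈ K') (ha0 : a ≠ 0) (hα : ∃ α ∈ L, α ^ p = a) :
    ∃ b ∈ K', b ≠ 0 ∧ ‖a * b ^ p - 1‖ ≤ (p : ℝ)⁻¹ := by
  classical
  obtain ⟨ζ, hζK, hζ1, hζp⟩ := hζ
  obtain ⟨α, hαL, hα⟩ := hα
  have hp : p.Prime := Fact.out
  have hp0 : p ≠ 0 := hp.ne_zero
  have hpinv : (0 : ℝ) < (p : ℝ)⁻¹ := inv_pos.mpr (by exact_mod_cast hp.pos)
  set KL : IntermediateField ℚ_[p] L := IntermediateField.restrict hKL with hKLdef
  have hmem : ∀ x : L, x ∈ KL ↔ (x : PadicAlgCl p) ∈ K' := fun x =>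
    IntermediateField.mem_restrict hKL x
  -- uniformizer and residue field of `K'`
  obtain ⟨π, hπ0, hπ1, hπmax⟩ := exists_uniformizer (L := K')
  obtain ⟨-, q, -, -, hq1, hpowq, -⟩ := exists_residue_generator K'
  have hpq : p ∣ q := by
    by_contra h
    rw [norm_natCast_eq_one h] at hq1
    exact lt_irrefl _ hq1
  set π' : L := ⟨(π : PadicAlgCl p), hKL π.2⟩ with hπ'
  have hπ'K : π' ∈ KL := (hmem π').mpr π.2
  have hπ'0 : 0 < ‖π'‖ := hπ0
  have hπ'1 : ‖π'‖ < 1 := hπ1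
  have hϖ : ∀ c ∈ KL, ‖c‖ < 1 → ‖c‖ ≤ ‖π'‖ := fun c hc hc1 =>
    hπmax ⟨(c : PadicAlgCl p), (hmem c).mp hc⟩ hc1
  have hres : ∀ c ∈ KL, ‖c‖ ≤ 1 → ‖c ^ q - c‖ < 1 := fun c hc hc1 =>
    hpowq ⟨(c : PadicAlgCl p), (hmem c).mp hc⟩ hc1
  obtain ⟨e, -, he⟩ := exists_ramIdx (L := K') hπ0 hπ1 hπmax
  have he' : ‖π'‖ ^ e = (p : ℝ)⁻¹ := he
  -- the data in `L`
  set aL : L := ⟨a, hKL haK⟩ with haL
  set αL : L := ⟨α, hαL⟩ with hαLdef
  set ζL : L := ⟨ζ, hKL hζK⟩ with hζL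
  have haLK : aL ∈ KL := (hmem aL).mpr haK
  have haL0 : aL ≠ 0 := fun h => ha0 (congrArg (fun t : L => (t : PadicAlgCl p)) h)
  have hαLp : αL ^ p = aL := Subtype.ext (by simpa using hα)
  have hζLK : ζL ∈ KL := (hmem ζL).mpr hζK
  have hζL1 : ζL ≠ 1 := fun h => hζ1 (congrArg (fun t : L => (t : PadicAlgCl p)) h)
  have hζLp : ζL ^ p = 1 := Subtype.ext (by simpa using hζp)
  -- the induction
  have key : ∀ n : ℕ, ∃ b ∈ KL, b ≠ 0 ∧ ‖aL * b ^ p - 1‖ ≤ max ((p : ℝ)⁻¹) (‖π'‖ ^ n) := by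
    intro n
    induction n with
    | zero =>
      rw [pow_zero]
      have hmax : max ((p : ℝ)⁻¹) 1 = 1 :=
        max_eq_right (inv_le_one_of_one_le₀ (by exact_mod_cast hp.one_lt.le))
      rw [hmax]
      by_cases h1 : ‖aL‖ ≤ 1
      · refine ⟨1, KL.one_mem, one_ne_zero, ?_⟩
        rw [one_pow, mul_one, sub_eq_add_neg]
        refine (IsUltrametricDist.norm_add_le_max _ _).trans (max_le h1 ?_)
        rw [norm_neg, norm_one]
      · refine ⟨aL⁻¹, KL.inv_mem haLK, inv_ne_zero haL0, ?_⟩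
        rw [sub_eq_add_neg]
        refine (IsUltrametricDist.norm_add_le_max _ _).trans (max_le ?_ ?_)
        · have h2 : 1 ≤ ‖aL‖ := (not_le.mp h1).le
          have h3 : aL * aL⁻¹ ^ p = (aL⁻¹) ^ (p - 1) := by
            have e1 : aL⁻¹ ^ p = aL⁻¹ ^ (p - 1) * aL⁻¹ := by
              rw [← pow_succ]; congr 1; have := hp.two_le; omega
            rw [e1]
            field_simp
          rw [h3, norm_pow, norm_inv]
          exact pow_le_one₀ (inv_nonneg.mpr (norm_nonneg _)) (inv_le_one_of_one_le₀ h2)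
        · rw [norm_neg, norm_one]
    | succ n ih =>
      obtain ⟨b, hbK, hb0, hb⟩ := ih
      by_cases hdone : ‖aL * b ^ p - 1‖ ≤ (p : ℝ)⁻¹
      · exact ⟨b, hbK, hb0, hdone.trans (le_max_left _ _)⟩
      have hδ : (p : ℝ)⁻¹ < ‖aL * b ^ p - 1‖ := not_le.mp hdone
      have hδn : ‖aL * b ^ p - 1‖ ≤ ‖π'‖ ^ n := by
        rcases le_max_iff.mp hb with h | h
        · exact absurd h hdone
        · exact h
      have hδ1 : ‖aL * b ^ p - 1‖ ≤ 1 := hδn.trans (pow_le_one₀ hπ'0.le hπ'1.le)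
      have ha1K : aL * b ^ p ∈ KL := KL.mul_mem haLK (pow_mem hbK p)
      have ha10 : aL * b ^ p ≠ 0 := mul_ne_zero haL0 (pow_ne_zero _ hb0)
      have hα1 : (αL * b) ^ p = aL * b ^ p := by rw [mul_pow, hαLp]
      obtain ⟨b', hb'K, hb'0, hlt⟩ := exists_improve hNL hbdd KL hζLK hζL1 hζLp hπ'K hπ'0 hπ'1
        hϖ hpq hres ha1K ha10 hα1 hδ hδ1
      refine ⟨b * b', KL.mul_mem hbK hb'K, mul_ne_zero hb0 hb'0, ?_⟩
      have heq : aL * (b * b') ^ p - 1 = aL * b ^ p * b' ^ p - 1 := by ring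
      rw [heq]
      refine le_trans ?_ (le_max_right _ _)
      set c : L := aL * b ^ p * b' ^ p - 1 with hc
      have hcK : c ∈ KL := KL.sub_mem (KL.mul_mem ha1K (pow_mem hb'K p)) KL.one_mem
      have hclt : ‖c‖ < ‖π'‖ ^ n := hlt.trans_le hδn
      have hπn0 : π' ^ n ≠ 0 := pow_ne_zero _ (norm_pos_iff.mp hπ'0)
      have h1 : ‖c / π' ^ n‖ < 1 := by
        rw [norm_div, norm_pow, div_lt_one (pow_pos hπ'0 _)]
        exact hclt
      have h2 := hϖ _ (KL.div_mem hcK (pow_mem hπ'K n)) h1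
      rw [norm_div, norm_pow, div_le_iff₀ (pow_pos hπ'0 _)] at h2
      rw [pow_succ']
      exact h2
  obtain ⟨b, hbK, hb0, hb⟩ := key e
  rw [he', max_self] at hb
  refine ⟨(b : PadicAlgCl p), (hmem b).mp hbK, fun h => hb0 (Subtype.ext h), ?_⟩
  exact hb

end Fermat.Agent.S56.FL.H85

end
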