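import Fermat.Agent.S56.FL.H54_FLA
import Fermat.Agent.S56.FL.H15_Comp

/-!
# LOC-p-FL: the Fontaine side for EVERY prime `p` (including `p = 2`)

The proofs of `Stmt_PM`, `Stmt_CK`, `Stmt_FL_A` never use the hypothesis `p ≠ 2`:
* `pm_all`   : `(P_m)` for the field of points of a finite flat cocommutative Hopf algebra killed
               by `p`;
* `H15.ck_all`, `H15.isBdd_sup_all` (in `FL/H15_CK.lean`, `FL/H15_Comp.lean`);
* `fon_all`  : Fontaine's bound;
* `fl_A_all` : a finite flat `G_ℚ`-module killed by `p` is trivial on `Gal(K̄/L)`, `L/ℚ_p` finite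
               Galois of bounded ramification.
(What is genuinely odd: `Stmt_CC0`, `Stmt_SUBQ`, the counts.)
-/

set_option autoImplicit false
set_option linter.unusedSectionVars false
set_option linter.style.haveILetI false

noncomputable section

namespace Fermat.Agent.S56.FL.H50

open scoped NNReal TensorProduct
open Fermat.Agent.S56.FL Fermat.Agent.R.H54 WithConv

/-- **PM** for every prime `p`. -/
theorem pm_all (p : ℕ) [Fact p.Prime] (H : Type) [CommRing H] [HopfAlgebra (Zloc p) H]
    [Module.Finite (Zloc p) H] [Module.Flat (Zloc p) H] [Coalgebra.IsCocomm (Zloc p) H]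
    (hkill : ∀ x : WithConv (H →ₐ[Zloc p] PadicAlgCl p), x ^ p = 1) :
    HasPM p (pointField p H) := by
  haveI : Module.Free (Zloc p) H := Module.free_of_flat_of_isLocalRing
  exact pm_core hkill

/-- **FL_A** for every prime `p`: a finite flat `G_ℚ`-module killed by `p` is trivial on
`Gal(K̄/L)` for a finite Galois `L/ℚ_p` of bounded ramification. -/
theorem fl_A_all (p : ℕ) [Fact p.Prime] (M : Type) [AddCommGroup M] (act : GQ → M → M)
    (hkill : ∀ m : M, p • m = 0) (hflat : Fermat.Agent.R.IsFlatGaloisModule p M act) :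
    ∃ (L : IntermediateField ℚ_[p] (PadicAlgCl p)) (_ : FiniteDimensional ℚ_[p] L),
      Normal ℚ_[p] L ∧ IsBddField p L ∧
        ∀ σ : Gp p, σ ∈ L.fixingSubgroup → ∀ m : M, act (localGaloisToGlobal p σ) m = m := by
  obtain ⟨H, _, _, hfin, hflatH, hcoc, e, hmul, hact⟩ := H54.exists_local_model hflat
  haveI := hfin
  haveI := hflatH
  haveI := hcoc
  have hkillH : ∀ x : WithConv (H →ₐ[Zloc p] PadicAlgCl p), x ^ p = 1 :=
    H54.pow_eq_one_of_kill e hmul hkill
  haveI hfd : FiniteDimensional ℚ_[p] (pointField p (H ⊗[Zloc p] H54.MuAlg p)) :=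
    H54.finiteDimensional_pointField
  have hN : Normal ℚ_[p] (pointField p (H ⊗[Zloc p] H54.MuAlg p)) := H54.normal_pointField
  have hPM : HasPM p (pointField p (H ⊗[Zloc p] H54.MuAlg p)) :=
    pm_all p (H ⊗[Zloc p] H54.MuAlg p) (H54.prod_mu_pow_eq_one hkillH)
  obtain ⟨ζ, hζ1, hζp⟩ := H54.exists_root_ne_one (p := p)
  have hB : IsBddField p (pointField p (H ⊗[Zloc p] H54.MuAlg p)) :=
    H15.ck_all p _ hN ⟨ζ, H54.root_mem_pointField_prod_mu ζ hζp, hζ1, hζp⟩ hPM
  refine ⟨pointField p (H ⊗[Zloc p] H54.MuAlg p), hfd, hN, hB, ?_⟩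
  intro σ hσ m
  obtain ⟨x, rfl⟩ := e.surjective m
  have hσ' : σ ∈ (pointField p H).fixingSubgroup :=
    (IntermediateField.mem_fixingSubgroup_iff _ σ).mpr (fun y hy =>
      (IntermediateField.mem_fixingSubgroup_iff _ σ).mp hσ y (H54.pointField_le_prod_mu hy))
  rw [← hact, H54.pointAct_eq_of_mem_fixingSubgroup σ hσ' x]

end Fermat.Agent.S56.FL.H50

end
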