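import Fermat.Agent.S56.FL.H85_CCBase

set_option autoImplicit false

/-!
# LOC-p-FL, package UNITS (helper85): two self-contained leaves of `CC1z`

* `Stmt_NormDesc` (**NORMDESC**): norm descent from `K(ζ_p)` to `K` (`K = K̄^H`).
  Proof.  `ω(H) ⊆ 𝔽_pˣ` is cyclic: choose `σ₀ ∈ H` with `ω(H) = ⟨ω σ₀⟩`, `d = orderOf (ω σ₀)`
  (`d ∣ p - 1`).  `N = {s ∈ H | s ζ = ζ}` is normalised by `σ₀`, `σ₀ ^ d ∈ N`, every `s ∈ H` is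
  `σ₀ ^ i * n`, `n ∈ N`.  `Nm b := ∏_{j < d} σ₀ ^ j b` is fixed by `σ₀` and by `N`, hence by `H`.
  `a ^ d * Nm b ^ p = ∏_j σ₀ ^ j (a * b ^ p) ≡ 1 mod p`.  With `d * d' = 1 + p * m`:
  `b₁ = a ^ m * Nm b ^ d'`, `a * b₁ ^ p = (a ^ d * Nm b ^ p) ^ d' ≡ 1 mod p`.
* `Stmt_ResFix` (**RESFIX**): a residue class of `K = K̄^H` fixed by the Galois group is in `𝔽_p`.
  Proof.  `t = ∑_{c ∈ G/H} c.out x` is fixed by `G`, so `t ∈ ℚ_p`, `‖t‖ ≤ 1`, `‖t - j₀‖ < 1` for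
  some `j₀ : ℕ` (`PadicInt.exists_mem_range`); `‖t - n x‖ < 1` (`n = [G : H]`); `n n' ≡ 1 mod p`;
  `j = n' j₀`.
-/

noncomputable section

namespace Fermat.Agent.S56.FL.H85

open Fermat.Agent.S56.FL

/-- **NORMDESC.** -/
def Stmt_NormDesc : Prop :=
  ∀ (p : ℕ) [Fact p.Prime] (ζ : PadicAlgCl p), IsPrimitiveRoot ζ p →
    ∀ (H : Subgroup (Gp p)) (a b : PadicAlgCl p),
      (∀ s ∈ H, s a = a) → a ≠ 0 → (∀ s ∈ H, s ζ = ζ → s b = b) → b ≠ 0 →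
      ‖a * b ^ p - 1‖ ≤ (p : ℝ)⁻¹ →
      ∃ b₁ : PadicAlgCl p, b₁ ≠ 0 ∧ (∀ s ∈ H, s b₁ = b₁) ∧ ‖a * b₁ ^ p - 1‖ ≤ (p : ℝ)⁻¹

/-- **RESFIX.** -/
def Stmt_ResFix : Prop :=
  ∀ (p : ℕ) [Fact p.Prime] (H : Subgroup (Gp p)) [Finite (Gp p ⧸ H)],
    ¬ p ∣ Nat.card (Gp p ⧸ H) →
    ∀ x : PadicAlgCl p, ‖x‖ ≤ 1 → (∀ s ∈ H, s x = x) → (∀ g : Gp p, ‖g x - x‖ < 1) →
      ∃ j : ℕ, ‖x - (j : PadicAlgCl p)‖ < 1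

end Fermat.Agent.S56.FL.H85

end
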