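import Fermat.Agent.S56.FL.H85_CCBase
import Fermat.Agent.S56.FL.H85_CCKumCore
import Fermat.Agent.S56.FL.H85_CC1Leaves
import Fermat.Agent.Lib.LocalKummer.QpUnits

set_option autoImplicit false
set_option linter.unusedSectionVars false
set_option linter.style.haveILetI false

/-!
# LOC-p-FL, package UNITS (helper85): the Kummer relation over an unramified field

`H ≤ Gal(K̄/ℚ_p)` (think of `H = Gal(K̄/K)`, `K` unramified), `f : H → 𝔽_p` an `ω`-twisted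
cocycle.  `KumRel ζ H f u` : `u ∈ 𝒪_K` and `1 + p u` is a Kummer class of `f`, i.e.
`α ^ p = 1 + p u`, `s α = ζ ^ (f s) α` for `s ∈ H`.

* `KumRel.add`, `KumRel.cob`, `KumRel.conj`, `KumRel.congr` : formal properties.
* `KumRel.unique` : `u` is unique modulo the maximal ideal (`K` unramified).
* `KumRel.ker`    : `u ≡ 0` ⟹ `f` vanishes on `H ∩ ker ω`.
* `exists_kumRel` : existence for bounded cocycles (Hilbert 90, `KUMBDD`, norm descent).
-/

noncomputable section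

namespace Fermat.Agent.S56.FL.H85

open scoped NNReal
open Fermat.Agent.S56.FL Fermat.Agent.Lib.LocalKummer

variable {p : ℕ} [Fact p.Prime]

/-- `1 + p u` is a Kummer class of `f` over the fixed field of `H`. -/
def KumRel (ζ : PadicAlgCl p) (H : Subgroup (Gp p)) (f : Gp p → ZMod p) (u : PadicAlgCl p) :
    Prop :=
  (∀ s ∈ H, s u = u) ∧ ‖u‖ ≤ 1 ∧
    ∃ α : PadicAlgCl p, α ^ p = 1 + (p : PadicAlgCl p) * u ∧
      ∀ s ∈ H, s α = zpowZ ζ (f s) * α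

variable {ζ : PadicAlgCl p} {H : Subgroup (Gp p)} {f f' : Gp p → ZMod p} {u u' : PadicAlgCl p}

theorem norm_p_Ω : ‖(p : PadicAlgCl p)‖ = (p : ℝ)⁻¹ := H38.norm_p_algCl'

theorem pinv_pos : (0 : ℝ) < (p : ℝ)⁻¹ :=
  inv_pos.mpr (by exact_mod_cast (Fact.out : p.Prime).pos)

theorem pinv_lt_one : (p : ℝ)⁻¹ < 1 :=
  inv_lt_one_of_one_lt₀ (by exact_mod_cast (Fact.out : p.Prime).one_lt)

theorem KumRel.congr (h : KumRel ζ H f u) (hf : ∀ s ∈ H, f s = f' s) : KumRel ζ H f' u := by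
  obtain ⟨h1, h2, α, h3, h4⟩ := h
  exact ⟨h1, h2, α, h3, fun s hs => by rw [← hf s hs]; exact h4 s hs⟩

theorem KumRel.add (hζ : ζ ^ p = 1) (h : KumRel ζ H f u) (h' : KumRel ζ H f' u') :
    KumRel ζ H (fun s => f s + f' s) (u + u' + (p : PadicAlgCl p) * u * u') := by
  obtain ⟨h1, h2, α, h3, h4⟩ := h
  obtain ⟨h1', h2', α', h3', h4'⟩ := h'
  refine ⟨fun s hs => ?_, ?_, α * α', ?_, fun s hs => ?_⟩
  · rw [map_add, map_add, map_mul, map_mul, map_natCast, h1 s hs, h1' s hs]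
  · refine (IsUltrametricDist.norm_add_le_max _ _).trans (max_le
      ((IsUltrametricDist.norm_add_le_max _ _).trans (max_le h2 h2')) ?_)
    rw [norm_mul, norm_mul, norm_p_Ω]
    calc (p : ℝ)⁻¹ * ‖u‖ * ‖u'‖ ≤ 1 * 1 * 1 :=
          mul_le_mul (mul_le_mul pinv_lt_one.le h2 (norm_nonneg _) zero_le_one) h2'
            (norm_nonneg _) (by norm_num)
      _ = 1 := by norm_num
  · rw [mul_pow, h3, h3']; ring
  · rw [map_mul, h4 s hs, h4' s hs, zpowZ_add hζ]; ring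

theorem KumRel.cob (hζ : IsPrimitiveRoot ζ p) (H : Subgroup (Gp p)) (m : ZMod p) :
    KumRel ζ H (fun s => (((omg hζ s : (ZMod p)ˣ) : ZMod p) - 1) * m) 0 := by
  refine ⟨fun s _ => map_zero _, by simp, zpowZ ζ m, ?_, fun s _ => ?_⟩
  · rw [zpowZ_pow ζ hζ.pow_eq_one, mul_zero, add_zero]
  · rw [omg_zpowZ hζ, ← zpowZ_add hζ.pow_eq_one]
    congr 1
    ring

theorem KumRel.conj (hζ : IsPrimitiveRoot ζ p) (hH : H.Normal) (h : KumRel ζ H f u) (g : Gp p) :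
    KumRel ζ H (fun s => ((omg hζ g : (ZMod p)ˣ) : ZMod p) * f (g⁻¹ * s * g)) (g u) := by
  obtain ⟨h1, h2, α, h3, h4⟩ := h
  have hconj : ∀ s ∈ H, g⁻¹ * s * g ∈ H := fun s hs => by
    have := hH.conj_mem s hs g⁻¹
    rwa [inv_inv] at this
  have hsg : ∀ (s : Gp p) (x : PadicAlgCl p), s (g x) = g ((g⁻¹ * s * g) x) := by
    intro s x
    have : g * (g⁻¹ * s * g) = s * g := by group
    rw [← AlgEquiv.mul_apply, ← AlgEquiv.mul_apply, this]
  refine ⟨fun s hs => ?_, by rw [norm_gal]; exact h2, g α, ?_, fun s hs => ?_⟩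
  · rw [hsg, h1 _ (hconj s hs)]
  · rw [← map_pow, h3, map_add, map_one, map_mul, map_natCast]
  · rw [hsg, h4 _ (hconj s hs), map_mul, omg_zpowZ hζ]

/-- Auxiliary: `‖(1 + x) ^ p - 1‖ ≤ (p⁻¹)²` if `‖x‖ ≤ p⁻¹`. -/
theorem norm_one_add_pow_sub_one_le {x : PadicAlgCl p} (hx : ‖x‖ ≤ (p : ℝ)⁻¹) :
    ‖(1 + x) ^ p - 1‖ ≤ ((p : ℝ)⁻¹) ^ 2 := by
  have hp : p.Prime := Fact.out
  have hx1 : ‖x‖ ≤ 1 := hx.trans pinv_lt_one.le
  have h1 := H59.norm_one_add_pow_sub_le hp hx1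
  rw [norm_p_Ω] at h1
  have h2 : (1 + x) ^ p - 1 = ((1 + x) ^ p - 1 - x ^ p) + x ^ p := by ring
  rw [h2]
  refine (IsUltrametricDist.norm_add_le_max _ _).trans (max_le ?_ ?_)
  · refine h1.trans ?_
    rw [sq]
    exact mul_le_mul_of_nonneg_left hx pinv_pos.le
  · rw [norm_pow]
    calc ‖x‖ ^ p ≤ ((p : ℝ)⁻¹) ^ p := pow_le_pow_left₀ (norm_nonneg _) hx _
      _ ≤ ((p : ℝ)⁻¹) ^ 2 := pow_le_pow_of_le_one pinv_pos.le pinv_lt_one.le hp.two_le

theorem norm_one_add_p_mul (hu : ‖u‖ ≤ 1) : ‖1 + (p : PadicAlgCl p) * u‖ = 1 := by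
  have h1 : ‖(p : PadicAlgCl p) * u‖ < ‖(1 : PadicAlgCl p)‖ := by
    rw [norm_mul, norm_p_Ω, norm_one]
    calc (p : ℝ)⁻¹ * ‖u‖ ≤ (p : ℝ)⁻¹ * 1 := mul_le_mul_of_nonneg_left hu pinv_pos.le
      _ < 1 := by rw [mul_one]; exact pinv_lt_one
  rw [IsUltrametricDist.norm_add_eq_max_of_norm_ne_norm (ne_of_gt h1), norm_one]
  exact max_eq_left (by rw [← norm_one (α := PadicAlgCl p)]; exact h1.le)

theorem KumRel.unique (hζ : ζ ^ p = 1) (hI : inertiaP p ≤ H) (h : KumRel ζ H f u)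
    (h' : KumRel ζ H f u') : ‖u - u'‖ < 1 := by
  have hp : p.Prime := Fact.out
  obtain ⟨h1, h2, α, h3, h4⟩ := h
  obtain ⟨h1', h2', α', h3', h4'⟩ := h'
  have hA : ‖1 + (p : PadicAlgCl p) * u‖ = 1 := norm_one_add_p_mul h2
  have hA' : ‖1 + (p : PadicAlgCl p) * u'‖ = 1 := norm_one_add_p_mul h2'
  have hA'0 : 1 + (p : PadicAlgCl p) * u' ≠ 0 := by
    intro h0; rw [h0, norm_zero] at hA'; exact zero_ne_one hA'
  have hα'0 : α' ≠ 0 := by
    intro h0; rw [h0, zero_pow hp.ne_zero] at h3'; exact hA'0 h3'.symm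
  set b : PadicAlgCl p := α / α' with hb
  have hbfix : ∀ s ∈ H, s b = b := by
    intro s hs
    rw [hb, map_div₀, h4 s hs, h4' s hs]
    exact mul_div_mul_left _ _ (zpowZ_ne_zero hζ _)
  have hbp : b ^ p - 1 = (p : PadicAlgCl p) * (u - u') / (1 + (p : PadicAlgCl p) * u') := by
    rw [hb, div_pow, h3, h3']
    field_simp
    ring
  have hbpn : ‖b ^ p - 1‖ = (p : ℝ)⁻¹ * ‖u - u'‖ := by
    rw [hbp, norm_div, norm_mul, norm_p_Ω, hA', div_one]
  have huu : ‖u - u'‖ ≤ 1 := by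
    rw [sub_eq_add_neg]
    exact (IsUltrametricDist.norm_add_le_max _ _).trans (max_le h2 (by rw [norm_neg]; exact h2'))
  have hbn : ‖b‖ = 1 := by
    have : ‖b‖ ^ p = 1 := by
      rw [← norm_pow, hb, div_pow, h3, h3', norm_div, hA, hA', div_one]
    exact (pow_eq_one_iff_of_nonneg (norm_nonneg _) hp.ne_zero).mp this
  set x : PadicAlgCl p := b - 1 with hx
  have hb1 : b = 1 + x := by rw [hx]; ring
  have hx1 : ‖x‖ ≤ 1 := by
    rw [hx, sub_eq_add_neg]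
    exact (IsUltrametricDist.norm_add_le_max _ _).trans
      (max_le hbn.le (by rw [norm_neg, norm_one]))
  have hxlt : ‖x‖ < 1 := by
    have h5 := H59.norm_one_add_pow_sub_le hp hx1
    rw [norm_p_Ω, ← hb1] at h5
    have h6 : x ^ p = (b ^ p - 1) - (b ^ p - 1 - x ^ p) := by ring
    have h7 : ‖x ^ p‖ ≤ (p : ℝ)⁻¹ := by
      rw [h6, sub_eq_add_neg]
      refine (IsUltrametricDist.norm_add_le_max _ _).trans (max_le ?_ ?_)
      · rw [hbpn]
        calc (p : ℝ)⁻¹ * ‖u - u'‖ ≤ (p : ℝ)⁻¹ * 1 := mul_le_mul_of_nonneg_left huu pinv_pos.le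
          _ = (p : ℝ)⁻¹ := mul_one _
      · rw [norm_neg]
        refine h5.trans ?_
        calc (p : ℝ)⁻¹ * ‖x‖ ≤ (p : ℝ)⁻¹ * 1 := mul_le_mul_of_nonneg_left hx1 pinv_pos.le
          _ = (p : ℝ)⁻¹ := mul_one _
    rw [norm_pow] at h7
    by_contra hcon
    have h8 : (1 : ℝ) ≤ ‖x‖ ^ p := one_le_pow₀ (not_lt.mp hcon)
    exact absurd (h8.trans h7) (not_le.mpr pinv_lt_one)
  have hxfix : ∀ σ ∈ inertiaP p, σ x = x := fun σ hσ => by
    rw [hx, map_sub, map_one, hbfix σ (hI hσ)]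
  have hxle : ‖x‖ ≤ (p : ℝ)⁻¹ := H38.norm_le_inv_of_fixed hxfix hxlt
  have h9 := norm_one_add_pow_sub_one_le hxle
  rw [← hb1, hbpn, sq] at h9
  have h10 : ‖u - u'‖ ≤ (p : ℝ)⁻¹ := le_of_mul_le_mul_left h9 pinv_pos
  exact h10.trans_lt pinv_lt_one

theorem KumRel.ker (hp2 : p ≠ 2) (hζ : IsPrimitiveRoot ζ p) (hI : inertiaP p ≤ H)
    (h : KumRel ζ H f u) (hu : ‖u‖ < 1) : ∀ s ∈ H, s ζ = ζ → f s = 0 := by
  have hp : p.Prime := Fact.out
  obtain ⟨h1, h2, α, h3, h4⟩ := h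
  have hule : ‖u‖ ≤ (p : ℝ)⁻¹ :=
    H38.norm_le_inv_of_fixed (fun σ hσ => h1 σ (hI hσ)) hu
  have hy : ‖(1 + (p : PadicAlgCl p) * u) - 1‖ < ‖1 - ζ‖ ^ p := by
    refine lt_of_le_of_lt ?_ (lt_norm_one_sub_zeta_pow p hp2 hζ)
    rw [add_sub_cancel_left, norm_mul, norm_p_Ω, sq]
    exact mul_le_mul_of_nonneg_left hule pinv_pos.le
  obtain ⟨b, hbp, hb1⟩ := exists_root_near_one hp hζ hy
  have hA : ‖1 + (p : PadicAlgCl p) * u‖ = 1 := norm_one_add_p_mul h2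
  have hb0 : b ≠ 0 := by
    intro h0
    rw [h0, zero_pow hp.ne_zero] at hbp
    rw [← hbp, norm_zero] at hA
    exact zero_ne_one hA
  have hα0 : α ≠ 0 := by
    intro h0
    rw [h0, zero_pow hp.ne_zero] at h3
    rw [← h3, norm_zero] at hA
    exact zero_ne_one hA
  have hbfix : ∀ s ∈ H, s b = b := by
    intro s hs
    refine root_near_one_fixed hp hζ (s : PadicAlgCl p ≃ₐ[ℚ_[p]] PadicAlgCl p).toRingEquiv.toRingHom
      (fun x => norm_gal p s x) hbp ?_ hb1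
    show s (1 + (p : PadicAlgCl p) * u) = 1 + (p : PadicAlgCl p) * u
    rw [map_add, map_one, map_mul, map_natCast, h1 s hs]
  have hquot : (α / b) ^ p = 1 := by
    rw [div_pow, h3, hbp]
    exact div_self (by rw [← hbp]; exact pow_ne_zero _ hb0)
  obtain ⟨m, hm⟩ := exists_zpowZ_eq hζ hquot
  have hαb : α = zpowZ ζ m * b := by
    rw [hm]; field_simp
  intro s hs hsζ
  have h5 : s α = α := by
    have : s (zpowZ ζ m) = zpowZ ζ m := by
      unfold zpowZ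
      rw [map_pow, hsζ]
    rw [hαb, map_mul, this, hbfix s hs]
  have h6 := h4 s hs
  rw [h5] at h6
  have h7 : zpowZ ζ (f s) = 1 := by
    have : zpowZ ζ (f s) * α = 1 * α := by rw [one_mul]; exact h6.symm
    exact mul_right_cancel₀ hα0 this
  exact (zpowZ_eq_one_iff hζ _).mp h7

/-- Twisted Hilbert 90 (Kummer theory) for `ω`-twisted cocycles on `H`. -/
theorem exists_resolvent_tw (hζ : IsPrimitiveRoot ζ p)
    (L : IntermediateField ℚ_[p] (PadicAlgCl p)) [FiniteDimensional ℚ_[p] L]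
    (f : Gp p → ZMod p)
    (hf : ∀ s ∈ H, ∀ t ∈ H, f (s * t) = f s + ((omg hζ s : (ZMod p)ˣ) : ZMod p) * f t)
    (hfL : ∀ s ∈ L.fixingSubgroup, f s = 0) :
    ∃ γ : PadicAlgCl p, γ ≠ 0 ∧ ∀ s ∈ H, s γ = zpowZ ζ (f s) * γ := by
  have h1 : L.fixingSubgroup.index ≠ 0 := by
    rw [← IntermediateField.finrank_eq_fixingSubgroup_index]
    exact Module.finrank_pos.ne'
  haveI : L.fixingSubgroup.FiniteIndex := ⟨h1⟩
  haveI : ((L.fixingSubgroup).subgroupOf H).FiniteIndex := inferInstance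
  haveI : Finite (H ⧸ (L.fixingSubgroup).subgroupOf H) :=
    Subgroup.finite_quotient_of_finiteIndex
  have hz : ∀ g h : H, zpowZ ζ (f ((g * h : H) : Gp p))
      = zpowZ ζ (f (g : Gp p)) * g • zpowZ ζ (f (h : Gp p)) := by
    intro g h
    show zpowZ ζ (f ((g : Gp p) * (h : Gp p))) = zpowZ ζ (f g) * (g : Gp p) (zpowZ ζ (f h))
    rw [hf _ g.2 _ h.2, zpowZ_add hζ.pow_eq_one, omg_zpowZ hζ]
  have hU : ∀ u ∈ (L.fixingSubgroup).subgroupOf H, zpowZ ζ (f (u : Gp p)) = 1 := by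
    intro u hu
    rw [hfL _ (Subgroup.mem_subgroupOf.mp hu), zpowZ_zero]
  let ι : L →* PadicAlgCl p := ((algebraMap L (PadicAlgCl p) : L →+* PadicAlgCl p) : L →* PadicAlgCl p)
  have hstab : ∀ g : H, (∀ x : L, g • ι x = ι x) → g ∈ (L.fixingSubgroup).subgroupOf H := by
    intro g hg
    rw [Subgroup.mem_subgroupOf, IntermediateField.mem_fixingSubgroup_iff]
    intro x hx
    exact hg ⟨x, hx⟩
  have hstab' : ∀ u ∈ (L.fixingSubgroup).subgroupOf H, ∀ x : L, u • ι x = ι x := by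
    intro u hu x
    rw [Subgroup.mem_subgroupOf, IntermediateField.mem_fixingSubgroup_iff] at hu
    exact hu x x.2
  obtain ⟨γ, hγ0, hγ⟩ := exists_hilbert90 (G := H) (Ω := PadicAlgCl p) (F := L)
    (fun s => zpowZ ζ (f (s : Gp p))) hz (fun s => zpowZ_ne_zero hζ.pow_eq_one _)
    ((L.fixingSubgroup).subgroupOf H) hU ι hstab hstab'
  exact ⟨γ, hγ0, fun s hs => hγ ⟨s, hs⟩⟩

/-- **Existence of Kummer classes `≡ 1 mod p`** for bounded twisted cocycles. -/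
theorem exists_kumRel (hND : Stmt_NormDesc) (hζ : IsPrimitiveRoot ζ p)
    (L : IntermediateField ℚ_[p] (PadicAlgCl p)) [FiniteDimensional ℚ_[p] L]
    (hNL : Normal ℚ_[p] L) (hbdd : IsBddField p L) (hζL : ζ ∈ L)
    (hLH : L.fixingSubgroup ≤ H) (f : Gp p → ZMod p)
    (hf : ∀ s ∈ H, ∀ t ∈ H, f (s * t) = f s + ((omg hζ s : (ZMod p)ˣ) : ZMod p) * f t)
    (hfL : ∀ s ∈ L.fixingSubgroup, f s = 0) :
    ∃ u : PadicAlgCl p, KumRel ζ H f u := by
  have hp : p.Prime := Fact.out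
  obtain ⟨γ, hγ0, hγ⟩ := exists_resolvent_tw hζ L f hf hfL
  have hγL : γ ∈ L := by
    refine mem_of_fixed_of_le (le_refl _) fun s hs => ?_
    rw [hγ s (hLH hs), hfL s hs, zpowZ_zero, one_mul]
  obtain ⟨a, ha⟩ : ∃ a : PadicAlgCl p, a = γ ^ p := ⟨_, rfl⟩
  have ha0 : a ≠ 0 := by rw [ha]; exact pow_ne_zero _ hγ0
  have hafix : ∀ s ∈ H, s a = a := by
    intro s hs
    rw [ha, map_pow, hγ s hs, mul_pow, zpowZ_pow ζ hζ.pow_eq_one, one_mul]
  -- the field `K' = K(ζ)`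
  set N : Subgroup (Gp p) := H ⊓ (omg hζ).ker with hN
  have hLN : L.fixingSubgroup ≤ N := by
    intro s hs
    exact ⟨hLH hs, MonoidHom.mem_ker.mpr ((omg_eq_one_iff hζ s).mpr
      ((IntermediateField.mem_fixingSubgroup_iff L s).mp hs ζ hζL))⟩
  set K' : IntermediateField ℚ_[p] (PadicAlgCl p) := IntermediateField.fixedField N with hK'
  have hK'L : K' ≤ L := by
    intro x hx
    rw [hK', IntermediateField.mem_fixedField_iff] at hx
    exact mem_of_fixed_of_le hLN hx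
  haveI : FiniteDimensional ℚ_[p] K' :=
    FiniteDimensional.of_injective (IntermediateField.inclusion hK'L).toLinearMap
      (IntermediateField.inclusion hK'L).injective
  have hζK' : ζ ∈ K' := by
    rw [hK', IntermediateField.mem_fixedField_iff]
    intro s hs
    exact (omg_eq_one_iff hζ s).mp (MonoidHom.mem_ker.mp hs.2)
  have haK' : a ∈ K' := by
    rw [hK', IntermediateField.mem_fixedField_iff]
    intro s hs
    exact hafix s hs.1
  obtain ⟨b, hbK', hb0, hb⟩ := kumbdd_core L K' hNL hK'L hbdd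
    ⟨ζ, hζK', hζ.ne_one hp.one_lt, hζ.pow_eq_one⟩ a haK' ha0 ⟨γ, hγL, ha.symm⟩
  have hbfix : ∀ s ∈ H, s ζ = ζ → s b = b := by
    intro s hs hsζ
    rw [hK', IntermediateField.mem_fixedField_iff] at hbK'
    exact hbK' s ⟨hs, MonoidHom.mem_ker.mpr ((omg_eq_one_iff hζ s).mpr hsζ)⟩
  obtain ⟨b₁, hb₁0, hb₁fix, hb₁⟩ := hND p ζ hζ H a b hafix ha0 hbfix hb0 hb
  have hpΩ : (p : PadicAlgCl p) ≠ 0 := by
    intro h0
    have := norm_p_Ω (p := p)
    rw [h0, norm_zero] at this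
    exact absurd this (ne_of_lt pinv_pos)
  refine ⟨(a * b₁ ^ p - 1) / (p : PadicAlgCl p), fun s hs => ?_, ?_, γ * b₁, ?_, fun s hs => ?_⟩
  · rw [map_div₀, map_sub, map_mul, map_pow, map_one, map_natCast, hafix s hs, hb₁fix s hs]
  · rw [norm_div, norm_p_Ω, div_le_one pinv_pos]
    exact hb₁
  · rw [mul_pow, ← ha]
    field_simp
    ring
  · rw [map_mul, hγ s hs, hb₁fix s hs, mul_assoc]

end Fermat.Agent.S56.FL.H85

end
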