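import Fermat.Agent.S56.FL.H38_InertiaOnto
import Fermat.Agent.S56.FL.H85_CC1Leaves

set_option autoImplicit false

/-!
# LOC-p-FL, CC1z leaves NORMDESC, RESFIX (helper38)

* `stmt_ResFix`   : a residue class of `K = K̄^H` (`[G : H]` prime to `p`) fixed by the Galois group
                    is in `𝔽_p`.
* `stmt_NormDesc` : norm descent from `K(ζ_p)` to `K`.
-/

noncomputable section

namespace Fermat.Agent.S56.FL.H38

open scoped NNReal
open Fermat.Agent.S56.FL Polynomial Module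

variable {p : ℕ} [Fact p.Prime]

/-- An element of `K̄` fixed by `Gal(K̄/ℚ_p)` is in `ℚ_p`. -/
theorem exists_rat_of_fixed {t : PadicAlgCl p} (h : ∀ σ : Gp p, σ t = t) :
    ∃ c : ℚ_[p], algebraMap ℚ_[p] (PadicAlgCl p) c = t := by
  have h1 : t ∈ (⊥ : IntermediateField ℚ_[p] (PadicAlgCl p)) :=
    mem_of_fixed_by_fixingSubgroup (L := ⊥) (fun σ _ => h σ)
  exact IntermediateField.mem_bot.mp h1

/-- A finite product of elements `≡ 1` modulo `r` is `≡ 1` modulo `r`. -/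
theorem norm_prod_sub_one_le {ι : Type*} (s : Finset ι) (f : ι → PadicAlgCl p) {r : ℝ}
    (hr0 : 0 ≤ r) (hr : r ≤ 1) (h : ∀ i ∈ s, ‖f i - 1‖ ≤ r) : ‖∏ i ∈ s, f i - 1‖ ≤ r := by
  classical
  induction s using Finset.induction_on with
  | empty => simpa using hr0
  | insert a s ha ih =>
    rw [Finset.prod_insert ha]
    have h1 : ‖∏ i ∈ s, f i - 1‖ ≤ r := ih fun i hi => h i (Finset.mem_insert_of_mem hi)
    have h2 : ‖∏ i ∈ s, f i‖ ≤ 1 := by
      have h3 : ∏ i ∈ s, f i = (∏ i ∈ s, f i - 1) + 1 := by ring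
      rw [h3]
      exact (IsUltrametricDist.norm_add_le_max _ _).trans
        (max_le (h1.trans hr) (by rw [norm_one]))
    have h4 : f a * ∏ i ∈ s, f i - 1 = (f a - 1) * ∏ i ∈ s, f i + (∏ i ∈ s, f i - 1) := by ring
    rw [h4]
    refine (IsUltrametricDist.norm_add_le_max _ _).trans (max_le ?_ h1)
    rw [norm_mul]
    calc ‖f a - 1‖ * ‖∏ i ∈ s, f i‖ ≤ r * 1 :=
          mul_le_mul (h a (Finset.mem_insert_self a s)) h2 (norm_nonneg _) hr0
      _ = r := mul_one _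

/-- **RESFIX**: `H85.Stmt_ResFix`. -/
theorem stmt_ResFix : H85.Stmt_ResFix := by
  intro p _ H _ hpn x hx hH hG
  classical
  have hp : p.Prime := Fact.out
  let _ : Fintype (Gp p ⧸ H) := Fintype.ofFinite _
  set n : ℕ := Nat.card (Gp p ⧸ H) with hn
  set F : Gp p ⧸ H → PadicAlgCl p := fun c => (Quotient.out c : Gp p) x with hFdef
  have hF : ∀ g : Gp p, F (QuotientGroup.mk g) = g x := by
    intro g
    obtain ⟨h, hh⟩ := QuotientGroup.mk_out_eq_mul H g
    have h1 : F (QuotientGroup.mk g) = ((QuotientGroup.mk g : Gp p ⧸ H).out) x := rfl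
    rw [h1, hh, AlgEquiv.mul_apply, hH h h.2]
  set t : PadicAlgCl p := ∑ c, F c with ht
  have ht_fix : ∀ g : Gp p, g t = t := by
    intro g
    rw [ht, map_sum]
    have key : ∀ c : Gp p ⧸ H, g (F c) = F (g • c) := by
      intro c
      induction c using QuotientGroup.induction_on with
      | H σ =>
        have h2 : g • (QuotientGroup.mk σ : Gp p ⧸ H) = QuotientGroup.mk (g * σ) := rfl
        rw [hF, h2, hF, AlgEquiv.mul_apply]
    rw [Finset.sum_congr rfl (fun c _ => key c)]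
    exact Fintype.sum_equiv (MulAction.toPerm g) _ _ (fun c => rfl)
  obtain ⟨c, hc⟩ := exists_rat_of_fixed ht_fix
  have hF1 : ∀ c, ‖F c‖ ≤ 1 := by
    intro c
    rw [hFdef]
    simp only [norm_gal]
    exact hx
  have ht1 : ‖t‖ ≤ 1 :=
    IsUltrametricDist.norm_sum_le_of_forall_le_of_nonneg zero_le_one (fun c _ => hF1 c)
  have hc1 : ‖c‖ ≤ 1 := by
    rw [← PadicAlgCl.norm_extends, hc]
    exact ht1
  set z : ℤ_[p] := ⟨c, hc1⟩ with hz
  obtain ⟨j₀, -, hj₀⟩ := PadicInt.exists_mem_range (x := z)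
  have hcj : ‖c - (j₀ : ℚ_[p])‖ < 1 := by
    have h1 := (PadicInt.mem_nonunits).mp ((IsLocalRing.mem_maximalIdeal _).mp hj₀)
    have h2 : ‖z - (j₀ : ℤ_[p])‖ = ‖c - (j₀ : ℚ_[p])‖ := by
      rw [PadicInt.norm_def]
      push_cast
      rfl
    rwa [h2] at h1
  have htj : ‖t - (j₀ : PadicAlgCl p)‖ < 1 := by
    have h1 : t - (j₀ : PadicAlgCl p) = algebraMap ℚ_[p] (PadicAlgCl p) (c - (j₀ : ℚ_[p])) := by
      rw [map_sub, hc, map_natCast]
    rw [h1, PadicAlgCl.norm_extends]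
    exact hcj
  have htn : ‖t - (n : PadicAlgCl p) * x‖ < 1 := by
    have h1 : t - (n : PadicAlgCl p) * x = ∑ c : Gp p ⧸ H, (F c - x) := by
      rw [Finset.sum_sub_distrib, Finset.sum_const, Finset.card_univ, nsmul_eq_mul, hn,
        Nat.card_eq_fintype_card]
    rw [h1]
    obtain ⟨i, -, hi⟩ := IsUltrametricDist.exists_norm_finsetSum_le_of_nonempty
      (Finset.univ_nonempty (α := Gp p ⧸ H)) (fun c => F c - x)
    exact lt_of_le_of_lt hi (hG _)
  have hcop : Nat.Coprime n p := by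
    rw [Nat.coprime_comm]
    exact (Nat.Prime.coprime_iff_not_dvd hp).mpr hpn
  obtain ⟨n', -, hn'⟩ := Nat.exists_mul_mod_eq_one_of_coprime hcop hp.one_lt
  have hnn : ‖((n * n' : ℕ) : PadicAlgCl p) - 1‖ < 1 := by
    have h1 : 1 ≤ n * n' := by
      rcases Nat.eq_zero_or_pos (n * n') with h | h
      · rw [h] at hn'
        simp at hn'
      · exact h
    have h2 : ((n * n' : ℕ) : PadicAlgCl p) - 1 = ((n * n' - 1 : ℕ) : PadicAlgCl p) := by
      rw [Nat.cast_sub h1, Nat.cast_one]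
    rw [h2, norm_natCast_algCl_lt_one]
    exact (Nat.modEq_iff_dvd' h1).mp (by
      rw [Nat.ModEq, hn', Nat.mod_eq_of_lt hp.one_lt])
  refine ⟨n' * j₀, ?_⟩
  have h3 : x - ((n' * j₀ : ℕ) : PadicAlgCl p)
      = -((((n * n' : ℕ) : PadicAlgCl p) - 1) * x) + (n' : PadicAlgCl p) *
        (-(t - (n : PadicAlgCl p) * x) + (t - (j₀ : PadicAlgCl p))) := by
    push_cast
    ring
  rw [h3]
  refine (IsUltrametricDist.norm_add_le_max _ _).trans_lt (max_lt ?_ ?_)
  · rw [norm_neg, norm_mul]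
    calc ‖((n * n' : ℕ) : PadicAlgCl p) - 1‖ * ‖x‖ ≤ ‖((n * n' : ℕ) : PadicAlgCl p) - 1‖ * 1 :=
          mul_le_mul_of_nonneg_left hx (norm_nonneg _)
      _ < 1 := by rw [mul_one]; exact hnn
  · rw [norm_mul]
    have h4 : ‖-(t - (n : PadicAlgCl p) * x) + (t - (j₀ : PadicAlgCl p))‖ < 1 :=
      (IsUltrametricDist.norm_add_le_max _ _).trans_lt (max_lt (by rwa [norm_neg]) htj)
    calc ‖(n' : PadicAlgCl p)‖ * ‖-(t - (n : PadicAlgCl p) * x) + (t - (j₀ : PadicAlgCl p))‖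
        ≤ 1 * ‖-(t - (n : PadicAlgCl p) * x) + (t - (j₀ : PadicAlgCl p))‖ :=
          mul_le_mul_of_nonneg_right (norm_natCast_algCl_le_one n') (norm_nonneg _)
      _ < 1 := by rw [one_mul]; exact h4

/-- **NORMDESC**: `H85.Stmt_NormDesc`. -/
theorem stmt_NormDesc : H85.Stmt_NormDesc := by
  intro p _ ζ hζ H a b ha ha0 hb hb0 hab
  classical
  have hp : p.Prime := Fact.out
  have hp0 : (0 : ℝ) < p := H15.p_pos_real
  have hpinv0 : (0 : ℝ) ≤ (p : ℝ)⁻¹ := inv_nonneg.mpr hp0.le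
  have hpinv1 : (p : ℝ)⁻¹ ≤ 1 := (inv_lt_one_of_one_lt₀ H15.one_lt_p_real).le
  set C : Subgroup (ZMod p)ˣ := H.map (H85.omg hζ) with hC
  let _ : Fintype C := Fintype.ofFinite _
  have hex : ∀ u : C, ∃ τ ∈ H, H85.omg hζ τ = u := by
    rintro ⟨u, τ, hτ, rfl⟩
    exact ⟨τ, hτ, rfl⟩
  choose T hTH hTω using hex
  set Nb : PadicAlgCl p := ∏ u : C, T u b with hNb
  have hNb0 : Nb ≠ 0 := by
    rw [hNb]
    exact Finset.prod_ne_zero_iff.mpr (fun u _ => (_root_.map_ne_zero _).mpr hb0)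
  have hfix : ∀ s ∈ H, s Nb = Nb := by
    intro s hs
    have hsC : H85.omg hζ s ∈ C := ⟨s, hs, rfl⟩
    have key : ∀ u : C, s (T u b) = T (⟨H85.omg hζ s, hsC⟩ * u) b := by
      intro u
      set v : C := ⟨H85.omg hζ s, hsC⟩ * u with hv
      have hvval : (v : (ZMod p)ˣ) = H85.omg hζ s * (u : (ZMod p)ˣ) := rfl
      have h1 : (T v)⁻¹ * s * T u ∈ H := H.mul_mem (H.mul_mem (H.inv_mem (hTH v)) hs) (hTH u)
      have h2 : H85.omg hζ ((T v)⁻¹ * s * T u) = 1 := by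
        rw [map_mul, map_mul, map_inv, hTω, hTω, hvval]
        group
      have h3 : ((T v)⁻¹ * s * T u) ζ = ζ := (H85.omg_eq_one_iff hζ _).mp h2
      have h4 := hb _ h1 h3
      rw [AlgEquiv.mul_apply, AlgEquiv.mul_apply] at h4
      have h5 := congrArg (T v) h4
      rwa [← AlgEquiv.mul_apply (T v) (T v)⁻¹, mul_inv_cancel, AlgEquiv.one_apply] at h5
    rw [hNb, map_prod, Finset.prod_congr rfl (fun u _ => key u)]
    exact Fintype.prod_equiv (Equiv.mulLeft (⟨H85.omg hζ s, hsC⟩ : C)) _ _ (fun u => rfl)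
  set d : ℕ := Fintype.card C with hd
  have hdvd : d ∣ p - 1 := by
    have h1 := Subgroup.card_subgroup_dvd_card C
    rwa [Nat.card_eq_fintype_card, Nat.card_eq_fintype_card, ZMod.card_units_eq_totient,
      Nat.totient_prime hp] at h1
  have hdp : Nat.Coprime d p := by
    have h1 : Nat.Coprime (p - 1) p := by
      rw [Nat.coprime_comm]
      apply (Nat.Prime.coprime_iff_not_dvd hp).mpr
      intro h
      have h2 := hp.two_le
      have h3 := Nat.le_of_dvd (by omega) h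
      omega
    exact Nat.Coprime.coprime_dvd_left hdvd h1
  obtain ⟨d', -, hd'⟩ := Nat.exists_mul_mod_eq_one_of_coprime hdp hp.one_lt
  obtain ⟨m, hdd⟩ : ∃ m : ℕ, d * d' = 1 + p * m := by
    have h1 := Nat.div_add_mod (d * d') p
    rw [hd'] at h1
    exact ⟨d * d' / p, by rw [add_comm]; exact h1.symm⟩
  have hprod : a ^ d * Nb ^ p = ∏ u : C, T u (a * b ^ p) := by
    simp only [map_mul, map_pow]
    rw [Finset.prod_mul_distrib, Finset.prod_pow, ← hNb]
    congr 1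
    rw [Finset.prod_congr rfl (fun u _ => ha _ (hTH u)), Finset.prod_const, Finset.card_univ]
  have hN1 : ‖a ^ d * Nb ^ p - 1‖ ≤ (p : ℝ)⁻¹ := by
    rw [hprod]
    apply norm_prod_sub_one_le _ _ hpinv0 hpinv1
    intro u _
    have h1 : T u (a * b ^ p) - 1 = T u (a * b ^ p - 1) := by rw [map_sub, map_one]
    rw [h1, norm_gal]
    exact hab
  have hu1 : ‖a ^ d * Nb ^ p‖ ≤ 1 := by
    have h1 : a ^ d * Nb ^ p = (a ^ d * Nb ^ p - 1) + 1 := by ring
    rw [h1]
    exact (IsUltrametricDist.norm_add_le_max _ _).trans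
      (max_le (hN1.trans hpinv1) (by rw [norm_one]))
  refine ⟨a ^ m * Nb ^ d', mul_ne_zero (pow_ne_zero _ ha0) (pow_ne_zero _ hNb0), ?_, ?_⟩
  · intro s hs
    rw [map_mul, map_pow, map_pow, ha s hs, hfix s hs]
  · have h1 : a * (a ^ m * Nb ^ d') ^ p = (a ^ d * Nb ^ p) ^ d' := by
      have h2 : a * (a ^ m * Nb ^ d') ^ p = a ^ (1 + p * m) * Nb ^ (d' * p) := by
        rw [mul_pow, ← pow_mul, ← pow_mul, pow_add, pow_one, mul_assoc, mul_comm m p]
      rw [h2, ← hdd, mul_pow, ← pow_mul, ← pow_mul, mul_comm p d']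
    rw [h1]
    calc ‖(a ^ d * Nb ^ p) ^ d' - 1‖ = ‖(a ^ d * Nb ^ p) ^ d' - 1 ^ d'‖ := by rw [one_pow]
      _ ≤ ‖a ^ d * Nb ^ p - 1‖ := norm_pow_sub_pow_le' hu1 (by rw [norm_one]) d'
      _ ≤ (p : ℝ)⁻¹ := hN1

end Fermat.Agent.S56.FL.H38

end
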