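import Fermat.Agent.S56.FL.H15_CC2K

set_option autoImplicit false
set_option linter.style.haveILetI false
set_option linter.unusedSectionVars false

/-!
# LOC-p-FL, package UNITS / CC2 (helper15): the context of the level analysis

* `CoreCtx p k`   : the data `L`, `N ≤ G₂`, `ζ`, `χ`, `ℓ₀ : k → 𝔽_p`, a uniformizer `ϖ` of `K = L^N`.
* `CoreCtx.IsKum` : Kummer homomorphisms `h : N → k` (`h (σ n σ⁻¹) = χ σ * h n`).
* `CoreCtx.psi`   : `ψ_x = ℓ₀ (x * h ·)`;  `CoreCtx.lam` : `λ = ω χ⁻¹`.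
* `CoreCtx.WitAt` : "`ψ_x` has a witness `α` with `‖α^p - 1‖ ≤ ρ`", and its closure properties.
-/

noncomputable section

namespace Fermat.Agent.S56.FL.H15

open scoped NNReal
open Fermat.Agent.S56.FL Fermat.Agent.Lib.LocalKummer Fermat.Agent.S56.FL.H85 Module

variable {p : ℕ} [Fact p.Prime] {k : Type} [Field k] [CharP k p]

/-- The data of the level analysis. -/
structure CoreCtx (p : ℕ) [Fact p.Prime] (k : Type) [Field k] [CharP k p] where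
  L : IntermediateField ℚ_[p] (PadicAlgCl p)
  N : Subgroup (Gp p)
  G₂ : Subgroup (Gp p)
  ζ : PadicAlgCl p
  ϖ : PadicAlgCl p
  e₀ : ℕ
  χ : Gp p → k
  ℓ₀ : k →+ ZMod p
  fdL : FiniteDimensional ℚ_[p] L
  normalL : Normal ℚ_[p] L
  hζ : IsPrimitiveRoot ζ p
  hζL : ζ ∈ L
  hN : N.Normal
  hNG : N ≤ G₂
  hNζ : ∀ n ∈ N, n ζ = ζ
  lev : LevCtx (kField L N) ϖ ζ e₀
  hχ : ∀ σ ∈ G₂, ∀ τ ∈ G₂, χ (σ * τ) = χ σ * χ τ
  hχ1 : ∀ n ∈ N, χ n = 1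
  hℓ : ∀ (a : ZMod p) (x : k), ℓ₀ (cst p k a * x) = a * ℓ₀ x
  hℓ0 : ∀ y : k, (∀ x : k, ℓ₀ (x * y) = 0) → y = 0

namespace CoreCtx

variable (C : CoreCtx p k)

/-- The field `K = L^N`. -/
abbrev K : IntermediateField ℚ_[p] (PadicAlgCl p) := kField C.L C.N

/-- The norm of the uniformizer. -/
abbrev r : ℝ := ‖C.ϖ‖

/-- Kummer homomorphisms. -/
structure IsKum (h : Gp p → k) : Prop where
  add : ∀ n ∈ C.N, ∀ n' ∈ C.N, h (n * n') = h n + h n'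
  conj : ∀ σ ∈ C.G₂, ∀ n ∈ C.N, h (σ * n * σ⁻¹) = C.χ σ * h n
  triv : ∀ n ∈ C.N, n ∈ C.L.fixingSubgroup → h n = 0

/-- `ψ_x = ℓ₀ (x * h ·)`. -/
def psi (h : Gp p → k) (x : k) : Gp p → ZMod p := fun n => C.ℓ₀ (x * h n)

/-- `λ = ω χ⁻¹`. -/
def lam (σ : Gp p) : k := cst p k ((omg C.hζ σ : (ZMod p)ˣ) : ZMod p) * (C.χ σ)⁻¹

theorem χ_one : C.χ 1 = 1 := C.hχ1 1 C.N.one_mem

theorem χ_inv {σ : Gp p} (hσ : σ ∈ C.G₂) : C.χ σ⁻¹ = (C.χ σ)⁻¹ := by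
  have h1 : C.χ σ * C.χ σ⁻¹ = 1 := by
    rw [← C.hχ σ hσ σ⁻¹ (C.G₂.inv_mem hσ), mul_inv_cancel, C.χ_one]
  exact eq_inv_of_mul_eq_one_right h1

theorem χ_ne_zero {σ : Gp p} (hσ : σ ∈ C.G₂) : C.χ σ ≠ 0 := by
  intro h0
  have h1 : C.χ σ * C.χ σ⁻¹ = 1 := by
    rw [← C.hχ σ hσ σ⁻¹ (C.G₂.inv_mem hσ), mul_inv_cancel, C.χ_one]
  rw [h0, zero_mul] at h1
  exact zero_ne_one h1

theorem χ_pow {σ : Gp p} (hσ : σ ∈ C.G₂) (j : ℕ) : C.χ (σ ^ j) = C.χ σ ^ j := by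
  induction j with
  | zero => rw [pow_zero, pow_zero, C.χ_one]
  | succ j ih => rw [pow_succ, pow_succ, C.hχ _ (C.G₂.pow_mem hσ j) _ hσ, ih]

theorem lam_ne_zero {σ : Gp p} (hσ : σ ∈ C.G₂) : C.lam σ ≠ 0 := by
  refine mul_ne_zero ?_ (inv_ne_zero (C.χ_ne_zero hσ))
  intro h0
  have h1 : ((omg C.hζ σ : (ZMod p)ˣ) : ZMod p) = 0 :=
    (map_eq_zero_iff (cst p k) (RingHom.injective _)).mp h0
  exact (omg C.hζ σ).ne_zero h1

theorem lam_pow {σ : Gp p} (hσ : σ ∈ C.G₂) (j : ℕ) : C.lam (σ ^ j) = C.lam σ ^ j := by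
  unfold lam
  rw [map_pow, C.χ_pow hσ, mul_pow, inv_pow, Units.val_pow_eq_pow_val, map_pow]

theorem psi_add (h : Gp p → k) (x x' : k) (n : Gp p) :
    C.psi h (x + x') n = C.psi h x n + C.psi h x' n := by
  unfold psi
  rw [add_mul, map_add]

theorem psi_neg (h : Gp p → k) (x : k) (n : Gp p) : C.psi h (-x) n = -C.psi h x n := by
  unfold psi
  rw [neg_mul, map_neg]

theorem psi_cst (h : Gp p → k) (a : ZMod p) (x : k) (n : Gp p) :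
    C.psi h (cst p k a * x) n = a * C.psi h x n := by
  unfold psi
  rw [mul_assoc, C.hℓ]

theorem psi_natCast (h : Gp p → k) (m : ℕ) (x : k) (n : Gp p) :
    C.psi h ((m : k) * x) n = (m : ZMod p) * C.psi h x n := by
  have := C.psi_cst h (m : ZMod p) x n
  rwa [map_natCast] at this

variable {C}

theorem IsKum.psi_mul {h : Gp p → k} (hk : C.IsKum h) (x : k) {n n' : Gp p} (hn : n ∈ C.N)
    (hn' : n' ∈ C.N) : C.psi h x (n * n') = C.psi h x n + C.psi h x n' := by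
  unfold psi
  rw [hk.add n hn n' hn', mul_add, map_add]

theorem IsKum.psi_triv {h : Gp p → k} (hk : C.IsKum h) (x : k) {n : Gp p} (hn : n ∈ C.N)
    (hnL : n ∈ C.L.fixingSubgroup) : C.psi h x n = 0 := by
  unfold psi
  rw [hk.triv n hn hnL, mul_zero, map_zero]

/-- The conjugate of `ψ_x` by `σ ∈ G₂` is `ψ_{λ(σ) x}`. -/
theorem IsKum.psi_conj {h : Gp p → k} (hk : C.IsKum h) (x : k) {σ : Gp p} (hσ : σ ∈ C.G₂)
    {n : Gp p} (hn : n ∈ C.N) :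
    ((omg C.hζ σ : (ZMod p)ˣ) : ZMod p) * C.psi h x (σ⁻¹ * n * σ) = C.psi h (C.lam σ * x) n := by
  have h1 : h (σ⁻¹ * n * σ) = (C.χ σ)⁻¹ * h n := by
    have := hk.conj σ⁻¹ (C.G₂.inv_mem hσ) n hn
    rw [inv_inv] at this
    rw [this, C.χ_inv hσ]
  unfold psi lam
  rw [h1, ← C.hℓ]
  congr 1
  ring

theorem IsKum.zero : C.IsKum (fun _ => 0) :=
  ⟨fun _ _ _ _ => by simp, fun _ _ _ _ => by simp, fun _ _ _ => rfl⟩

theorem IsKum.lin {h₁ h₂ : Gp p → k} (hk₁ : C.IsKum h₁) (hk₂ : C.IsKum h₂) (l₁ l₂ : k) :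
    C.IsKum (fun n => l₁ * h₁ n + l₂ * h₂ n) := by
  refine ⟨fun n hn n' hn' => ?_, fun σ hσ n hn => ?_, fun n hn hnL => ?_⟩
  · simp only [hk₁.add n hn n' hn', hk₂.add n hn n' hn']; ring
  · simp only [hk₁.conj σ hσ n hn, hk₂.conj σ hσ n hn]; ring
  · simp only [hk₁.triv n hn hnL, hk₂.triv n hn hnL]; ring

theorem psi_lin (C : CoreCtx p k) (h₁ h₂ : Gp p → k) (l₁ l₂ x : k) (n : Gp p) :
    C.psi (fun n => l₁ * h₁ n + l₂ * h₂ n) x n = C.psi h₁ (l₁ * x) n + C.psi h₂ (l₂ * x) n := by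
  unfold psi
  rw [← map_add]
  congr 1
  ring

/-- If `ψ_x` vanishes on `N` for all `x` then `h` vanishes on `N`. -/
theorem eq_zero_of_psi (C : CoreCtx p k) (h : Gp p → k) {n : Gp p}
    (hψ : ∀ x : k, C.psi h x n = 0) : h n = 0 :=
  C.hℓ0 (h n) hψ

variable (C)

/-- `ψ_x` has a witness `α` with `‖α^p - 1‖ ≤ ρ`. -/
def WitAt (h : Gp p → k) (x : k) (ρ : ℝ) : Prop :=
  ∃ α, IsWit C.L C.N C.ζ (C.psi h x) α ∧ ‖α ^ p - 1‖ ≤ ρ

variable {C}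

theorem WitAt.mono {h : Gp p → k} {x : k} {ρ ρ' : ℝ} (hw : C.WitAt h x ρ) (hρ : ρ ≤ ρ') :
    C.WitAt h x ρ' := by
  obtain ⟨α, hα, hn⟩ := hw
  exact ⟨α, hα, hn.trans hρ⟩

theorem norm_mul_sub_one_le {a b : PadicAlgCl p} {ρ : ℝ} (hρ : ρ ≤ 1) (ha : ‖a - 1‖ ≤ ρ)
    (hb : ‖b - 1‖ ≤ ρ) : ‖a * b - 1‖ ≤ ρ := by
  have hb1 : ‖b‖ ≤ 1 := by
    have : b = (b - 1) + 1 := by ring
    rw [this]
    exact (IsUltrametricDist.norm_add_le_max _ _).trans (max_le (hb.trans hρ) (by simp))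
  have h1 : a * b - 1 = (a - 1) * b + (b - 1) := by ring
  rw [h1]
  refine (IsUltrametricDist.norm_add_le_max _ _).trans (max_le ?_ hb)
  rw [norm_mul]
  calc ‖a - 1‖ * ‖b‖ ≤ ρ * 1 :=
        mul_le_mul ha hb1 (norm_nonneg _) ((norm_nonneg _).trans ha)
    _ = ρ := mul_one _

theorem norm_eq_one_of_sub_lt {a : PadicAlgCl p} (ha : ‖a - 1‖ < 1) : ‖a‖ = 1 := by
  have : a = 1 + (a - 1) := by ring
  rw [this, norm_add_eq_left (by rw [norm_one]; exact ha), norm_one]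

theorem norm_pow_sub_one_le' {a : PadicAlgCl p} (ha : ‖a - 1‖ ≤ 1) (m : ℕ) :
    ‖a ^ m - 1‖ ≤ ‖a - 1‖ := by
  have ha1 : ‖a‖ ≤ 1 := by
    have : a = (a - 1) + 1 := by ring
    rw [this]
    exact (IsUltrametricDist.norm_add_le_max _ _).trans (max_le ha (by simp))
  have := norm_pow_sub_pow_le_algCl ha1 (norm_one (α := PadicAlgCl p)).le m
  rwa [one_pow] at this

theorem WitAt.add {h : Gp p → k} {x x' : k} {ρ : ℝ} (hρ : ρ ≤ 1) (hw : C.WitAt h x ρ)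
    (hw' : C.WitAt h x' ρ) : C.WitAt h (x + x') ρ := by
  obtain ⟨α, hα, hn⟩ := hw
  obtain ⟨α', hα', hn'⟩ := hw'
  refine ⟨α * α', (hα.mul C.hζ.pow_eq_one hα').congr fun n _ => (C.psi_add h x x' n).symm, ?_⟩
  rw [mul_pow]
  exact norm_mul_sub_one_le hρ hn hn'

theorem WitAt.natCast {h : Gp p → k} {x : k} {ρ : ℝ} (hρ : ρ ≤ 1) (hw : C.WitAt h x ρ) (m : ℕ) :
    C.WitAt h ((m : k) * x) ρ := by
  obtain ⟨α, hα, hn⟩ := hw
  refine ⟨α ^ m, (hα.pow C.hζ.pow_eq_one m).congr fun n _ => (C.psi_natCast h m x n).symm, ?_⟩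
  rw [← pow_mul, mul_comm, pow_mul]
  exact (norm_pow_sub_one_le' (hn.trans hρ) m).trans hn

theorem WitAt.conj {h : Gp p → k} (hk : C.IsKum h) {x : k} {ρ : ℝ} (hw : C.WitAt h x ρ)
    {σ : Gp p} (hσ : σ ∈ C.G₂) : C.WitAt h (C.lam σ * x) ρ := by
  obtain ⟨α, hα, hn⟩ := hw
  haveI := C.normalL
  refine ⟨σ α, (hα.conj C.hζ C.hN σ).congr fun n hn' => hk.psi_conj x hσ hn', ?_⟩
  rw [← map_pow]
  have : σ (α ^ p) - 1 = σ (α ^ p - 1) := by rw [map_sub, map_one]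
  rw [this, norm_gal]
  exact hn

theorem WitAt.neg {h : Gp p → k} {x : k} {ρ : ℝ} (hρ : ρ < 1) (hw : C.WitAt h x ρ) :
    C.WitAt h (-x) ρ := by
  obtain ⟨α, hα, hn⟩ := hw
  refine ⟨α⁻¹, (hα.inv C.hζ.pow_eq_one).congr fun n _ => (C.psi_neg h x n).symm, ?_⟩
  have ha1 : ‖α ^ p‖ = 1 := norm_eq_one_of_sub_lt (hn.trans_lt hρ)
  have ha0 : α ^ p ≠ 0 := pow_ne_zero _ hα.ne_zero
  have h1 : α⁻¹ ^ p - 1 = -(α ^ p - 1) / α ^ p := by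
    rw [inv_pow]; field_simp; ring
  rw [h1, norm_div, norm_neg, ha1, div_one]
  exact hn

end CoreCtx

end Fermat.Agent.S56.FL.H15

end
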