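import Fermat.Agent.S56.FL.H85_CCDefs

set_option autoImplicit false

/-!
# LOC-p-FL, package UNITS / CC2 (helper15): sub-leaf LEADCNT

* `Stmt_LEADCNT` : the semilinear count `H61.stmt_CNT` for "leading coefficient relations" with
  values in the integers of a finite extension `K/ℚ_p` modulo the maximal ideal.
-/

noncomputable section

namespace Fermat.Agent.S56.FL.H15

open Fermat.Agent.S56.FL

/-- **LEADCNT.**  `K/ℚ_p` finite, `k` a finite field of characteristic `p`.  `Lead₁`, `Lead₂` are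
relations between `x ∈ k` and integers `u` of `K` (`Lead x u`: "`u` is a leading coefficient of
`x`") which are total, single-valued modulo the maximal ideal, additive, and semilinear:
`Lead x u → Lead (y x) (θ u)`, `Lead x u → Lead (w x) (t u^{p²})`, where `θ, t` are units of `K`
and `θ` is not congruent to an element of `𝔽_p` (`¬ ‖θ^p - θ‖ < 1`).  Then there is
`(l₁, l₂) ≠ 0` in `k²` such that the leading coefficients of `l₁ x` (for `Lead₁`) and of `l₂ x`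
(for `Lead₂`) cancel modulo the maximal ideal, for all `x`.

Proof: `κ = H15.OL K ⧸ H15.mL K` (a field of characteristic `p`, `H15.mL_isMaximal`),
`f_j x = [u]` for any `u` with `Lead_j x u`; `f_j : k →+ κ`, `f_j (y x) = [θ] f_j x`,
`f_j (w x) = [t] (f_j x)^{p²}`, `[θ]^p ≠ [θ]`, `[t] ≠ 0`; apply `H61.cnt_core`. -/
def Stmt_LEADCNT : Prop :=
  ∀ (p : ℕ) [Fact p.Prime] (k : Type) [Field k] [Finite k] [CharP k p]
    (K : IntermediateField ℚ_[p] (PadicAlgCl p)) [FiniteDimensional ℚ_[p] K]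
    (Lead₁ Lead₂ : k → PadicAlgCl p → Prop) (y w : k) (θ t : PadicAlgCl p),
    θ ∈ K → ‖θ‖ = 1 → t ∈ K → ‖t‖ = 1 → ¬ ‖θ ^ p - θ‖ < 1 →
    (∀ x u, Lead₁ x u → u ∈ K ∧ ‖u‖ ≤ 1) →
    (∀ x, ∃ u, Lead₁ x u) →
    (∀ x u u', Lead₁ x u → Lead₁ x u' → ‖u - u'‖ < 1) →
    (∀ x x' u u', Lead₁ x u → Lead₁ x' u' → Lead₁ (x + x') (u + u')) →
    (∀ x u, Lead₁ x u → Lead₁ (y * x) (θ * u)) →
    (∀ x u, Lead₁ x u → Lead₁ (w * x) (t * u ^ (p ^ 2))) →
    (∀ x u, Lead₂ x u → u ∈ K ∧ ‖u‖ ≤ 1) →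
    (∀ x, ∃ u, Lead₂ x u) →
    (∀ x u u', Lead₂ x u → Lead₂ x u' → ‖u - u'‖ < 1) →
    (∀ x x' u u', Lead₂ x u → Lead₂ x' u' → Lead₂ (x + x') (u + u')) →
    (∀ x u, Lead₂ x u → Lead₂ (y * x) (θ * u)) →
    (∀ x u, Lead₂ x u → Lead₂ (w * x) (t * u ^ (p ^ 2))) →
    ∃ l₁ l₂ : k, (l₁ ≠ 0 ∨ l₂ ≠ 0) ∧
      ∀ x u₁ u₂, Lead₁ (l₁ * x) u₁ → Lead₂ (l₂ * x) u₂ → ‖u₁ + u₂‖ < 1

end Fermat.Agent.S56.FL.H15

end
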