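import Fermat.Agent.S56.FL.H15_CC2Wit
import Fermat.Agent.S56.FL.H59_KumMain

set_option autoImplicit false
set_option linter.style.haveILetI false
set_option linter.unusedSectionVars false

/-!
# LOC-p-FL, package UNITS / CC2 (helper15): the field `K = L^N`

`L/ℚ_p` finite Galois, `N` a normal subgroup of `Gal(K̄/ℚ_p)` with `g^m ∈ N` for all `g` (`p ∤ m`).

* `kField L N`          : `K = {a ∈ L | n a = a ∀ n ∈ N}`.
* `normal_kField`, `not_dvd_finrank_kField`, `isTame_kField`.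
* `exists_wit`          : Kummer witnesses in `L` (Lagrange resolvent).
* `exists_wit_bdd`      : if `L` is bounded there are witnesses with `‖α^p - 1‖ ≤ p⁻¹`
                          (`H59.stmt_KUMBDD`).
-/

noncomputable section

namespace Fermat.Agent.S56.FL.H15

open scoped NNReal
open Fermat.Agent.S56.FL Fermat.Agent.Lib.LocalKummer Fermat.Agent.S56.FL.H85 Module

variable {p : ℕ} [Fact p.Prime]

/-- The fixed field of `N` in `L`. -/
def kField (L : IntermediateField ℚ_[p] (PadicAlgCl p)) (N : Subgroup (Gp p)) :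
    IntermediateField ℚ_[p] (PadicAlgCl p) :=
  L ⊓ IntermediateField.fixedField N

variable {L : IntermediateField ℚ_[p] (PadicAlgCl p)} {N : Subgroup (Gp p)}

theorem mem_kField {a : PadicAlgCl p} : a ∈ kField L N ↔ a ∈ L ∧ ∀ n ∈ N, n a = a := by
  rw [kField, IntermediateField.mem_inf, IntermediateField.mem_fixedField_iff]

theorem kField_le : kField L N ≤ L := inf_le_left

instance finiteDimensional_kField [FiniteDimensional ℚ_[p] L] :
    FiniteDimensional ℚ_[p] (kField L N) :=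
  FiniteDimensional.of_injective (IntermediateField.inclusion (kField_le (L := L) (N := N))).toLinearMap
    (IntermediateField.inclusion_injective kField_le)

theorem map_mem_of_normal [Normal ℚ_[p] L] (σ : Gp p) {a : PadicAlgCl p} (ha : a ∈ L) :
    σ a ∈ L := by
  have := H38.resL_apply σ (⟨a, ha⟩ : L)
  rw [← this]
  exact (H38.resL L σ ⟨a, ha⟩).2

theorem map_mem_kField [Normal ℚ_[p] L] (hN : N.Normal) (σ : Gp p) {a : PadicAlgCl p}
    (ha : a ∈ kField L N) : σ a ∈ kField L N := by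
  rw [mem_kField] at ha ⊢
  refine ⟨map_mem_of_normal σ ha.1, fun n hn => ?_⟩
  have hconj : σ⁻¹ * n * σ ∈ N := by
    have := hN.conj_mem n hn σ⁻¹
    rwa [inv_inv] at this
  have h1 : n (σ a) = σ ((σ⁻¹ * n * σ) a) := by
    have : σ * (σ⁻¹ * n * σ) = n * σ := by group
    rw [← AlgEquiv.mul_apply, ← AlgEquiv.mul_apply, this]
  rw [h1, ha.2 _ hconj]

theorem normal_kField [Normal ℚ_[p] L] (hN : N.Normal) : Normal ℚ_[p] (kField L N) := by
  rw [IntermediateField.normal_iff_forall_map_le']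
  intro σ a ha
  rw [IntermediateField.mem_map] at ha
  obtain ⟨b, hb, rfl⟩ := ha
  exact map_mem_kField hN σ hb

/-- The degree of `K/ℚ_p` is prime to `p`. -/
theorem not_dvd_finrank_kField [FiniteDimensional ℚ_[p] L] [Normal ℚ_[p] L] (hN : N.Normal)
    {m : ℕ} (hm : ¬ p ∣ m) (hexp : ∀ g : Gp p, g ^ m ∈ N) :
    ¬ p ∣ finrank ℚ_[p] (kField L N) := by
  haveI : Normal ℚ_[p] (kField L N) := normal_kField hN
  haveI : IsGalois ℚ_[p] (kField L N) := ⟨⟩
  intro hdvd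
  rw [← IsGalois.card_aut_eq_finrank] at hdvd
  haveI : Fintype (kField L N ≃ₐ[ℚ_[p]] kField L N) := Fintype.ofFinite _
  rw [Nat.card_eq_fintype_card] at hdvd
  obtain ⟨τ, hτ⟩ := exists_prime_orderOf_dvd_card p hdvd
  obtain ⟨g, rfl⟩ := H38.resL_surjective (L := kField L N) τ
  have h1 : (H38.resL (kField L N) g) ^ m = 1 := by
    rw [← map_pow]
    ext a
    have h2 := H38.resL_apply (g ^ m) a
    rw [h2, AlgEquiv.one_apply]
    exact (mem_kField.mp a.2).2 _ (hexp g)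
  have h3 := orderOf_dvd_of_pow_eq_one h1
  rw [hτ] at h3
  exact hm h3

theorem isTame_kField [FiniteDimensional ℚ_[p] L] [Normal ℚ_[p] L] (hN : N.Normal)
    {m : ℕ} (hm : ¬ p ∣ m) (hexp : ∀ g : Gp p, g ^ m ∈ N) : IsTameField p (kField L N) := by
  refine ⟨finrank ℚ_[p] (kField L N), finrank_pos, not_dvd_finrank_kField hN hm hexp, ?_⟩
  intro x hx hx0
  have hx0' : (⟨x, hx⟩ : kField L N) ≠ 0 := fun h => hx0 (congrArg Subtype.val h)
  exact norm_pow_finrank (kField L N) ⟨x, hx⟩ hx0'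

/-- An element of `L` fixed by `N` is a witness of `0`. -/
theorem isWit_of_mem_kField {ζ : PadicAlgCl p} {b : PadicAlgCl p} (hb : b ∈ kField L N)
    (hb0 : b ≠ 0) : IsWit L N ζ (fun _ => 0) b :=
  ⟨(mem_kField.mp hb).1, hb0, fun n hn => by
    rw [(mem_kField.mp hb).2 n hn, zpowZ_zero, one_mul]⟩

theorem IsWit.pow_p_mem_kField {ζ : PadicAlgCl p} {ψ : Gp p → ZMod p} {α : PadicAlgCl p}
    (hζ : ζ ^ p = 1) (h : IsWit L N ζ ψ α) : α ^ p ∈ kField L N :=
  mem_kField.mpr ⟨pow_mem h.1 p, fun _ hn => h.pow_p_fixed hζ hn⟩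

theorem IsWit.mem_kField_of_zero {ζ : PadicAlgCl p} {ψ : Gp p → ZMod p} {α : PadicAlgCl p}
    (h : IsWit L N ζ ψ α) (hψ : ∀ n ∈ N, ψ n = 0) : α ∈ kField L N :=
  mem_kField.mpr ⟨h.1, fun _ hn => h.fixed_of_zero hψ hn⟩

/-- Existence of Kummer witnesses in `L` (Lagrange resolvent for the action of `N` on `L`). -/
theorem exists_wit [FiniteDimensional ℚ_[p] L] [Normal ℚ_[p] L] {ζ : PadicAlgCl p}
    (hζ : ζ ^ p = 1) (hζL : ζ ∈ L) (hNζ : ∀ n ∈ N, n ζ = ζ) (ψ : Gp p → ZMod p)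
    (hadd : ∀ n ∈ N, ∀ n' ∈ N, ψ (n * n') = ψ n + ψ n')
    (hL : ∀ n ∈ N, n ∈ L.fixingSubgroup → ψ n = 0) :
    ∃ α, IsWit L N ζ ψ α := by
  classical
  set f : ↥N →* (L ≃ₐ[ℚ_[p]] L) := (H38.resL L).comp N.subtype with hf
  letI act : MulSemiringAction ↥N ↥L := MulSemiringAction.compHom L f
  have hact : ∀ (g : ↥N) (x : L), g • x = H38.resL L (g : Gp p) x := fun _ _ => rfl
  haveI : Finite (↥N ⧸ f.ker) :=
    Finite.of_equiv _ (QuotientGroup.quotientKerEquivRange f).symm.toEquiv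
  set ζL : L := ⟨ζ, hζL⟩ with hζL'
  have hζLp : ζL ^ p = 1 := Subtype.ext (by simpa using hζ)
  have hfix : ∀ g : ↥N, g • ζL = ζL := by
    intro g
    apply Subtype.ext
    rw [hact, H38.resL_apply]
    exact hNζ g g.2
  have hU : ∀ u ∈ f.ker, ψ (u : Gp p) = 0 := by
    intro u hu
    have h1 : H38.resL L (u : Gp p) = 1 := hu
    exact hL u u.2 (H38.mem_fixingSubgroup_of_resL_eq_one h1)
  have hstab : ∀ g : ↥N, (∀ x : L, g • (MonoidHom.id L) x = (MonoidHom.id L) x) → g ∈ f.ker := by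
    intro g hg
    rw [MonoidHom.mem_ker]
    ext x
    have := hg x
    simp only [MonoidHom.id_apply] at this
    rw [hact] at this
    rw [AlgEquiv.one_apply]
    exact congrArg Subtype.val this
  have hstab' : ∀ u ∈ f.ker, ∀ x : L, u • (MonoidHom.id L) x = (MonoidHom.id L) x := by
    intro u hu x
    have h1 : H38.resL L (u : Gp p) = 1 := hu
    simp only [MonoidHom.id_apply]
    rw [hact, h1, AlgEquiv.one_apply]
  obtain ⟨γ, h0, hγ⟩ := exists_resolvent (G := ↥N) (Ω := ↥L) (F := ↥L) ζL hζLp hfix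
    (fun g => ψ (g : Gp p)) (fun g h => hadd g g.2 h h.2) f.ker hU (MonoidHom.id L) hstab hstab'
  refine ⟨(γ : PadicAlgCl p), γ.2, fun h => h0 (Subtype.ext h), fun n hn => ?_⟩
  have h1 := hγ ⟨n, hn⟩
  rw [hact] at h1
  have h2 := congrArg (fun t : L => (t : PadicAlgCl p)) h1
  simp only [H38.resL_apply] at h2
  rw [h2]
  unfold zpowZ
  push_cast
  rfl

/-- Witnesses with `‖α^p - 1‖ ≤ p⁻¹` when `L` has bounded ramification. -/
theorem exists_wit_bdd (hp2 : p ≠ 2) [FiniteDimensional ℚ_[p] L] [hNL : Normal ℚ_[p] L]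
    (hbdd : IsBddField p L) (hN : N.Normal) {m : ℕ} (hm : ¬ p ∣ m)
    (hexp : ∀ g : Gp p, g ^ m ∈ N) {ζ : PadicAlgCl p} (hζ : IsPrimitiveRoot ζ p) (hζL : ζ ∈ L)
    (hNζ : ∀ n ∈ N, n ζ = ζ) (ψ : Gp p → ZMod p)
    (hadd : ∀ n ∈ N, ∀ n' ∈ N, ψ (n * n') = ψ n + ψ n')
    (hL : ∀ n ∈ N, n ∈ L.fixingSubgroup → ψ n = 0) :
    ∃ α, IsWit L N ζ ψ α ∧ ‖α ^ p - 1‖ ≤ (p : ℝ)⁻¹ := by
  have hp : p.Prime := Fact.out
  obtain ⟨γ, hγ⟩ := exists_wit hζ.pow_eq_one hζL hNζ ψ hadd hL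
  have haK := hγ.pow_p_mem_kField hζ.pow_eq_one
  have ha0 : γ ^ p ≠ 0 := pow_ne_zero _ hγ.ne_zero
  have hζK : ζ ∈ kField L N := mem_kField.mpr ⟨hζL, hNζ⟩
  obtain ⟨b, hbK, hb0, hb⟩ := H59.stmt_KUMBDD p hp2 L (kField L N) hNL (normal_kField hN)
    kField_le hbdd (isTame_kField hN hm hexp) ⟨ζ, hζK, hζ.ne_one hp.one_lt, hζ.pow_eq_one⟩
    (γ ^ p) haK ha0 ⟨γ, hγ.mem, rfl⟩
  refine ⟨γ * b, ?_, ?_⟩
  · exact (hγ.mul hζ.pow_eq_one (isWit_of_mem_kField hbK hb0)).congr fun n _ => by simp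
  · rw [mul_pow]; exact hb

end Fermat.Agent.S56.FL.H15

end
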