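import Fermat.Agent.S56.FL.H15_CC2Step

set_option autoImplicit false
set_option linter.style.haveILetI false
set_option linter.unusedSectionVars false

/-!
# LOC-p-FL, package UNITS / CC2 (helper15): leading coefficients at a level

`Lead h i x u`: `u` is an integer of `K` and `ψ_x` has a witness `α` with
`α^p ≡ 1 + u ϖ^i` modulo `r^{i+1}`.

* `Lead.exists`   : existence from a witness at level `i`.
* `Lead.unique`   : `u` is unique modulo the maximal ideal (`p ∤ i < p e₀`).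
* `Lead.add`, `Lead.lin`, `Lead.conj_inertia`, `Lead.conj_frob`.
* `Lead.witAt_succ` : if `‖u‖ < 1` there is a witness at level `i + 1`.
-/

noncomputable section

namespace Fermat.Agent.S56.FL.H15

open scoped NNReal
open Fermat.Agent.S56.FL Fermat.Agent.Lib.LocalKummer Fermat.Agent.S56.FL.H85 Module

variable {p : ℕ} [Fact p.Prime] {k : Type} [Field k] [CharP k p]

namespace CoreCtx

/-- `u` is a leading coefficient of `x` at level `i`. -/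
def Lead (C : CoreCtx p k) (h : Gp p → k) (i : ℕ) (x : k) (u : PadicAlgCl p) : Prop :=
  u ∈ C.K ∧ ‖u‖ ≤ 1 ∧
    ∃ α, IsWit C.L C.N C.ζ (C.psi h x) α ∧ ‖α ^ p - 1 - u * C.ϖ ^ i‖ < ‖C.ϖ‖ ^ i

variable {C : CoreCtx p k} {h : Gp p → k} {i : ℕ} {x x' : k} {u u' : PadicAlgCl p}

theorem norm_mul_pow_le (C : CoreCtx p k) {u : PadicAlgCl p} (hu : ‖u‖ ≤ 1) (i : ℕ) :
    ‖u * C.ϖ ^ i‖ ≤ ‖C.ϖ‖ ^ i := by
  rw [norm_mul, norm_pow]
  calc ‖u‖ * ‖C.ϖ‖ ^ i ≤ 1 * ‖C.ϖ‖ ^ i := mul_le_mul_of_nonneg_right hu (C.lev.pow_pos' i).le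
    _ = ‖C.ϖ‖ ^ i := one_mul _

theorem norm_mul_pow_lt (C : CoreCtx p k) {u : PadicAlgCl p} (hu : ‖u‖ < 1) (i : ℕ) :
    ‖u * C.ϖ ^ i‖ < ‖C.ϖ‖ ^ i := by
  rw [norm_mul, norm_pow]
  calc ‖u‖ * ‖C.ϖ‖ ^ i < 1 * ‖C.ϖ‖ ^ i := mul_lt_mul_of_pos_right hu (C.lev.pow_pos' i)
    _ = ‖C.ϖ‖ ^ i := one_mul _

/-- The witness of a leading coefficient is a witness at level `i`. -/
theorem norm_le_of_lead {α : PadicAlgCl p} (hu : ‖u‖ ≤ 1)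
    (hα : ‖α ^ p - 1 - u * C.ϖ ^ i‖ < ‖C.ϖ‖ ^ i) : ‖α ^ p - 1‖ ≤ ‖C.ϖ‖ ^ i := by
  have h1 : α ^ p - 1 = (α ^ p - 1 - u * C.ϖ ^ i) + u * C.ϖ ^ i := by ring
  rw [h1]
  exact (IsUltrametricDist.norm_add_le_max _ _).trans (max_le hα.le (C.norm_mul_pow_le hu i))

namespace Lead

theorem mem (hl : C.Lead h i x u) : u ∈ C.K ∧ ‖u‖ ≤ 1 := ⟨hl.1, hl.2.1⟩

/-- Existence of leading coefficients. -/
theorem exists_of_witAt (hw : C.WitAt h x (‖C.ϖ‖ ^ i)) : ∃ u, C.Lead h i x u := by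
  obtain ⟨α, hα, hn⟩ := hw
  have haK : α ^ p - 1 ∈ C.K := C.K.sub_mem (hα.pow_p_mem_kField C.hζ.pow_eq_one) C.K.one_mem
  obtain ⟨u, huK, hu1, hau, -⟩ := C.lev.exists_unit_mul haK hn
  refine ⟨u, huK, hu1, α, hα, ?_⟩
  rw [hau, sub_self, norm_zero]
  exact C.lev.pow_pos' i

/-- If the leading coefficient vanishes modulo the maximal ideal, there is a witness at the next
level. -/
theorem witAt_succ (hl : C.Lead h i x u) (hu : ‖u‖ < 1) : C.WitAt h x (‖C.ϖ‖ ^ (i + 1)) := by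
  obtain ⟨-, -, α, hα, hn⟩ := hl
  have haK : α ^ p - 1 ∈ C.K := C.K.sub_mem (hα.pow_p_mem_kField C.hζ.pow_eq_one) C.K.one_mem
  refine ⟨α, hα, C.lev.le_pow_succ haK ?_⟩
  have h1 : α ^ p - 1 = (α ^ p - 1 - u * C.ϖ ^ i) + u * C.ϖ ^ i := by ring
  rw [h1]
  exact (IsUltrametricDist.norm_add_le_max _ _).trans_lt (max_lt hn (C.norm_mul_pow_lt hu i))

/-- Uniqueness of the leading coefficient modulo the maximal ideal. -/
theorem unique (hpi : ¬ p ∣ i) (hi : i < p * C.e₀) (hl : C.Lead h i x u)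
    (hl' : C.Lead h i x u') : ‖u - u'‖ < 1 := by
  obtain ⟨huK, hu1, α, hα, hn⟩ := hl
  obtain ⟨huK', hu1', α', hα', hn'⟩ := hl'
  have hi0 : 0 < i := by
    rcases Nat.eq_zero_or_pos i with h0 | h0
    · exact absurd (h0 ▸ dvd_zero p) hpi
    · exact h0
  have ha := norm_le_of_lead hu1 hn
  have ha' := norm_le_of_lead hu1' hn'
  have ha'1 : ‖α' ^ p‖ = 1 := norm_eq_one_of_sub_lt (ha'.trans_lt (C.lev.pow_lt_one' hi0))
  have hb : IsWit C.L C.N C.ζ (fun n => C.psi h x n - C.psi h x n) (α / α') :=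
    hα.div C.hζ.pow_eq_one hα'
  have hbK : α / α' ∈ C.K := hb.mem_kField_of_zero fun n _ => sub_self _
  have hbp : (α / α') ^ p - 1 = (α ^ p - α' ^ p) / α' ^ p := by
    rw [div_pow]
    have : α' ^ p ≠ 0 := pow_ne_zero _ hα'.ne_zero
    field_simp
  have hle : ‖(α / α') ^ p - 1‖ ≤ ‖C.ϖ‖ ^ i := by
    rw [hbp, norm_div, ha'1, div_one]
    have : α ^ p - α' ^ p = (α ^ p - 1) - (α' ^ p - 1) := by ring
    rw [this]
    exact (norm_sub_le_max_algCl _ _).trans (max_le ha ha')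
  have hlt := C.lev.lev1 hbK hpi hi hle
  rw [hbp, norm_div, ha'1, div_one] at hlt
  have h1 : (u - u') * C.ϖ ^ i
      = (α ^ p - α' ^ p) - (α ^ p - 1 - u * C.ϖ ^ i) + (α' ^ p - 1 - u' * C.ϖ ^ i) := by ring
  have h2 : ‖(u - u') * C.ϖ ^ i‖ < ‖C.ϖ‖ ^ i := by
    rw [h1]
    exact (IsUltrametricDist.norm_add_le_max _ _).trans_lt (max_lt
      ((norm_sub_le_max_algCl _ _).trans_lt (max_lt hlt hn)) hn')
  rw [norm_mul, norm_pow] at h2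
  by_contra hcon
  have h3 : 1 ≤ ‖u - u'‖ := not_lt.mp hcon
  have h4 : ‖C.ϖ‖ ^ i ≤ ‖u - u'‖ * ‖C.ϖ‖ ^ i := by
    calc ‖C.ϖ‖ ^ i = 1 * ‖C.ϖ‖ ^ i := (one_mul _).symm
      _ ≤ _ := mul_le_mul_of_nonneg_right h3 (C.lev.pow_pos' i).le
  exact absurd h2 (not_lt.mpr h4)

/-- The product of two witnesses: the leading coefficients add up. -/
theorem mul_aux (hi0 : 0 < i) {α α' : PadicAlgCl p} (hu : ‖u‖ ≤ 1) (hu' : ‖u'‖ ≤ 1)
    (hn : ‖α ^ p - 1 - u * C.ϖ ^ i‖ < ‖C.ϖ‖ ^ i)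
    (hn' : ‖α' ^ p - 1 - u' * C.ϖ ^ i‖ < ‖C.ϖ‖ ^ i) :
    ‖(α * α') ^ p - 1 - (u + u') * C.ϖ ^ i‖ < ‖C.ϖ‖ ^ i := by
  have ha := norm_le_of_lead hu hn
  have ha' := norm_le_of_lead hu' hn'
  have h1 : (α * α') ^ p - 1 - (u + u') * C.ϖ ^ i
      = (α ^ p - 1 - u * C.ϖ ^ i) + (α' ^ p - 1 - u' * C.ϖ ^ i) + (α ^ p - 1) * (α' ^ p - 1) := by
    ring
  rw [h1]
  refine (IsUltrametricDist.norm_add_le_max _ _).trans_lt (max_lt
    ((IsUltrametricDist.norm_add_le_max _ _).trans_lt (max_lt hn hn')) ?_)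
  rw [norm_mul]
  calc ‖α ^ p - 1‖ * ‖α' ^ p - 1‖ ≤ ‖C.ϖ‖ ^ i * ‖C.ϖ‖ ^ i :=
        mul_le_mul ha ha' (norm_nonneg _) (C.lev.pow_pos' i).le
    _ < ‖C.ϖ‖ ^ i * 1 := mul_lt_mul_of_pos_left (C.lev.pow_lt_one' hi0) (C.lev.pow_pos' i)
    _ = ‖C.ϖ‖ ^ i := mul_one _

theorem add (hi0 : 0 < i) (hl : C.Lead h i x u) (hl' : C.Lead h i x' u') :
    C.Lead h i (x + x') (u + u') := by
  obtain ⟨huK, hu1, α, hα, hn⟩ := hl
  obtain ⟨huK', hu1', α', hα', hn'⟩ := hl'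
  refine ⟨C.K.add_mem huK huK',
    (IsUltrametricDist.norm_add_le_max _ _).trans (max_le hu1 hu1'), α * α',
    (hα.mul C.hζ.pow_eq_one hα').congr fun n _ => (C.psi_add h x x' n).symm,
    mul_aux hi0 hu1 hu1' hn hn'⟩

/-- Leading coefficients of a linear combination of Kummer homomorphisms. -/
theorem lin (hi0 : 0 < i) {h₁ h₂ : Gp p → k} {l₁ l₂ : k} {u₁ u₂ : PadicAlgCl p}
    (hl₁ : C.Lead h₁ i (l₁ * x) u₁) (hl₂ : C.Lead h₂ i (l₂ * x) u₂) :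
    C.Lead (fun n => l₁ * h₁ n + l₂ * h₂ n) i x (u₁ + u₂) := by
  obtain ⟨huK, hu1, α, hα, hn⟩ := hl₁
  obtain ⟨huK', hu1', α', hα', hn'⟩ := hl₂
  refine ⟨C.K.add_mem huK huK',
    (IsUltrametricDist.norm_add_le_max _ _).trans (max_le hu1 hu1'), α * α',
    (hα.mul C.hζ.pow_eq_one hα').congr fun n _ => (C.psi_lin h₁ h₂ l₁ l₂ x n).symm,
    mul_aux hi0 hu1 hu1' hn hn'⟩

theorem theta_mem_K (C : CoreCtx p k) (σ : Gp p) : σ C.ϖ / C.ϖ ∈ C.K := by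
  haveI := C.normalL
  exact C.K.div_mem (map_mem_kField C.hN σ C.lev.hϖK) C.lev.hϖK

/-- The action of inertia on leading coefficients. -/
theorem conj_inertia (hk : C.IsKum h) (hl : C.Lead h i x u) {σ : Gp p} (hσ : σ ∈ inertiaP p)
    (hσG : σ ∈ C.G₂) : C.Lead h i (C.lam σ * x) ((σ C.ϖ / C.ϖ) ^ i * u) := by
  obtain ⟨huK, hu1, α, hα, hn⟩ := hl
  haveI := C.normalL
  have ha := norm_le_of_lead hu1 hn
  have haK : α ^ p - 1 ∈ C.K := C.K.sub_mem (hα.pow_p_mem_kField C.hζ.pow_eq_one) C.K.one_mem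
  have hθn : ‖(σ C.ϖ / C.ϖ) ^ i‖ = 1 := by rw [norm_pow, C.lev.norm_theta, one_pow]
  refine ⟨C.K.mul_mem (pow_mem (theta_mem_K C σ) i) huK, ?_, σ α,
    (hα.conj C.hζ C.hN σ).congr fun n hn' => hk.psi_conj x hσG hn', ?_⟩
  · rw [norm_mul, hθn, one_mul]; exact hu1
  · have h1 : (σ α) ^ p - 1 - (σ C.ϖ / C.ϖ) ^ i * u * C.ϖ ^ i
        = (σ (α ^ p - 1) - (σ C.ϖ / C.ϖ) ^ i * (α ^ p - 1))
          + (σ C.ϖ / C.ϖ) ^ i * (α ^ p - 1 - u * C.ϖ ^ i) := by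
      rw [map_sub, map_pow, map_one]; ring
    rw [h1]
    refine (IsUltrametricDist.norm_add_le_max _ _).trans_lt (max_lt
      (C.lev.norm_map_sub_theta hσ haK ha) ?_)
    rw [norm_mul, hθn, one_mul]
    exact hn

/-- The action of (the square of) Frobenius on leading coefficients. -/
theorem conj_frob (hk : C.IsKum h) (hl : C.Lead h i x u) {Φ : Gp p} (hΦG : Φ ∈ C.G₂)
    (hΦ : ∀ a ∈ C.K, ‖a‖ ≤ 1 → ‖Φ a - a ^ (p ^ 2)‖ < 1) :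
    C.Lead h i (C.lam Φ * x) ((Φ C.ϖ / C.ϖ) ^ i * u ^ (p ^ 2)) := by
  obtain ⟨huK, hu1, α, hα, hn⟩ := hl
  haveI := C.normalL
  have hθn : ‖(Φ C.ϖ / C.ϖ) ^ i‖ = 1 := by rw [norm_pow, C.lev.norm_theta, one_pow]
  have hϖ0 : C.ϖ ≠ 0 := C.lev.ϖ_ne_zero
  refine ⟨C.K.mul_mem (pow_mem (theta_mem_K C Φ) i) (pow_mem huK _), ?_, Φ α,
    (hα.conj C.hζ C.hN Φ).congr fun n hn' => hk.psi_conj x hΦG hn', ?_⟩
  · rw [norm_mul, hθn, one_mul, norm_pow]; exact pow_le_one₀ (norm_nonneg _) hu1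
  · have h1 : (Φ α) ^ p - 1 - (Φ C.ϖ / C.ϖ) ^ i * u ^ (p ^ 2) * C.ϖ ^ i
        = Φ (α ^ p - 1 - u * C.ϖ ^ i) + (Φ u - u ^ (p ^ 2)) * (Φ C.ϖ) ^ i := by
      rw [map_sub, map_sub, map_pow, map_one, map_mul, map_pow, div_pow]
      field_simp
      ring
    rw [h1]
    refine (IsUltrametricDist.norm_add_le_max _ _).trans_lt (max_lt ?_ ?_)
    · rw [norm_gal]; exact hn
    · rw [norm_mul, norm_pow, norm_gal]
      calc ‖Φ u - u ^ (p ^ 2)‖ * ‖C.ϖ‖ ^ i < 1 * ‖C.ϖ‖ ^ i :=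
            mul_lt_mul_of_pos_right (hΦ u huK hu1) (C.lev.pow_pos' i)
        _ = ‖C.ϖ‖ ^ i := one_mul _

end Lead

end CoreCtx

end Fermat.Agent.S56.FL.H15

end
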