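import Fermat.Agent.S56.FL.H15_CC2Lead
import Fermat.Agent.S56.FL.H15_CC2Core
import Fermat.Agent.S56.FL.H15_CC2Defs2
import Fermat.Agent.S56.FL.H15_CC2Defs3

set_option autoImplicit false
set_option linter.style.haveILetI false
set_option linter.unusedSectionVars false

/-!
# LOC-p-FL, package UNITS / CC2 (helper15): assembly of `Stmt_CC2core`

`core_of` : `Stmt_CC2core` from the leaves `INERT`, `LEADCNT`, `TOP`, `ELL0`, `LEVX`, `PHI2`, `PE0`.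
-/

noncomputable section

namespace Fermat.Agent.S56.FL.H15

open scoped NNReal
open Fermat.Agent.S56.FL Fermat.Agent.Lib.LocalKummer Fermat.Agent.S56.FL.H85 Module

/-- Leaf **TOP**. -/
def Stmt_TOP : Prop :=
  ∀ (p : ℕ) [Fact p.Prime], p ≠ 2 → ∀ (k : Type) [Field k] [CharP k p] [Finite k]
    (C : CoreCtx p k) [FiniteDimensional ℚ_[p] C.L] (h : Gp p → k), C.IsKum h →
    ∀ σ₁ : Gp p, C.IsTameGen σ₁ → ∀ x : k, C.WitAt h x (‖C.ϖ‖ ^ (p * C.e₀)) →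
      ∀ n ∈ C.N, C.psi h x n = 0

/-- Leaf **ELL0**. -/
def Stmt_ELL0 : Prop :=
  ∀ (p : ℕ) [Fact p.Prime] (k : Type) [Field k] [Finite k] [CharP k p],
    ∃ ℓ₀ : k →+ ZMod p, (∀ (a : ZMod p) (x : k), ℓ₀ (cst p k a * x) = a * ℓ₀ x) ∧
      ∀ y : k, (∀ x : k, ℓ₀ (x * y) = 0) → y = 0

/-- Leaf **LEVX**. -/
def Stmt_LEVX : Prop :=
  ∀ (p : ℕ) [Fact p.Prime] (K : IntermediateField ℚ_[p] (PadicAlgCl p))
    [FiniteDimensional ℚ_[p] K] (ζ : PadicAlgCl p), ζ ∈ K → ζ ≠ 1 → ζ ^ p = 1 →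
    ∃ (ϖ : PadicAlgCl p) (e₀ : ℕ), LevCtx K ϖ ζ e₀

/-- Leaf **PHI2**. -/
def Stmt_PHI2 : Prop :=
  ∀ (p : ℕ) [Fact p.Prime] (K : IntermediateField ℚ_[p] (PadicAlgCl p))
    [FiniteDimensional ℚ_[p] K], Normal ℚ_[p] K →
    ∀ G₂ : Subgroup (Gp p), (∀ g : Gp p, g ^ 2 ∈ G₂) →
      ∃ Φ ∈ G₂, ∀ a ∈ K, ‖a‖ ≤ 1 → ‖Φ a - a ^ (p ^ 2)‖ < 1

/-- Leaf **PE0**. -/
def Stmt_PE0 : Prop :=
  ∀ (p : ℕ) [Fact p.Prime] (k : Type) [Field k] [CharP k p] (C : CoreCtx p k) (σ₁ : Gp p),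
    C.IsTameGen σ₁ → ¬ p ∣ C.e₀

theorem IsSpecial.unique {p e₀ i j : ℕ} (hi : IsSpecial p e₀ i) (hj : IsSpecial p e₀ j) :
    j = i := by
  obtain ⟨h1, h2⟩ := hi
  obtain ⟨h3, h4⟩ := hj
  have h5 : (j - (p - 1) * e₀) * (p + 1) = (i - (p - 1) * e₀) * (p + 1) := by rw [h2, h4]
  have h6 : j - (p - 1) * e₀ = i - (p - 1) * e₀ := Nat.eq_of_mul_eq_mul_right (by omega) h5
  omega

/-- **Assembly of the core.** -/
theorem core_of (hINERT : Stmt_INERT) (hLEADCNT : Stmt_LEADCNT) (hTOP : Stmt_TOP)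
    (hELL : Stmt_ELL0) (hLEVX : Stmt_LEVX) (hPHI : Stmt_PHI2) (hPE0 : Stmt_PE0) :
    Stmt_CC2core := by
  intro p _ hp2 k _ _ _ L _ hNL hbdd ζ hζ hζL G₂ N hI hsq hN hNG hNζ hexp χ hχ hχ1 hχI
    h₁ h₂ a1 a2 a3 b1 b2 b3
  obtain ⟨m, hm, hexp⟩ := hexp
  have hp : p.Prime := Fact.out
  haveI := hNL
  have hζK : ζ ∈ kField L N := mem_kField.mpr ⟨hζL, hNζ⟩
  obtain ⟨ϖ, e₀, hlev⟩ := hLEVX p (kField L N) ζ hζK (hζ.ne_one hp.one_lt) hζ.pow_eq_one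
  obtain ⟨ℓ₀, hℓ, hℓ0⟩ := hELL p k
  let C : CoreCtx p k :=
    { L := L, N := N, G₂ := G₂, ζ := ζ, ϖ := ϖ, e₀ := e₀, χ := χ, ℓ₀ := ℓ₀,
      fdL := inferInstance, normalL := hNL, hζ := hζ, hζL := hζL, hN := hN, hNG := hNG,
      hNζ := hNζ, lev := hlev, hχ := hχ, hχ1 := hχ1, hℓ := hℓ, hℓ0 := hℓ0 }
  haveI : FiniteDimensional ℚ_[p] C.L := (inferInstance : FiniteDimensional ℚ_[p] L)
  have hk₁ : C.IsKum h₁ := ⟨a1, a2, a3⟩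
  have hk₂ : C.IsKum h₂ := ⟨b1, b2, b3⟩
  have hKn : Normal ℚ_[p] (kField L N) := normal_kField hN
  obtain ⟨σ₁, hσ₁, hord⟩ := hINERT p (kField L N) hKn (not_dvd_finrank_kField hN hm hexp) ϖ
    hlev.hϖK hlev.hϖ0 hlev.hϖ1 hlev.hmax ((p - 1) * e₀) hlev.norm_pow_e
  have hg : C.IsTameGen σ₁ := ⟨hσ₁, hI hσ₁, hord, hχI σ₁ hσ₁⟩
  have hpe₀ : ¬ p ∣ e₀ := hPE0 p k C σ₁ hg
  have he₀ : 0 < e₀ := hlev.e₀_pos
  have hpe : p * e₀ = (p - 1) * e₀ + e₀ := by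
    obtain ⟨q, rfl⟩ : ∃ q, p = q + 1 := ⟨p - 1, by have := hp.two_le; omega⟩
    simp only [Nat.add_sub_cancel]; ring
  -- witnesses at the first level
  have hW0 : ∀ h : Gp p → k, C.IsKum h → ∀ x : k, C.WitAt h x (‖C.ϖ‖ ^ ((p - 1) * e₀)) := by
    intro h hk x
    obtain ⟨α, hα, hn⟩ := exists_wit_bdd hp2 hbdd hN hm hexp hζ hζL hNζ (C.psi h x)
      (fun n hn n' hn' => hk.psi_mul x hn hn') (fun n hn hnL => hk.psi_triv x hn hnL)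
    refine ⟨α, hα, ?_⟩
    rw [show ‖C.ϖ‖ ^ ((p - 1) * e₀) = (p : ℝ)⁻¹ from hlev.norm_pow_e]
    exact hn
  by_cases hsp : ∃ i, IsSpecial p e₀ i
  · obtain ⟨i, hsp⟩ := hsp
    have hilt : i < p * e₀ := hsp.lt hp he₀
    have hpi : ¬ p ∣ i := hsp.not_dvd hp hp2 hpe₀
    have hie : (p - 1) * e₀ ≤ i := hsp.1
    have hi0 : 0 < i := by
      rcases Nat.eq_zero_or_pos i with h0 | h0
      · exact absurd (h0 ▸ dvd_zero p) hpi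
      · exact h0
    have hW : ∀ h : Gp p → k, C.IsKum h → ∀ x : k, C.WitAt h x (‖C.ϖ‖ ^ i) := by
      intro h hk x
      refine CoreCtx.witAt_of_le hp2 hk hg (le_refl _) hie hilt.le ?_ (hW0 h hk x)
      intro j _ hj hjs
      have := hsp.unique hjs
      omega
    obtain ⟨Φ, hΦG, hΦ⟩ := hPHI p (kField L N) hKn G₂ hsq
    have hθK : (σ₁ ϖ / ϖ) ^ i ∈ kField L N := pow_mem (CoreCtx.Lead.theta_mem_K C σ₁) i
    have htK : (Φ ϖ / ϖ) ^ i ∈ kField L N := pow_mem (CoreCtx.Lead.theta_mem_K C Φ) i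
    have hθ1 : ‖(σ₁ ϖ / ϖ) ^ i‖ = 1 := by rw [norm_pow, hlev.norm_theta, one_pow]
    have ht1 : ‖(Φ ϖ / ϖ) ^ i‖ = 1 := by rw [norm_pow, hlev.norm_theta, one_pow]
    have hθp : ¬ ‖((σ₁ ϖ / ϖ) ^ i) ^ p - (σ₁ ϖ / ϖ) ^ i‖ < 1 := by
      intro hlt
      rw [← pow_mul] at hlt
      have h1 : i ≤ i * p := Nat.le_mul_of_pos_right i hp.pos
      have h2 := hg.dvd_sub h1 hlt
      have h3 : i * p - i = i * (p - 1) := by rw [Nat.mul_sub_one]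
      rw [h3] at h2
      exact hsp.not_dvd_mul hp he₀ h2
    obtain ⟨l₁, l₂, hl, hcnt⟩ := hLEADCNT p k (kField L N) (C.Lead h₁ i) (C.Lead h₂ i)
      (C.lam σ₁) (C.lam Φ) ((σ₁ ϖ / ϖ) ^ i) ((Φ ϖ / ϖ) ^ i) hθK hθ1 htK ht1 hθp
      (fun x u hl => hl.mem)
      (fun x => CoreCtx.Lead.exists_of_witAt (hW h₁ hk₁ x))
      (fun x u u' hl hl' => CoreCtx.Lead.unique hpi hilt hl hl')
      (fun x x' u u' hl hl' => CoreCtx.Lead.add hi0 hl hl')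
      (fun x u hl => CoreCtx.Lead.conj_inertia hk₁ hl hσ₁ (hI hσ₁))
      (fun x u hl => CoreCtx.Lead.conj_frob hk₁ hl hΦG hΦ)
      (fun x u hl => hl.mem)
      (fun x => CoreCtx.Lead.exists_of_witAt (hW h₂ hk₂ x))
      (fun x u u' hl hl' => CoreCtx.Lead.unique hpi hilt hl hl')
      (fun x x' u u' hl hl' => CoreCtx.Lead.add hi0 hl hl')
      (fun x u hl => CoreCtx.Lead.conj_inertia hk₂ hl hσ₁ (hI hσ₁))
      (fun x u hl => CoreCtx.Lead.conj_frob hk₂ hl hΦG hΦ)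
    refine ⟨l₁, l₂, hl, fun n hn => ?_⟩
    have hk := hk₁.lin hk₂ l₁ l₂
    refine C.eq_zero_of_psi (fun n => l₁ * h₁ n + l₂ * h₂ n) fun x => ?_
    obtain ⟨u₁, hu₁⟩ := CoreCtx.Lead.exists_of_witAt (hW h₁ hk₁ (l₁ * x))
    obtain ⟨u₂, hu₂⟩ := CoreCtx.Lead.exists_of_witAt (hW h₂ hk₂ (l₂ * x))
    have hsum := hcnt x u₁ u₂ hu₁ hu₂
    have hw1 := CoreCtx.Lead.witAt_succ (CoreCtx.Lead.lin hi0 hu₁ hu₂) hsum
    have hw2 : C.WitAt (fun n => l₁ * h₁ n + l₂ * h₂ n) x (‖C.ϖ‖ ^ (p * C.e₀)) := by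
      have hCe : C.e₀ = e₀ := rfl
      refine CoreCtx.witAt_of_le hp2 hk hg (by rw [hCe]; omega) (by rw [hCe]; omega)
        (le_refl _) ?_ hw1
      intro j hj _ hjs
      have := hsp.unique hjs
      omega
    exact hTOP p hp2 k C _ hk σ₁ hg x hw2 n hn
  · refine ⟨1, 0, Or.inl one_ne_zero, fun n hn => ?_⟩
    rw [one_mul, zero_mul, add_zero]
    refine C.eq_zero_of_psi h₁ fun x => ?_
    have hw2 : C.WitAt h₁ x (‖C.ϖ‖ ^ (p * C.e₀)) := by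
      have hCe : C.e₀ = e₀ := rfl
      refine CoreCtx.witAt_of_le hp2 hk₁ hg (le_refl _) (by rw [hCe]; omega) (le_refl _) ?_
        (hW0 h₁ hk₁ x)
      intro j _ _ hjs
      exact hsp ⟨j, hjs⟩
    exact hTOP p hp2 k C _ hk₁ σ₁ hg x hw2 n hn

end Fermat.Agent.S56.FL.H15

end
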