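import Fermat.Agent.S56.FL.H15_CC2Ctx
import Fermat.Agent.S56.FL.LF.H15_Twist

set_option autoImplicit false
set_option linter.style.haveILetI false
set_option linter.unusedSectionVars false

/-!
# LOC-p-FL, package UNITS / CC2 (helper15): the levels

`e' = (p-1) e₀`, levels `e' ≤ i ≤ p e₀`.  The special level is `i*` with `(i* - e')(p+1) = 2 e₀`.

* `CoreCtx.IsTameGen`            : a generator `σ₁` of the tame inertia of `K`.
* `CoreCtx.witAt_succ`           : one step `i → i+1` at a non special level `i < p e₀`.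
* `CoreCtx.witAt_of_le`          : from level `i₀` to level `i` if no special level is in between.
* `CoreCtx.psi_eq_zero_of_witAt` : a witness at the top level `p e₀` forces `ψ_x = 0` on `N`.
-/

noncomputable section

namespace Fermat.Agent.S56.FL.H15

open scoped NNReal
open Fermat.Agent.S56.FL Fermat.Agent.Lib.LocalKummer Fermat.Agent.S56.FL.H85 Module

/-- The special level `i*`: `(i* - e') (p + 1) = 2 e₀`, `e' = (p - 1) e₀`. -/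
def IsSpecial (p e₀ i : ℕ) : Prop := (p - 1) * e₀ ≤ i ∧ (i - (p - 1) * e₀) * (p + 1) = 2 * e₀

theorem isSpecial_of_dvd {p e₀ i : ℕ} (hp : p.Prime) (hp2 : p ≠ 2) (he₀ : 0 < e₀)
    (hie : (p - 1) * e₀ ≤ i) (hi : i < p * e₀)
    (hdvd : (p - 1) * e₀ ∣ (p + 1) / 2 * i - e₀) : IsSpecial p e₀ i := by
  obtain ⟨q, hq⟩ : ∃ q, p = 2 * q + 1 := by
    rcases hp.eq_two_or_odd' with h | h
    · exact absurd h hp2
    · obtain ⟨q, hq⟩ := h; exact ⟨q, hq⟩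
  have hq1 : 1 ≤ q := by
    have := hp.two_le; omega
  subst hq
  have h1 : (2 * q + 1 - 1) = 2 * q := by omega
  have h2 : (2 * q + 1 + 1) / 2 = q + 1 := by omega
  rw [h1] at hie hdvd
  rw [h2] at hdvd
  unfold IsSpecial
  rw [h1]
  refine ⟨hie, ?_⟩
  obtain ⟨i', rfl⟩ : ∃ i', i = 2 * q * e₀ + i' := ⟨i - 2 * q * e₀, by omega⟩
  have hi' : i' < e₀ := by
    have : (2 * q + 1) * e₀ = 2 * q * e₀ + e₀ := by ring
    omega
  rw [Nat.add_sub_cancel_left]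
  -- the integer `d = (q+1) i' - e₀`
  have hqe : e₀ ≤ 2 * q * e₀ := by nlinarith
  have hge : e₀ ≤ (q + 1) * (2 * q * e₀ + i') := by nlinarith
  have hd : ((2 * q * e₀ : ℕ) : ℤ) ∣ ((q + 1 : ℕ) : ℤ) * (i' : ℤ) - (e₀ : ℤ) := by
    have h3 : ((2 * q * e₀ : ℕ) : ℤ) ∣ (((q + 1) * (2 * q * e₀ + i') - e₀ : ℕ) : ℤ) :=
      Int.natCast_dvd_natCast.mpr hdvd
    rw [Nat.cast_sub hge] at h3
    have h4 : (((q + 1) * (2 * q * e₀ + i') : ℕ) : ℤ) - (e₀ : ℤ)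
        = ((q + 1 : ℕ) : ℤ) * (i' : ℤ) - (e₀ : ℤ) + ((2 * q * e₀ : ℕ) : ℤ) * ((q + 1 : ℕ) : ℤ) := by
      push_cast; ring
    rw [h4] at h3
    exact (Int.dvd_add_left (dvd_mul_right _ _)).mp h3
  have habs : |((q + 1 : ℕ) : ℤ) * (i' : ℤ) - (e₀ : ℤ)| < ((2 * q * e₀ : ℕ) : ℤ) := by
    rw [abs_lt]
    push_cast
    have hq1' : (1 : ℤ) ≤ q := by exact_mod_cast hq1
    have he₀' : (0 : ℤ) < e₀ := by exact_mod_cast he₀
    have hi'' : (i' : ℤ) < e₀ := by exact_mod_cast hi'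
    have hi0 : (0 : ℤ) ≤ i' := by positivity
    constructor <;> nlinarith
  have hzero := Int.eq_zero_of_abs_lt_dvd hd habs
  have hnat : (q + 1) * i' = e₀ := by
    have : ((q + 1 : ℕ) : ℤ) * (i' : ℤ) = (e₀ : ℤ) := by linarith
    exact_mod_cast this
  rw [← hnat]; ring

/-- `p ∤ i*`. -/
theorem IsSpecial.not_dvd {p e₀ i : ℕ} (hp : p.Prime) (hp2 : p ≠ 2) (hpe : ¬ p ∣ e₀)
    (h : IsSpecial p e₀ i) : ¬ p ∣ i := by
  obtain ⟨h1, h2⟩ := h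
  intro hdvd
  -- i (p+1) = e₀ (p^2+1)
  have hp1 : 1 ≤ p := hp.one_lt.le
  have h3 : i * (p + 1) = e₀ * (p * p + 1) := by
    have h4 : i = (i - (p - 1) * e₀) + (p - 1) * e₀ := by omega
    have h5 : (p - 1) * (p + 1) + 2 = p * p + 1 := by
      obtain ⟨q, rfl⟩ : ∃ q, p = q + 1 := ⟨p - 1, by omega⟩
      simp only [Nat.add_sub_cancel]; ring
    calc i * (p + 1) = ((i - (p - 1) * e₀) + (p - 1) * e₀) * (p + 1) := by rw [← h4]
      _ = (i - (p - 1) * e₀) * (p + 1) + e₀ * ((p - 1) * (p + 1)) := by ring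
      _ = 2 * e₀ + e₀ * ((p - 1) * (p + 1)) := by rw [h2]
      _ = e₀ * ((p - 1) * (p + 1) + 2) := by ring
      _ = e₀ * (p * p + 1) := by rw [h5]
  have h6 : p ∣ e₀ * (p * p + 1) := by
    rw [← h3]; exact Dvd.dvd.mul_right hdvd _
  rcases (Nat.Prime.dvd_mul hp).mp h6 with h7 | h7
  · exact hpe h7
  · have h8 : p ∣ 1 := (Nat.dvd_add_right (dvd_mul_right p p)).mp h7
    exact hp.one_lt.ne' (Nat.dvd_one.mp h8)

theorem IsSpecial.lt {p e₀ i : ℕ} (hp : p.Prime) (he₀ : 0 < e₀)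
    (h : IsSpecial p e₀ i) : i < p * e₀ := by
  obtain ⟨h1, h2⟩ := h
  have hp2 := hp.two_le
  have h3 : (i - (p - 1) * e₀) < e₀ := by
    by_contra hcon
    have h4 : e₀ ≤ i - (p - 1) * e₀ := not_lt.mp hcon
    have h5 : e₀ * (p + 1) ≤ (i - (p - 1) * e₀) * (p + 1) := Nat.mul_le_mul_right _ h4
    rw [h2] at h5
    nlinarith
  have h6 : p * e₀ = (p - 1) * e₀ + e₀ := by
    obtain ⟨q, rfl⟩ : ∃ q, p = q + 1 := ⟨p - 1, by omega⟩
    simp only [Nat.add_sub_cancel]; ring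
  omega

/-- `e' ∤ i* (p - 1)`. -/
theorem IsSpecial.not_dvd_mul {p e₀ i : ℕ} (hp : p.Prime) (he₀ : 0 < e₀)
    (h : IsSpecial p e₀ i) : ¬ (p - 1) * e₀ ∣ i * (p - 1) := by
  have hlt := h.lt hp he₀
  obtain ⟨h1, h2⟩ := h
  have hp2 := hp.two_le
  intro hdvd
  set i' := i - (p - 1) * e₀ with hi'
  have h4 : i = i' + (p - 1) * e₀ := by omega
  have h6 : p * e₀ = (p - 1) * e₀ + e₀ := by
    obtain ⟨q, rfl⟩ : ∃ q, p = q + 1 := ⟨p - 1, by omega⟩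
    simp only [Nat.add_sub_cancel]; ring
  have hi'lt : i' < e₀ := by omega
  have hi'pos : 0 < i' := by
    rcases Nat.eq_zero_or_pos i' with h0 | h0
    · rw [h0, zero_mul] at h2; omega
    · exact h0
  have h7 : i * (p - 1) = i' * (p - 1) + (p - 1) * e₀ * (p - 1) := by rw [h4]; ring
  rw [h7] at hdvd
  have h8 : (p - 1) * e₀ ∣ i' * (p - 1) := (Nat.dvd_add_left (dvd_mul_right _ _)).mp hdvd
  have h9 : i' * (p - 1) < (p - 1) * e₀ := by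
    have : 0 < p - 1 := by omega
    calc i' * (p - 1) < e₀ * (p - 1) := Nat.mul_lt_mul_of_pos_right hi'lt this
      _ = (p - 1) * e₀ := mul_comm _ _
  have h10 : 0 < i' * (p - 1) := Nat.mul_pos hi'pos (by omega)
  exact absurd (Nat.le_of_dvd h10 h8) (not_le.mpr h9)

variable {p : ℕ} [Fact p.Prime] {k : Type} [Field k] [CharP k p]

namespace CoreCtx

variable {C : CoreCtx p k}

/-- A generator of the tame inertia of `K`, compatible with `χ`. -/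
structure IsTameGen (C : CoreCtx p k) (σ₁ : Gp p) : Prop where
  inert : σ₁ ∈ inertiaP p
  memG : σ₁ ∈ C.G₂
  ord : ∀ n : ℕ, ‖(σ₁ C.ϖ / C.ϖ) ^ n - 1‖ < 1 ↔ (p - 1) * C.e₀ ∣ n
  lam : C.lam σ₁ ^ ((p + 1) / 2) = cst p k ((omg C.hζ σ₁ : (ZMod p)ˣ) : ZMod p)

theorem ζ_mem_K (C : CoreCtx p k) : C.ζ ∈ C.K := C.lev.hζK

/-- The twist `σ α / α^m` of a witness of `ψ_x` is a witness of `ψ_{(λ(σ) - m) x}`. -/
theorem twist_isWit {h : Gp p → k} (hk : C.IsKum h) {x : k} {α : PadicAlgCl p}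
    (hα : IsWit C.L C.N C.ζ (C.psi h x) α) {σ : Gp p} (hσG : σ ∈ C.G₂) (m : ℕ) :
    IsWit C.L C.N C.ζ (C.psi h ((C.lam σ - (m : k)) * x)) (σ α / α ^ m) := by
  haveI := C.normalL
  refine ((hα.conj C.hζ C.hN σ).div C.hζ.pow_eq_one (hα.pow C.hζ.pow_eq_one m)).congr ?_
  intro n hn
  rw [hk.psi_conj x hσG hn, ← C.psi_natCast h m x n, sub_mul, sub_eq_add_neg,
    sub_eq_add_neg, C.psi_add, C.psi_neg]

theorem twist_pow (σ : Gp p) (α : PadicAlgCl p) (m : ℕ) :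
    (σ α / α ^ m) ^ p = σ (α ^ p) / (α ^ p) ^ m := by
  rw [div_pow, map_pow, ← pow_mul, ← pow_mul, mul_comm m p]

theorem norm_div_sub_one {a b : PadicAlgCl p} (hb : ‖b‖ = 1) : ‖a / b - 1‖ = ‖a - b‖ := by
  have hb0 : b ≠ 0 := by
    intro h0; rw [h0, norm_zero] at hb; exact zero_ne_one hb
  have : a / b - 1 = (a - b) / b := by field_simp
  rw [this, norm_div, hb, div_one]

/-- **STEP-core.** -/
theorem step_core {h : Gp p → k} (hk : C.IsKum h) {x : k} {α : PadicAlgCl p}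
    (hα : IsWit C.L C.N C.ζ (C.psi h x) α) {i : ℕ} (hpi : ¬ p ∣ i) (hi : i < p * C.e₀)
    (hn : ‖α ^ p - 1‖ ≤ ‖C.ϖ‖ ^ i) {σ : Gp p} (hσ : σ ∈ inertiaP p) (hσG : σ ∈ C.G₂) {m : ℕ}
    (hm : C.lam σ = (m : k)) :
    ‖α ^ p - 1‖ < ‖C.ϖ‖ ^ i ∨ ‖(σ C.ϖ / C.ϖ) ^ i - (m : PadicAlgCl p)‖ < 1 := by
  have hi0 : 0 < i := by
    rcases Nat.eq_zero_or_pos i with h0 | h0
    · exact absurd (h0 ▸ dvd_zero p) hpi
    · exact h0
  have haK : α ^ p ∈ C.K := hα.pow_p_mem_kField C.hζ.pow_eq_one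
  have ha1 : ‖α ^ p‖ = 1 := norm_eq_one_of_sub_lt (hn.trans_lt (C.lev.pow_lt_one' hi0))
  have ham : ‖(α ^ p) ^ m‖ = 1 := by rw [norm_pow, ha1, one_pow]
  have hγ := twist_isWit hk hα hσG m
  rw [hm, sub_self, zero_mul] at hγ
  have hγK : σ α / α ^ m ∈ C.K := by
    refine hγ.mem_kField_of_zero fun n _ => ?_
    unfold psi; rw [zero_mul, map_zero]
  have hle : ‖(σ α / α ^ m) ^ p - 1‖ ≤ ‖C.ϖ‖ ^ i := by
    rw [twist_pow, norm_div_sub_one ham]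
    exact C.lev.norm_twist_le hn σ m
  have hlt := C.lev.lev1 hγK hpi hi hle
  rw [twist_pow, norm_div_sub_one ham] at hlt
  rcases lt_or_eq_of_le hn with h1 | h1
  · exact Or.inl h1
  · exact Or.inr (C.lev.norm_theta_sub_lt haK hi0 h1 hσ hlt)

/-- The twist of a witness at level `i` by `σ` with `θ_σ^i ≡ m` is a witness at level `i + 1`. -/
theorem twist_witAt {h : Gp p → k} (hk : C.IsKum h) {x : k} {i : ℕ} (hi : 0 < i)
    (hw : C.WitAt h x (‖C.ϖ‖ ^ i)) {σ : Gp p} (hσ : σ ∈ inertiaP p) (hσG : σ ∈ C.G₂) {m : ℕ}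
    (hθ : ‖(σ C.ϖ / C.ϖ) ^ i - (m : PadicAlgCl p)‖ < 1) :
    C.WitAt h ((C.lam σ - (m : k)) * x) (‖C.ϖ‖ ^ (i + 1)) := by
  obtain ⟨α, hα, hn⟩ := hw
  have haK : α ^ p ∈ C.K := hα.pow_p_mem_kField C.hζ.pow_eq_one
  have ha1 : ‖α ^ p‖ = 1 := norm_eq_one_of_sub_lt (hn.trans_lt (C.lev.pow_lt_one' hi))
  have ham : ‖(α ^ p) ^ m‖ = 1 := by rw [norm_pow, ha1, one_pow]
  have hγ := twist_isWit hk hα hσG m
  refine ⟨σ α / α ^ m, hγ, ?_⟩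
  have hγK : (σ α / α ^ m) ^ p - 1 ∈ C.K :=
    C.K.sub_mem (hγ.pow_p_mem_kField C.hζ.pow_eq_one) C.K.one_mem
  refine C.lev.le_pow_succ hγK ?_
  rw [twist_pow, norm_div_sub_one ham]
  exact C.lev.norm_twist_lt haK hi hn hσ hθ

/-- Above the top level all witnesses are trivial. -/
theorem psi_eq_zero_of_witAt_top [hfd : FiniteDimensional ℚ_[p] C.L] {h : Gp p → k} {x : k}
    (hw : C.WitAt h x (‖C.ϖ‖ ^ (p * C.e₀ + 1))) {n : Gp p} (hn : n ∈ C.N) : C.psi h x n = 0 := by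
  have hp : p.Prime := Fact.out
  obtain ⟨α, hα, hle⟩ := hw
  have haK : α ^ p ∈ C.K := hα.pow_p_mem_kField C.hζ.pow_eq_one
  obtain ⟨b, hbK, hb⟩ := C.lev.hens haK hle
  have hb0 : b ≠ 0 := by
    rintro rfl
    rw [zero_pow hp.ne_zero] at hb
    exact pow_ne_zero _ hα.ne_zero hb.symm
  have h1 : (α / b) ^ p = 1 := by rw [div_pow, hb, div_self (pow_ne_zero _ hα.ne_zero)]
  obtain ⟨j, -, hj⟩ := C.hζ.eq_pow_of_pow_eq_one h1
  have hαK : α ∈ C.K := by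
    have : α = C.ζ ^ j * b := by rw [hj]; field_simp
    rw [this]
    exact C.K.mul_mem (pow_mem C.ζ_mem_K j) hbK
  exact hα.zero_of_fixed C.hζ (fun n hn => (mem_kField.mp hαK).2 n hn) hn

/-! ## The steps -/

/-- `n₁ = ω(σ)` as a natural number. -/
def omN (C : CoreCtx p k) (σ : Gp p) : ℕ := ((omg C.hζ σ : (ZMod p)ˣ) : ZMod p).val

theorem cst_omg (C : CoreCtx p k) (σ : Gp p) :
    cst p k ((omg C.hζ σ : (ZMod p)ˣ) : ZMod p) = ((C.omN σ : ℕ) : k) := by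
  unfold omN
  rw [ZMod.natCast_val]
  rfl

theorem natCast_omN (C : CoreCtx p k) (σ : Gp p) :
    ((C.omN σ : ℕ) : ZMod p) = ((omg C.hζ σ : (ZMod p)ˣ) : ZMod p) := by
  unfold omN
  rw [ZMod.natCast_zmod_val]

theorem map_ζ (C : CoreCtx p k) (σ : Gp p) : σ C.ζ = C.ζ ^ C.omN σ := omg_spec C.hζ σ

/-- `ω = θ^{e₀}` for the tame generator. -/
theorem IsTameGen.norm_theta_e₀ {σ₁ : Gp p} (hg : C.IsTameGen σ₁) :
    ‖(σ₁ C.ϖ / C.ϖ) ^ C.e₀ - (C.omN σ₁ : PadicAlgCl p)‖ < 1 :=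
  C.lev.norm_theta_pow_sub hg.inert (C.map_ζ σ₁)

theorem norm_sub_lt_trans {a b c : PadicAlgCl p} (h1 : ‖a - b‖ < 1) (h2 : ‖b - c‖ < 1) :
    ‖a - c‖ < 1 := by
  have : a - c = (a - b) + (b - c) := by ring
  rw [this]
  exact (IsUltrametricDist.norm_add_le_max _ _).trans_lt (max_lt h1 h2)

/-- `θ₁^a ≡ θ₁^b` with `b ≤ a` implies `e' ∣ a - b`. -/
theorem IsTameGen.dvd_sub {σ₁ : Gp p} (hg : C.IsTameGen σ₁) {a b : ℕ} (hab : b ≤ a)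
    (h : ‖(σ₁ C.ϖ / C.ϖ) ^ a - (σ₁ C.ϖ / C.ϖ) ^ b‖ < 1) : (p - 1) * C.e₀ ∣ a - b := by
  rw [← hg.ord]
  have h1 : (σ₁ C.ϖ / C.ϖ) ^ a - (σ₁ C.ϖ / C.ϖ) ^ b
      = (σ₁ C.ϖ / C.ϖ) ^ b * ((σ₁ C.ϖ / C.ϖ) ^ (a - b) - 1) := by
    rw [mul_sub, mul_one, ← pow_add, Nat.add_sub_cancel' hab]
  rw [h1, norm_mul, norm_pow, C.lev.norm_theta σ₁, one_pow, one_mul] at h
  exact h

/-- If `θ_{σ₁^j}^i ≡ ω(σ₁)` then `e' ∣ j i - e₀`. -/
theorem IsTameGen.dvd_of_theta {σ₁ : Gp p} (hg : C.IsTameGen σ₁) {i j : ℕ} (hij : C.e₀ ≤ j * i)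
    (h : ‖((σ₁ ^ j) C.ϖ / C.ϖ) ^ i - (C.omN σ₁ : PadicAlgCl p)‖ < 1) :
    (p - 1) * C.e₀ ∣ j * i - C.e₀ := by
  refine hg.dvd_sub hij ?_
  have h1 : ‖((σ₁ ^ j) C.ϖ / C.ϖ) ^ i - (σ₁ C.ϖ / C.ϖ) ^ (j * i)‖ < 1 := by
    rw [pow_mul]
    refine (norm_pow_sub_pow_le_algCl (C.lev.norm_theta _).le ?_ i).trans_lt
      (C.lev.norm_theta_pow_pow_sub hg.inert j)
    rw [norm_pow, C.lev.norm_theta, one_pow]
  have h2 : ‖(σ₁ C.ϖ / C.ϖ) ^ (j * i) - ((σ₁ ^ j) C.ϖ / C.ϖ) ^ i‖ < 1 := by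
    rw [norm_sub_rev]; exact h1
  have h3 : ‖(C.omN σ₁ : PadicAlgCl p) - (σ₁ C.ϖ / C.ϖ) ^ C.e₀‖ < 1 := by
    rw [norm_sub_rev]; exact hg.norm_theta_e₀
  exact norm_sub_lt_trans (norm_sub_lt_trans h2 h) h3

theorem IsTameGen.lam_pow_half {σ₁ : Gp p} (hg : C.IsTameGen σ₁) :
    C.lam (σ₁ ^ ((p + 1) / 2)) = ((C.omN σ₁ : ℕ) : k) := by
  rw [C.lam_pow hg.memG, hg.lam, C.cst_omg]

/-- **STEP** at a level `i` prime to `p`, not special. -/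
theorem witAt_succ_of_not_dvd (hp2 : p ≠ 2) {h : Gp p → k} (hk : C.IsKum h) {σ₁ : Gp p}
    (hg : C.IsTameGen σ₁) {x : k} {i : ℕ} (hie : (p - 1) * C.e₀ ≤ i) (hi : i < p * C.e₀)
    (hpi : ¬ p ∣ i) (hsp : ¬ IsSpecial p C.e₀ i) (hw : C.WitAt h x (‖C.ϖ‖ ^ i)) :
    C.WitAt h x (‖C.ϖ‖ ^ (i + 1)) := by
  have hp : p.Prime := Fact.out
  obtain ⟨α, hα, hn⟩ := hw
  have haK : α ^ p - 1 ∈ C.K := C.K.sub_mem (hα.pow_p_mem_kField C.hζ.pow_eq_one) C.K.one_mem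
  have hσ : σ₁ ^ ((p + 1) / 2) ∈ inertiaP p := (inertiaP p).pow_mem hg.inert _
  have hσG : σ₁ ^ ((p + 1) / 2) ∈ C.G₂ := C.G₂.pow_mem hg.memG _
  rcases step_core hk hα hpi hi hn hσ hσG hg.lam_pow_half with h1 | h1
  · exact ⟨α, hα, C.lev.le_pow_succ haK h1⟩
  · exfalso
    have he₀ : 0 < C.e₀ := C.lev.e₀_pos
    have hj : 1 ≤ (p + 1) / 2 := by have := hp.two_le; omega
    have hp1 : 1 ≤ p - 1 := by have := hp.two_le; omega
    have hij : C.e₀ ≤ (p + 1) / 2 * i := by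
      calc C.e₀ = 1 * C.e₀ := (one_mul _).symm
        _ ≤ (p - 1) * C.e₀ := Nat.mul_le_mul_right _ hp1
        _ ≤ i := hie
        _ = 1 * i := (one_mul _).symm
        _ ≤ (p + 1) / 2 * i := Nat.mul_le_mul_right _ hj
    exact hsp (isSpecial_of_dvd hp hp2 he₀ hie hi (hg.dvd_of_theta hij h1))

/-- **STEP'** at a level `i` divisible by `p`. -/
theorem witAt_succ_of_dvd [FiniteDimensional ℚ_[p] C.L] {h : Gp p → k} {x : k} {i : ℕ}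
    (hi0 : 0 < i) (hi : i < p * C.e₀) (hpi : p ∣ i) (hw : C.WitAt h x (‖C.ϖ‖ ^ i)) :
    C.WitAt h x (‖C.ϖ‖ ^ (i + 1)) := by
  obtain ⟨α, hα, hn⟩ := hw
  have haK : α ^ p ∈ C.K := hα.pow_p_mem_kField C.hζ.pow_eq_one
  obtain ⟨b, hbK, hb0, hb⟩ := C.lev.lev3 haK hpi hi0 hi hn
  refine ⟨α * b, (hα.mul C.hζ.pow_eq_one (isWit_of_mem_kField hbK hb0)).congr
    fun n _ => by simp, ?_⟩
  rw [mul_pow]
  exact C.lev.le_pow_succ (C.K.sub_mem (C.K.mul_mem haK (pow_mem hbK p)) C.K.one_mem) hb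

/-- From level `i₀` to level `i` when no special level lies in `[i₀, i)`. -/
theorem witAt_of_le (hp2 : p ≠ 2) [FiniteDimensional ℚ_[p] C.L] {h : Gp p → k} (hk : C.IsKum h)
    {σ₁ : Gp p} (hg : C.IsTameGen σ₁) {x : k} {i₀ i : ℕ} (h0 : (p - 1) * C.e₀ ≤ i₀)
    (h01 : i₀ ≤ i) (hi : i ≤ p * C.e₀)
    (hns : ∀ j, i₀ ≤ j → j < i → ¬ IsSpecial p C.e₀ j) (hw : C.WitAt h x (‖C.ϖ‖ ^ i₀)) :
    C.WitAt h x (‖C.ϖ‖ ^ i) := by
  have hp : p.Prime := Fact.out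
  have he' : 0 < (p - 1) * C.e₀ :=
    Nat.mul_pos (by have := hp.two_le; omega) C.lev.e₀_pos
  induction i, h01 using Nat.le_induction with
  | base => exact hw
  | succ j hj ih =>
    have hwj := ih (by omega) (fun l hl1 hl2 => hns l hl1 (by omega))
    by_cases hpj : p ∣ j
    · exact witAt_succ_of_dvd (by omega) (by omega) hpj hwj
    · exact witAt_succ_of_not_dvd hp2 hk hg (by omega) (by omega) hpj
        (hns j hj (by omega)) hwj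

end CoreCtx

end Fermat.Agent.S56.FL.H15

end
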