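import Fermat.Agent.S56.FL.H85_CCBase
import Fermat.Agent.S56.FL.H38_CC0
import Fermat.Agent.Lib.LocalKummer.Resolvent
import Fermat.Agent.S56.FL.LF.H15_Theta

set_option autoImplicit false
set_option linter.style.haveILetI false
set_option linter.unusedSectionVars false

/-!
# LOC-p-FL, package UNITS / CC2 (helper15): Kummer witnesses

`L/ℚ_p` finite Galois, `N ≤ Gal(K̄/ℚ_p)` a normal subgroup fixing `ζ` (a primitive `p`-th root of
unity), `ψ : N → ℤ/p`.  A *witness* of `ψ` is `α ∈ Lˣ` with `n α = ζ^{ψ n} α` for all `n ∈ N`.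

* `IsWit L N ζ ψ α` and its calculus (`mul`, `div`, `pow`, `conj`).
* `IsWit.zero_of_fixed` : if a witness is fixed by `N` then `ψ = 0` on `N`.
-/

noncomputable section

namespace Fermat.Agent.S56.FL.H15

open scoped NNReal
open Fermat.Agent.S56.FL Fermat.Agent.Lib.LocalKummer Fermat.Agent.S56.FL.H85

variable {p : ℕ} [Fact p.Prime]

/-- `α ∈ Lˣ` is a Kummer witness of `ψ` on `N`. -/
def IsWit (L : IntermediateField ℚ_[p] (PadicAlgCl p)) (N : Subgroup (Gp p)) (ζ : PadicAlgCl p)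
    (ψ : Gp p → ZMod p) (α : PadicAlgCl p) : Prop :=
  α ∈ L ∧ α ≠ 0 ∧ ∀ n ∈ N, n α = zpowZ ζ (ψ n) * α

variable {L : IntermediateField ℚ_[p] (PadicAlgCl p)} {N : Subgroup (Gp p)} {ζ : PadicAlgCl p}
  {ψ ψ' : Gp p → ZMod p} {α α' : PadicAlgCl p}

namespace IsWit

theorem mem (h : IsWit L N ζ ψ α) : α ∈ L := h.1

theorem ne_zero (h : IsWit L N ζ ψ α) : α ≠ 0 := h.2.1

theorem map (h : IsWit L N ζ ψ α) {n : Gp p} (hn : n ∈ N) : n α = zpowZ ζ (ψ n) * α := h.2.2 n hn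

theorem one (L : IntermediateField ℚ_[p] (PadicAlgCl p)) (N : Subgroup (Gp p))
    (ζ : PadicAlgCl p) : IsWit L N ζ (fun _ => 0) 1 :=
  ⟨L.one_mem, one_ne_zero, fun n _ => by rw [map_one, zpowZ_zero, one_mul]⟩

theorem congr (h : IsWit L N ζ ψ α) (hψ : ∀ n ∈ N, ψ n = ψ' n) : IsWit L N ζ ψ' α :=
  ⟨h.1, h.2.1, fun n hn => by rw [← hψ n hn]; exact h.2.2 n hn⟩

theorem mul (hζ : ζ ^ p = 1) (h : IsWit L N ζ ψ α) (h' : IsWit L N ζ ψ' α') :
    IsWit L N ζ (fun n => ψ n + ψ' n) (α * α') := by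
  refine ⟨L.mul_mem h.1 h'.1, mul_ne_zero h.2.1 h'.2.1, fun n hn => ?_⟩
  rw [map_mul, h.2.2 n hn, h'.2.2 n hn, zpowZ_add hζ]
  ring

theorem inv (hζ : ζ ^ p = 1) (h : IsWit L N ζ ψ α) : IsWit L N ζ (fun n => -ψ n) α⁻¹ := by
  refine ⟨L.inv_mem h.1, inv_ne_zero h.2.1, fun n hn => ?_⟩
  have h1 : zpowZ ζ (-ψ n) * zpowZ ζ (ψ n) = 1 := by
    rw [← zpowZ_add hζ, neg_add_cancel, zpowZ_zero]
  have h0 : zpowZ ζ (ψ n) ≠ 0 := zpowZ_ne_zero hζ _
  rw [map_inv₀, h.2.2 n hn, mul_inv, eq_comm]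
  congr 1
  exact eq_inv_of_mul_eq_one_left h1

theorem div (hζ : ζ ^ p = 1) (h : IsWit L N ζ ψ α) (h' : IsWit L N ζ ψ' α') :
    IsWit L N ζ (fun n => ψ n - ψ' n) (α / α') := by
  have := h.mul hζ (h'.inv hζ)
  rw [← div_eq_mul_inv] at this
  exact this.congr fun n _ => by ring

theorem pow (hζ : ζ ^ p = 1) (h : IsWit L N ζ ψ α) (m : ℕ) :
    IsWit L N ζ (fun n => (m : ZMod p) * ψ n) (α ^ m) := by
  induction m with
  | zero =>
    rw [pow_zero]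
    exact (IsWit.one L N ζ).congr fun n _ => by simp
  | succ m ih =>
    rw [pow_succ]
    exact (ih.mul hζ h).congr fun n _ => by push_cast; ring

/-- Conjugation of a witness by an element of the Galois group. -/
theorem conj (hζ : IsPrimitiveRoot ζ p) [Normal ℚ_[p] L] (hN : N.Normal)
    (h : IsWit L N ζ ψ α) (σ : Gp p) :
    IsWit L N ζ (fun n => ((omg hζ σ : (ZMod p)ˣ) : ZMod p) * ψ (σ⁻¹ * n * σ)) (σ α) := by
  refine ⟨?_, ?_, fun n hn => ?_⟩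
  · have := H38.resL_apply σ (⟨α, h.1⟩ : L)
    rw [← this]
    exact (H38.resL L σ ⟨α, h.1⟩).2
  · intro h0
    exact h.2.1 ((map_eq_zero_iff σ σ.injective).mp h0)
  · have hconj : σ⁻¹ * n * σ ∈ N := by
      have := hN.conj_mem n hn σ⁻¹
      rwa [inv_inv] at this
    have h1 : n (σ α) = σ ((σ⁻¹ * n * σ) α) := by
      have : σ * (σ⁻¹ * n * σ) = n * σ := by group
      rw [← AlgEquiv.mul_apply, ← AlgEquiv.mul_apply, this]
    rw [h1, h.2.2 _ hconj, map_mul, omg_zpowZ hζ]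

theorem pow_p_fixed (hζ : ζ ^ p = 1) (h : IsWit L N ζ ψ α) {n : Gp p} (hn : n ∈ N) :
    n (α ^ p) = α ^ p := by
  rw [map_pow, h.2.2 n hn, mul_pow, zpowZ_pow ζ hζ, one_mul]

theorem fixed_of_zero (h : IsWit L N ζ ψ α) (hψ : ∀ n ∈ N, ψ n = 0) {n : Gp p} (hn : n ∈ N) :
    n α = α := by
  rw [h.2.2 n hn, hψ n hn, zpowZ_zero, one_mul]

theorem zero_of_fixed (hζ : IsPrimitiveRoot ζ p) (h : IsWit L N ζ ψ α)
    (hα : ∀ n ∈ N, n α = α) {n : Gp p} (hn : n ∈ N) : ψ n = 0 := by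
  have h1 := h.2.2 n hn
  rw [hα n hn] at h1
  have h2 : zpowZ ζ (ψ n) = 1 := by
    have h3 : (zpowZ ζ (ψ n) - 1) * α = 0 := by rw [sub_mul, one_mul, ← h1, sub_self]
    rcases mul_eq_zero.mp h3 with h4 | h4
    · exact sub_eq_zero.mp h4
    · exact absurd h4 h.2.1
  exact (zpowZ_eq_one_iff hζ _).mp h2

end IsWit

end Fermat.Agent.S56.FL.H15

end
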