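import Fermat.Agent.S56.FL.H50_Final1
import Fermat.Agent.S56.FL.H15_CC2Final

set_option autoImplicit false

/-!
# LOC-p-FL (item 69): the leaf `Stmt_loc_p_Fl` of S56, unconditional

`stmt_loc_p_Fl : Stmt_loc_p_Fl` from helper50's assembly `H50.stmt_loc_p_Fl_of_core` and
`H15.stmt_CC2core`.
-/

namespace Fermat.Agent.S56.FL.H15

open Fermat.Agent.S56 Fermat.Agent.S56.FL

/-- **LOC-p-FL**: flat at `p`: `dim L_p ≤ h⁰ + 1`. -/
theorem stmt_loc_p_Fl : Stmt_loc_p_Fl := H50.stmt_loc_p_Fl_of_core stmt_CC2core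

end Fermat.Agent.S56.FL.H15
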