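import Fermat.Agent.S56.FL.H85_CCDefs

set_option autoImplicit false

/-!
# LOC-p-FL, package UNITS / CC3z (helper59): self-contained sub-leaves

`Stmt_CC3z` is proved in `FL/H59_CC3*.lean` from `H85.kumbdd_core`, `H50.tame_char_omg` and the
leaves below.  They are statements on the field `S = ℚ_p^{ur}(ζ_p)`, given as the predicate
`InS p x`: "`x` is fixed by every element of inertia which fixes `μ_p`".  Write `θ = ‖ζ_p - 1‖`,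
`θ^{p-1} = p⁻¹`; a bound `‖x‖ ≤ θ^j` is written `‖x‖^{p-1} ≤ p^{-j}`.

* `Stmt_N2`      : `S` has ramification index `p - 1`: `‖x‖ < 1 → ‖x‖ ≤ θ`.
* `Stmt_LevC`    : inertia acts trivially on `U^{(p-1)}/U^{(p)}`.
* `Stmt_LevD`    : inertia acts through `ω` on `U^{(p)}/U^{(p+1)}`.
* `Stmt_HenselF` : `U^{(>p)}` consists of `p`-th powers (field form of `Stmt_LIFT_b`).
-/

noncomputable section

namespace Fermat.Agent.S56.FL.H59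

open Fermat.Agent.S56.FL

/-- `x ∈ ℚ_p^{ur}(ζ_p)`: fixed by the elements of inertia fixing `μ_p`. -/
def InS (p : ℕ) [Fact p.Prime] (x : PadicAlgCl p) : Prop :=
  ∀ τ ∈ inertiaP p, (∀ ζ : PadicAlgCl p, ζ ^ p = 1 → τ ζ = ζ) → τ x = x

/-- **N2.**  Proof: choose `τ_u ∈ I` with `ω(τ_u) = u` for `u ∈ (ℤ/p)ˣ` (`H50.stmt_CycSurj`);
`y = ∏_u τ_u x` is fixed by inertia (`τ τ_u x = τ_{ω(τ) u} x`), so `‖x‖^{p-1} = ‖y‖ ≤ p⁻¹`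
(`H38.norm_le_inv_of_fixed`). -/
def Stmt_N2 : Prop :=
  ∀ (p : ℕ) [Fact p.Prime] (x : PadicAlgCl p), InS p x → ‖x‖ < 1 →
    ‖x‖ ^ (p - 1) ≤ (p : ℝ)⁻¹

/-- **LevC.**  Proof: `a - 1 = p y`, `y ∈ S` integral, `g a - a = p (g y - y)`,
`‖g y - y‖ < 1`, `g y - y ∈ S` (inertia ∩ ker ω is normal), so `‖g y - y‖ ≤ θ` by `N2`. -/
def Stmt_LevC : Prop :=
  ∀ (p : ℕ) [Fact p.Prime] (a : PadicAlgCl p), InS p a → ‖a - 1‖ ≤ (p : ℝ)⁻¹ →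
    ∀ g ∈ inertiaP p, ‖g a / a - 1‖ ^ (p - 1) ≤ ((p : ℝ)⁻¹) ^ p

/-- **LevD.**  Proof: `π = ζ - 1`, `a - 1 = π^p y`, `y ∈ S` integral; `g π = (1+π)^n - 1`,
`‖g π - n π‖ ≤ θ²`, `‖(g π)^p - n π^p‖ ≤ θ^{p+1}` (`n^p ≡ n mod p`), `‖g y - y‖ ≤ θ` (`N2`), so
`‖g a - 1 - n π^p y‖ ≤ θ^{p+1}`; and `‖a^n - 1 - n π^p y‖ ≤ θ^{2p}`. -/
def Stmt_LevD : Prop :=
  ∀ (p : ℕ) [Fact p.Prime], p ≠ 2 → ∀ (a : PadicAlgCl p), InS p a →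
    ‖a - 1‖ ^ (p - 1) ≤ ((p : ℝ)⁻¹) ^ p →
    ∀ g ∈ inertiaP p, ∀ n : ℕ, (∀ ζ : PadicAlgCl p, ζ ^ p = 1 → g ζ = ζ ^ n) →
      ‖g a / a ^ n - 1‖ ^ (p - 1) ≤ ((p : ℝ)⁻¹) ^ (p + 1)

/-- **HenselF.**  `Stmt_LIFT_b` for `C = 𝒪_F`. -/
def Stmt_HenselF : Prop :=
  ∀ (p : ℕ) [Fact p.Prime] (F : IntermediateField ℚ_[p] (PadicAlgCl p))
    [FiniteDimensional ℚ_[p] F] (y : PadicAlgCl p), y ∈ F →
    ‖y‖ ^ (p - 1) < ((p : ℝ)⁻¹) ^ p → ∃ z ∈ F, (1 + z) ^ p = 1 + y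

end Fermat.Agent.S56.FL.H59

end
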