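import Fermat.Agent.S56.FL.H38_CC0
import Fermat.Agent.S56.FL.H50_CycloInertia
import Fermat.Agent.S56.FL.H85_CCBase
import Fermat.Agent.S56.FL.H59_CC3Defs
import Fermat.Agent.S56.FL.H59_KumNorm

set_option autoImplicit false

/-!
# LOC-p-FL, CC3z leaves N2, LevC, LevD (helper38)

Local-field facts on `S = ℚ_p^{ur}(ζ_p)` (`H59.InS`): `θ = ‖ζ - 1‖`, `θ ^ (p - 1) = p⁻¹`.

* `stmt_N2`   : `x ∈ S`, `‖x‖ < 1 ⟹ ‖x‖ ≤ θ`.
* `stmt_LevC` : inertia acts trivially on `U^{(p-1)}/U^{(p)}`.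
* `stmt_LevD` : inertia acts through `ω` on `U^{(p)}/U^{(p+1)}`.
-/

noncomputable section

namespace Fermat.Agent.S56.FL.H38

open scoped NNReal
open Fermat.Agent.S56.FL Polynomial Module

variable {p : ℕ} [Fact p.Prime]

/-! ## The field `S` -/

theorem inS_sub {x y : PadicAlgCl p} (hx : H59.InS p x) (hy : H59.InS p y) :
    H59.InS p (x - y) := by
  intro τ hτ h
  rw [map_sub, hx τ hτ h, hy τ hτ h]

theorem inS_mul {x y : PadicAlgCl p} (hx : H59.InS p x) (hy : H59.InS p y) :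
    H59.InS p (x * y) := by
  intro τ hτ h
  rw [map_mul, hx τ hτ h, hy τ hτ h]

theorem inS_div {x y : PadicAlgCl p} (hx : H59.InS p x) (hy : H59.InS p y) :
    H59.InS p (x / y) := by
  intro τ hτ h
  rw [map_div₀, hx τ hτ h, hy τ hτ h]

theorem inS_pow {x : PadicAlgCl p} (hx : H59.InS p x) (n : ℕ) : H59.InS p (x ^ n) := by
  intro τ hτ h
  rw [map_pow, hx τ hτ h]

theorem inS_one : H59.InS p (1 : PadicAlgCl p) := fun τ _ _ => map_one τ

theorem inS_natCast (n : ℕ) : H59.InS p (n : PadicAlgCl p) := fun τ _ _ => map_natCast τ n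

theorem inS_zeta {ζ : PadicAlgCl p} (hζ : ζ ^ p = 1) : H59.InS p ζ := fun _ _ h => h ζ hζ

/-- `S` is stable under `Gal(K̄/ℚ_p)`. -/
theorem inS_map {x : PadicAlgCl p} (hx : H59.InS p x) (g : Gp p) : H59.InS p (g x) := by
  intro τ hτ h
  have h1 : g⁻¹ * τ * g ∈ inertiaP p := by
    have := inertiaP_normal.conj_mem τ hτ g⁻¹
    rwa [inv_inv] at this
  have h2 : ∀ ζ : PadicAlgCl p, ζ ^ p = 1 → (g⁻¹ * τ * g) ζ = ζ := by
    intro ζ hζ
    have h3 : (g ζ) ^ p = 1 := by rw [← map_pow, hζ, map_one]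
    rw [AlgEquiv.mul_apply, AlgEquiv.mul_apply, h (g ζ) h3, ← AlgEquiv.mul_apply, inv_mul_cancel,
      AlgEquiv.one_apply]
  have h4 := hx _ h1 h2
  rw [AlgEquiv.mul_apply, AlgEquiv.mul_apply] at h4
  have h5 := congrArg g h4
  rwa [← AlgEquiv.mul_apply g g⁻¹, mul_inv_cancel, AlgEquiv.one_apply] at h5

/-! ## N2 -/

/-- **N2**: `H59.Stmt_N2`. -/
theorem stmt_N2 : H59.Stmt_N2 := by
  intro p _ x hx hx1
  have hp : p.Prime := Fact.out
  obtain ⟨ζ, hζ1, hζp⟩ := H15.exists_zeta (p := p)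
  have hprim : IsPrimitiveRoot ζ p := by
    rw [IsPrimitiveRoot.iff_orderOf]
    exact orderOf_eq_prime hζp hζ1
  have hex : ∀ u : (ZMod p)ˣ, ∃ τ ∈ inertiaP p, H85.omg hprim τ = u := by
    intro u
    have hu : ¬ p ∣ (u : ZMod p).val := by
      intro hdvd
      have := (ZMod.natCast_eq_zero_iff _ _).mpr hdvd
      rw [ZMod.natCast_zmod_val] at this
      exact u.ne_zero this
    obtain ⟨τ, hτ, hτζ⟩ := H50.exists_inertia_pow (p := p) hu
    refine ⟨τ, hτ, ?_⟩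
    have h3 := hτζ ζ hprim.pow_eq_one
    rw [H85.omg_spec hprim, H85.pow_eq_iff_natCast_eq hprim, ZMod.natCast_zmod_val,
      ZMod.natCast_zmod_val] at h3
    exact Units.ext h3
  choose T hTI hTω using hex
  set y : PadicAlgCl p := ∏ u : (ZMod p)ˣ, T u x with hy
  have hcard : Fintype.card (ZMod p)ˣ = p - 1 := by
    rw [ZMod.card_units_eq_totient, Nat.totient_prime hp]
  have hy_norm : ‖y‖ = ‖x‖ ^ (p - 1) := by
    rw [hy, norm_prod]
    simp only [norm_gal]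
    rw [Finset.prod_const, Finset.card_univ, hcard]
  have hfix : ∀ τ ∈ inertiaP p, τ y = y := by
    intro τ hτ
    have key : ∀ u : (ZMod p)ˣ, τ (T u x) = T (H85.omg hprim τ * u) x := by
      intro u
      set v : (ZMod p)ˣ := H85.omg hprim τ * u with hv
      have h1 : (T v)⁻¹ * τ * T u ∈ inertiaP p :=
        (inertiaP p).mul_mem ((inertiaP p).mul_mem ((inertiaP p).inv_mem (hTI v)) hτ) (hTI u)
      have h2 : H85.omg hprim ((T v)⁻¹ * τ * T u) = 1 := by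
        rw [map_mul, map_mul, map_inv, hTω, hTω, hv]
        group
      have h3 : ∀ ξ : PadicAlgCl p, ξ ^ p = 1 → ((T v)⁻¹ * τ * T u) ξ = ξ := by
        intro ξ hξ
        rw [H85.omg_spec' hprim _ hξ, h2, Units.val_one, ZMod.val_one'' hp.ne_one, pow_one]
      have h4 := hx _ h1 h3
      rw [AlgEquiv.mul_apply, AlgEquiv.mul_apply] at h4
      have h5 := congrArg (T v) h4
      rwa [← AlgEquiv.mul_apply (T v) (T v)⁻¹, mul_inv_cancel, AlgEquiv.one_apply] at h5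
    rw [hy, map_prod, Finset.prod_congr rfl (fun u _ => key u)]
    exact Fintype.prod_equiv (Equiv.mulLeft (H85.omg hprim τ)) _ _ (fun u => rfl)
  have hp1 : p - 1 ≠ 0 := by have := hp.two_le; omega
  have hy1 : ‖y‖ < 1 := by
    rw [hy_norm]
    exact pow_lt_one₀ (norm_nonneg _) hx1 hp1
  have := norm_le_inv_of_fixed hfix hy1
  rwa [hy_norm] at this

/-! ## LevC, LevD -/

/-- `‖(1 + w) ^ n - 1 - n w‖ ≤ ‖w‖ ^ 2` for an integer `w` of `K̄`. -/
theorem norm_one_add_pow_sub_le_sq {w : PadicAlgCl p} (hw : ‖w‖ ≤ 1) (n : ℕ) :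
    ‖(1 + w) ^ n - 1 - n * w‖ ≤ ‖w‖ ^ 2 := by
  have h1w : ‖1 + w‖ ≤ 1 :=
    (IsUltrametricDist.norm_add_le_max _ _).trans (max_le (by rw [norm_one]) hw)
  induction n with
  | zero => simp
  | succ n ih =>
    have h : (1 + w) ^ (n + 1) - 1 - ((n + 1 : ℕ) : PadicAlgCl p) * w
        = (1 + w) * ((1 + w) ^ n - 1 - n * w) + n * w ^ 2 := by
      push_cast
      ring
    rw [h]
    refine (IsUltrametricDist.norm_add_le_max _ _).trans (max_le ?_ ?_)
    · rw [norm_mul]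
      calc ‖1 + w‖ * ‖(1 + w) ^ n - 1 - n * w‖ ≤ 1 * ‖w‖ ^ 2 :=
            mul_le_mul h1w ih (norm_nonneg _) zero_le_one
        _ = ‖w‖ ^ 2 := one_mul _
    · rw [norm_mul, norm_pow]
      calc ‖(n : PadicAlgCl p)‖ * ‖w‖ ^ 2 ≤ 1 * ‖w‖ ^ 2 :=
            mul_le_mul_of_nonneg_right (norm_natCast_algCl_le_one n) (by positivity)
        _ = ‖w‖ ^ 2 := one_mul _

theorem pred_ne_zero : p - 1 ≠ 0 := by
  have := (Fact.out : p.Prime).two_le
  omega

/-- `N2` in terms of `θ = ‖ζ - 1‖`. -/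
theorem norm_le_theta {ζ : PadicAlgCl p} (hζ1 : ζ ≠ 1) (hζp : ζ ^ p = 1) {x : PadicAlgCl p}
    (hx : H59.InS p x) (hx1 : ‖x‖ < 1) : ‖x‖ ≤ ‖ζ - 1‖ := by
  have h := stmt_N2 p x hx hx1
  rw [← H15.norm_zeta_sub_one hζ1 hζp] at h
  exact le_of_pow_le_pow_left₀ pred_ne_zero (norm_nonneg _) h

theorem norm_eq_one_of_sub_one_lt {a : PadicAlgCl p} (h : ‖a - 1‖ < 1) : ‖a‖ = 1 := by
  have h1 : a = 1 + (a - 1) := by ring
  rw [h1, H15.norm_add_eq_left (by rwa [norm_one]), norm_one]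

theorem natCast_p_ne_zero : (p : PadicAlgCl p) ≠ 0 := by
  intro h
  have := H15.norm_p_algCl (p := p)
  rw [h, norm_zero] at this
  have h2 : (0 : ℝ) < (p : ℝ)⁻¹ := inv_pos.mpr H15.p_pos_real
  linarith

/-- **LevC**: `H59.Stmt_LevC`. -/
theorem stmt_LevC : H59.Stmt_LevC := by
  intro p _ a ha ha1 g hg
  have hp : p.Prime := Fact.out
  have hpR : (1 : ℝ) < p := H15.one_lt_p_real
  have hp0 : (0 : ℝ) < p := H15.p_pos_real
  have hpinv1 : (p : ℝ)⁻¹ < 1 := inv_lt_one_of_one_lt₀ hpR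
  have hpK : (p : PadicAlgCl p) ≠ 0 := natCast_p_ne_zero
  have hnp : ‖(p : PadicAlgCl p)‖ = (p : ℝ)⁻¹ := H15.norm_p_algCl
  have ha_norm : ‖a‖ = 1 := norm_eq_one_of_sub_one_lt (ha1.trans_lt hpinv1)
  have ha0 : a ≠ 0 := by
    intro h
    rw [h, norm_zero] at ha_norm
    exact zero_ne_one ha_norm
  set y : PadicAlgCl p := (a - 1) / p with hy
  have hy_norm : ‖y‖ ≤ 1 := by
    rw [hy, norm_div, hnp]
    exact div_le_one_of_le₀ ha1 (inv_nonneg.mpr hp0.le)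
  have hyS : H59.InS p y := inS_div (inS_sub ha inS_one) (inS_natCast p)
  set w : PadicAlgCl p := g y - y with hw
  have hw1 : ‖w‖ < 1 := hg y hy_norm
  have hwS : H59.InS p w := inS_sub (inS_map hyS g) hyS
  have hwN := stmt_N2 p w hwS hw1
  have hay : a = 1 + p * y := by
    rw [hy]
    field_simp
    ring
  have hga : g a - a = p * w := by
    have h1 : g a = 1 + p * g y := by
      conv_lhs => rw [hay]
      rw [map_add, map_one, map_mul, map_natCast]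
    rw [h1, hw]
    conv_lhs => rw [hay]
    ring
  have h2 : g a / a - 1 = (g a - a) / a := by
    field_simp
  rw [h2, norm_div, ha_norm, div_one, hga, norm_mul, hnp, mul_pow]
  calc ((p : ℝ)⁻¹) ^ (p - 1) * ‖w‖ ^ (p - 1) ≤ ((p : ℝ)⁻¹) ^ (p - 1) * (p : ℝ)⁻¹ :=
        mul_le_mul_of_nonneg_left hwN (by positivity)
    _ = ((p : ℝ)⁻¹) ^ p := by
        rw [← pow_succ, Nat.sub_add_cancel hp.one_le]

/-- **LevD**: `H59.Stmt_LevD`. -/
theorem stmt_LevD : H59.Stmt_LevD := by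
  intro p _ _ a ha ha1 g hg n hn
  have hp : p.Prime := Fact.out
  have hpR : (1 : ℝ) < p := H15.one_lt_p_real
  have hp0 : (0 : ℝ) < p := H15.p_pos_real
  have hpinv1 : (p : ℝ)⁻¹ < 1 := inv_lt_one_of_one_lt₀ hpR
  have hp1 : p - 1 ≠ 0 := pred_ne_zero
  obtain ⟨ζ, hζ1, hζp⟩ := H15.exists_zeta (p := p)
  set π : PadicAlgCl p := ζ - 1 with hπ
  set θ : ℝ := ‖π‖ with hθ
  have hθpow : θ ^ (p - 1) = (p : ℝ)⁻¹ := H15.norm_zeta_sub_one hζ1 hζp
  have hπ0 : π ≠ 0 := sub_ne_zero.mpr hζ1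
  have hθ0 : 0 < θ := norm_pos_iff.mpr hπ0
  have hθ1 : θ < 1 := by
    by_contra h
    have h1 : 1 ≤ θ ^ (p - 1) := one_le_pow₀ (not_lt.mp h)
    rw [hθpow] at h1
    linarith
  -- `‖a - 1‖ ≤ θ ^ p`
  have ha1' : ‖a - 1‖ ≤ θ ^ p := by
    apply le_of_pow_le_pow_left₀ hp1 (by positivity)
    rw [← pow_mul, mul_comm, pow_mul, hθpow]
    exact ha1
  have hθp1 : θ ^ p < 1 := pow_lt_one₀ hθ0.le hθ1 hp.ne_zero
  have ha_norm : ‖a‖ = 1 := norm_eq_one_of_sub_one_lt (ha1'.trans_lt hθp1)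
  have ha0 : a ≠ 0 := by
    intro h
    rw [h, norm_zero] at ha_norm
    exact zero_ne_one ha_norm
  set y : PadicAlgCl p := (a - 1) / π ^ p with hy
  have hy_norm : ‖y‖ ≤ 1 := by
    rw [hy, norm_div, norm_pow]
    exact div_le_one_of_le₀ ha1' (by positivity)
  have hπS : H59.InS p π := inS_sub (inS_zeta hζp) inS_one
  have hyS : H59.InS p y := inS_div (inS_sub ha inS_one) (inS_pow hπS p)
  set w : PadicAlgCl p := g y - y with hw
  have hw1 : ‖w‖ < 1 := hg y hy_norm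
  have hwS : H59.InS p w := inS_sub (inS_map hyS g) hyS
  have hwθ : ‖w‖ ≤ θ := norm_le_theta hζ1 hζp hwS hw1
  -- `g π`
  have hgπ : g π = (1 + π) ^ n - 1 := by
    rw [hπ, map_sub, map_one, hn ζ hζp]
    ring
  have hδ : ‖g π - n * π‖ ≤ θ ^ 2 := by
    rw [hgπ]
    exact norm_one_add_pow_sub_le_sq hθ1.le n
  have hgπ_norm : ‖g π‖ ≤ θ := by rw [norm_gal]
  have hnπ_norm : ‖(n : PadicAlgCl p) * π‖ ≤ θ := by
    rw [norm_mul]
    exact mul_le_of_le_one_left (norm_nonneg _) (norm_natCast_algCl_le_one n)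
  have h1 : ‖(g π) ^ p - ((n : PadicAlgCl p) * π) ^ p‖ ≤ θ ^ (p + 1) := by
    have h := H59.norm_pow_succ_sub_le hgπ_norm hnπ_norm (p - 1)
    rw [Nat.sub_add_cancel hp.one_le] at h
    calc ‖(g π) ^ p - ((n : PadicAlgCl p) * π) ^ p‖ ≤ ‖g π - n * π‖ * θ ^ (p - 1) := h
      _ ≤ θ ^ 2 * θ ^ (p - 1) := mul_le_mul_of_nonneg_right hδ (by positivity)
      _ = θ ^ (p + 1) := by
          rw [← pow_add]
          congr 1
          have := hp.two_le
          omega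
  have h2 : ‖((n : PadicAlgCl p) * π) ^ p - n * π ^ p‖ ≤ θ ^ (p + 1) := by
    have h : ((n : PadicAlgCl p) * π) ^ p - n * π ^ p = ((n : PadicAlgCl p) ^ p - n) * π ^ p := by
      rw [mul_pow, sub_mul]
    rw [h, norm_mul, norm_pow]
    have hfl : ‖(n : PadicAlgCl p) ^ p - n‖ ≤ (p : ℝ)⁻¹ := by
      have hdvd : (p : ℤ) ∣ (n : ℤ) ^ p - n := by
        have h3 : ((n : ℤ) : ZMod p) ^ p = ((n : ℤ) : ZMod p) := ZMod.pow_card _
        have h4 : (((n : ℤ) ^ p - n : ℤ) : ZMod p) = 0 := by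
          push_cast
          rw [sub_eq_zero]
          exact_mod_cast h3
        exact (ZMod.intCast_zmod_eq_zero_iff_dvd _ _).mp h4
      obtain ⟨m, hm⟩ := hdvd
      have h5 : (n : PadicAlgCl p) ^ p - n = (p : PadicAlgCl p) * (m : PadicAlgCl p) := by
        have := congrArg (fun z : ℤ => (z : PadicAlgCl p)) hm
        simpa using this
      rw [h5, norm_mul, H15.norm_p_algCl]
      have hm1 : ‖(m : PadicAlgCl p)‖ ≤ 1 := by
        have h6 : (m : PadicAlgCl p) = algebraMap ℚ_[p] (PadicAlgCl p) (m : ℚ_[p]) := by simp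
        rw [h6, PadicAlgCl.norm_extends]
        exact Padic.norm_int_le_one m
      exact mul_le_of_le_one_right (inv_nonneg.mpr hp0.le) hm1
    calc ‖(n : PadicAlgCl p) ^ p - n‖ * θ ^ p ≤ (p : ℝ)⁻¹ * θ ^ p :=
          mul_le_mul_of_nonneg_right hfl (by positivity)
      _ = θ ^ (p - 1 + p) := by rw [← hθpow, ← pow_add]
      _ ≤ θ ^ (p + 1) := by
          apply pow_le_pow_of_le_one hθ0.le hθ1.le
          have := hp.two_le
          omega
  have h3 : ‖(g π) ^ p - n * π ^ p‖ ≤ θ ^ (p + 1) := by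
    have h : (g π) ^ p - n * π ^ p
        = ((g π) ^ p - ((n : PadicAlgCl p) * π) ^ p)
          + (((n : PadicAlgCl p) * π) ^ p - n * π ^ p) := by ring
    rw [h]
    exact (IsUltrametricDist.norm_add_le_max _ _).trans (max_le h1 h2)
  -- `a = 1 + v`, `v = π ^ p y`
  set v : PadicAlgCl p := π ^ p * y with hv
  have hay : a = 1 + v := by
    rw [hv, hy]
    field_simp
    ring
  have hvn : ‖v‖ ≤ θ ^ p := by
    rw [hv, norm_mul, norm_pow]
    exact mul_le_of_le_one_right (by positivity) hy_norm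
  have hga : g a - 1 - n * v = ((g π) ^ p - n * π ^ p) * g y + n * π ^ p * w := by
    have h : g a = 1 + (g π) ^ p * g y := by
      conv_lhs => rw [hay, hv]
      rw [map_add, map_one, map_mul, map_pow]
    rw [h, hv, hw]
    ring
  have h4 : ‖g a - 1 - n * v‖ ≤ θ ^ (p + 1) := by
    rw [hga]
    refine (IsUltrametricDist.norm_add_le_max _ _).trans (max_le ?_ ?_)
    · rw [norm_mul, norm_gal]
      calc ‖(g π) ^ p - n * π ^ p‖ * ‖y‖ ≤ θ ^ (p + 1) * 1 :=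
            mul_le_mul h3 hy_norm (norm_nonneg _) (by positivity)
        _ = θ ^ (p + 1) := mul_one _
    · rw [norm_mul, norm_mul, norm_pow]
      calc ‖(n : PadicAlgCl p)‖ * ‖π‖ ^ p * ‖w‖ ≤ 1 * θ ^ p * θ := by
            apply mul_le_mul _ hwθ (norm_nonneg _) (by positivity)
            exact mul_le_mul_of_nonneg_right (norm_natCast_algCl_le_one n) (by positivity)
        _ = θ ^ (p + 1) := by rw [one_mul, pow_succ]
  have h5 : ‖a ^ n - 1 - n * v‖ ≤ θ ^ (p + 1) := by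
    rw [hay]
    calc ‖(1 + v) ^ n - 1 - n * v‖ ≤ ‖v‖ ^ 2 :=
          norm_one_add_pow_sub_le_sq (hvn.trans hθp1.le) n
      _ ≤ (θ ^ p) ^ 2 := pow_le_pow_left₀ (norm_nonneg _) hvn 2
      _ = θ ^ (p * 2) := by rw [← pow_mul]
      _ ≤ θ ^ (p + 1) := by
          apply pow_le_pow_of_le_one hθ0.le hθ1.le
          have := hp.two_le
          omega
  have h6 : ‖g a - a ^ n‖ ≤ θ ^ (p + 1) := by
    have h : g a - a ^ n = (g a - 1 - n * v) - (a ^ n - 1 - n * v) := by ring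
    rw [h]
    exact (H15.norm_sub_le_max_algCl _ _).trans (max_le h4 h5)
  have h7 : g a / a ^ n - 1 = (g a - a ^ n) / a ^ n := by
    field_simp
  rw [h7, norm_div, norm_pow, ha_norm, one_pow, div_one]
  calc ‖g a - a ^ n‖ ^ (p - 1) ≤ (θ ^ (p + 1)) ^ (p - 1) :=
        pow_le_pow_left₀ (norm_nonneg _) h6 _
    _ = (θ ^ (p - 1)) ^ (p + 1) := by rw [← pow_mul, ← pow_mul, mul_comm]
    _ = ((p : ℝ)⁻¹) ^ (p + 1) := by rw [hθpow]

end Fermat.Agent.S56.FL.H38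

end
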