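import Fermat.Agent.S56.FL.H38_CC0
import Fermat.Agent.S56.FL.H50_LiftA

set_option autoImplicit false

/-!
# LOC-p-FL, package ORD (helper38), part 2: inertia moves the `p`-th roots of unity (`p` odd)

* `root_eq_one_of_close` : `ζ ^ p = 1`, `‖ζ - 1‖ ≤ p⁻¹`, `p ≠ 2` ⟹ `ζ = 1` (LIFT-a in `𝒪_{K̄}`).
* `exists_inertia_moves_root` : some element of `inertiaP p` moves some `p`-th root of unity.
-/

noncomputable section

namespace Fermat.Agent.S56.FL.H38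

open scoped NNReal
open Fermat.Agent.S56.FL

variable {p : ℕ} [Fact p.Prime]

theorem radius_inv' (hp2 : p ≠ 2) : ((p : ℝ≥0)⁻¹) ^ (p - 1) < (p : ℝ≥0)⁻¹ := by
  have hp : p.Prime := Fact.out
  have hp3 : 2 ≤ p - 1 := by
    have := hp.two_le
    omega
  have hpp : (1 : ℝ≥0) < (p : ℝ≥0) := by exact_mod_cast hp.one_lt
  have h0 : (0 : ℝ≥0) < (p : ℝ≥0)⁻¹ := inv_pos.mpr (lt_trans zero_lt_one hpp)
  have h1 : (p : ℝ≥0)⁻¹ < 1 := inv_lt_one_of_one_lt₀ hpp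
  calc ((p : ℝ≥0)⁻¹) ^ (p - 1) ≤ ((p : ℝ≥0)⁻¹) ^ 2 := pow_le_pow_of_le_one h0.le h1.le hp3
    _ = (p : ℝ≥0)⁻¹ * (p : ℝ≥0)⁻¹ := sq _
    _ < (p : ℝ≥0)⁻¹ * 1 := mul_lt_mul_of_pos_left h1 h0
    _ = (p : ℝ≥0)⁻¹ := mul_one _

/-- A `p`-th root of unity congruent to `1` modulo `p` is `1` (`p` odd). -/
theorem root_eq_one_of_close (hp2 : p ≠ 2) {ζ : PadicAlgCl p} (hζ : ζ ^ p = 1)
    (hclose : ‖ζ - 1‖ ≤ (p : ℝ)⁻¹) : ζ = 1 := by
  have hp : p.Prime := Fact.out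
  have hζn : ‖ζ‖ ≤ 1 := (norm_root_eq_one hp.pos hζ).le
  let F : IntermediateField ℚ_[p] (PadicAlgCl p) := ⊤
  let u : intRing p F := ⟨ζ, IntermediateField.mem_top, hζn⟩
  have hu : u ^ p = 1 := by
    apply Subtype.ext
    simpa using hζ
  have hmem : u - 1 ∈ Ideal.map (algebraMap (intRing p F) (intRing p F))
      (ballIdeal p F ((p : ℝ≥0)⁻¹)) := by
    rw [Algebra.algebraMap_self, Ideal.map_id, mem_ballIdeal]
    have : ((u - 1 : intRing p F) : PadicAlgCl p) = ζ - 1 := rfl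
    rw [this]
    simpa using hclose
  have := H50.stmt_LIFT_a p F (intRing p F) ((p : ℝ≥0)⁻¹) (radius_inv' hp2) u hu hmem
  exact congrArg Subtype.val this

/-- Some element of the inertia group moves some `p`-th root of unity (`p` odd). -/
theorem exists_inertia_moves_root (hp2 : p ≠ 2) :
    ∃ σ ∈ inertiaP p, ∃ ζ : PadicAlgCl p, ζ ^ p = 1 ∧ σ ζ ≠ ζ := by
  have hp : p.Prime := Fact.out
  have : NeZero p := ⟨hp.ne_zero⟩
  obtain ⟨ζ, hζ⟩ := HasEnoughRootsOfUnity.exists_primitiveRoot (PadicAlgCl p) p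
  by_contra hcon
  have hfix : ∀ σ ∈ inertiaP p, σ (ζ - 1) = ζ - 1 := by
    intro σ hσ
    have h1 : σ ζ = ζ := by
      by_contra hne
      exact hcon ⟨σ, hσ, ζ, hζ.pow_eq_one, hne⟩
    rw [map_sub, h1, map_one]
  have hlt : ‖ζ - 1‖ < 1 := norm_sub_one_lt_of_pow (by rw [hζ.pow_eq_one, sub_self, norm_zero]; exact one_pos)
  have hle := norm_le_inv_of_fixed hfix hlt
  have h1 := root_eq_one_of_close hp2 hζ.pow_eq_one hle
  exact hζ.ne_one hp.one_lt h1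

end Fermat.Agent.S56.FL.H38

end
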