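import Fermat.Agent.S56.FL.H38_OrdCore
import Fermat.Agent.S56.FL.H38_OrdCyc
import Fermat.Agent.S56.H57_Shape

set_option autoImplicit false

/-!
# LOC-p-FL, package ORD (helper38): `Stmt_FL_B → Stmt_FL_ord`

* `exists_inertia_det_ne_one` : the determinant of `ρbar` (cyclotomic) is non-trivial on inertia.
* `subqE_of_FL_B`            : `Stmt_FL_B` for the flat module `E = V_x`.
* `stmt_FL_ord_of`           : `Stmt_FL_B → Stmt_FL_ord`.
-/

noncomputable section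

namespace Fermat.Agent.S56.FL.H38

open scoped NNReal TensorProduct
open Fermat.Agent.S56.FL Fermat.Agent.S56 Fermat.Agent.S56.H57 Fermat.Agent.S53 Module
  IsLocalRing groupCohomology ExtCitation

variable {p : ℕ} [Fact p.Prime] {k : Type} [Field k]

/-- The determinant of `ρbar` is non-trivial on the inertia group at `p`. -/
theorem exists_inertia_det_ne_one (hp2 : p ≠ 2) (ρbar : ResidualGaloisRep k)
    (hdet : (GaloisRepAdic.ofResidualGaloisRep ρbar).DetIsCyclotomic p) :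
    ∃ σ₁ ∈ inertiaP p, LinearMap.det (locRho ρbar σ₁) ≠ 1 := by
  have hp : p.Prime := Fact.out
  obtain ⟨σ₁, hσ₁, ζ, hζ, hne⟩ := exists_inertia_moves_root hp2
  refine ⟨σ₁, hσ₁, fun h1 => hne ?_⟩
  obtain ⟨hpk, h⟩ := hdet
  rw [IsLocalRing.maximalIdeal_eq_bot, Ideal.mem_bot] at hpk
  have : CharP k p := (CharP.charP_iff_prime_eq_zero hp).mpr hpk
  have h2 := h 1 (localGaloisToGlobal p σ₁) (cycloExp p (localGaloisToGlobal p σ₁))
    (fun μ hμ => map_root_eq_pow p (localGaloisToGlobal p σ₁) μ hμ)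
  rw [pow_one, hpk, Ideal.span_singleton_zero, Ideal.mem_bot, sub_eq_zero] at h2
  have h3 : omegaK p k (localGaloisToGlobal p σ₁) = 1 := by
    rw [omegaK_eq_natCast, ← h2]; exact h1
  have hfixQ := fix_of_omegaK_eq_one p (localGaloisToGlobal p σ₁) h3
  have : NeZero p := ⟨hp.ne_zero⟩
  obtain ⟨t₀, ht₀⟩ := HasEnoughRootsOfUnity.exists_primitiveRoot (AlgebraicClosure ℚ) p
  have hζ₀ : IsPrimitiveRoot (padicEmbedding p t₀) p :=
    ht₀.map_of_injective (padicEmbedding p).injective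
  obtain ⟨i, -, hi⟩ := hζ₀.eq_pow_of_pow_eq_one hζ
  rw [← hi, map_pow, ← padicEmbedding_localGaloisToGlobal, hfixQ t₀ ht₀.pow_eq_one]

/-- Inertia acts non-trivially on an ordinary line. -/
theorem exists_ne_on_line (ρbar : ResidualGaloisRep k) {ℓ : Submodule k ρbar.V}
    (hℓ : IsOrdLine ρbar p ℓ) {σ₁ : Gp p} (hσ₁ : σ₁ ∈ inertiaP p)
    (hdet : LinearMap.det (locRho ρbar σ₁) ≠ 1) : ∃ v₁ ∈ ℓ, locRho ρbar σ₁ v₁ ≠ v₁ := by
  by_contra hcon
  have hfix : ∀ v ∈ ℓ, locRho ρbar σ₁ v = v := by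
    intro v hv
    by_contra hne
    exact hcon ⟨v, hv, hne⟩
  obtain ⟨v₀, hv₀, hgen⟩ := finrank_eq_one_iff'.mp hℓ.1.1
  have hv₀' : (v₀ : ρbar.V) ≠ 0 := fun h => hv₀ (Subtype.ext h)
  obtain ⟨b, hb⟩ := exists_basis_of_ne_zero ρbar.finrank_eq (v₀ : ρbar.V) hv₀'
  have h0 : locRho ρbar σ₁ (b 0) = (1 : k) • b 0 := by
    rw [hb, one_smul]; exact hfix _ v₀.2
  obtain ⟨l, hl⟩ := hgen ⟨locRho ρbar σ₁ (b 1) - b 1, hℓ.2 σ₁ hσ₁ _⟩
  have hl' : l • (v₀ : ρbar.V) = locRho ρbar σ₁ (b 1) - b 1 := by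
    have := congrArg Subtype.val hl
    simpa using this
  have h1 : locRho ρbar σ₁ (b 1) = (1 : k) • b 1 + l • b 0 := by
    rw [hb, hl', one_smul]; abel
  apply hdet
  rw [det_of_triangular b (locRho ρbar σ₁) 1 1 l h0 h1, mul_one]

/-- `ρbar` is ramified at `p`. -/
theorem exists_ne_of_det (ρbar : ResidualGaloisRep k) {σ₁ : Gp p}
    (hdet : LinearMap.det (locRho ρbar σ₁) ≠ 1) : ∃ v : ρbar.V, locRho ρbar σ₁ v ≠ v := by
  by_contra hcon
  apply hdet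
  have h1 : locRho ρbar σ₁ = 1 := by
    apply LinearMap.ext
    intro v
    by_contra hne
    exact hcon ⟨v, hne⟩
  rw [h1, map_one]

/-- `Stmt_FL_B` for the flat module `E = V_x`. -/
theorem subqE_of_FL_B (hB : Stmt_FL_B) (hp2 : p ≠ 2) (ρx : GaloisRepAdic (DualNumber k))
    (hflat : ρx.IsFlatAt p) (hfin : Finite (DualNumber k)) (hchar : ((p : ℕ) : DualNumber k) = 0) :
    SubqE ρx p := by
  intro M₁ M₂ h12 hst1 hst2 hin m hm hmW
  set I₀ : Ideal (DualNumber k) := ⊥ with hI₀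
  have hfinq : Finite (DualNumber k ⧸ I₀) :=
    Finite.of_surjective (Ideal.Quotient.mk I₀) Ideal.Quotient.mk_surjective
  have hM := hflat.2 I₀ hfinq
  set q : ρx.V →ₗ[DualNumber k] (ρx.V ⧸ (I₀ • (⊤ : Submodule (DualNumber k) ρx.V))) :=
    Submodule.mkQ _ with hq
  have hqinj : Function.Injective q := by
    rw [← LinearMap.ker_eq_bot, hq, Submodule.ker_mkQ, hI₀, Submodule.bot_smul]
  have hqact : ∀ (σ : GQ) (y : ρx.V), ρx.levelAction I₀ σ (q y) = q (ρx.ρ σ y) := fun σ y => rfl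
  have hpM : ∀ m' : ρx.V ⧸ (I₀ • (⊤ : Submodule (DualNumber k) ρx.V)), p • m' = 0 := by
    intro m'
    rw [← Nat.cast_smul_eq_nsmul (DualNumber k) p m', hchar, zero_smul]
  have key := hB p hp2 (ρx.V ⧸ (I₀ • (⊤ : Submodule (DualNumber k) ρx.V)))
    (fun σ => ρx.levelAction I₀ σ) hpM hM
    (M₁.map q.toAddMonoidHom) (M₂.map q.toAddMonoidHom) (AddSubgroup.map_mono h12)
    (by
      rintro σ _ ⟨y, hy, rfl⟩
      exact ⟨ρx.ρ (localGaloisToGlobal p σ) y, hst1 σ y hy, rfl⟩)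
    (by
      rintro σ _ ⟨y, hy, rfl⟩
      exact ⟨ρx.ρ (localGaloisToGlobal p σ) y, hst2 σ y hy, rfl⟩)
    (by
      rintro σ hσ _ ⟨y, hy, rfl⟩
      refine ⟨ρx.ρ (localGaloisToGlobal p σ) y - y, hin σ hσ y hy, ?_⟩
      change q _ = _
      rw [map_sub]
      rfl)
    (q m) ⟨m, hm, rfl⟩
    (by
      have hmap : (Wc ρx p).map q.toAddMonoidHom ≤ AddSubgroup.closure
          {y | ∃ σ ∈ inertiaP p, ∃ m' : ρx.V ⧸ (I₀ • (⊤ : Submodule (DualNumber k) ρx.V)),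
            y = ρx.levelAction I₀ (localGaloisToGlobal p σ) m' - m'} := by
        unfold Wc
        rw [AddMonoidHom.map_closure, AddSubgroup.closure_le]
        rintro _ ⟨y, ⟨σ, hσ, m', rfl⟩, rfl⟩
        apply AddSubgroup.subset_closure
        refine ⟨σ, hσ, q m', ?_⟩
        change q _ = _
        rw [map_sub]
        rfl
      exact hmap ⟨m, hmW, rfl⟩)
  obtain ⟨m₁, hm₁, hm₁m⟩ := key
  have : m₁ = m := hqinj hm₁m
  rw [← this]
  exact hm₁

/-- **ORD**: `Stmt_FL_ord` follows from `Stmt_FL_B`. -/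
theorem stmt_FL_ord_of (hB : Stmt_FL_B) : Stmt_FL_ord := by
  intro 𝒪 _ _ _ _ _ p _ ρbar hp2 hp𝒪 hdet 𝒟 x hflat c₀ hcoc
  have hp : p.Prime := Fact.out
  obtain ⟨θ, hθ⟩ := hcoc
  have hpk : ((p : ℕ) : ResidueField 𝒪) = 0 := by
    have h1 : residue 𝒪 ((p : ℕ) : 𝒪) = 0 := (residue_eq_zero_iff _).mpr hp𝒪
    rwa [map_natCast] at h1
  have : CharP (ResidueField 𝒪) p := (CharP.charP_iff_prime_eq_zero hp).mpr hpk
  have hchar : ((p : ℕ) : DualNumber (ResidueField 𝒪)) = 0 := natCast_dual_eq_zero p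
  have hfin : Finite (DualNumber (ResidueField 𝒪)) := finite_dualNumber 𝒪
  have hS : SubqE x.1 p := subqE_of_FL_B hB hp2 x.1 hflat hfin hchar
  obtain ⟨σ₁, hσ₁, hdet1⟩ := exists_inertia_det_ne_one hp2 ρbar hdet
  refine ⟨split_of_subq hθ hS ⟨σ₁, hσ₁, exists_ne_of_det ρbar hdet1⟩, fun ℓ hℓ => ?_⟩
  exact ordCocycle_of_subq hθ hS hℓ ⟨σ₁, hσ₁, exists_ne_on_line ρbar hℓ hσ₁ hdet1⟩

end Fermat.Agent.S56.FL.H38

end
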