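import Fermat.Agent.S56.FL.Count
import Fermat.Agent.S56.H57_Line
import Fermat.Agent.S56.FL.H38_CC0

set_option autoImplicit false

/-!
# LOC-p-FL, package ORD (helper38), part 1: the algebra on `E = V_x`

`ρx` a first-order deformation of `ρbar` with coordinates `θ : k[ε] ⊗ V ≃ V_x`
(`H57.co₁`, `H57.co₂`), `Wc = (I - 1) E` the subgroup generated by the `σ e - e`, `σ` in the
inertia group.  `SubqE` is the conclusion of `Stmt_FL_B` for `E`.

* `ordCocycle_of_subq` : `SubqE` + (inertia acts non-trivially on `ℓ`) ⟹ `IsOrdCocycle`-shape.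
* `split_of_subq`      : `SubqE` + (`ρbar` ramified at some inertia element) ⟹ a second stable line.
-/

noncomputable section

namespace Fermat.Agent.S56.FL.H38

open scoped NNReal TensorProduct
open Fermat.Agent.S56.FL Fermat.Agent.S56 Fermat.Agent.S56.H57 Fermat.Agent.S53 Module

variable {p : ℕ} [Fact p.Prime] {k : Type} [Field k]
variable (ρbar : ResidualGaloisRep k) (ρx : GaloisRepAdic (DualNumber k))

/-- The subgroup `(I - 1) E` of `E = V_x`. -/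
def Wc (p : ℕ) [Fact p.Prime] : AddSubgroup ρx.V :=
  AddSubgroup.closure
    {y : ρx.V | ∃ σ ∈ inertiaP p, ∃ m' : ρx.V, y = ρx.ρ (localGaloisToGlobal p σ) m' - m'}

/-- The conclusion of `Stmt_FL_B` for the module `E = V_x`. -/
def SubqE (p : ℕ) [Fact p.Prime] : Prop :=
  ∀ M₁ M₂ : AddSubgroup ρx.V, M₁ ≤ M₂ →
    (∀ σ : Gp p, ∀ m ∈ M₁, ρx.ρ (localGaloisToGlobal p σ) m ∈ M₁) →
    (∀ σ : Gp p, ∀ m ∈ M₂, ρx.ρ (localGaloisToGlobal p σ) m ∈ M₂) →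
    (∀ σ ∈ inertiaP p, ∀ m ∈ M₂, ρx.ρ (localGaloisToGlobal p σ) m - m ∈ M₁) →
    ∀ m ∈ M₂, m ∈ Wc ρx p → m ∈ M₁

variable {ρbar ρx}

theorem gen_mem_Wc {σ : Gp p} (hσ : σ ∈ inertiaP p) (m' : ρx.V) :
    ρx.ρ (localGaloisToGlobal p σ) m' - m' ∈ Wc ρx p :=
  AddSubgroup.subset_closure ⟨σ, hσ, m', rfl⟩

theorem Wc_smul (a : DualNumber k) {y : ρx.V} (hy : y ∈ Wc ρx p) : a • y ∈ Wc ρx p := by
  unfold Wc at hy
  induction hy using AddSubgroup.closure_induction with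
  | mem y hy =>
    obtain ⟨σ, hσ, m', rfl⟩ := hy
    have : a • (ρx.ρ (localGaloisToGlobal p σ) m' - m')
        = ρx.ρ (localGaloisToGlobal p σ) (a • m') - a • m' := by
      rw [smul_sub, map_smul]
    rw [this]
    exact gen_mem_Wc hσ _
  | zero => rw [smul_zero]; exact (Wc ρx p).zero_mem
  | add y z _ _ hy hz => rw [smul_add]; exact (Wc ρx p).add_mem hy hz
  | neg y _ hy => rw [smul_neg]; exact (Wc ρx p).neg_mem hy

theorem Wc_act (τ : Gp p) {y : ρx.V} (hy : y ∈ Wc ρx p) :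
    ρx.ρ (localGaloisToGlobal p τ) y ∈ Wc ρx p := by
  unfold Wc at hy
  induction hy using AddSubgroup.closure_induction with
  | mem y hy =>
    obtain ⟨σ, hσ, m', rfl⟩ := hy
    have hconj : τ * σ * τ⁻¹ ∈ inertiaP p := inertiaP_normal.conj_mem σ hσ τ
    have : ρx.ρ (localGaloisToGlobal p τ) (ρx.ρ (localGaloisToGlobal p σ) m' - m')
        = ρx.ρ (localGaloisToGlobal p (τ * σ * τ⁻¹)) (ρx.ρ (localGaloisToGlobal p τ) m')
          - ρx.ρ (localGaloisToGlobal p τ) m' := by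
      rw [map_sub]
      congr 1
      rw [← Module.End.mul_apply, ← Module.End.mul_apply, ← map_mul, ← map_mul, ← map_mul,
        ← map_mul]
      congr 3
      group
    rw [this]
    exact gen_mem_Wc hconj _
  | zero => rw [map_zero]; exact (Wc ρx p).zero_mem
  | add y z _ _ hy hz => rw [map_add]; exact (Wc ρx p).add_mem hy hz
  | neg y _ hy => rw [map_neg]; exact (Wc ρx p).neg_mem hy

section Coord

variable {c : GQ → Module.End k ρbar.V}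
  {θ : (DualNumber k ⊗[k] ρbar.V) ≃ₗ[DualNumber k] ρx.V}

theorem co₁_add' (y y' : ρx.V) :
    co₁ ρbar ρx θ (y + y') = co₁ ρbar ρx θ y + co₁ ρbar ρx θ y' := by
  rw [co₁, co₁, co₁, map_add, map_add]

theorem co₂_add' (y y' : ρx.V) :
    co₂ ρbar ρx θ (y + y') = co₂ ρbar ρx θ y + co₂ ρbar ρx θ y' := by
  rw [co₂, co₂, co₂, map_add, map_add]

theorem co₁_zero' : co₁ ρbar ρx θ (0 : ρx.V) = 0 := by
  rw [co₁, map_zero, map_zero]

theorem co₂_zero' : co₂ ρbar ρx θ (0 : ρx.V) = 0 := by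
  rw [co₂, map_zero, map_zero]

theorem co₁_neg' (y : ρx.V) : co₁ ρbar ρx θ (-y) = -co₁ ρbar ρx θ y := by
  rw [co₁, co₁, map_neg, map_neg]

theorem co₂_neg' (y : ρx.V) : co₂ ρbar ρx θ (-y) = -co₂ ρbar ρx θ y := by
  rw [co₂, co₂, map_neg, map_neg]

/-- The point of `E` with coordinates `(v, u)`. -/
def pt (θ : (DualNumber k ⊗[k] ρbar.V) ≃ₗ[DualNumber k] ρx.V) (v u : ρbar.V) : ρx.V :=
  θ ((1 : DualNumber k) ⊗ₜ[k] v + (DualNumber.eps : DualNumber k) ⊗ₜ[k] u)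

@[simp] theorem co₁_pt (v u : ρbar.V) : co₁ ρbar ρx θ (pt θ v u) = v := co₁_theta ρbar ρx θ v u

@[simp] theorem co₂_pt (v u : ρbar.V) : co₂ ρbar ρx θ (pt θ v u) = u := co₂_theta ρbar ρx θ v u

theorem eq_of_co {y y' : ρx.V} (h₁ : co₁ ρbar ρx θ y = co₁ ρbar ρx θ y')
    (h₂ : co₂ ρbar ρx θ y = co₂ ρbar ρx θ y') : y = y' := by
  rw [eq_theta_co ρbar ρx θ y, eq_theta_co ρbar ρx θ y', h₁, h₂]

theorem eq_zero_of_co {y : ρx.V} (h₁ : co₁ ρbar ρx θ y = 0) (h₂ : co₂ ρbar ρx θ y = 0) :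
    y = 0 :=
  eq_of_co (θ := θ) (h₁.trans co₁_zero'.symm) (h₂.trans co₂_zero'.symm)

theorem co₁_inl_smul (t : k) (y : ρx.V) :
    co₁ ρbar ρx θ ((TrivSqZeroExt.inl t : DualNumber k) • y) = t • co₁ ρbar ρx θ y := by
  rw [co₁_smul, TrivSqZeroExt.fst_inl]

theorem co₂_inl_smul (t : k) (y : ρx.V) :
    co₂ ρbar ρx θ ((TrivSqZeroExt.inl t : DualNumber k) • y) = t • co₂ ρbar ρx θ y := by
  rw [co₂_smul, TrivSqZeroExt.fst_inl, TrivSqZeroExt.snd_inl, zero_smul, add_zero]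

end Coord

section Main

variable {c : GQ → Module.End k ρbar.V}
  {θ : (DualNumber k ⊗[k] ρbar.V) ≃ₗ[DualNumber k] ρx.V}

/-- The hypothesis `IsCocycleOf` on `θ`. -/
def IsTheta (c : GQ → Module.End k ρbar.V)
    (θ : (DualNumber k ⊗[k] ρbar.V) ≃ₗ[DualNumber k] ρx.V) : Prop :=
  ∀ (σ : GQ) (v : ρbar.V), ρx.ρ σ (θ ((1 : DualNumber k) ⊗ₜ[k] v)) =
    θ ((1 : DualNumber k) ⊗ₜ[k] (ρbar.ρ σ v) +
      (DualNumber.eps : DualNumber k) ⊗ₜ[k] (c σ (ρbar.ρ σ v)))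

theorem co₁_act (hθ : IsTheta c θ) (σ : Gp p) (y : ρx.V) :
    co₁ ρbar ρx θ (ρx.ρ (localGaloisToGlobal p σ) y) = locRho ρbar σ (co₁ ρbar ρx θ y) :=
  co₁_rho hθ _ y

theorem co₂_act (hθ : IsTheta c θ) (σ : Gp p) (y : ρx.V) :
    co₂ ρbar ρx θ (ρx.ρ (localGaloisToGlobal p σ) y)
      = c (localGaloisToGlobal p σ) (locRho ρbar σ (co₁ ρbar ρx θ y))
        + locRho ρbar σ (co₂ ρbar ρx θ y) :=
  co₂_rho hθ _ y

theorem locRho_inv_apply (σ : Gp p) (v : ρbar.V) :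
    locRho ρbar σ (locRho ρbar σ⁻¹ v) = v := by
  rw [← Module.End.mul_apply, ← locRho_mul, mul_inv_cancel, locRho_one, Module.End.one_apply]

/-- (F1) the first coordinate of an element of `(I - 1) E` lies in an ordinary line. -/
theorem co₁_mem_of_mem_Wc (hθ : IsTheta c θ) {ℓ : Submodule k ρbar.V}
    (hℓ : IsOrdLine ρbar p ℓ) {y : ρx.V} (hy : y ∈ Wc ρx p) : co₁ ρbar ρx θ y ∈ ℓ := by
  unfold Wc at hy
  induction hy using AddSubgroup.closure_induction with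
  | mem y hy =>
    obtain ⟨σ, hσ, m', rfl⟩ := hy
    rw [co₁_sub, co₁_act hθ]
    exact hℓ.2 σ hσ _
  | zero => rw [co₁_zero']; exact ℓ.zero_mem
  | add y z _ _ hy hz => rw [co₁_add']; exact ℓ.add_mem hy hz
  | neg y _ hy => rw [co₁_neg']; exact ℓ.neg_mem hy

/-- (F2) an element of `(I - 1) E ∩ ε E` lies in `ε ℓ`. -/
theorem co₂_mem_of_mem_Wc (hθ : IsTheta c θ) (hS : SubqE ρx p) {ℓ : Submodule k ρbar.V}
    (hℓ : IsOrdLine ρbar p ℓ) {y : ρx.V} (hy : y ∈ Wc ρx p) (h0 : co₁ ρbar ρx θ y = 0) :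
    co₂ ρbar ρx θ y ∈ ℓ := by
  let M₂ : AddSubgroup ρx.V :=
    { carrier := {y | co₁ ρbar ρx θ y = 0}
      add_mem' := fun {a b} ha hb => by
        change co₁ ρbar ρx θ (a + b) = 0
        rw [co₁_add', ha, hb, add_zero]
      zero_mem' := co₁_zero'
      neg_mem' := fun {a} ha => by
        change co₁ ρbar ρx θ (-a) = 0
        rw [co₁_neg', ha, neg_zero] }
  let M₁ : AddSubgroup ρx.V :=
    { carrier := {y | co₁ ρbar ρx θ y = 0 ∧ co₂ ρbar ρx θ y ∈ ℓ}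
      add_mem' := fun {a b} ha hb => by
        refine ⟨?_, ?_⟩
        · rw [co₁_add', ha.1, hb.1, add_zero]
        · rw [co₂_add']; exact ℓ.add_mem ha.2 hb.2
      zero_mem' := ⟨co₁_zero', by rw [co₂_zero']; exact ℓ.zero_mem⟩
      neg_mem' := fun {a} ha => by
        refine ⟨?_, ?_⟩
        · rw [co₁_neg', ha.1, neg_zero]
        · rw [co₂_neg']; exact ℓ.neg_mem ha.2 }
  have h12 : M₁ ≤ M₂ := fun y hy => hy.1
  have hst1 : ∀ σ : Gp p, ∀ m ∈ M₁, ρx.ρ (localGaloisToGlobal p σ) m ∈ M₁ := by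
    intro σ m hm
    refine ⟨?_, ?_⟩
    · rw [co₁_act hθ, hm.1, map_zero]
    · rw [co₂_act hθ, hm.1, map_zero, map_zero, zero_add]
      exact hℓ.1.2 σ _ hm.2
  have hst2 : ∀ σ : Gp p, ∀ m ∈ M₂, ρx.ρ (localGaloisToGlobal p σ) m ∈ M₂ := by
    intro σ m hm
    change co₁ ρbar ρx θ _ = 0
    have hm' : co₁ ρbar ρx θ m = 0 := hm
    rw [co₁_act hθ, hm', map_zero]
  have hin : ∀ σ ∈ inertiaP p, ∀ m ∈ M₂, ρx.ρ (localGaloisToGlobal p σ) m - m ∈ M₁ := by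
    intro σ hσ m hm
    have hm' : co₁ ρbar ρx θ m = 0 := hm
    refine ⟨?_, ?_⟩
    · rw [co₁_sub, co₁_act hθ, hm', map_zero, sub_zero]
    · rw [co₂_sub, co₂_act hθ, hm', map_zero, map_zero, zero_add]
      exact hℓ.2 σ hσ _
  exact (hS M₁ M₂ h12 hst1 hst2 hin y h0 hy).2

/-- (★) the shape of `(I - 1) E`. -/
theorem co₂_sub_mem_of_mem_Wc (hθ : IsTheta c θ) (hS : SubqE ρx p) {ℓ : Submodule k ρbar.V}
    (hℓ : IsOrdLine ρbar p ℓ) {v₁ : ρbar.V} (hspan : ∀ v ∈ ℓ, ∃ t : k, v = t • v₁)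
    {w : ρx.V} (hw : w ∈ Wc ρx p) (hw1 : co₁ ρbar ρx θ w = v₁)
    {n : Module.End k ρbar.V} (hn : n v₁ = co₂ ρbar ρx θ w)
    {y : ρx.V} (hy : y ∈ Wc ρx p) :
    co₂ ρbar ρx θ y - n (co₁ ρbar ρx θ y) ∈ ℓ := by
  obtain ⟨t, ht⟩ := hspan _ (co₁_mem_of_mem_Wc hθ hℓ hy)
  have hy' : y - (TrivSqZeroExt.inl t : DualNumber k) • w ∈ Wc ρx p :=
    (Wc ρx p).sub_mem hy (Wc_smul _ hw)
  have h0 : co₁ ρbar ρx θ (y - (TrivSqZeroExt.inl t : DualNumber k) • w) = 0 := by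
    rw [co₁_sub, co₁_inl_smul, hw1, ht, sub_self]
  have h1 := co₂_mem_of_mem_Wc hθ hS hℓ hy' h0
  rw [co₂_sub, co₂_inl_smul] at h1
  rw [ht, map_smul, hn]
  exact h1

/-- **ORD, algebraic core.**  If `SubqE` holds and inertia acts non-trivially on the ordinary line
`ℓ`, the cocycle is ordinary with respect to `ℓ`. -/
theorem ordCocycle_of_subq (hθ : IsTheta c θ) (hS : SubqE ρx p) {ℓ : Submodule k ρbar.V}
    (hℓ : IsOrdLine ρbar p ℓ)
    (hram : ∃ σ₁ ∈ inertiaP p, ∃ v₁ ∈ ℓ, locRho ρbar σ₁ v₁ ≠ v₁) :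
    ∃ m : Module.End k ρbar.V, ∀ σ : Gp p,
      (∀ v ∈ ℓ, (c (localGaloisToGlobal p σ)
          - (locRho ρbar σ * m * locRho ρbar σ⁻¹ - m)) v ∈ ℓ) ∧
      (σ ∈ inertiaP p → ∀ v : ρbar.V, (c (localGaloisToGlobal p σ)
          - (locRho ρbar σ * m * locRho ρbar σ⁻¹ - m)) v ∈ ℓ) := by
  obtain ⟨σ₁, hσ₁, v₁, hv₁, hne⟩ := hram
  have hv₁0 : v₁ ≠ 0 := by
    intro h; apply hne; rw [h, map_zero]
  -- `ℓ = k v₁`
  have hspan : ∀ v ∈ ℓ, ∃ t : k, v = t • v₁ := by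
    obtain ⟨v₀, hv₀, hgen⟩ := finrank_eq_one_iff'.mp hℓ.1.1
    obtain ⟨c₁, hc₁⟩ := hgen ⟨v₁, hv₁⟩
    have hc₁0 : c₁ ≠ 0 := by
      intro h
      rw [h, zero_smul] at hc₁
      exact hv₁0 (congrArg Subtype.val hc₁).symm
    intro v hv
    obtain ⟨c₂, hc₂⟩ := hgen ⟨v, hv⟩
    refine ⟨c₂ * c₁⁻¹, ?_⟩
    have h1 : (v₀ : ρbar.V) = c₁⁻¹ • v₁ := by
      have := congrArg Subtype.val hc₁
      simp only [Submodule.coe_smul] at this
      rw [← this, smul_smul, inv_mul_cancel₀ hc₁0, one_smul]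
    have h2 := congrArg Subtype.val hc₂
    simp only [Submodule.coe_smul] at h2
    rw [← h2, h1, smul_smul]
  obtain ⟨a, ha⟩ := hspan _ (hℓ.1.2 σ₁ v₁ hv₁)
  have ha1 : a - 1 ≠ 0 := by
    intro h
    apply hne
    rw [ha, sub_eq_zero.mp h, one_smul]
  -- the generator `w`
  set g : ρx.V := ρx.ρ (localGaloisToGlobal p σ₁) (pt θ v₁ 0) - pt θ v₁ 0 with hg
  have hgW : g ∈ Wc ρx p := gen_mem_Wc hσ₁ _
  set w : ρx.V := (TrivSqZeroExt.inl (a - 1)⁻¹ : DualNumber k) • g with hw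
  have hwW : w ∈ Wc ρx p := Wc_smul _ hgW
  have hw1 : co₁ ρbar ρx θ w = v₁ := by
    rw [hw, co₁_inl_smul, hg, co₁_sub, co₁_act hθ, co₁_pt, ha]
    have h3 : a • v₁ - v₁ = (a - 1) • v₁ := by rw [sub_smul, one_smul]
    rw [h3, smul_smul, inv_mul_cancel₀ ha1, one_smul]
  obtain ⟨b, hb⟩ := exists_basis_of_ne_zero ρbar.finrank_eq v₁ hv₁0
  set n : Module.End k ρbar.V := (b.coord 0).smulRight (co₂ ρbar ρx θ w) with hn
  have hnv : n v₁ = co₂ ρbar ρx θ w := by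
    rw [hn, LinearMap.smulRight_apply, ← hb, Basis.coord_apply, Basis.repr_self,
      Finsupp.single_eq_same, one_smul]
  have hstar : ∀ {y : ρx.V}, y ∈ Wc ρx p →
      co₂ ρbar ρx θ y - n (co₁ ρbar ρx θ y) ∈ ℓ :=
    fun hy => co₂_sub_mem_of_mem_Wc hθ hS hℓ hspan hwW hw1 hnv hy
  refine ⟨-n, fun σ => ⟨?_, ?_⟩⟩
  · intro v hv
    set v' : ρbar.V := locRho ρbar σ⁻¹ v with hv'
    have hv'ℓ : v' ∈ ℓ := hℓ.1.2 σ⁻¹ v hv
    obtain ⟨t, ht⟩ := hspan v' hv'ℓ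
    set y : ρx.V := (TrivSqZeroExt.inl t : DualNumber k) • w with hy
    have hyW : y ∈ Wc ρx p := Wc_smul _ hwW
    have hy1 : co₁ ρbar ρx θ y = v' := by rw [hy, co₁_inl_smul, hw1, ht]
    have hy2 : co₂ ρbar ρx θ y = n v' := by rw [hy, co₂_inl_smul, ht, map_smul, hnv]
    have h1 := hstar (Wc_act σ hyW)
    rw [co₁_act hθ, co₂_act hθ, hy1, hy2, hv', locRho_inv_apply] at h1
    have h2 : (c (localGaloisToGlobal p σ) - (locRho ρbar σ * -n * locRho ρbar σ⁻¹ - -n)) v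
        = c (localGaloisToGlobal p σ) v + locRho ρbar σ (n (locRho ρbar σ⁻¹ v)) - n v := by
      simp only [LinearMap.sub_apply, Module.End.mul_apply, LinearMap.neg_apply, map_neg]
      abel
    rw [h2]
    exact h1
  · intro hσ v
    set v' : ρbar.V := locRho ρbar σ⁻¹ v with hv'
    have hz : ρx.ρ (localGaloisToGlobal p σ) (pt θ v' (n v')) - pt θ v' (n v') ∈ Wc ρx p :=
      gen_mem_Wc hσ _
    have h1 := hstar hz
    rw [co₁_sub, co₂_sub, co₁_act hθ, co₂_act hθ, co₁_pt, co₂_pt, hv', locRho_inv_apply,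
      map_sub] at h1
    have h2 : (c (localGaloisToGlobal p σ) - (locRho ρbar σ * -n * locRho ρbar σ⁻¹ - -n)) v
        = c (localGaloisToGlobal p σ) v + locRho ρbar σ (n (locRho ρbar σ⁻¹ v))
            - n (locRho ρbar σ⁻¹ v) - (n v - n (locRho ρbar σ⁻¹ v)) := by
      simp only [LinearMap.sub_apply, Module.End.mul_apply, LinearMap.neg_apply, map_neg]
      abel
    rw [h2]
    exact h1

/-- **ORD, algebraic core, second half.**  If `SubqE` holds and `ρbar` is ramified, an unramified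
stable line has a stable complement. -/
theorem split_of_subq (hθ : IsTheta c θ) (hS : SubqE ρx p)
    (hram : ∃ σ₁ ∈ inertiaP p, ∃ v : ρbar.V, locRho ρbar σ₁ v ≠ v) : SplitCond ρbar p := by
  intro ℓ hℓ htriv
  obtain ⟨σ₁, hσ₁, v₀, hv₀⟩ := hram
  have hpt_add : ∀ z z' : ρbar.V, pt θ 0 (z + z') = pt θ 0 z + pt θ 0 z' := by
    intro z z'
    apply eq_of_co (θ := θ)
    · rw [co₁_add', co₁_pt, co₁_pt, co₁_pt, add_zero]
    · rw [co₂_add', co₂_pt, co₂_pt, co₂_pt]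
  have hpt_smul : ∀ (t : k) (z : ρbar.V),
      pt θ 0 (t • z) = (TrivSqZeroExt.inl t : DualNumber k) • pt θ 0 z := by
    intro t z
    apply eq_of_co (θ := θ)
    · rw [co₁_inl_smul, co₁_pt, co₁_pt, smul_zero]
    · rw [co₂_inl_smul, co₂_pt, co₂_pt]
  have hpt_act : ∀ (σ : Gp p) (z : ρbar.V),
      ρx.ρ (localGaloisToGlobal p σ) (pt θ 0 z) = pt θ 0 (locRho ρbar σ z) := by
    intro σ z
    apply eq_of_co (θ := θ)
    · rw [co₁_act hθ, co₁_pt, co₁_pt, map_zero]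
    · rw [co₂_act hθ, co₁_pt, co₂_pt, co₂_pt, map_zero, map_zero, zero_add]
  let ℓ' : Submodule k ρbar.V :=
    { carrier := {z | pt θ 0 z ∈ Wc ρx p}
      add_mem' := fun {a b} ha hb => by
        change pt θ 0 (a + b) ∈ Wc ρx p
        rw [hpt_add]; exact (Wc ρx p).add_mem ha hb
      zero_mem' := by
        change pt θ 0 (0 : ρbar.V) ∈ Wc ρx p
        have : pt θ 0 (0 : ρbar.V) = 0 := by
          apply eq_zero_of_co (θ := θ)
          · rw [co₁_pt]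
          · rw [co₂_pt]
        rw [this]; exact (Wc ρx p).zero_mem
      smul_mem' := fun t z hz => by
        change pt θ 0 (t • z) ∈ Wc ρx p
        rw [hpt_smul]; exact Wc_smul _ hz }
  have hmem : ∀ z : ρbar.V, z ∈ ℓ' ↔ pt θ 0 z ∈ Wc ρx p := fun z => Iff.rfl
  -- `ℓ'` is stable
  have hstab : ∀ (σ : Gp p), ∀ v ∈ ℓ', locRho ρbar σ v ∈ ℓ' := by
    intro σ v hv
    rw [hmem, ← hpt_act]
    exact Wc_act σ hv
  -- `ℓ ⊓ ℓ' = ⊥`
  have hdisj : Disjoint ℓ ℓ' := by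
    rw [Submodule.disjoint_def]
    intro z hzℓ hzℓ'
    let M₂ : AddSubgroup ρx.V :=
      { carrier := {y | co₁ ρbar ρx θ y = 0 ∧ co₂ ρbar ρx θ y ∈ ℓ}
        add_mem' := fun {a b} ha hb => by
          refine ⟨?_, ?_⟩
          · rw [co₁_add', ha.1, hb.1, add_zero]
          · rw [co₂_add']; exact ℓ.add_mem ha.2 hb.2
        zero_mem' := ⟨co₁_zero', by rw [co₂_zero']; exact ℓ.zero_mem⟩
        neg_mem' := fun {a} ha => by
          refine ⟨?_, ?_⟩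
          · rw [co₁_neg', ha.1, neg_zero]
          · rw [co₂_neg']; exact ℓ.neg_mem ha.2 }
    have hst1 : ∀ σ : Gp p, ∀ m ∈ (⊥ : AddSubgroup ρx.V),
        ρx.ρ (localGaloisToGlobal p σ) m ∈ (⊥ : AddSubgroup ρx.V) := by
      intro σ m hm
      rw [AddSubgroup.mem_bot] at hm ⊢
      rw [hm, map_zero]
    have hst2 : ∀ σ : Gp p, ∀ m ∈ M₂, ρx.ρ (localGaloisToGlobal p σ) m ∈ M₂ := by
      intro σ m hm
      refine ⟨?_, ?_⟩
      · rw [co₁_act hθ, hm.1, map_zero]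
      · rw [co₂_act hθ, hm.1, map_zero, map_zero, zero_add]
        exact hℓ.2 σ _ hm.2
    have hin : ∀ σ ∈ inertiaP p, ∀ m ∈ M₂,
        ρx.ρ (localGaloisToGlobal p σ) m - m ∈ (⊥ : AddSubgroup ρx.V) := by
      intro σ hσ m hm
      rw [AddSubgroup.mem_bot]
      apply eq_zero_of_co (θ := θ)
      · rw [co₁_sub, co₁_act hθ, hm.1, map_zero, sub_zero]
      · rw [co₂_sub, co₂_act hθ, hm.1, map_zero, map_zero, zero_add, htriv σ hσ _ hm.2,
          sub_self]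
    have hzM₂ : pt θ 0 z ∈ M₂ := ⟨co₁_pt 0 z, by rw [co₂_pt]; exact hzℓ⟩
    have h0 := hS ⊥ M₂ bot_le hst1 hst2 hin _ hzM₂ hzℓ'
    rw [AddSubgroup.mem_bot] at h0
    have := congrArg (co₂ ρbar ρx θ) h0
    rwa [co₂_pt, co₂_zero'] at this
  -- `ℓ' ≠ ⊥`
  have hne : ℓ' ≠ ⊥ := by
    intro h
    have hz : locRho ρbar σ₁ v₀ - v₀ ∈ ℓ' := by
      rw [hmem]
      have : pt θ 0 (locRho ρbar σ₁ v₀ - v₀)
          = ρx.ρ (localGaloisToGlobal p σ₁) (pt θ 0 v₀) - pt θ 0 v₀ := by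
        apply eq_of_co (θ := θ)
        · rw [co₁_sub, co₁_act hθ, co₁_pt, co₁_pt, map_zero, sub_zero]
        · rw [co₂_sub, co₂_act hθ, co₁_pt, co₂_pt, co₂_pt, map_zero, map_zero, zero_add]
      rw [this]
      exact gen_mem_Wc hσ₁ _
    rw [h, Submodule.mem_bot, sub_eq_zero] at hz
    exact hv₀ hz
  have hfin1 : 1 ≤ finrank k ℓ' := by
    rw [Nat.succ_le_iff, Module.finrank_pos_iff]
    exact Submodule.nontrivial_iff_ne_bot.mpr hne
  have hfin2 : finrank k ℓ + finrank k ℓ' ≤ 2 := by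
    have := Submodule.finrank_add_finrank_le_of_disjoint hdisj
    rwa [ρbar.finrank_eq] at this
  have hℓ1 : finrank k ℓ = 1 := hℓ.1
  refine ⟨ℓ', ⟨by omega, hstab⟩, ?_⟩
  intro heq
  rw [heq, disjoint_self] at hdisj
  exact hne (heq.trans hdisj)

end Main

end Fermat.Agent.S56.FL.H38

end
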