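import Fermat.Agent.S56.FL.H38_Ord
import Fermat.Agent.S56.FL.H54_FLB

set_option autoImplicit false

/-!
# LOC-p-FL, package ORD (helper38): `Stmt_FL_ord`, unconditionally

`H38.stmt_FL_ord_of : Stmt_FL_B → Stmt_FL_ord` with helper54's `H54.stmt_FL_B`.
-/

namespace Fermat.Agent.S56.FL.H38

/-- **ORD**: `Stmt_FL_ord` of `Fermat/Agent/S56/FL/Count.lean`. -/
theorem stmt_FL_ord : Stmt_FL_ord := stmt_FL_ord_of H54.stmt_FL_B

end Fermat.Agent.S56.FL.H38
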