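import Fermat.Agent.S56.FL.Count

set_option autoImplicit false

/-!
# LOC-p-FL, package COH (helper57): the two TAME inputs of `Stmt_COH_SS`, `Stmt_COH_RED`

`G = Gp p = Gal(K̄/ℚ_p)`, `I = inertiaP p`, `L/ℚ_p` finite Galois, `G_L = L.fixingSubgroup`,
`Γ = Gal(L/ℚ_p) = G/G_L ⊇ Γ₀` (inertia) `⊇ Γ₁` (wild inertia).

* `Stmt_Tame`    : the structure of `Γ`: with `P` = the preimage of `Γ₁` in `G`,
    `P` is normal, contains `G_L`, `P/G_L` is a `p`-group;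
    `Γ/Γ₀` is generated by the image of a Frobenius `φ`, the image of `I` in `Γ/Γ₁` is generated by
    the image of `s ∈ I`, and `φ s φ⁻¹ ≡ s^p` modulo `P`.
* `Stmt_CycSurj` : the mod `p` cyclotomic character maps inertia onto `𝔽_pˣ`
    (`ℚ_p(μ_p)/ℚ_p` is totally ramified of degree `p - 1`).
-/

noncomputable section

namespace Fermat.Agent.S56.FL.H57

open Fermat.Agent.S56.FL

/-- **TAME**: Frobenius, tame generator and wild inertia at the finite level `L`. -/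
def Stmt_Tame : Prop :=
  ∀ (p : ℕ) [Fact p.Prime] (L : IntermediateField ℚ_[p] (PadicAlgCl p))
    [FiniteDimensional ℚ_[p] L], Normal ℚ_[p] L →
    ∃ (P : Subgroup (Gp p)) (φ s : Gp p),
      P.Normal ∧ L.fixingSubgroup ≤ P ∧
      (∀ w ∈ P, ∃ N : ℕ, w ^ (p ^ N) ∈ L.fixingSubgroup) ∧
      s ∈ inertiaP p ∧
      (∀ σ : Gp p, ∃ n : ℕ, ∃ ι ∈ inertiaP p, ∃ τ ∈ L.fixingSubgroup, σ = φ ^ n * ι * τ) ∧
      (∀ ι ∈ inertiaP p, ∃ n : ℕ, ∃ w ∈ P, ι = s ^ n * w) ∧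
      (∃ w ∈ P, φ * s * φ⁻¹ = s ^ p * w)

/-- **CYC-SURJ**: every exponent prime to `p` is the value of the mod `p` cyclotomic character at
an element of the inertia group. -/
def Stmt_CycSurj : Prop :=
  ∀ (p : ℕ) [Fact p.Prime] (n : ℕ), ¬ p ∣ n →
    ∃ σ ∈ inertiaP p, ∀ ζ : PadicAlgCl p, ζ ^ p = 1 → σ ζ = ζ ^ n

end Fermat.Agent.S56.FL.H57

end
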