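import Mathlib
import Fermat.Agent.S56.FL.H38_InertiaOnto
import Fermat.Agent.S56.FL.H57_CohDefs
import Fermat.Agent.S56.FL.LF.H15_Gen

set_option autoImplicit false

/-!
# LOC-p-FL, TAME bridge (helper38): from `Gal(L/ℚ_p)` to `Gal(K̄/ℚ_p)`

`Stmt_LocTame` is the structure of `Γ = Gal(L/ℚ_p)` for a finite Galois `L/ℚ_p`, stated on `Γ`
(with `depth < 1` for the inertia subgroup `Γ₀`):  a normal subgroup `W` all of whose elements
have `p`-power order, a Frobenius `φ` and a tame generator `s ∈ Γ₀` with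

* (T3) `Γ = ⟨φ⟩ Γ₀`,
* (T1) `Γ₀ = ⟨s⟩ W`,
* (T2) `φ s φ⁻¹ ≡ s ^ p` modulo `W`.

`stmt_Tame_of : Stmt_LocTame → H57.Stmt_Tame` lifts this to `G = Gal(K̄/ℚ_p)` with `P` the
preimage of `W`, by `H38.resL_surjective` and `H38.inertia_onto_of_depth`.
-/

noncomputable section

namespace Fermat.Agent.S56.FL.H38

open scoped NNReal
open Fermat.Agent.S56.FL Polynomial Module

/-- **LOC-TAME**: Frobenius, tame generator and wild inertia of `Gal(L/ℚ_p)`. -/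
def Stmt_LocTame : Prop :=
  ∀ (p : ℕ) [Fact p.Prime] (L : IntermediateField ℚ_[p] (PadicAlgCl p))
    [FiniteDimensional ℚ_[p] L], Normal ℚ_[p] L →
    ∃ (W : Subgroup (L ≃ₐ[ℚ_[p]] L)) (φ s : L ≃ₐ[ℚ_[p]] L),
      W.Normal ∧ (∀ w ∈ W, ∃ N : ℕ, w ^ (p ^ N) = 1) ∧
      depth p L s < 1 ∧
      (∀ g : L ≃ₐ[ℚ_[p]] L, ∃ n : ℕ, depth p L ((φ ^ n)⁻¹ * g) < 1) ∧
      (∀ γ : L ≃ₐ[ℚ_[p]] L, depth p L γ < 1 → ∃ n : ℕ, (s ^ n)⁻¹ * γ ∈ W) ∧
      (s ^ p)⁻¹ * (φ * s * φ⁻¹) ∈ W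

variable {p : ℕ} [Fact p.Prime]

variable {L : IntermediateField ℚ_[p] (PadicAlgCl p)} [Normal ℚ_[p] L]

theorem resL_eq_one_of_mem_fixingSubgroup {σ : Gp p} (h : σ ∈ L.fixingSubgroup) :
    resL L σ = 1 := by
  apply AlgEquiv.ext
  intro a
  apply Subtype.ext
  rw [resL_apply]
  exact (IntermediateField.mem_fixingSubgroup_iff L σ).mp h a a.2

theorem resL_eq_one_iff {σ : Gp p} : resL L σ = 1 ↔ σ ∈ L.fixingSubgroup :=
  ⟨mem_fixingSubgroup_of_resL_eq_one, resL_eq_one_of_mem_fixingSubgroup⟩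

/-- Inertia of `Gal(K̄/ℚ_p)` restricts into `depth < 1`. -/
theorem depth_resL_lt_one [FiniteDimensional ℚ_[p] L] {ι : Gp p} (hι : ι ∈ inertiaP p) :
    depth p L (resL L ι) < 1 := by
  obtain ⟨x, π, q, h⟩ := H15.exists_goodGen L
  rw [H15.depth_eq_of_goodGen h]
  have h1 : ‖resL L ι x - x‖ = ‖ι (x : PadicAlgCl p) - (x : PadicAlgCl p)‖ := by
    rw [← resL_apply]; rfl
  rw [h1]
  exact hι _ h.1

/-- The bridge: `Stmt_LocTame` gives helper57's `Stmt_Tame`. -/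
theorem stmt_Tame_of (h : Stmt_LocTame) : H57.Stmt_Tame := by
  intro p _ L _ hL
  obtain ⟨W, φ, s, hWn, hWp, hs, hT3, hT1, hT2⟩ := h p L hL
  obtain ⟨φt, hφt⟩ := resL_surjective (L := L) φ
  obtain ⟨st, hstI, hst⟩ := inertia_onto_of_depth s hs
  refine ⟨W.comap (resL L), φt, st, ?_, ?_, ?_, hstI, ?_, ?_, ?_⟩
  · exact Subgroup.Normal.comap hWn _
  · intro σ hσ
    rw [Subgroup.mem_comap, resL_eq_one_of_mem_fixingSubgroup hσ]
    exact W.one_mem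
  · intro w hw
    obtain ⟨N, hN⟩ := hWp _ (Subgroup.mem_comap.mp hw)
    refine ⟨N, mem_fixingSubgroup_of_resL_eq_one ?_⟩
    rw [map_pow, hN]
  · intro σ
    obtain ⟨n, hn⟩ := hT3 (resL L σ)
    obtain ⟨ι, hιI, hι⟩ := inertia_onto_of_depth _ hn
    refine ⟨n, ι, hιI, (φt ^ n * ι)⁻¹ * σ, mem_fixingSubgroup_of_resL_eq_one ?_, ?_⟩
    · rw [map_mul, map_inv, map_mul, map_pow, hφt, hι]
      group
    · group
  · intro ι hι
    obtain ⟨n, hn⟩ := hT1 (resL L ι) (depth_resL_lt_one hι)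
    refine ⟨n, (st ^ n)⁻¹ * ι, ?_, ?_⟩
    · rw [Subgroup.mem_comap, map_mul, map_inv, map_pow, hst]
      exact hn
    · group
  · refine ⟨(st ^ p)⁻¹ * (φt * st * φt⁻¹), ?_, ?_⟩
    · rw [Subgroup.mem_comap, map_mul, map_inv, map_pow, map_mul, map_mul, map_inv, hst, hφt]
      exact hT2
    · group

end Fermat.Agent.S56.FL.H38

end
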