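import Fermat.Agent.S56.FL.H50_CycloInertia
import Fermat.Agent.S56.FL.H57_CohDefs
import Fermat.Agent.S56.FL.H85_CCBase

set_option autoImplicit false

/-!
# LOC-p-FL, shared TAME lemma (TAME-CHAR): characters of `G_{ℚ_p}` are powers of `ω` on inertia

* `eq_one_of_pow_char_pow`  : in a field of characteristic `p`, `x ^ (p ^ N) = 1 → x = 1`;
* `exists_cst_eq`           : `x ^ p = x` in a field of characteristic `p` ⟹ `x` is in the prime
                              field;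
* `TameAt`                  : the conclusion of `H57.Stmt_Tame` for `L`, as a structure;
* `tame_char`               : `χ : G_p →* kˣ` trivial on `Gal(K̄/L)` ⟹ `∃ a, χ = ω^a` on inertia;
* `omega_inertia_order`     : `ω ^ n = 1` on inertia ⟹ `(p - 1) ∣ n`.
-/

noncomputable section

namespace Fermat.Agent.S56.FL.H50

open scoped NNReal
open Polynomial Module IntermediateField Fermat.Agent.S56.FL

variable {p : ℕ} [Fact p.Prime]

theorem eq_one_of_pow_char_pow {K : Type*} [Field K] [CharP K p] {x : K} {N : ℕ}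
    (h : x ^ (p ^ N) = 1) : x = 1 := by
  have h1 : (x - 1) ^ (p ^ N) = 0 := by
    rw [sub_pow_char_pow, h, one_pow, sub_self]
  exact sub_eq_zero.mp (pow_eq_zero_iff (pow_ne_zero N (Fact.out : p.Prime).ne_zero) |>.mp h1)

theorem unit_eq_one_of_pow_char_pow {K : Type*} [Field K] [CharP K p] {x : Kˣ} {N : ℕ}
    (h : x ^ (p ^ N) = 1) : x = 1 := by
  apply Units.ext
  have h1 : ((x ^ (p ^ N) : Kˣ) : K) = 1 := by rw [h, Units.val_one]
  rw [Units.val_pow_eq_pow_val] at h1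
  rw [Units.val_one]
  exact eq_one_of_pow_char_pow (p := p) h1

/-- An element `x` with `x ^ p = x` of a field of characteristic `p` lies in the prime field. -/
theorem exists_cst_eq {k : Type} [Field k] [CharP k p] {x : k} (hx : x ^ p = x) :
    ∃ u : ZMod p, H85.cst p k u = x := by
  have hp : p.Prime := Fact.out
  have hcard : Fintype.card (ZMod p) = p := ZMod.card p
  have hroots : (X ^ p - X : (ZMod p)[X]).roots = Finset.univ.val := by
    have := FiniteField.roots_X_pow_card_sub_X (ZMod p)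
    rwa [hcard] at this
  have hdeg : (X ^ p - X : (ZMod p)[X]).natDegree = p :=
    FiniteField.X_pow_card_sub_X_natDegree_eq (ZMod p) hp.one_lt
  have hmap := Polynomial.roots_map_of_injective_of_card_eq_natDegree
    (p := (X ^ p - X : (ZMod p)[X])) (f := H85.cst p k) (RingHom.injective _)
    (by rw [hroots, hdeg]; simp)
  have hx' : x ∈ ((X ^ p - X : (ZMod p)[X]).map (H85.cst p k)).roots := by
    rw [Polynomial.mem_roots]
    · simp [hx]
    · rw [Polynomial.map_ne_zero_iff (RingHom.injective _)]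
      exact FiniteField.X_pow_card_sub_X_ne_zero (ZMod p) hp.one_lt
  rw [← hmap, hroots, Multiset.mem_map] at hx'
  obtain ⟨u, -, hu⟩ := hx'
  exact ⟨u, hu⟩

/-- The conclusion of `H57.Stmt_Tame` for the field `L`. -/
structure TameAt (L : IntermediateField ℚ_[p] (PadicAlgCl p)) (P : Subgroup (Gp p))
    (φ s : Gp p) : Prop where
  normal : P.Normal
  le : L.fixingSubgroup ≤ P
  pgroup : ∀ w ∈ P, ∃ N : ℕ, w ^ (p ^ N) ∈ L.fixingSubgroup
  mem : s ∈ inertiaP p
  gen : ∀ σ : Gp p, ∃ n : ℕ, ∃ ι ∈ inertiaP p, ∃ τ ∈ L.fixingSubgroup, σ = φ ^ n * ι * τ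
  tame : ∀ ι ∈ inertiaP p, ∃ n : ℕ, ∃ w ∈ P, ι = s ^ n * w
  conj : ∃ w ∈ P, φ * s * φ⁻¹ = s ^ p * w

theorem exists_tameAt (hT : H57.Stmt_Tame) (L : IntermediateField ℚ_[p] (PadicAlgCl p))
    [FiniteDimensional ℚ_[p] L] (hN : Normal ℚ_[p] L) :
    ∃ (P : Subgroup (Gp p)) (φ s : Gp p), TameAt L P φ s := by
  obtain ⟨P, φ, s, h1, h2, h3, h4, h5, h6, h7⟩ := hT p L hN
  exact ⟨P, φ, s, ⟨h1, h2, h3, h4, h5, h6, h7⟩⟩

section Char

variable {k : Type} [Field k] [CharP k p]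

/-- A homomorphism to a group without `p`-torsion, trivial on `Gal(K̄/L)`, is trivial on `P`. -/
theorem TameAt.hom_eq_one {L : IntermediateField ℚ_[p] (PadicAlgCl p)} {P : Subgroup (Gp p)}
    {φ s : Gp p} (hT : TameAt L P φ s) {A : Type*} [Group A] (f : Gp p →* A)
    (hA : ∀ (x : A) (N : ℕ), x ^ (p ^ N) = 1 → x = 1)
    (hf : ∀ σ ∈ L.fixingSubgroup, f σ = 1) {w : Gp p} (hw : w ∈ P) : f w = 1 := by
  obtain ⟨N, hN⟩ := hT.pgroup w hw
  have := hf _ hN
  rw [map_pow] at this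
  exact hA _ N this

/-- **TAME-CHAR**, in terms of `ω : G_p →* (ℤ/p)ˣ`. -/
theorem tame_char_omg (hT : H57.Stmt_Tame) {ζ : PadicAlgCl p} (hζ : IsPrimitiveRoot ζ p)
    (χ : Gp p →* kˣ)
    (L : IntermediateField ℚ_[p] (PadicAlgCl p)) [FiniteDimensional ℚ_[p] L]
    (hN : Normal ℚ_[p] L) (hχ : ∀ σ ∈ L.fixingSubgroup, χ σ = 1) :
    ∃ a : ℕ, ∀ τ ∈ inertiaP p,
      (χ τ : k) = H85.cst p k ((H85.omg hζ τ : (ZMod p)ˣ) : ZMod p) ^ a := by
  have hp : p.Prime := Fact.out
  have : Normal ℚ_[p] L := hN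
  have : Normal ℚ_[p] (H15.cycloField p) := H15.normal_cycloField
  set L' : IntermediateField ℚ_[p] (PadicAlgCl p) := L ⊔ H15.cycloField p with hL'
  have hN' : Normal ℚ_[p] L' := inferInstance
  obtain ⟨P, φ, s, hTA⟩ := exists_tameAt hT L' hN'
  have hfixL : L'.fixingSubgroup ≤ L.fixingSubgroup :=
    IntermediateField.fixingSubgroup_le (le_sup_left)
  have hχ' : ∀ σ ∈ L'.fixingSubgroup, χ σ = 1 := fun σ hσ => hχ σ (hfixL hσ)
  have hω' : ∀ σ ∈ L'.fixingSubgroup, H85.omg hζ σ = 1 := by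
    intro σ hσ
    rw [H85.omg_eq_one_iff]
    have hζL : ζ ∈ L' := (le_sup_right : H15.cycloField p ≤ L')
      (H15.mem_cycloField_of_pow_eq_one hζ.pow_eq_one)
    exact (IntermediateField.mem_fixingSubgroup_iff L' σ).mp hσ ζ hζL
  have hχP : ∀ w ∈ P, χ w = 1 := fun w hw =>
    hTA.hom_eq_one χ (fun x N h => unit_eq_one_of_pow_char_pow (p := p) h) hχ' hw
  have hωP : ∀ w ∈ P, H85.omg hζ w = 1 := fun w hw =>
    hTA.hom_eq_one (H85.omg hζ) (fun x N h => unit_eq_one_of_pow_char_pow (p := p) h) hω' hw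
  -- `χ s ^ p = χ s`
  obtain ⟨w, hw, hconj⟩ := hTA.conj
  have h1 : χ s ^ p = χ s := by
    have h2 := congrArg χ hconj
    rw [map_mul, map_mul, map_inv, map_mul, map_pow, hχP w hw, mul_one] at h2
    rw [← h2]
    rw [mul_comm (χ φ), mul_assoc, mul_inv_cancel, mul_one]
  have h1' : (χ s : k) ^ p = (χ s : k) := by
    rw [← Units.val_pow_eq_pow_val, h1]
  obtain ⟨u, hu⟩ := exists_cst_eq (p := p) h1'
  have hu0 : u ≠ 0 := by
    rintro rfl
    rw [map_zero] at hu
    exact (χ s).ne_zero hu.symm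
  -- `ω s` generates `(ℤ/p)ˣ`
  have hgen : ∀ v : (ZMod p)ˣ, ∃ m : ℕ, v = H85.omg hζ s ^ m := by
    intro v
    have hv : ¬ p ∣ (v : ZMod p).val := by
      intro hdvd
      have := (ZMod.natCast_eq_zero_iff _ _).mpr hdvd
      rw [ZMod.natCast_zmod_val] at this
      exact v.ne_zero this
    obtain ⟨σ, hσ, hσζ⟩ := exists_inertia_pow (p := p) hv
    obtain ⟨m, w', hw', rfl⟩ := hTA.tame σ hσ
    refine ⟨m, ?_⟩
    have h3 := hσζ ζ hζ.pow_eq_one
    rw [H85.omg_spec hζ, H85.pow_eq_iff_natCast_eq hζ, ZMod.natCast_zmod_val,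
      ZMod.natCast_zmod_val] at h3
    rw [map_mul, map_pow, hωP w' hw', mul_one] at h3
    exact Units.ext (by rw [← h3])
  obtain ⟨a, ha⟩ := hgen (Units.mk0 u hu0)
  refine ⟨a, fun τ hτ => ?_⟩
  obtain ⟨m, w', hw', rfl⟩ := hTA.tame τ hτ
  rw [map_mul, map_pow, hχP w' hw', mul_one, map_mul, map_pow, hωP w' hw', mul_one,
    Units.val_pow_eq_pow_val, ← hu, Units.val_pow_eq_pow_val, map_pow, ← pow_mul, mul_comm m a,
    pow_mul]
  congr 1
  have := congrArg (fun v : (ZMod p)ˣ => H85.cst p k (v : ZMod p)) ha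
  simp only [Units.val_mk0, Units.val_pow_eq_pow_val, map_pow] at this
  exact this

/-- **TAME-CHAR.** A character `χ : G_p →* kˣ` trivial on `Gal(K̄/L)` (`L/ℚ_p` finite Galois) is a
power of the cyclotomic character on the inertia group. -/
theorem tame_char (hT : H57.Stmt_Tame) (χ : Gp p →* kˣ)
    (L : IntermediateField ℚ_[p] (PadicAlgCl p)) [FiniteDimensional ℚ_[p] L]
    (hN : Normal ℚ_[p] L) (hχ : ∀ σ ∈ L.fixingSubgroup, χ σ = 1) :
    ∃ a : ℕ, ∀ τ ∈ inertiaP p, ∀ x : k, IsCycloAt x τ → (χ τ : k) = x ^ a := by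
  have hp : p.Prime := Fact.out
  obtain ⟨ζ, h1, hζ⟩ := H15.exists_zeta (p := p)
  have hprim : IsPrimitiveRoot ζ p := by
    rw [IsPrimitiveRoot.iff_orderOf]
    exact orderOf_eq_prime hζ h1
  obtain ⟨a, ha⟩ := tame_char_omg hT hprim χ L hN hχ
  refine ⟨a, fun τ hτ x hx => ?_⟩
  rw [ha τ hτ, (H85.isCycloAt_iff hprim x τ).mp hx]

/-- The cyclotomic character has exact order `p - 1` on the inertia group. -/
theorem omega_inertia_order {n : ℕ}
    (h : ∀ τ ∈ inertiaP p, ∀ x : k, IsCycloAt x τ → x ^ n = 1) : (p - 1) ∣ n := by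
  have hp : p.Prime := Fact.out
  obtain ⟨ζ, h1, hζ⟩ := H15.exists_zeta (p := p)
  have hprim : IsPrimitiveRoot ζ p := by
    rw [IsPrimitiveRoot.iff_orderOf]
    exact orderOf_eq_prime hζ h1
  -- every unit of `ℤ/p` has `v ^ n = 1`
  have hall : ∀ v : (ZMod p)ˣ, v ^ n = 1 := by
    intro v
    have hv : ¬ p ∣ (v : ZMod p).val := by
      intro hdvd
      have := (ZMod.natCast_eq_zero_iff _ _).mpr hdvd
      rw [ZMod.natCast_zmod_val] at this
      exact v.ne_zero this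
    obtain ⟨σ, hσ, hσζ⟩ := exists_inertia_pow (p := p) hv
    have h3 := hσζ ζ hprim.pow_eq_one
    rw [H85.omg_spec hprim, H85.pow_eq_iff_natCast_eq hprim, ZMod.natCast_zmod_val,
      ZMod.natCast_zmod_val] at h3
    have h4 := h σ hσ _ ((H85.isCycloAt_iff hprim _ σ).mpr rfl)
    rw [h3, ← map_pow] at h4
    have h5 : (v : ZMod p) ^ n = 1 := by
      apply (H85.cst p k).injective
      rw [h4, map_one]
    exact Units.ext (by rw [Units.val_pow_eq_pow_val, h5, Units.val_one])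
  obtain ⟨g, hg⟩ := IsCyclic.exists_generator (α := (ZMod p)ˣ)
  have hord : orderOf g = p - 1 := by
    rw [orderOf_eq_card_of_forall_mem_zpowers hg, Nat.card_eq_fintype_card, ZMod.card_units_eq_totient,
      Nat.totient_prime hp]
  rw [← hord]
  exact orderOf_dvd_of_pow_eq_one (hall g)

end Char

end Fermat.Agent.S56.FL.H50

end
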