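import Fermat.Agent.S56.FL.H57_CohDefs

set_option autoImplicit false

/-!
# LOC-p-FL, package COH (helper57): the leaf TAME-CHARS of `Stmt_COH_RED`

Two characters `χ₁, χ₂ : G_p → kˣ` (`k` of characteristic `p`, `p` odd) of finite level whose
product is the cyclotomic character on inertia: on inertia both are powers of their values at one
element `s` of the inertia group, and `χ₁ s ≠ χ₂ s` (the cyclotomic character is not a square on
inertia).
-/

noncomputable section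

namespace Fermat.Agent.S56.FL.H57

open Fermat.Agent.S56.FL

/-- **TAME-CHARS.** -/
def Stmt_TameChars : Prop :=
  ∀ (p : ℕ) [Fact p.Prime], p ≠ 2 →
    ∀ (k : Type) [Field k] [CharP k p] (χ₁ χ₂ : Gp p →* kˣ)
      (L : IntermediateField ℚ_[p] (PadicAlgCl p)) [FiniteDimensional ℚ_[p] L],
      Normal ℚ_[p] L →
      (∀ σ : Gp p, σ ∈ L.fixingSubgroup → χ₁ σ = 1 ∧ χ₂ σ = 1) →
      (∀ σ : Gp p, σ ∈ inertiaP p → IsCycloAt ((χ₁ σ : k) * (χ₂ σ : k)) σ) →
      ∃ s : Gp p, s ∈ inertiaP p ∧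
        (∀ ι : Gp p, ι ∈ inertiaP p → ∃ n : ℕ, χ₁ ι = χ₁ s ^ n ∧ χ₂ ι = χ₂ s ^ n) ∧
        χ₁ s ≠ χ₂ s

end Fermat.Agent.S56.FL.H57

end
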