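import Fermat.Agent.S56.FL.H38_TameFinal
import Fermat.Agent.S56.FL.H50_TameChar
import Fermat.Agent.S56.FL.H57_CohDefs2

set_option autoImplicit false

/-!
# LOC-p-FL, COH-RED leaf TAME-CHARS (helper38): `H57.Stmt_TameChars`

Two characters `χ₁, χ₂ : G_p → kˣ` of finite level with `χ₁ χ₂ = ω` on inertia: on inertia both are
powers of their values at a tame generator `s`, and `χ₁ s ≠ χ₂ s` (else `ω = χ₁²` on inertia would
have order dividing `(p - 1) / 2`, against `H50.omega_inertia_order`).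
-/

noncomputable section

namespace Fermat.Agent.S56.FL.H38

open Fermat.Agent.S56.FL

/-- **TAME-CHARS**: `H57.Stmt_TameChars` of `Fermat/Agent/S56/FL/H57_CohDefs2.lean`. -/
theorem stmt_TameChars : H57.Stmt_TameChars := by
  intro p _ hp2 k _ _ χ₁ χ₂ L _ hN hχ hcyc
  have hp : p.Prime := Fact.out
  obtain ⟨P, φ, s, hTA⟩ := H50.exists_tameAt stmt_Tame L hN
  have hA : ∀ (x : kˣ) (N : ℕ), x ^ (p ^ N) = 1 → x = 1 :=
    fun x N h => H50.unit_eq_one_of_pow_char_pow (p := p) h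
  have h1P : ∀ w ∈ P, χ₁ w = 1 := fun w hw =>
    hTA.hom_eq_one χ₁ hA (fun σ hσ => (hχ σ hσ).1) hw
  have h2P : ∀ w ∈ P, χ₂ w = 1 := fun w hw =>
    hTA.hom_eq_one χ₂ hA (fun σ hσ => (hχ σ hσ).2) hw
  refine ⟨s, hTA.mem, ?_, ?_⟩
  · intro ι hι
    obtain ⟨n, w, hw, rfl⟩ := hTA.tame ι hι
    refine ⟨n, ?_, ?_⟩
    · rw [map_mul, map_pow, h1P w hw, mul_one]
    · rw [map_mul, map_pow, h2P w hw, mul_one]
  · intro heq
    -- `χ₁ s ^ p = χ₁ s`
    obtain ⟨w, hw, hconj⟩ := hTA.conj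
    have h1 : χ₁ s ^ p = χ₁ s := by
      have h2 := congrArg χ₁ hconj
      rw [map_mul, map_mul, map_inv, map_mul, map_pow, h1P w hw, mul_one] at h2
      rw [← h2]
      rw [mul_comm (χ₁ φ), mul_assoc, mul_inv_cancel, mul_one]
    have h3 : χ₁ s ^ (p - 1) = 1 := by
      have h4 : χ₁ s ^ (p - 1) * χ₁ s = 1 * χ₁ s := by
        rw [← pow_succ, Nat.sub_add_cancel hp.one_le, h1, one_mul]
      exact mul_right_cancel h4
    -- `p - 1 = 2 * m`
    obtain ⟨m, hm⟩ : ∃ m : ℕ, p - 1 = 2 * m := by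
      rcases hp.eq_two_or_odd' with h | h
      · exact absurd h hp2
      · obtain ⟨j, hj⟩ := h
        exact ⟨j, by omega⟩
    have hm0 : 0 < m := by
      have := hp.two_le
      rcases Nat.eq_zero_or_pos m with h | h
      · rw [h] at hm
        have : p = 1 := by omega
        exact absurd this hp.ne_one
      · exact h
    have hdvd : (p - 1) ∣ m := by
      apply H50.omega_inertia_order (p := p) (k := k)
      intro τ hτ x hx
      obtain ⟨ζ, hζ1, hζ⟩ := H15.exists_zeta (p := p)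
      have hprim : IsPrimitiveRoot ζ p := by
        rw [IsPrimitiveRoot.iff_orderOf]
        exact orderOf_eq_prime hζ hζ1
      have hx' : x = (χ₁ τ : k) * (χ₂ τ : k) := by
        rw [(H85.isCycloAt_iff hprim x τ).mp hx,
          (H85.isCycloAt_iff hprim _ τ).mp (hcyc τ hτ)]
      obtain ⟨n, w', hw', rfl⟩ := hTA.tame τ hτ
      rw [hx', map_mul, map_pow, h1P w' hw', mul_one, map_mul, map_pow, h2P w' hw', mul_one,
        ← heq, ← Units.val_mul, ← Units.val_pow_eq_pow_val, ← pow_add, ← two_mul, ← pow_mul,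
        mul_comm (2 * n) m, ← mul_assoc, mul_comm m 2, ← hm, pow_mul, h3, one_pow, Units.val_one]
    have := Nat.le_of_dvd hm0 hdvd
    omega

end Fermat.Agent.S56.FL.H38

end
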