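import Mathlib
import Fermat.Agent.S56.FL.H38_Tame
import Fermat.Agent.S56.FL.LF.H59_LocTame

set_option autoImplicit false

/-!
# LOC-p-FL, TAME (helper38 + helper59): `H57.Stmt_Tame`, unconditionally

helper59's `H59.locTame` (the structure of `Gal(L/ℚ_p)`) through the bridge `H38.stmt_Tame_of`.
-/

noncomputable section

namespace Fermat.Agent.S56.FL.H38

open Fermat.Agent.S56.FL

/-- helper59's `H59.locTame` in the shape `Stmt_LocTame`. -/
theorem stmt_LocTame : Stmt_LocTame := by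
  intro p _ L _ hL
  obtain ⟨W, φ, s, hWn, -, hWp, -, hs, hT1, hT2, hT3⟩ := H59.locTame (L := L) hL
  exact ⟨W, φ, s, hWn, hWp, hs, hT3, hT1, hT2 s hs⟩

/-- **TAME**: helper57's `Stmt_Tame` of `Fermat/Agent/S56/FL/H57_CohDefs.lean`. -/
theorem stmt_Tame : H57.Stmt_Tame := stmt_Tame_of stmt_LocTame

end Fermat.Agent.S56.FL.H38

end
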