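import Fermat.Agent.S56.FL.H50_LiftA

set_option autoImplicit false

/-!
# LOC-p-FL, package LIFT-b: `p`-th roots of `1 + y` in a finite free `𝒪_F`-algebra
-/

noncomputable section

namespace Fermat.Agent.S56.FL.H50

open scoped NNReal
open Fermat.Agent.S56.FL

variable {p : ℕ} [Fact p.Prime] {F : IntermediateField ℚ_[p] (PadicAlgCl p)}
variable {C : Type} [CommRing C] [Algebra (intRing p F) C]
variable {ι : Type} [Fintype ι] (b : Module.Basis ι (intRing p F) C)

theorem mem_map_of_cnorm_le {c : ℝ≥0} {z : C} (hz : cnorm b z ≤ c) :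
    z ∈ Ideal.map (algebraMap (intRing p F) C) (ballIdeal p F c) := by
  rw [← b.sum_repr z]
  refine Ideal.sum_mem _ fun i _ => ?_
  rw [Algebra.smul_def]
  refine Ideal.mul_mem_right _ _ (Ideal.mem_map_of_mem _ ?_)
  rw [mem_ballIdeal]
  exact_mod_cast (coord_le_cnorm b z i).trans hz

theorem cnorm_sub_le (z w : C) : cnorm b (z - w) ≤ max (cnorm b z) (cnorm b w) := by
  rw [sub_eq_add_neg]
  exact (cnorm_add_le b z (-w)).trans (by rw [cnorm_neg])

theorem cnorm_sub_comm (z w : C) : cnorm b (z - w) = cnorm b (w - z) := by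
  rw [← cnorm_neg, neg_sub]

theorem p_pos_nn : (0 : ℝ≥0) < (p : ℝ≥0) := by
  exact_mod_cast (Fact.out : p.Prime).pos

/-- Division by `p` of an element of small norm. -/
theorem exists_p_mul_eq {a : C} (ha : cnorm b a ≤ (p : ℝ≥0)⁻¹) : ∃ a' : C, (p : C) * a' = a := by
  have hp0 : (p : PadicAlgCl p) ≠ 0 := by
    exact_mod_cast (Fact.out : p.Prime).ne_zero
  have hcoord : ∀ i, ∃ r : intRing p F, (p : intRing p F) * r = b.repr a i := by
    intro i
    have h1 : ‖((b.repr a i : intRing p F) : PadicAlgCl p)‖₊ ≤ (p : ℝ≥0)⁻¹ :=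
      (coord_le_cnorm b a i).trans ha
    have hmem : ((b.repr a i : intRing p F) : PadicAlgCl p) / (p : PadicAlgCl p) ∈ intRing p F := by
      refine ⟨F.div_mem (b.repr a i).2.1 (by simpa using F.natCast_mem p), ?_⟩
      have h2 : ‖((b.repr a i : intRing p F) : PadicAlgCl p) / (p : PadicAlgCl p)‖₊ ≤ 1 := by
        rw [nnnorm_div, nnnorm_p, div_eq_mul_inv, inv_inv]
        calc ‖((b.repr a i : intRing p F) : PadicAlgCl p)‖₊ * (p : ℝ≥0)
            ≤ (p : ℝ≥0)⁻¹ * (p : ℝ≥0) := mul_le_mul' h1 le_rfl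
          _ = 1 := inv_mul_cancel₀ p_pos_nn.ne'
      exact_mod_cast h2
    refine ⟨⟨_, hmem⟩, Subtype.ext ?_⟩
    simp only [Subring.coe_mul, Subring.coe_natCast]
    field_simp
  choose r hr using hcoord
  refine ⟨∑ i, r i • b i, ?_⟩
  rw [Finset.mul_sum]
  conv_rhs => rw [← b.sum_repr a]
  refine Finset.sum_congr rfl fun i _ => ?_
  rw [← hr i, mul_smul, Algebra.smul_def (p : intRing p F), map_natCast]

/-- A chosen quotient by `p` (junk value `0` if there is none). -/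
def divp (a : C) : C := by
  classical
  exact if h : ∃ a' : C, (p : C) * a' = a then h.choose else 0

omit [Fintype ι] in
theorem p_mul_divp {a : C} (h : ∃ a' : C, (p : C) * a' = a) : (p : C) * divp (p := p) a = a := by
  classical
  rw [divp, dif_pos h]
  exact h.choose_spec

theorem cnorm_divp {a : C} (h : ∃ a' : C, (p : C) * a' = a) :
    cnorm b (divp (p := p) a) = (p : ℝ≥0) * cnorm b a := by
  have h1 := congrArg (cnorm b) (p_mul_divp (p := p) h)
  rw [cnorm_natCast_mul, nnnorm_p] at h1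
  rw [← h1, ← mul_assoc, mul_inv_cancel₀ p_pos_nn.ne', one_mul]

/-- General binomial expansion with the terms `m = 0, 1, p` split off. -/
theorem add_pow_prime' (w x : C) :
    (w + x) ^ p = w ^ p + (p : C) * x * w ^ (p - 1)
      + (∑ m ∈ Finset.Ico 2 p, (p.choose m : C) * x ^ m * w ^ (p - m)) + x ^ p := by
  have hp2 : 2 ≤ p := (Fact.out : p.Prime).two_le
  rw [add_comm w x, add_pow, Finset.range_eq_Ico,
    Finset.sum_eq_sum_Ico_succ_bot (by omega : 0 < p + 1),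
    Finset.sum_eq_sum_Ico_succ_bot (by omega : 0 + 1 < p + 1),
    Finset.sum_Ico_succ_top (by omega : 0 + 1 + 1 ≤ p)]
  simp only [pow_zero, Nat.choose_zero_right, Nat.cast_one, zero_add, pow_one,
    Nat.choose_one_right, Nat.choose_self, Nat.sub_zero, Nat.sub_self, one_mul, mul_one]
  have : (∑ m ∈ Finset.Ico (1 + 1) p, x ^ m * w ^ (p - m) * (p.choose m : C))
      = ∑ m ∈ Finset.Ico 2 p, (p.choose m : C) * x ^ m * w ^ (p - m) :=
    Finset.sum_congr rfl fun m _ => by ring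
  rw [this]
  ring

theorem cnorm_pow_sub_one_le (z : C) (k : ℕ) : cnorm b ((1 + z) ^ k - 1) ≤ cnorm b z := by
  have h : (1 + z) ^ k - 1 = z * ∑ i ∈ Finset.range k, (1 + z) ^ i := by
    have := mul_geom_sum (1 + z) k
    rw [add_sub_cancel_left] at this
    exact this.symm
  rw [h]
  calc cnorm b (z * ∑ i ∈ Finset.range k, (1 + z) ^ i)
      ≤ cnorm b z * cnorm b (∑ i ∈ Finset.range k, (1 + z) ^ i) := cnorm_mul_le b _ _
    _ ≤ cnorm b z * 1 := mul_le_mul' le_rfl (cnorm_le_one b _)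
    _ = cnorm b z := mul_one _

theorem cnorm_pow_sub_pow_le (x w : C) (k : ℕ) : cnorm b (x ^ k - w ^ k) ≤ cnorm b (x - w) := by
  have h : x ^ k - w ^ k = (x - w) * ∑ i ∈ Finset.range k, x ^ i * w ^ (k - 1 - i) :=
    ((Commute.all x w).mul_geom_sum₂ k).symm
  rw [h]
  calc cnorm b ((x - w) * ∑ i ∈ Finset.range k, x ^ i * w ^ (k - 1 - i))
      ≤ cnorm b (x - w) * cnorm b (∑ i ∈ Finset.range k, x ^ i * w ^ (k - 1 - i)) :=
        cnorm_mul_le b _ _
    _ ≤ cnorm b (x - w) * 1 := mul_le_mul' le_rfl (cnorm_le_one b _)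
    _ = cnorm b (x - w) := mul_one _


/-! ### Completeness -/

/-- Coordinatewise limits: a sequence in `C` whose consecutive differences are geometrically small
converges coordinatewise to some `l : C` (here `F/ℚ_p` is finite, so `F` is complete). -/
theorem exists_limit [FiniteDimensional ℚ_[p] F] (z : ℕ → C) (A κ : ℝ≥0) (hκ : κ < 1)
    (hz : ∀ n, cnorm b (z (n + 1) - z n) ≤ A * κ ^ n) :
    ∃ l : C, ∀ i, Filter.Tendsto (fun n => ((b.repr (z n) i : intRing p F) : PadicAlgCl p))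
      Filter.atTop (nhds ((b.repr l i : intRing p F) : PadicAlgCl p)) := by
  have hFc : IsComplete ((F.toSubalgebra.toSubmodule : Submodule ℚ_[p] (PadicAlgCl p)) :
      Set (PadicAlgCl p)) := by
    have : FiniteDimensional ℚ_[p] (F.toSubalgebra.toSubmodule : Submodule ℚ_[p] (PadicAlgCl p)) :=
      inferInstanceAs (FiniteDimensional ℚ_[p] F)
    exact Submodule.complete_of_finiteDimensional _
  have hlim : ∀ i, ∃ l : PadicAlgCl p, l ∈ F ∧ ‖l‖ ≤ 1 ∧
      Filter.Tendsto (fun n => ((b.repr (z n) i : intRing p F) : PadicAlgCl p)) Filter.atTop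
        (nhds l) := by
    intro i
    have hC : CauchySeq (fun n => ((b.repr (z n) i : intRing p F) : PadicAlgCl p)) := by
      refine cauchySeq_of_le_geometric (κ : ℝ) (A : ℝ) (by exact_mod_cast hκ) fun n => ?_
      rw [dist_comm, dist_eq_norm]
      have h1 := (coord_le_cnorm b (z (n + 1) - z n) i).trans (hz n)
      rw [map_sub, Finsupp.sub_apply, AddSubgroupClass.coe_sub] at h1
      exact_mod_cast h1
    obtain ⟨l, hl, hten⟩ := cauchySeq_tendsto_of_isComplete hFc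
      (fun n => (b.repr (z n) i).2.1) hC
    refine ⟨l, hl, ?_, hten⟩
    refine le_of_tendsto' ((continuous_norm.tendsto l).comp hten) fun n => ?_
    exact (b.repr (z n) i).2.2
  choose l hlF hl1 hlt using hlim
  refine ⟨∑ i, (⟨l i, hlF i, hl1 i⟩ : intRing p F) • b i, fun i => ?_⟩
  have : b.repr (∑ j, (⟨l j, hlF j, hl1 j⟩ : intRing p F) • b j) i = ⟨l i, hlF i, hl1 i⟩ := by
    rw [b.repr_sum_self]
  rw [this]
  exact hlt i

theorem cnorm_le_of_tendsto {z : ℕ → C} {l : C} {B : ℝ≥0}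
    (hl : ∀ i, Filter.Tendsto (fun n => ((b.repr (z n) i : intRing p F) : PadicAlgCl p))
      Filter.atTop (nhds ((b.repr l i : intRing p F) : PadicAlgCl p)))
    (hB : ∀ n, cnorm b (z n) ≤ B) : cnorm b l ≤ B := by
  rw [cnorm_le_iff]
  intro i
  have : ‖((b.repr l i : intRing p F) : PadicAlgCl p)‖ ≤ B := by
    refine le_of_tendsto' ((continuous_norm.tendsto _).comp (hl i)) fun n => ?_
    have := (coord_le_cnorm b (z n) i).trans (hB n)
    exact_mod_cast this
  exact_mod_cast this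

theorem exists_cnorm_sub_le {z : ℕ → C} {l : C}
    (hl : ∀ i, Filter.Tendsto (fun n => ((b.repr (z n) i : intRing p F) : PadicAlgCl p))
      Filter.atTop (nhds ((b.repr l i : intRing p F) : PadicAlgCl p)))
    {η : ℝ≥0} (hη : 0 < η) : ∀ᶠ n in Filter.atTop, cnorm b (z n - l) ≤ η := by
  have h1 : ∀ i, ∀ᶠ n in Filter.atTop,
      ‖((b.repr (z n - l) i : intRing p F) : PadicAlgCl p)‖₊ ≤ η := by
    intro i
    have h2 := (hl i).sub_const ((b.repr l i : intRing p F) : PadicAlgCl p)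
    rw [sub_self] at h2
    have h3 := (tendsto_zero_iff_norm_tendsto_zero.1 h2).eventually
      (ge_mem_nhds (show (0 : ℝ) < η by exact_mod_cast hη))
    filter_upwards [h3] with n hn
    rw [map_sub, Finsupp.sub_apply, AddSubgroupClass.coe_sub]
    exact_mod_cast hn
  filter_upwards [Filter.eventually_all.2 h1] with n hn
  exact (cnorm_le_iff b).2 hn


/-! ### The iteration -/

/-- The error `1 + y - (1 + z)^p`. -/
def errB (y z : C) : C := 1 + y - (1 + z) ^ p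

/-- One correction step. -/
def stepB (y z : C) : C := z + divp (p := p) (errB (p := p) y z)

/-- The numerical facts on the radius `c` with `c^{p-1} < p^{-p}`. -/
theorem radius_facts {c : ℝ≥0} (hc : c ^ (p - 1) < ((p : ℝ≥0)⁻¹) ^ p) :
    (p : ℝ≥0) * c < 1 ∧ (p : ℝ≥0) ^ p * c ^ (p - 1) < 1 ∧ c ≤ (p : ℝ≥0)⁻¹ := by
  have hp : p.Prime := Fact.out
  have hpp : (0 : ℝ≥0) < (p : ℝ≥0) := p_pos_nn
  have h2 : (p : ℝ≥0) ^ p * c ^ (p - 1) < 1 := by
    calc (p : ℝ≥0) ^ p * c ^ (p - 1) < (p : ℝ≥0) ^ p * ((p : ℝ≥0)⁻¹) ^ p :=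
          mul_lt_mul_of_pos_left hc (pow_pos hpp p)
      _ = 1 := by rw [← mul_pow, mul_inv_cancel₀ hpp.ne', one_pow]
  have h1 : (p : ℝ≥0) * c < 1 := by
    by_contra hcon
    have hcon' : 1 ≤ (p : ℝ≥0) * c := not_lt.1 hcon
    have h3 : (1 : ℝ≥0) ≤ ((p : ℝ≥0) * c) ^ (p - 1) := one_le_pow₀ hcon'
    have h4 : ((p : ℝ≥0) * c) ^ (p - 1) * (p : ℝ≥0) = (p : ℝ≥0) ^ p * c ^ (p - 1) := by
      rw [mul_pow, mul_right_comm, ← pow_succ, Nat.sub_add_cancel hp.one_le]
    have h5 : (1 : ℝ≥0) ≤ (p : ℝ≥0) := by exact_mod_cast hp.one_le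
    have h6 : (1 : ℝ≥0) ≤ ((p : ℝ≥0) * c) ^ (p - 1) * (p : ℝ≥0) := by
      calc (1 : ℝ≥0) = 1 * 1 := (one_mul 1).symm
        _ ≤ ((p : ℝ≥0) * c) ^ (p - 1) * (p : ℝ≥0) := mul_le_mul' h3 h5
    rw [h4] at h6
    exact absurd h2 (not_lt.2 h6)
  refine ⟨h1, h2, ?_⟩
  calc c = (p : ℝ≥0)⁻¹ * ((p : ℝ≥0) * c) := by
        rw [← mul_assoc, inv_mul_cancel₀ hpp.ne', one_mul]
    _ ≤ (p : ℝ≥0)⁻¹ * 1 := mul_le_mul' le_rfl h1.le
    _ = (p : ℝ≥0)⁻¹ := mul_one _

theorem step_spec {c : ℝ≥0} (hc : c ^ (p - 1) < ((p : ℝ≥0)⁻¹) ^ p) (y z : C) (ε : ℝ≥0)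
    (hz : cnorm b z ≤ (p : ℝ≥0) * c) (he : cnorm b (errB (p := p) y z) ≤ ε) (hεc : ε ≤ c) :
    cnorm b (stepB (p := p) y z) ≤ (p : ℝ≥0) * c ∧
    cnorm b (stepB (p := p) y z - z) ≤ (p : ℝ≥0) * ε ∧
    cnorm b (errB (p := p) y (stepB (p := p) y z))
      ≤ max ((p : ℝ≥0) * c) ((p : ℝ≥0) ^ p * c ^ (p - 1)) * ε := by
  have hp : p.Prime := Fact.out
  obtain ⟨hρ1, hκ2, hcp⟩ := radius_facts hc
  set e := errB (p := p) y z with he_def
  have hdiv : ∃ a' : C, (p : C) * a' = e := exists_p_mul_eq b ((he.trans hεc).trans hcp)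
  set δ := divp (p := p) e with hδ_def
  have hpδ : (p : C) * δ = e := p_mul_divp hdiv
  have hδn : cnorm b δ = (p : ℝ≥0) * cnorm b e := cnorm_divp b hdiv
  have hδε : cnorm b δ ≤ (p : ℝ≥0) * ε := by rw [hδn]; exact mul_le_mul' le_rfl he
  have hδρ : cnorm b δ ≤ (p : ℝ≥0) * c := hδε.trans (mul_le_mul' le_rfl hεc)
  have hδ1 : cnorm b δ ≤ 1 := hδρ.trans hρ1.le
  have hstep : stepB (p := p) y z = z + δ := rfl
  refine ⟨?_, ?_, ?_⟩
  · rw [hstep]; exact (cnorm_add_le b z δ).trans (max_le hz hδρ)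
  · rw [hstep, add_sub_cancel_left]; exact hδε
  · -- the new error
    set κ := max ((p : ℝ≥0) * c) ((p : ℝ≥0) ^ p * c ^ (p - 1)) with hκ
    have hexp : errB (p := p) y (z + δ) = -(e * ((1 + z) ^ (p - 1) - 1))
        - (∑ m ∈ Finset.Ico 2 p, (p.choose m : C) * δ ^ m * (1 + z) ^ (p - m)) - δ ^ p := by
      have h1 : errB (p := p) y (z + δ) = 1 + y - ((1 + z) + δ) ^ p := by
        rw [errB, add_assoc]
      rw [h1, add_pow_prime' (1 + z) δ]
      have h2 : (p : C) * δ * (1 + z) ^ (p - 1) = e * (1 + z) ^ (p - 1) := by rw [hpδ]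
      rw [h2]
      have h3 : e = 1 + y - (1 + z) ^ p := rfl
      have h4 : (1 : C) + y = e + (1 + z) ^ p := by rw [h3]; ring
      rw [h4]
      ring
    rw [hstep, hexp]
    have hA : cnorm b (-(e * ((1 + z) ^ (p - 1) - 1))) ≤ κ * ε := by
      rw [cnorm_neg]
      calc cnorm b (e * ((1 + z) ^ (p - 1) - 1))
          ≤ cnorm b e * cnorm b ((1 + z) ^ (p - 1) - 1) := cnorm_mul_le b _ _
        _ ≤ ε * ((p : ℝ≥0) * c) := mul_le_mul' he ((cnorm_pow_sub_one_le b z _).trans hz)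
        _ = (p : ℝ≥0) * c * ε := mul_comm _ _
        _ ≤ κ * ε := mul_le_mul' (le_max_left _ _) le_rfl
    have hB : cnorm b (∑ m ∈ Finset.Ico 2 p, (p.choose m : C) * δ ^ m * (1 + z) ^ (p - m))
        ≤ κ * ε := by
      refine cnorm_sum_le b _ _ _ fun m hm => ?_
      rw [Finset.mem_Ico] at hm
      rw [mul_assoc, cnorm_natCast_mul]
      have h1 : cnorm b (δ ^ m * (1 + z) ^ (p - m)) ≤ cnorm b δ ^ 2 := by
        calc cnorm b (δ ^ m * (1 + z) ^ (p - m))
            ≤ cnorm b (δ ^ m) * cnorm b ((1 + z) ^ (p - m)) := cnorm_mul_le b _ _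
          _ ≤ cnorm b δ ^ m * 1 :=
              mul_le_mul' (cnorm_pow_le b δ m (by omega)) (cnorm_le_one b _)
          _ = cnorm b δ ^ m := mul_one _
          _ ≤ cnorm b δ ^ 2 := pow_le_pow_of_le_one bot_le hδ1 hm.1
      calc ‖((p.choose m : ℕ) : PadicAlgCl p)‖₊ * cnorm b (δ ^ m * (1 + z) ^ (p - m))
          ≤ (p : ℝ≥0)⁻¹ * cnorm b δ ^ 2 := mul_le_mul' (nnnorm_choose_le (by omega) hm.2) h1
        _ ≤ (p : ℝ≥0)⁻¹ * (((p : ℝ≥0) * ε) * ((p : ℝ≥0) * c)) := by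
            rw [sq]; exact mul_le_mul' le_rfl (mul_le_mul' hδε hδρ)
        _ = (p : ℝ≥0) * c * ε := by
            have h5 : (p : ℝ≥0)⁻¹ * (((p : ℝ≥0) * ε) * ((p : ℝ≥0) * c))
                = ((p : ℝ≥0)⁻¹ * (p : ℝ≥0)) * ((p : ℝ≥0) * c * ε) := by ring
            rw [h5, inv_mul_cancel₀ p_pos_nn.ne', one_mul]
        _ ≤ κ * ε := mul_le_mul' (le_max_left _ _) le_rfl
    have hC : cnorm b (δ ^ p) ≤ κ * ε := by
      calc cnorm b (δ ^ p) ≤ cnorm b δ ^ p := cnorm_pow_le b δ p hp.ne_zero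
        _ ≤ ((p : ℝ≥0) * ε) ^ p := pow_le_pow_left₀ bot_le hδε _
        _ = (p : ℝ≥0) ^ p * (ε ^ (p - 1) * ε) := by
            rw [mul_pow, ← pow_succ, Nat.sub_add_cancel hp.one_le]
        _ ≤ (p : ℝ≥0) ^ p * (c ^ (p - 1) * ε) :=
            mul_le_mul' le_rfl (mul_le_mul' (pow_le_pow_left₀ bot_le hεc _) le_rfl)
        _ = (p : ℝ≥0) ^ p * c ^ (p - 1) * ε := (mul_assoc _ _ _).symm
        _ ≤ κ * ε := mul_le_mul' (le_max_right _ _) le_rfl
    exact (cnorm_sub_le b _ _).trans (max_le ((cnorm_sub_le b _ _).trans (max_le hA hB)) hC)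

/-- **LIFT-b.** -/
theorem stmt_LIFT_b : Stmt_LIFT_b := by
  intro p _ F _ C _ _ _ _ c hc y hy
  let b := Module.Free.chooseBasis (intRing p F) C
  obtain ⟨hρ1, hκ2, hcp⟩ := radius_facts hc
  set κ : ℝ≥0 := max ((p : ℝ≥0) * c) ((p : ℝ≥0) ^ p * c ^ (p - 1)) with hκ
  have hκ1 : κ < 1 := max_lt hρ1 hκ2
  have hyc : cnorm b y ≤ c := cnorm_le_of_mem_map b hy
  let z : ℕ → C := fun n => (stepB (p := p) y)^[n] 0
  have hzs : ∀ n, z (n + 1) = stepB (p := p) y (z n) := fun n =>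
    Function.iterate_succ_apply' _ _ _
  have hind : ∀ n, cnorm b (z n) ≤ (p : ℝ≥0) * c ∧
      cnorm b (errB (p := p) y (z n)) ≤ c * κ ^ n := by
    intro n
    induction n with
    | zero =>
      refine ⟨by simp [z, cnorm_zero], ?_⟩
      have : errB (p := p) y (z 0) = y := by simp [z, errB]
      rw [this, pow_zero, mul_one]; exact hyc
    | succ n ih =>
      have hε : c * κ ^ n ≤ c := by
        calc c * κ ^ n ≤ c * 1 := mul_le_mul' le_rfl (pow_le_one₀ bot_le hκ1.le)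
          _ = c := mul_one c
      obtain ⟨h1, -, h3⟩ := step_spec b hc y (z n) (c * κ ^ n) ih.1 ih.2 hε
      rw [hzs]
      refine ⟨h1, h3.trans (le_of_eq ?_)⟩
      rw [pow_succ]; ring
  have hdiff : ∀ n, cnorm b (z (n + 1) - z n) ≤ (p : ℝ≥0) * c * κ ^ n := by
    intro n
    have hε : c * κ ^ n ≤ c := by
      calc c * κ ^ n ≤ c * 1 := mul_le_mul' le_rfl (pow_le_one₀ bot_le hκ1.le)
        _ = c := mul_one c
    obtain ⟨-, h2, -⟩ := step_spec b hc y (z n) (c * κ ^ n) (hind n).1 (hind n).2 hε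
    rw [hzs]
    exact h2.trans (le_of_eq (by ring))
  obtain ⟨l, hl⟩ := exists_limit b z ((p : ℝ≥0) * c) κ hκ1 hdiff
  have hlρ : cnorm b l ≤ (p : ℝ≥0) * c := cnorm_le_of_tendsto b hl fun n => (hind n).1
  refine ⟨l, mem_map_of_cnorm_le b hlρ, ?_⟩
  -- the error of the limit is zero
  have herr0 : cnorm b (errB (p := p) y l) = 0 := by
    by_contra hne
    have hpos : 0 < cnorm b (errB (p := p) y l) := pos_iff_ne_zero.2 hne
    set η := cnorm b (errB (p := p) y l) / 2 with hη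
    have hη0 : 0 < η := by rw [hη]; exact div_pos hpos (by norm_num)
    have hηlt : η < cnorm b (errB (p := p) y l) := by
      rw [hη]; exact NNReal.half_lt_self hne
    have h1 := exists_cnorm_sub_le b hl hη0
    have h2 : ∀ᶠ n in Filter.atTop, c * κ ^ n ≤ η := by
      have hten : Filter.Tendsto (fun n => c * κ ^ n) Filter.atTop (nhds (c * 0)) :=
        (NNReal.tendsto_pow_atTop_nhds_zero_of_lt_one hκ1).const_mul c
      rw [mul_zero] at hten
      exact hten.eventually (ge_mem_nhds hη0)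
    obtain ⟨n, hn1, hn2⟩ := (h1.and h2).exists
    have hsplit : errB (p := p) y l = errB (p := p) y (z n) + ((1 + z n) ^ p - (1 + l) ^ p) := by
      simp only [errB]; ring
    have h3 : cnorm b ((1 + z n) ^ p - (1 + l) ^ p) ≤ η := by
      refine (cnorm_pow_sub_pow_le b _ _ p).trans ?_
      rw [add_sub_add_left_eq_sub]; exact hn1
    have h4 : cnorm b (errB (p := p) y l) ≤ η := by
      rw [hsplit]
      exact (cnorm_add_le b _ _).trans (max_le ((hind n).2.trans hn2) h3)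
    exact absurd h4 (not_le.2 hηlt)
  have := cnorm_eq_zero b herr0
  rw [errB, sub_eq_zero] at this
  exact this.symm

end Fermat.Agent.S56.FL.H50

end
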