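import Fermat.Agent.S56.FL.H59_CC3Defs
import Fermat.Agent.S56.FL.H50_LiftB

set_option autoImplicit false

/-!
# LOC-p-FL, CC3z leaf HenselF (helper41)

`H41.stmt_HenselF : H59.Stmt_HenselF`: for `F/ℚ_p` finite and `y ∈ F` with
`‖y‖^(p-1) < p^(-p)` there is `z ∈ F` with `(1 + z)^p = 1 + y`.  This is `H50.stmt_LIFT_b` for
`C = 𝒪_F`.
-/

noncomputable section

namespace Fermat.Agent.S56.FL.H41

open Fermat.Agent.S56.FL

open scoped NNReal

/-- **HenselF.** -/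
theorem stmt_HenselF : H59.Stmt_HenselF := by
  intro p _ F _ y hyF hy
  have hp : (p : ℕ).Prime := Fact.out
  have hp1 : 1 ≤ p - 1 := by have := hp.two_le; omega
  have hpR : (1 : ℝ) < p := by exact_mod_cast hp.one_lt
  -- `‖y‖ ≤ 1`
  have hinv : ((p : ℝ)⁻¹) ^ p ≤ 1 :=
    pow_le_one₀ (inv_nonneg.2 (by positivity)) (inv_le_one_of_one_le₀ hpR.le)
  have hy1 : ‖y‖ ≤ 1 := by
    by_contra hcon
    push Not at hcon
    have h1 : (1 : ℝ) ≤ ‖y‖ ^ (p - 1) := one_le_pow₀ hcon.le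
    linarith
  set c : ℝ≥0 := ⟨‖y‖, norm_nonneg y⟩ with hc
  have hcc : c ^ (p - 1) < ((p : ℝ≥0)⁻¹) ^ p := by
    rw [← NNReal.coe_lt_coe]
    push_cast
    exact hy
  set y' : intRing p F := ⟨y, hyF, hy1⟩ with hy'
  have hmem : y' ∈ Ideal.map (algebraMap (intRing p F) (intRing p F)) (ballIdeal p F c) := by
    rw [Algebra.algebraMap_self, Ideal.map_id]
    show ‖(y' : PadicAlgCl p)‖ ≤ (c : ℝ)
    exact le_refl _
  obtain ⟨z, -, hz⟩ := H50.stmt_LIFT_b p F (intRing p F) c hcc y' hmem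
  refine ⟨(z : PadicAlgCl p), z.2.1, ?_⟩
  have h := congrArg (fun t : intRing p F => (t : PadicAlgCl p)) hz
  simpa using h

end Fermat.Agent.S56.FL.H41

end
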