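import Mathlib

/-!
# LOC-p-FL, package COH (helper57): linear algebra

* `finrank_le_one_of_dependent`, `finrank_le_succ_of_dependent_mod` : dimension bounds from
  pairwise dependence.
* `ent b f i j` : the matrix entries of an endomorphism of a plane in a basis `b`;
  `conj_upper`, `conj_anti` : conjugation by an upper triangular / antidiagonal endomorphism.
-/

set_option autoImplicit false

noncomputable section

namespace Fermat.Agent.S56.FL.H57

open Module

section linalg

variable {k H : Type*} [Field k] [AddCommGroup H] [Module k H]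

/-- A subspace in which any two vectors are dependent has dimension at most one. -/
theorem finrank_le_one_of_dependent (Y : Submodule k H)
    (h : ∀ y₁ ∈ Y, ∀ y₂ ∈ Y, ∃ l₁ l₂ : k, (l₁ ≠ 0 ∨ l₂ ≠ 0) ∧ l₁ • y₁ + l₂ • y₂ = 0) :
    Module.Finite k Y ∧ finrank k Y ≤ 1 := by
  by_cases hY : ∃ y₀ ∈ Y, y₀ ≠ 0
  · obtain ⟨y₀, hy₀, hne⟩ := hY
    have hle : Y ≤ Submodule.span k ({y₀} : Set H) := by
      intro y hy
      obtain ⟨l₁, l₂, hl, e⟩ := h y₀ hy₀ y hy
      have hl₂ : l₂ ≠ 0 := by
        rintro rfl
        rw [zero_smul, add_zero] at e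
        rcases hl with hl | hl
        · exact hne ((smul_eq_zero.1 e).resolve_left hl)
        · exact hl rfl
      have hy' : y = (-(l₂⁻¹ * l₁)) • y₀ := by
        have h1 : l₂ • y = -(l₁ • y₀) := eq_neg_of_add_eq_zero_right e
        have h2 : y = l₂⁻¹ • (l₂ • y) := by rw [smul_smul, inv_mul_cancel₀ hl₂, one_smul]
        rw [h2, h1, smul_neg, smul_smul, neg_smul]
      rw [hy']
      exact Submodule.smul_mem _ _ (Submodule.mem_span_singleton_self _)
    have hfin : Module.Finite k (Submodule.span k ({y₀} : Set H)) :=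
      FiniteDimensional.span_singleton k y₀
    refine ⟨Submodule.finiteDimensional_of_le hle, (Submodule.finrank_mono hle).trans ?_⟩
    exact (finrank_span_le_card ({y₀} : Set H)).trans (by simp)
  · have hbot : Y = ⊥ := by
      rw [eq_bot_iff]
      intro y hy
      by_contra hne
      exact hY ⟨y, hy, hne⟩
    subst hbot
    exact ⟨inferInstance, by simp⟩

/-- If any two vectors of `Y` are dependent modulo `K`, then `dim Y ≤ dim K + 1`. -/
theorem finrank_le_succ_of_dependent_mod (Y K : Submodule k H) [Module.Finite k K] (n : ℕ)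
    (hK : finrank k K ≤ n)
    (h : ∀ y₁ ∈ Y, ∀ y₂ ∈ Y, ∃ l₁ l₂ : k, (l₁ ≠ 0 ∨ l₂ ≠ 0) ∧ l₁ • y₁ + l₂ • y₂ ∈ K) :
    Module.Finite k Y ∧ finrank k Y ≤ n + 1 := by
  by_cases hY : ∃ y₀ ∈ Y, y₀ ∉ K
  · obtain ⟨y₀, hy₀, hne⟩ := hY
    have hle : Y ≤ K ⊔ Submodule.span k ({y₀} : Set H) := by
      intro y hy
      obtain ⟨l₁, l₂, hl, e⟩ := h y₀ hy₀ y hy
      have hl₂ : l₂ ≠ 0 := by
        rintro rfl
        rw [zero_smul, add_zero] at e
        rcases hl with hl | hl
        · apply hne
          have := K.smul_mem l₁⁻¹ e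
          rwa [smul_smul, inv_mul_cancel₀ hl, one_smul] at this
        · exact hl rfl
      have hy' : y = l₂⁻¹ • (l₁ • y₀ + l₂ • y) + (-(l₂⁻¹ * l₁)) • y₀ := by
        rw [smul_add, smul_smul, smul_smul, inv_mul_cancel₀ hl₂, one_smul, neg_smul]
        abel
      rw [hy']
      exact Submodule.add_mem _ (Submodule.mem_sup_left (K.smul_mem _ e))
        (Submodule.mem_sup_right (Submodule.smul_mem _ _ (Submodule.mem_span_singleton_self _)))
    have hfin : Module.Finite k (Submodule.span k ({y₀} : Set H)) :=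
      FiniteDimensional.span_singleton k y₀
    have hfin' : Module.Finite k (K ⊔ Submodule.span k ({y₀} : Set H) : Submodule k H) :=
      inferInstance
    refine ⟨Submodule.finiteDimensional_of_le hle, (Submodule.finrank_mono hle).trans ?_⟩
    refine (Submodule.finrank_add_le_finrank_add_finrank _ _).trans ?_
    have h1 : finrank k (Submodule.span k ({y₀} : Set H)) ≤ 1 :=
      (finrank_span_le_card ({y₀} : Set H)).trans (by simp)
    omega
  · have hle : Y ≤ K := by
      intro y hy
      by_contra hne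
      exact hY ⟨y, hy, hne⟩
    exact ⟨Submodule.finiteDimensional_of_le hle, (Submodule.finrank_mono hle).trans (by omega)⟩

end linalg

section coords

variable {k V : Type*} [Field k] [AddCommGroup V] [Module k V] (b : Basis (Fin 2) k V)

/-- The matrix entry `(i, j)` of an endomorphism in the basis `b`. -/
def ent (f : Module.End k V) (i j : Fin 2) : k := b.coord i (f (b j))

theorem ent_add (f g : Module.End k V) (i j : Fin 2) : ent b (f + g) i j = ent b f i j + ent b g i j := by
  simp [ent]

theorem ent_sub (f g : Module.End k V) (i j : Fin 2) : ent b (f - g) i j = ent b f i j - ent b g i j := by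
  simp [ent]

theorem ent_smul (a : k) (f : Module.End k V) (i j : Fin 2) : ent b (a • f) i j = a * ent b f i j := by
  simp [ent]

theorem ent_zero (i j : Fin 2) : ent b (0 : Module.End k V) i j = 0 := by
  simp [ent]

theorem basis_decomp (v : V) : v = b.coord 0 v • b 0 + b.coord 1 v • b 1 := by
  conv_lhs => rw [← b.sum_repr v]
  rw [Fin.sum_univ_two]
  rfl

theorem apply_b (f : Module.End k V) (j : Fin 2) :
    f (b j) = ent b f 0 j • b 0 + ent b f 1 j • b 1 := basis_decomp b (f (b j))

theorem end_ext {f g : Module.End k V} (h : ∀ i j, ent b f i j = ent b g i j) : f = g := by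
  apply b.ext
  intro j
  rw [apply_b b f j, apply_b b g j, h 0 j, h 1 j]

theorem trace_eq_ent (f : Module.End k V) :
    LinearMap.trace k V f = ent b f 0 0 + ent b f 1 1 := by
  rw [LinearMap.trace_eq_matrix_trace k b, Matrix.trace_fin_two]
  simp [LinearMap.toMatrix_apply, ent]

/-- Conjugation by an upper triangular endomorphism, in coordinates. -/
theorem conj_upper {R f g : Module.End k V} {x₁ x₂ u : k} (hR0 : R (b 0) = x₁ • b 0)
    (hR1 : R (b 1) = u • b 0 + x₂ • b 1) (hg : g * R = R * f) :
    x₁ * ent b g 1 0 = x₂ * ent b f 1 0 ∧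
    x₁ * ent b g 0 0 = x₁ * ent b f 0 0 + u * ent b f 1 0 ∧
    x₂ * ent b g 1 1 + u * ent b g 1 0 = x₂ * ent b f 1 1 ∧
    x₂ * ent b g 0 1 + u * ent b g 0 0 = x₁ * ent b f 0 1 + u * ent b f 1 1 := by
  have e0 : g (R (b 0)) = R (f (b 0)) := LinearMap.congr_fun hg (b 0)
  have e1 : g (R (b 1)) = R (f (b 1)) := LinearMap.congr_fun hg (b 1)
  rw [hR0, map_smul, apply_b b f 0, map_add, map_smul, map_smul, hR0, hR1, apply_b b g 0] at e0
  rw [hR1, map_add, map_smul, map_smul, apply_b b f 1, map_add, map_smul, map_smul, hR0, hR1,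
    apply_b b g 0, apply_b b g 1] at e1
  have a0 := congrArg (b.coord 0) e0
  have a1 := congrArg (b.coord 1) e0
  have c0 := congrArg (b.coord 0) e1
  have c1 := congrArg (b.coord 1) e1
  simp only [map_add, map_smul, Basis.coord_apply, Basis.repr_self, smul_eq_mul,
    Finsupp.single_apply] at a0 a1 c0 c1
  simp at a0 a1 c0 c1
  refine ⟨?_, ?_, ?_, ?_⟩
  · linear_combination a1
  · linear_combination a0
  · linear_combination c1
  · linear_combination c0

/-- Conjugation by an antidiagonal endomorphism, in coordinates. -/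
theorem conj_anti {R f g : Module.End k V} {r r' : k} (hR0 : R (b 0) = r' • b 1)
    (hR1 : R (b 1) = r • b 0) (hg : g * R = R * f) :
    r' * ent b g 1 1 = r' * ent b f 0 0 ∧
    r' * ent b g 0 1 = r * ent b f 1 0 ∧
    r * ent b g 1 0 = r' * ent b f 0 1 ∧
    r * ent b g 0 0 = r * ent b f 1 1 := by
  have e0 : g (R (b 0)) = R (f (b 0)) := LinearMap.congr_fun hg (b 0)
  have e1 : g (R (b 1)) = R (f (b 1)) := LinearMap.congr_fun hg (b 1)
  rw [hR0, map_smul, apply_b b f 0, map_add, map_smul, map_smul, hR0, hR1, apply_b b g 1] at e0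
  rw [hR1, map_smul, apply_b b f 1, map_add, map_smul, map_smul, hR0, hR1, apply_b b g 0] at e1
  have a0 := congrArg (b.coord 0) e0
  have a1 := congrArg (b.coord 1) e0
  have c0 := congrArg (b.coord 0) e1
  have c1 := congrArg (b.coord 1) e1
  simp only [map_add, map_smul, Basis.coord_apply, Basis.repr_self, smul_eq_mul,
    Finsupp.single_apply] at a0 a1 c0 c1
  simp at a0 a1 c0 c1
  refine ⟨?_, ?_, ?_, ?_⟩
  · linear_combination a1
  · linear_combination a0
  · linear_combination c1
  · linear_combination c0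

end coords

end Fermat.Agent.S56.FL.H57

end
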