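import Fermat.Agent.S56.FL.Count
import Fermat.Agent.S56.FL.H57_CohDefs
import Fermat.Agent.S56.FL.H57_CohLin
import Fermat.Agent.S56.FL.H15_Comp
import Fermat.Agent.S56.H47_Basic
import Fermat.Agent.S56.Dict.H85_Inj

/-!
# LOC-p-FL, package COH (helper57): basic facts on local cocycles of `ad⁰ ρbar`

* `cocVal_mul`, `trace_cocVal`, `cocycle_ext` : the cocycle identity for the values `cocVal`.
* `cobd ρbar m hm` : the coboundary of a trace-zero endomorphism; `cocVal_cobd`, `H1π_cobd`.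
* `IsBddAd.add`, `IsBddAd.smul`, `IsBddAd.sub_cobd` : bounded cocycles form a subspace
  (composita of bounded fields are bounded: `H15.isBdd_sup`).
* `IsBddCoc χ c` : bounded `χ`-cocycles on `G_p`; `dimLeOne_apply`, `cc0_apply`, `cc1_apply`,
  `cc3_apply` : the counts of `FL/Coh.lean`, `FL/Count.lean` for functions on `G_p`.
* `unr_hom_dependent` : two unramified homomorphisms `G_p → k` of finite level are dependent.
-/

set_option autoImplicit false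
set_option linter.unusedSectionVars false
set_option linter.unusedVariables false
set_option linter.style.haveILetI false

noncomputable section

namespace Fermat.Agent.S56.FL.H57

open Polynomial IsLocalRing CategoryTheory groupCohomology ExtCitation Module
  Fermat.Agent.S56 Fermat.Agent.S56.FL

variable {p : ℕ} [Fact p.Prime] {k : Type} [Field k] (ρbar : ResidualGaloisRep k)

/-! ## The local representation -/

theorem locRho_mul_inv (σ : Gp p) : locRho ρbar σ * locRho ρbar σ⁻¹ = 1 := by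
  rw [← locRho_mul, mul_inv_cancel, locRho_one]

theorem locRho_inv_mul (σ : Gp p) : locRho ρbar σ⁻¹ * locRho ρbar σ = 1 := by
  rw [← locRho_mul, inv_mul_cancel, locRho_one]

theorem locRho_pow (σ : Gp p) (n : ℕ) : locRho ρbar (σ ^ n) = locRho ρbar σ ^ n := by
  induction n with
  | zero => rw [pow_zero, pow_zero, locRho_one]
  | succ n ih => rw [pow_succ, pow_succ, locRho_mul, ih]

/-! ## Values of cocycles -/

theorem cocVal_mul (c : cocycles₁ (locRep (ad0 ρbar) (pPrime p))) (σ τ : Gp p) :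
    cocVal ρbar c (σ * τ) =
      cocVal ρbar c σ + locRho ρbar σ * cocVal ρbar c τ * locRho ρbar σ⁻¹ := by
  have h := (mem_cocycles₁_iff (c : primeLocalGaloisGroup (pPrime p) → ad0 ρbar)).1 c.2 σ τ
  have h2 := congrArg (ad0Val ρbar) h
  rw [map_add] at h2
  rw [add_comm]
  refine h2.trans ?_
  congr 1
  have h3 : locRho ρbar (σ⁻¹ : Gp p) = ρbar.ρ ((localGaloisToGlobal p σ)⁻¹) := by
    unfold locRho
    rw [map_inv (localGaloisToGlobal p)]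
  rw [h3]
  rfl

theorem trace_cocVal (c : cocycles₁ (locRep (ad0 ρbar) (pPrime p))) (σ : Gp p) :
    LinearMap.trace k ρbar.V (cocVal ρbar c σ) = 0 :=
  LinearMap.mem_ker.1 ((c : primeLocalGaloisGroup (pPrime p) → ad0 ρbar) σ).2

theorem cocVal_add (c₁ c₂ : cocycles₁ (locRep (ad0 ρbar) (pPrime p))) (σ : Gp p) :
    cocVal ρbar (c₁ + c₂) σ = cocVal ρbar c₁ σ + cocVal ρbar c₂ σ := rfl

theorem cocVal_smul (a : k) (c : cocycles₁ (locRep (ad0 ρbar) (pPrime p))) (σ : Gp p) :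
    cocVal ρbar (a • c) σ = a • cocVal ρbar c σ := rfl

theorem cocVal_sub (c₁ c₂ : cocycles₁ (locRep (ad0 ρbar) (pPrime p))) (σ : Gp p) :
    cocVal ρbar (c₁ - c₂) σ = cocVal ρbar c₁ σ - cocVal ρbar c₂ σ := rfl

theorem cocVal_zero (σ : Gp p) :
    cocVal ρbar (0 : cocycles₁ (locRep (ad0 ρbar) (pPrime p))) σ = 0 := rfl

theorem cocycle_ext {c₁ c₂ : cocycles₁ (locRep (ad0 ρbar) (pPrime p))}
    (h : ∀ σ : Gp p, cocVal ρbar c₁ σ = cocVal ρbar c₂ σ) : c₁ = c₂ := by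
  apply Subtype.ext
  funext σ
  exact H47.ad0Val_injective ρbar (h σ)

/-! ## Coboundaries -/

/-- The coboundary of a trace-zero endomorphism, as a local cocycle. -/
def cobd (m : Module.End k ρbar.V) (hm : LinearMap.trace k ρbar.V m = 0) :
    cocycles₁ (locRep (ad0 ρbar) (pPrime p)) :=
  ⟨(d₀₁ (locRep (ad0 ρbar) (pPrime p))).hom (⟨m, hm⟩ : ad0Sub ρbar),
    d₀₁_apply_mem_cocycles₁ _⟩

theorem cocVal_cobd (m : Module.End k ρbar.V) (hm : LinearMap.trace k ρbar.V m = 0) (σ : Gp p) :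
    cocVal ρbar (cobd (p := p) ρbar m hm) σ = locRho ρbar σ * m * locRho ρbar σ⁻¹ - m := by
  have h3 : locRho ρbar (σ⁻¹ : Gp p) = ρbar.ρ ((localGaloisToGlobal p σ)⁻¹) := by
    unfold locRho
    rw [map_inv (localGaloisToGlobal p)]
  rw [h3]
  rfl

theorem H1π_cobd (m : Module.End k ρbar.V) (hm : LinearMap.trace k ρbar.V m = 0) :
    (H1π (locRep (ad0 ρbar) (pPrime p))).hom (cobd (p := p) ρbar m hm) = 0 :=
  (H1π_eq_zero_iff _).2 ⟨(⟨m, hm⟩ : ad0Sub ρbar), rfl⟩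

theorem locRho_inv_eq (σ : Gp p) :
    locRho ρbar σ⁻¹ = ρbar.ρ ((localGaloisToGlobal p σ)⁻¹) := by
  unfold locRho
  rw [map_inv (localGaloisToGlobal p)]

theorem mem_invariants_of_conj (m : Module.End k ρbar.V) (hm : LinearMap.trace k ρbar.V m = 0)
    (h : ∀ σ : Gp p, locRho ρbar σ * m * locRho ρbar σ⁻¹ = m) :
    ((⟨m, hm⟩ : ad0Sub ρbar) : locRep (ad0 ρbar) (pPrime p)) ∈
      (locRep (ad0 ρbar) (pPrime p)).ρ.invariants := by
  have key : ∀ σ' : Gp p, ρbar.ρ (localGaloisToGlobal p σ') ∘ₗ m ∘ₗ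
      ρbar.ρ ((localGaloisToGlobal p σ')⁻¹) = m := by
    intro σ'
    have := h σ'
    rw [locRho_inv_eq] at this
    exact this
  intro σ
  apply H47.ad0Val_injective ρbar
  exact key σ

/-! ## Bounded cocycles -/

variable {ρbar}

theorem IsBddAd.add (hp2 : p ≠ 2) {c₁ c₂ : cocycles₁ (locRep (ad0 ρbar) (pPrime p))}
    (h₁ : IsBddAd ρbar c₁) (h₂ : IsBddAd ρbar c₂) : IsBddAd ρbar (c₁ + c₂) := by
  obtain ⟨L₁, hfd₁, hN₁, hB₁, hfix₁⟩ := h₁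
  obtain ⟨L₂, hfd₂, hN₂, hB₂, hfix₂⟩ := h₂
  haveI := hN₁
  haveI := hN₂
  refine ⟨L₁ ⊔ L₂, inferInstance, inferInstance, H15.isBdd_sup hp2 hN₁ hN₂ hB₁ hB₂, ?_⟩
  intro σ hσ
  have hσ₁ : σ ∈ L₁.fixingSubgroup := IntermediateField.fixingSubgroup_antitone le_sup_left hσ
  have hσ₂ : σ ∈ L₂.fixingSubgroup := IntermediateField.fixingSubgroup_antitone le_sup_right hσ
  refine ⟨(hfix₁ σ hσ₁).1, ?_⟩
  rw [cocVal_add, (hfix₁ σ hσ₁).2, (hfix₂ σ hσ₂).2, add_zero]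

theorem IsBddAd.smul (a : k) {c : cocycles₁ (locRep (ad0 ρbar) (pPrime p))}
    (h : IsBddAd ρbar c) : IsBddAd ρbar (a • c) := by
  obtain ⟨L, hfd, hN, hB, hfix⟩ := h
  refine ⟨L, hfd, hN, hB, fun σ hσ => ⟨(hfix σ hσ).1, ?_⟩⟩
  rw [cocVal_smul, (hfix σ hσ).2, smul_zero]

theorem IsBddAd.sub_cobd {c : cocycles₁ (locRep (ad0 ρbar) (pPrime p))}
    (h : IsBddAd ρbar c) (m : Module.End k ρbar.V) (hm : LinearMap.trace k ρbar.V m = 0) :
    IsBddAd ρbar (c - cobd ρbar m hm) := by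
  obtain ⟨L, hfd, hN, hB, hfix⟩ := h
  refine ⟨L, hfd, hN, hB, fun σ hσ => ⟨(hfix σ hσ).1, ?_⟩⟩
  have h1 : locRho ρbar σ = 1 := (hfix σ hσ).1
  have h2 : locRho ρbar σ⁻¹ = 1 := by
    have := locRho_mul_inv ρbar σ
    rwa [h1, one_mul] at this
  rw [cocVal_sub, (hfix σ hσ).2, cocVal_cobd, h1, h2, one_mul, mul_one, sub_self, sub_zero]

/-! ## Characters and cocycles on the whole group -/

/-- A bounded `χ`-cocycle on `G_p`. -/
def IsBddCoc (χ : Gp p →* kˣ) (c : Gp p → k) : Prop :=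
  (∀ σ τ : Gp p, c (σ * τ) = c σ + (χ σ : k) * c τ) ∧
    ∃ (L : IntermediateField ℚ_[p] (PadicAlgCl p)) (_ : FiniteDimensional ℚ_[p] L),
      Normal ℚ_[p] L ∧ IsBddField p L ∧
        ∀ σ : Gp p, σ ∈ L.fixingSubgroup → χ σ = 1 ∧ c σ = 0

/-- The restriction of a character to the subgroup `⊤`. -/
def topChar (χ : Gp p →* kˣ) : (⊤ : Subgroup (Gp p)) →* kˣ :=
  χ.comp (⊤ : Subgroup (Gp p)).subtype

theorem IsBddCoc.top {χ : Gp p →* kˣ} {c : Gp p → k} (h : IsBddCoc χ c) :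
    IsBddCocycle (⊤ : Subgroup (Gp p)) (topChar χ) (fun σ => c (σ : Gp p)) := by
  obtain ⟨h1, L, hfd, hN, hB, hfix⟩ := h
  exact ⟨fun σ τ => h1 σ τ, L, hfd, hN, hB, fun σ hσ => hfix σ hσ⟩

/-- `DimLeOne` on the whole group, for functions on `G_p`. -/
theorem dimLeOne_apply {χ : Gp p →* kˣ} (h : DimLeOne (⊤ : Subgroup (Gp p)) (topChar χ))
    {c₁ c₂ : Gp p → k} (h₁ : IsBddCoc χ c₁) (h₂ : IsBddCoc χ c₂) :
    ∃ l₁ l₂ a : k, (l₁ ≠ 0 ∨ l₂ ≠ 0) ∧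
      ∀ σ : Gp p, l₁ * c₁ σ + l₂ * c₂ σ = ((χ σ : k) - 1) * a := by
  obtain ⟨l₁, l₂, a, hl, e⟩ := h _ _ h₁.top h₂.top
  exact ⟨l₁, l₂, a, hl, fun σ => e ⟨σ, Subgroup.mem_top σ⟩⟩

/-- `Stmt_CC3` on the whole group, for functions on `G_p`. -/
theorem cc3_apply [Finite k] [CharP k p] (h3 : Stmt_CC3) (hp2 : p ≠ 2) {χ : Gp p →* kˣ}
    (hne : ∃ σ ∈ inertiaP p, χ σ ≠ 1)
    (hnc : ∃ σ ∈ inertiaP p, ¬ IsCycloAt (χ σ : k) σ)
    {c : Gp p → k} (hc : IsBddCoc χ c) :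
    ∃ a : k, ∀ σ : Gp p, c σ = ((χ σ : k) - 1) * a := by
  obtain ⟨σ₁, hσ₁, h1⟩ := hne
  obtain ⟨σ₂, hσ₂, h2⟩ := hnc
  obtain ⟨a, ha⟩ := h3 p hp2 k (topChar χ) ⟨⟨σ₁, Subgroup.mem_top _⟩, hσ₁, h1⟩
    ⟨⟨σ₂, Subgroup.mem_top _⟩, hσ₂, h2⟩ _ hc.top
  exact ⟨a, fun σ => ha ⟨σ, Subgroup.mem_top σ⟩⟩

/-- `Stmt_CC1` on the whole group. -/
theorem cc1_apply [Finite k] [CharP k p] (h1 : Stmt_CC1) (hp2 : p ≠ 2) {χ : Gp p →* kˣ}
    (hcyc : ∀ σ ∈ inertiaP p, IsCycloAt (χ σ : k) σ) :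
    DimLeOne (⊤ : Subgroup (Gp p)) (topChar χ) :=
  h1 p hp2 k (topChar χ) fun σ hσ => hcyc σ hσ

/-- `Stmt_CC0` on the whole group: a bounded homomorphism `G_p → k` vanishes on inertia. -/
theorem cc0_apply [CharP k p] (h0 : Stmt_CC0) (hp2 : p ≠ 2) {c : Gp p → k}
    (hc : IsBddCoc (1 : Gp p →* kˣ) c) (σ : Gp p) (hσ : σ ∈ inertiaP p) : c σ = 0 := by
  have h := h0 p hp2 k (⊤ : Subgroup (Gp p)) le_top (fun σ => c (σ : Gp p)) hc.top
    ⟨σ, Subgroup.mem_top σ⟩ hσ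
  exact h

section unr

/-! ## Unramified homomorphisms -/

theorem add_hom_one {a : Gp p → k} (hadd : ∀ σ τ, a (σ * τ) = a σ + a τ) : a 1 = 0 := by
  have h := hadd 1 1
  rw [mul_one] at h
  have h2 : a 1 + 0 = a 1 + a 1 := by rw [add_zero]; exact h
  exact (add_left_cancel h2).symm

theorem add_hom_pow {a : Gp p → k} (hadd : ∀ σ τ, a (σ * τ) = a σ + a τ) (σ : Gp p) (n : ℕ) :
    a (σ ^ n) = n * a σ := by
  induction n with
  | zero => rw [pow_zero, add_hom_one hadd, Nat.cast_zero, zero_mul]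
  | succ n ih => rw [pow_succ, hadd, ih, Nat.cast_succ]; ring

/-- Two unramified homomorphisms `G_p → k` of finite level are linearly dependent. -/
theorem unr_hom_dependent (hT : Stmt_Tame) (a₁ a₂ : Gp p → k)
    (hadd₁ : ∀ σ τ, a₁ (σ * τ) = a₁ σ + a₁ τ) (hadd₂ : ∀ σ τ, a₂ (σ * τ) = a₂ σ + a₂ τ)
    (hI₁ : ∀ σ ∈ inertiaP p, a₁ σ = 0) (hI₂ : ∀ σ ∈ inertiaP p, a₂ σ = 0)
    (L₁ L₂ : IntermediateField ℚ_[p] (PadicAlgCl p))
    [FiniteDimensional ℚ_[p] L₁] [FiniteDimensional ℚ_[p] L₂]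
    (hN₁ : Normal ℚ_[p] L₁) (hN₂ : Normal ℚ_[p] L₂)
    (hL₁ : ∀ σ ∈ L₁.fixingSubgroup, a₁ σ = 0) (hL₂ : ∀ σ ∈ L₂.fixingSubgroup, a₂ σ = 0) :
    ∃ l₁ l₂ : k, (l₁ ≠ 0 ∨ l₂ ≠ 0) ∧ ∀ σ, l₁ * a₁ σ + l₂ * a₂ σ = 0 := by
  haveI := hN₁
  haveI := hN₂
  obtain ⟨P, φ, s, -, -, -, -, hgen, -, -⟩ := hT p (L₁ ⊔ L₂) inferInstance
  have key₁ : ∀ σ, ∃ n : ℕ, a₁ σ = n * a₁ φ ∧ a₂ σ = n * a₂ φ := by
    intro σ
    obtain ⟨n, ι, hι, τ, hτ, rfl⟩ := hgen σ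
    have hτ₁ : τ ∈ L₁.fixingSubgroup := IntermediateField.fixingSubgroup_antitone le_sup_left hτ
    have hτ₂ : τ ∈ L₂.fixingSubgroup := IntermediateField.fixingSubgroup_antitone le_sup_right hτ
    refine ⟨n, ?_, ?_⟩
    · rw [hadd₁, hadd₁, add_hom_pow hadd₁, hI₁ ι hι, hL₁ τ hτ₁, add_zero, add_zero]
    · rw [hadd₂, hadd₂, add_hom_pow hadd₂, hI₂ ι hι, hL₂ τ hτ₂, add_zero, add_zero]
  by_cases h : a₁ φ = 0 ∧ a₂ φ = 0
  · refine ⟨1, 0, Or.inl one_ne_zero, fun σ => ?_⟩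
    obtain ⟨n, h1, -⟩ := key₁ σ
    rw [h1, h.1]
    ring
  · refine ⟨a₂ φ, -a₁ φ, ?_, fun σ => ?_⟩
    · by_contra hcon
      rw [not_or, not_not, not_not, neg_eq_zero] at hcon
      exact h ⟨hcon.2, hcon.1⟩
    · obtain ⟨n, h1, h2⟩ := key₁ σ
      rw [h1, h2]
      ring

end unr

end Fermat.Agent.S56.FL.H57

end
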