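import Fermat.Agent.S56.FL.H50_CohSSd
import Fermat.Agent.S56.FL.H50_TameChar
import Fermat.Agent.S56.FL.H57_CohBase

set_option autoImplicit false
set_option linter.unusedSectionVars false
set_option linter.style.haveILetI false

/-!
# LOC-p-FL, package COH-SS (helper50): `Stmt_COH_SS` from `Stmt_CC0`, `Stmt_CC2`, `Stmt_Tame`

`ρbar|G_p` without stable line: any two classes of bounded cocycles are dependent, so a subspace
of `H¹(G_p, ad⁰ ρbar)` consisting of such classes has dimension `≤ 1`.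
-/

noncomputable section

namespace Fermat.Agent.S56.FL.H50.SS

open scoped NNReal
open Polynomial IsLocalRing CategoryTheory groupCohomology ExtCitation Fermat.Agent.S53 Module
  Fermat.Agent.S56 Fermat.Agent.S56.FL

variable {p : ℕ} [Fact p.Prime] {k : Type} [Field k] [Finite k] [CharP k p]
  {ρbar : ResidualGaloisRep k}

theorem noLine_of (hns : ¬ ∃ ℓ : Submodule k ρbar.V, IsStableLine ρbar p ℓ) :
    NoLine (rhoL ρbar p) := fun ⟨ℓ, h1, h2⟩ => hns ⟨ℓ, h1, h2⟩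

/-- The structure of `ρbar|G_p` without stable line, in matrix form. -/
theorem exists_struct (hT : H57.Stmt_Tame)
    (hloc : LocHyp ρbar p) (hns : ¬ ∃ ℓ : Submodule k ρbar.V, IsStableLine ρbar p ℓ)
    (L : IntermediateField ℚ_[p] (PadicAlgCl p)) [FiniteDimensional ℚ_[p] L]
    (hN : Normal ℚ_[p] L) (hL : ∀ σ : Gp p, σ ∈ L.fixingSubgroup → locRho ρbar σ = 1) :
    ∃ (b : Basis (Fin 2) k ρbar.V) (g : Gp p),
      (∀ σ, IsDiagM (Rm (p := p) b σ) ∨ IsAntiM (Rm (p := p) b σ)) ∧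
      IsAntiM (Rm (p := p) b g) ∧
      ∀ ι ∈ inertiaP p, IsDiagM (Rm (p := p) b ι) ∧
        Rm (p := p) b ι 1 1 = (Rm (p := p) b ι 0 0) ^ p := by
  obtain ⟨P, φ, s, hTA⟩ := exists_tameAt hT L hN
  have hns' := noLine_of hns
  have hP1 : ∀ w ∈ P, rhoL ρbar p w = 1 := by
    refine trivial_of_pgroup (p := p) ρbar.finrank_eq (rhoL ρbar p) P hTA.normal ?_ hns'
    intro w hw
    obtain ⟨N, hN'⟩ := hTA.pgroup w hw
    exact ⟨N, hL _ hN'⟩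
  have hgen : ∀ σ : Gp p, ∃ n : ℕ, ∃ ι ∈ inertiaP p, ∃ τ : Gp p,
      rhoL ρbar p τ = 1 ∧ σ = φ ^ n * ι * τ := by
    intro σ
    obtain ⟨n, ι, hι, τ, hτ, h⟩ := hTA.gen σ
    exact ⟨n, ι, hι, τ, hL τ hτ, h⟩
  obtain ⟨b, h1, h2, h3⟩ := SS_struct (p := p) ρbar.finrank_eq (rhoL ρbar p) (inertiaP p) P φ s
    H38.inertiaP_normal hTA.mem hP1 hgen hTA.tame hTA.conj hloc.2 hns'
  exact ⟨b, φ, h1, h2, h3⟩

section Core

variable (b : Basis (Fin 2) k ρbar.V)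
  (hM1 : ∀ σ, IsDiagM (Rm (p := p) b σ) ∨ IsAntiM (Rm (p := p) b σ))

/-- The `(0,0)`-entry of a bounded cocycle vanishes on the diagonal subgroup. -/
theorem entry00_zero_of_bdd (hp2 : p ≠ 2) (h0 : Stmt_CC0) (hT : H57.Stmt_Tame) {g : Gp p}
    (hg : IsAntiM (Rm (p := p) b g)) (hI : ∀ ι ∈ inertiaP p, IsDiagM (Rm (p := p) b ι))
    {c : cocycles₁ (locRep (ad0 ρbar) (pPrime p))} (hc : IsBddAd ρbar c) :
    ∀ σ ∈ diagSub (Rm (p := p) b) hM1, Cm b c σ 0 0 = 0 := by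
  obtain ⟨L, hfd, hN, hbdd, hL⟩ := hc
  have hIle : inertiaP p ≤ diagSub (Rm (p := p) b) hM1 := fun ι hι => hI ι hι
  have hcoc := isCocM_Cm (p := p) b c
  -- CC0
  have hCI : ∀ ι ∈ inertiaP p, Cm b c ι 0 0 = 0 := by
    intro ι hι
    have hbc : IsBddCocycle (diagSub (Rm (p := p) b) hM1) (1 : _ →* kˣ)
        (fun σ => Cm b c (σ : Gp p) 0 0) := by
      refine ⟨fun σ τ => ?_, L, hfd, hN, hbdd, fun σ hσ => ⟨rfl, ?_⟩⟩
      · show Cm b c ((σ * τ : diagSub _ _) : Gp p) 0 0 = _ + ((1 : kˣ) : k) * _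
        rw [Subgroup.coe_mul, hcoc.entry00_add hM1 σ.2, Units.val_one, one_mul]
      · show Cm b c (σ : Gp p) 0 0 = 0
        rw [Cm_eq_zero_of b (hL _ hσ).2]; rfl
    exact h0 p hp2 k (diagSub (Rm (p := p) b) hM1) hIle _ hbc ⟨ι, hIle hι⟩ hι
  obtain ⟨P, φ', s, hTA⟩ := exists_tameAt hT L hN
  refine hcoc.entry00_zero hM1 (Cm_trace b c) hg (inertiaP p) hIle hCI φ' ?_
  intro σ
  obtain ⟨n, ι, hι, τ, hτ, h⟩ := hTA.gen σ
  exact ⟨n, ι, hι, τ, ⟨Rm_eq_one_of b (hL τ hτ).1, Cm_eq_zero_of b (hL τ hτ).2⟩, h⟩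

/-- The `(0,1)`-entry of a bounded cocycle is a bounded `χ`-cocycle on the diagonal subgroup. -/
theorem entry01_bdd {c : cocycles₁ (locRep (ad0 ρbar) (pPrime p))} (hc : IsBddAd ρbar c) :
    IsBddCocycle (diagSub (Rm (p := p) b) hM1) (diagChi hM1)
      (fun σ => Cm b c (σ : Gp p) 0 1) := by
  obtain ⟨L, hfd, hN, hbdd, hL⟩ := hc
  have hcoc := isCocM_Cm (p := p) b c
  refine ⟨fun σ τ => ?_, L, hfd, hN, hbdd, fun σ hσ => ⟨?_, ?_⟩⟩
  · show Cm b c ((σ * τ : diagSub _ _) : Gp p) 0 1 = _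
    rw [Subgroup.coe_mul, hcoc.entry01_add hM1 σ.2, diagChi_val]
  · apply Units.ext
    rw [diagChi_val, Units.val_one]
    have h1 : Rm (p := p) b (σ : Gp p) = 1 := Rm_eq_one_of b (hL _ hσ).1
    have h2 : Rm (p := p) b (σ : Gp p)⁻¹ = 1 := by
      have := R_inv_mul (Rm (p := p) b) (σ : Gp p)
      rw [h1, mul_one] at this
      exact this
    rw [h1, h2]
    simp
  · show Cm b c (σ : Gp p) 0 1 = 0
    rw [Cm_eq_zero_of b (hL _ hσ).2]; rfl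

end Core

/-- **Dependence.** Without stable line, the classes of two bounded cocycles are dependent. -/
theorem dependent_of_bdd (hp2 : p ≠ 2) (h0 : Stmt_CC0) (h2 : Stmt_CC2) (hT : H57.Stmt_Tame)
    (hloc : LocHyp ρbar p) (hns : ¬ ∃ ℓ : Submodule k ρbar.V, IsStableLine ρbar p ℓ)
    {c₁ c₂ : cocycles₁ (locRep (ad0 ρbar) (pPrime p))}
    (hc₁ : IsBddAd ρbar c₁) (hc₂ : IsBddAd ρbar c₂) :
    ∃ l₁ l₂ : k, (l₁ ≠ 0 ∨ l₂ ≠ 0) ∧
      l₁ • (H1π (locRep (ad0 ρbar) (pPrime p))).hom c₁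
        + l₂ • (H1π (locRep (ad0 ρbar) (pPrime p))).hom c₂ = 0 := by
  have hp : p.Prime := Fact.out
  have hk2 : (2 : k) ≠ 0 := H57.two_ne_zero_of_odd p hp2
  obtain ⟨L, hfd, hN, -, hL⟩ := id hc₁
  obtain ⟨b, g, hM1, hg, hI⟩ := exists_struct hT hloc hns L hN (fun σ hσ => (hL σ hσ).1)
  set R := Rm (p := p) b with hR
  set G₂ := diagSub R hM1 with hG₂
  have hIle : inertiaP p ≤ G₂ := fun ι hι => (hI ι hι).1
  have hidx : G₂.index = 2 := diagSub_index hM1 hg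
  -- the characters
  set χ : G₂ →* kˣ := diagChi hM1 with hχ
  set ψ : inertiaP p →* kˣ := (diagChar0 hM1).comp (Subgroup.inclusion hIle) with hψ
  have hψval : ∀ σ : inertiaP p, ((ψ σ : kˣ) : k) = R (σ : Gp p) 0 0 := fun σ => rfl
  have hyp1 : ∀ σ : inertiaP p, IsCycloAt ((ψ σ : k) ^ (p + 1)) (σ : Gp p) := by
    intro σ
    have h1 := hloc.1 (σ : Gp p)
    have h3 := hI σ σ.2
    have h4 : LinearMap.det (locRho ρbar (σ : Gp p)) = (ψ σ : k) ^ (p + 1) := by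
      rw [det_matOf b, hψval]
      show R (σ : Gp p) 0 0 * R (σ : Gp p) 1 1 - R (σ : Gp p) 0 1 * R (σ : Gp p) 1 0 = _
      rw [h3.2, h3.1.1, zero_mul, sub_zero, pow_succ']
    rw [← h4]
    exact h1
  have hyp2 : ∀ (σ : G₂) (hσ : (σ : Gp p) ∈ inertiaP p),
      (χ σ : k) * (ψ ⟨σ, hσ⟩ : k) ^ p = (ψ ⟨σ, hσ⟩ : k) := by
    intro σ hσ
    rw [hψval, diagChi_val]
    show R (σ : Gp p) 0 0 * R (σ : Gp p)⁻¹ 1 1 * R (σ : Gp p) 0 0 ^ p = R (σ : Gp p) 0 0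
    rw [← (hI σ hσ).2]
    have := diag_inv_11 σ.2 (R_mul_inv R (σ : Gp p))
    linear_combination R (σ : Gp p) 0 0 * this
  have hdim : DimLeOne G₂ χ := h2 p hp2 k G₂ hIle hidx χ ψ hyp1 hyp2
  obtain ⟨l₁, l₂, a, hl, hdep⟩ := hdim _ _ (entry01_bdd b hM1 hc₁) (entry01_bdd b hM1 hc₂)
  refine ⟨l₁, l₂, hl, ?_⟩
  have hIdiag : ∀ ι ∈ inertiaP p, IsDiagM (R ι) := fun ι hι => (hI ι hι).1
  obtain ⟨m, hm, hm'⟩ := IsCocM.dependent hk2 (isCocM_Cm (p := p) b c₁) (isCocM_Cm (p := p) b c₂)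
    G₂ g (diagSub_cover hM1 hg) (diagSub_sq hM1 hg) (fun τ hτ => diagSub_conj hM1 hg hτ)
    (fun τ hτ => hτ) hg (Cm_trace b c₁) (Cm_trace b c₂)
    (entry00_zero_of_bdd b hM1 hp2 h0 hT hg hIdiag hc₁)
    (entry00_zero_of_bdd b hM1 hp2 h0 hT hg hIdiag hc₂) l₁ l₂ a
    (fun τ hτ => by
      have := hdep ⟨τ, hτ⟩
      rw [diagChi_val] at this
      exact this)
  rw [← map_smul, ← map_smul, ← map_add]
  refine H1π_eq_zero_of_cobM b _ m hm (fun σ => ?_)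
  rw [← hm' σ]
  show matOf b (cocVal ρbar (l₁ • c₁ + l₂ • c₂) σ) = _
  rw [H57.cocVal_add, H57.cocVal_smul, H57.cocVal_smul, matOf_add, matOf_smul, matOf_smul]
  rfl

/-- **COH-SS** from `Stmt_CC0`, `Stmt_CC2` and `Stmt_Tame`. -/
theorem stmt_COH_SS_of (h0 : Stmt_CC0) (h2 : Stmt_CC2) (hT : H57.Stmt_Tame) : Stmt_COH_SS := by
  intro p _ hp2 k _ _ _ ρbar hloc hns W hW
  have hdim := H57.finrank_le_one_of_dependent W (by
    intro ξ₁ hξ₁ ξ₂ hξ₂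
    obtain ⟨c₁, rfl, hb₁⟩ := hW ξ₁ hξ₁
    obtain ⟨c₂, rfl, hb₂⟩ := hW ξ₂ hξ₂
    exact dependent_of_bdd hp2 h0 h2 hT hloc hns hb₁ hb₂)
  exact ⟨hdim.1, hdim.2.trans (Nat.le_add_left 1 _)⟩

end Fermat.Agent.S56.FL.H50.SS

end
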