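import Fermat.Agent.S56.FL.H50_CohSS
import Fermat.Agent.S56.FL.H38_CC0
import Fermat.Agent.S56.FL.H38_TameFinal

set_option autoImplicit false

/-!
# LOC-p-FL, package COH-SS (helper50): `Stmt_COH_SS` from `Stmt_CC2` alone
(`Stmt_CC0` and `Stmt_Tame` are proved by helper38).
-/

namespace Fermat.Agent.S56.FL.H50

open Fermat.Agent.S56.FL

theorem stmt_COH_SS_of_CC2 (h2 : Stmt_CC2) : Stmt_COH_SS :=
  SS.stmt_COH_SS_of H38.stmt_CC0 h2 H38.stmt_Tame

end Fermat.Agent.S56.FL.H50
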