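import Mathlib

set_option autoImplicit false

/-!
# LOC-p-FL, package COH-SS (helper50), part a: the abstract count in `2 × 2` matrices

`G` a group, `R : G →* M₂(k)` a representation, `C : G → M₂(k)` a cocycle for the adjoint action
(`C (σ τ) = C σ + R σ · C τ · R σ⁻¹`), `G₂ ≤ G` a subgroup of index `2` on which `R` is diagonal,
`g ∉ G₂` with `R g` antidiagonal.

* `IsCocM.coboundary_of_vanish`  : a cocycle vanishing on `G₂` is a coboundary (char `≠ 2`);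
* `IsCocM.coboundary_of_upper_zero` : a trace-zero cocycle whose first row vanishes on `G₂` is a
  coboundary;
* `IsCocM.dependent` : two trace-zero cocycles with zero `(0,0)`-entry on `G₂` whose `(0,1)`-entries
  are dependent modulo coboundaries on `G₂`, are dependent modulo coboundaries.
-/

noncomputable section

namespace Fermat.Agent.S56.FL.H50.SS

open Matrix

variable {k : Type*} [Field k] {G : Type*} [Group G]

/-- `C` is a cocycle for the adjoint action of `R`. -/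
def IsCocM (R : G →* Matrix (Fin 2) (Fin 2) k) (C : G → Matrix (Fin 2) (Fin 2) k) : Prop :=
  ∀ σ τ, C (σ * τ) = C σ + R σ * C τ * R σ⁻¹

/-- The coboundary of `m`. -/
def cobM (R : G →* Matrix (Fin 2) (Fin 2) k) (m : Matrix (Fin 2) (Fin 2) k) (σ : G) :
    Matrix (Fin 2) (Fin 2) k :=
  R σ * m * R σ⁻¹ - m

variable {R : G →* Matrix (Fin 2) (Fin 2) k} {C : G → Matrix (Fin 2) (Fin 2) k}

theorem R_mul_inv (R : G →* Matrix (Fin 2) (Fin 2) k) (σ : G) : R σ * R σ⁻¹ = 1 := by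
  rw [← map_mul, mul_inv_cancel, map_one]

theorem R_inv_mul (R : G →* Matrix (Fin 2) (Fin 2) k) (σ : G) : R σ⁻¹ * R σ = 1 := by
  rw [← map_mul, inv_mul_cancel, map_one]

theorem isCocM_cobM (R : G →* Matrix (Fin 2) (Fin 2) k) (m : Matrix (Fin 2) (Fin 2) k) :
    IsCocM R (cobM R m) := by
  intro σ τ
  unfold cobM
  rw [map_mul, _root_.mul_inv_rev, map_mul]
  calc R σ * R τ * m * (R τ⁻¹ * R σ⁻¹) - m
      = R σ * (R τ * m * R τ⁻¹) * R σ⁻¹ - R σ * m * R σ⁻¹ + (R σ * m * R σ⁻¹ - m) := by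
        simp only [Matrix.mul_assoc]; abel
    _ = R σ * m * R σ⁻¹ - m + R σ * (R τ * m * R τ⁻¹ - m) * R σ⁻¹ := by
        rw [Matrix.mul_sub, Matrix.sub_mul]; abel

theorem IsCocM.add {C₁ C₂ : G → Matrix (Fin 2) (Fin 2) k} (h₁ : IsCocM R C₁) (h₂ : IsCocM R C₂) :
    IsCocM R (fun σ => C₁ σ + C₂ σ) := by
  intro σ τ
  simp only [h₁ σ τ, h₂ σ τ, Matrix.mul_add, Matrix.add_mul]
  abel

theorem IsCocM.sub {C₁ C₂ : G → Matrix (Fin 2) (Fin 2) k} (h₁ : IsCocM R C₁) (h₂ : IsCocM R C₂) :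
    IsCocM R (fun σ => C₁ σ - C₂ σ) := by
  intro σ τ
  simp only [h₁ σ τ, h₂ σ τ, Matrix.mul_sub, Matrix.sub_mul]
  abel

theorem IsCocM.smul (l : k) (h : IsCocM R C) : IsCocM R (fun σ => l • C σ) := by
  intro σ τ
  simp only [h σ τ, smul_add, Matrix.mul_smul, Matrix.smul_mul]

theorem IsCocM.one (h : IsCocM R C) : C 1 = 0 := by
  have := h 1 1
  simp only [mul_one, map_one, inv_one, one_mul] at this
  exact left_eq_add.mp this

/-- **(A)** A cocycle vanishing on a normal subgroup `G₂` with `G = G₂ ∪ g G₂`, `g² ∈ G₂`, is a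
coboundary (`2 ≠ 0`). -/
theorem IsCocM.coboundary_of_vanish (h2 : (2 : k) ≠ 0) (hC : IsCocM R C) (G₂ : Subgroup G) (g : G)
    (hcover : ∀ σ, σ ∈ G₂ ∨ g⁻¹ * σ ∈ G₂) (hg2 : g * g ∈ G₂)
    (hnorm : ∀ τ ∈ G₂, g⁻¹ * τ * g ∈ G₂) (hv : ∀ τ ∈ G₂, C τ = 0) :
    ∀ σ, C σ = cobM R (-((2 : k)⁻¹ • C g)) σ := by
  set y := C g with hy
  -- `C (g τ) = y`
  have h1 : ∀ τ ∈ G₂, C (g * τ) = y := by
    intro τ hτ
    rw [hC g τ, hv τ hτ, Matrix.mul_zero, Matrix.zero_mul, add_zero]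
  -- `R τ y R τ⁻¹ = y`
  have h3 : ∀ τ ∈ G₂, R τ * y * R τ⁻¹ = y := by
    intro τ hτ
    have e : τ * g = g * (g⁻¹ * τ * g) := by group
    have h4 := hC τ g
    rw [e, h1 _ (hnorm τ hτ), hv τ hτ, zero_add] at h4
    exact h4.symm
  -- `R g y R g⁻¹ = - y`
  have h5 : R g * y * R g⁻¹ = -y := by
    have h6 := hC g g
    rw [hv _ hg2] at h6
    exact (neg_eq_of_add_eq_zero_right h6.symm).symm ▸ rfl
  have hhalf : (2 : k)⁻¹ + (2 : k)⁻¹ = 1 := by field_simp; norm_num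
  intro σ
  unfold cobM
  rcases hcover σ with hσ | hσ
  · rw [hv σ hσ, Matrix.mul_neg, Matrix.neg_mul, Matrix.mul_smul, Matrix.smul_mul, h3 σ hσ]
    simp
  · obtain ⟨τ, hτ, rfl⟩ : ∃ τ ∈ G₂, σ = g * τ := ⟨g⁻¹ * σ, hσ, by group⟩
    have h7 : C (g * τ) = y := h1 _ hτ
    have h8 : R (g * τ) * y * R (g * τ)⁻¹ = -y := by
      rw [_root_.mul_inv_rev, map_mul, map_mul]
      calc R g * R τ * y * (R τ⁻¹ * R g⁻¹)
          = R g * (R τ * y * R τ⁻¹) * R g⁻¹ := by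
            simp only [Matrix.mul_assoc]
        _ = -y := by rw [h3 _ hτ, h5]
    rw [h7, Matrix.mul_neg, Matrix.neg_mul, Matrix.mul_smul, Matrix.smul_mul, h8]
    rw [smul_neg, neg_neg, sub_neg_eq_add, ← add_smul, hhalf, one_smul]

/-! ## Diagonal and antidiagonal matrices -/

/-- A diagonal `2 × 2` matrix. -/
def IsDiagM (A : Matrix (Fin 2) (Fin 2) k) : Prop := A 0 1 = 0 ∧ A 1 0 = 0

/-- An antidiagonal `2 × 2` matrix. -/
def IsAntiM (A : Matrix (Fin 2) (Fin 2) k) : Prop := A 0 0 = 0 ∧ A 1 1 = 0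

theorem mul3_apply (A X B : Matrix (Fin 2) (Fin 2) k) (i j : Fin 2) :
    (A * X * B) i j = (A i 0 * X 0 0 + A i 1 * X 1 0) * B 0 j
      + (A i 0 * X 0 1 + A i 1 * X 1 1) * B 1 j := by
  simp [Matrix.mul_apply, Fin.sum_univ_two]

theorem mul2_apply (A B : Matrix (Fin 2) (Fin 2) k) (i j : Fin 2) :
    (A * B) i j = A i 0 * B 0 j + A i 1 * B 1 j := by
  simp [Matrix.mul_apply, Fin.sum_univ_two]

section Diag

variable {D D' : Matrix (Fin 2) (Fin 2) k}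

theorem diag_inv_00 (hD : IsDiagM D) (h : D * D' = 1) : D 0 0 * D' 0 0 = 1 := by
  have := congrFun (congrFun h 0) 0
  rw [mul2_apply, hD.1] at this
  simpa using this

theorem diag_inv_11 (hD : IsDiagM D) (h : D * D' = 1) : D 1 1 * D' 1 1 = 1 := by
  have := congrFun (congrFun h 1) 1
  rw [mul2_apply, hD.2] at this
  simpa using this

theorem diag_conj_00 (hD : IsDiagM D) (hD' : IsDiagM D') (h : D * D' = 1)
    (X : Matrix (Fin 2) (Fin 2) k) : (D * X * D') 0 0 = X 0 0 := by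
  rw [mul3_apply, hD.1, hD'.2]
  have := diag_inv_00 hD h
  linear_combination X 0 0 * this

theorem diag_conj_11 (hD : IsDiagM D) (hD' : IsDiagM D') (h : D * D' = 1)
    (X : Matrix (Fin 2) (Fin 2) k) : (D * X * D') 1 1 = X 1 1 := by
  rw [mul3_apply, hD.2, hD'.1]
  have := diag_inv_11 hD h
  linear_combination X 1 1 * this

theorem diag_conj_01 (hD : IsDiagM D) (hD' : IsDiagM D')
    (X : Matrix (Fin 2) (Fin 2) k) : (D * X * D') 0 1 = D 0 0 * D' 1 1 * X 0 1 := by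
  rw [mul3_apply, hD.1, hD'.1]
  ring

theorem diag_conj_10 (hD : IsDiagM D) (hD' : IsDiagM D')
    (X : Matrix (Fin 2) (Fin 2) k) : (D * X * D') 1 0 = D 1 1 * D' 0 0 * X 1 0 := by
  rw [mul3_apply, hD.2, hD'.2]
  ring

end Diag

section Anti

variable {A A' : Matrix (Fin 2) (Fin 2) k}

theorem anti_inv_01 (hA : IsAntiM A) (h : A * A' = 1) : A 0 1 * A' 1 0 = 1 := by
  have := congrFun (congrFun h 0) 0
  rw [mul2_apply, hA.1] at this
  simpa using this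

theorem anti_inv_10 (hA : IsAntiM A) (h : A * A' = 1) : A 1 0 * A' 0 1 = 1 := by
  have := congrFun (congrFun h 1) 1
  rw [mul2_apply, hA.2] at this
  simpa using this

theorem anti_inv (hA : IsAntiM A) (h : A * A' = 1) : IsAntiM A' := by
  have h01 := anti_inv_01 hA h
  have h10 := anti_inv_10 hA h
  have e1 := congrFun (congrFun h 0) 1
  have e2 := congrFun (congrFun h 1) 0
  rw [mul2_apply, hA.1] at e1
  rw [mul2_apply, hA.2] at e2
  simp only [zero_mul, zero_add, add_zero, Matrix.one_apply] at e1 e2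
  have hne1 : A 0 1 ≠ 0 := left_ne_zero_of_mul_eq_one h01
  have hne2 : A 1 0 ≠ 0 := left_ne_zero_of_mul_eq_one h10
  constructor
  · have : A 1 0 * A' 0 0 = 0 := by simpa using e2
    exact (mul_eq_zero.mp this).resolve_left hne2
  · have : A 0 1 * A' 1 1 = 0 := by simpa using e1
    exact (mul_eq_zero.mp this).resolve_left hne1

theorem anti_conj_00 (hA : IsAntiM A) (hA' : IsAntiM A') (h : A * A' = 1)
    (X : Matrix (Fin 2) (Fin 2) k) : (A * X * A') 0 0 = X 1 1 := by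
  rw [mul3_apply, hA.1, hA'.1]
  have := anti_inv_01 hA h
  linear_combination X 1 1 * this

theorem anti_conj_11 (hA : IsAntiM A) (hA' : IsAntiM A') (h : A * A' = 1)
    (X : Matrix (Fin 2) (Fin 2) k) : (A * X * A') 1 1 = X 0 0 := by
  rw [mul3_apply, hA.2, hA'.2]
  have := anti_inv_10 hA h
  linear_combination X 0 0 * this

theorem anti_conj_10 (hA : IsAntiM A) (hA' : IsAntiM A')
    (X : Matrix (Fin 2) (Fin 2) k) : (A * X * A') 1 0 = A 1 0 * A' 1 0 * X 0 1 := by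
  rw [mul3_apply, hA.2, hA'.1]
  ring

theorem anti_conj_01 (hA : IsAntiM A) (hA' : IsAntiM A')
    (X : Matrix (Fin 2) (Fin 2) k) : (A * X * A') 0 1 = A 0 1 * A' 0 1 * X 1 0 := by
  rw [mul3_apply, hA.1, hA'.2]
  ring

end Anti

/-- The matrix unit `E₁₀`. -/
def E10 : Matrix (Fin 2) (Fin 2) k := !![0, 0; 1, 0]

/-- The matrix unit `E₀₁`. -/
def E01 : Matrix (Fin 2) (Fin 2) k := !![0, 1; 0, 0]

@[simp] theorem E10_00 : (E10 : Matrix (Fin 2) (Fin 2) k) 0 0 = 0 := rfl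
@[simp] theorem E10_01 : (E10 : Matrix (Fin 2) (Fin 2) k) 0 1 = 0 := rfl
@[simp] theorem E10_10 : (E10 : Matrix (Fin 2) (Fin 2) k) 1 0 = 1 := rfl
@[simp] theorem E10_11 : (E10 : Matrix (Fin 2) (Fin 2) k) 1 1 = 0 := rfl
@[simp] theorem E01_00 : (E01 : Matrix (Fin 2) (Fin 2) k) 0 0 = 0 := rfl
@[simp] theorem E01_01 : (E01 : Matrix (Fin 2) (Fin 2) k) 0 1 = 1 := rfl
@[simp] theorem E01_10 : (E01 : Matrix (Fin 2) (Fin 2) k) 1 0 = 0 := rfl
@[simp] theorem E01_11 : (E01 : Matrix (Fin 2) (Fin 2) k) 1 1 = 0 := rfl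

theorem cobM_add (R : G →* Matrix (Fin 2) (Fin 2) k) (m₁ m₂ : Matrix (Fin 2) (Fin 2) k) (σ : G) :
    cobM R (m₁ + m₂) σ = cobM R m₁ σ + cobM R m₂ σ := by
  unfold cobM
  rw [Matrix.mul_add, Matrix.add_mul]
  abel

theorem cobM_sub (R : G →* Matrix (Fin 2) (Fin 2) k) (m₁ m₂ : Matrix (Fin 2) (Fin 2) k) (σ : G) :
    cobM R (m₁ - m₂) σ = cobM R m₁ σ - cobM R m₂ σ := by
  unfold cobM
  rw [Matrix.mul_sub, Matrix.sub_mul]
  abel

/-- The coboundary of `t E₁₀` at a diagonal element. -/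
theorem cobM_E10_diag {σ : G} (hD : IsDiagM (R σ)) (hD' : IsDiagM (R σ⁻¹)) (t : k) :
    cobM R (t • E10) σ = (t * (R σ 1 1 * R σ⁻¹ 0 0 - 1)) • E10 := by
  unfold cobM
  ext i j
  rw [Matrix.sub_apply, mul3_apply]
  fin_cases i <;> fin_cases j <;>
    simp only [Fin.zero_eta, Fin.mk_one, Matrix.smul_apply, smul_eq_mul, E10_00, E10_01, E10_10,
      E10_11, hD.1, hD.2, hD'.1, hD'.2] <;> ring

/-- The coboundary of `t E₀₁` at a diagonal element. -/
theorem cobM_E01_diag {σ : G} (hD : IsDiagM (R σ)) (hD' : IsDiagM (R σ⁻¹)) (t : k) :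
    cobM R (t • E01) σ = (t * (R σ 0 0 * R σ⁻¹ 1 1 - 1)) • E01 := by
  unfold cobM
  ext i j
  rw [Matrix.sub_apply, mul3_apply]
  fin_cases i <;> fin_cases j <;>
    simp only [Fin.zero_eta, Fin.mk_one, Matrix.smul_apply, smul_eq_mul, E01_00, E01_01, E01_10,
      E01_11, hD.1, hD.2, hD'.1, hD'.2] <;> ring

/-- The trace of a coboundary at an antidiagonal element is zero. -/
theorem cobM_trace_anti {g : G} (hA : IsAntiM (R g)) (m : Matrix (Fin 2) (Fin 2) k) :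
    cobM R m g 0 0 + cobM R m g 1 1 = 0 := by
  have hA' : IsAntiM (R g⁻¹) := anti_inv hA (R_mul_inv R g)
  unfold cobM
  rw [Matrix.sub_apply, Matrix.sub_apply, anti_conj_00 hA hA' (R_mul_inv R g),
    anti_conj_11 hA hA' (R_mul_inv R g)]
  ring

/-- **(B)** A trace-zero cocycle whose first row vanishes on `G₂` is a coboundary. -/
theorem IsCocM.coboundary_of_upper_zero (h2 : (2 : k) ≠ 0) (hC : IsCocM R C) (G₂ : Subgroup G)
    (g : G) (hcover : ∀ σ, σ ∈ G₂ ∨ g⁻¹ * σ ∈ G₂) (hg2 : g * g ∈ G₂)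
    (hnorm : ∀ τ ∈ G₂, g⁻¹ * τ * g ∈ G₂)
    (hD : ∀ τ ∈ G₂, IsDiagM (R τ)) (hA : IsAntiM (R g))
    (htr : ∀ σ, C σ 0 0 + C σ 1 1 = 0)
    (h00 : ∀ τ ∈ G₂, C τ 0 0 = 0) (h01 : ∀ τ ∈ G₂, C τ 0 1 = 0) :
    ∃ m : Matrix (Fin 2) (Fin 2) k, m 0 0 + m 1 1 = 0 ∧ ∀ σ, C σ = cobM R m σ := by
  have hA' : IsAntiM (R g⁻¹) := anti_inv hA (R_mul_inv R g)
  set t := C g 1 0 with ht
  set C' : G → Matrix (Fin 2) (Fin 2) k := fun σ => C σ + cobM R (t • E10) σ with hC'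
  have hcoc : IsCocM R C' := hC.add (isCocM_cobM R _)
  -- `C'` vanishes on `G₂`
  have hv : ∀ τ ∈ G₂, C' τ = 0 := by
    intro τ hτ
    have hDτ := hD τ hτ
    have hDτ' := hD τ⁻¹ (inv_mem hτ)
    have hσ := hnorm τ hτ
    -- the `(1,0)`-entry of `C τ`
    have e : τ * g = g * (g⁻¹ * τ * g) := by group
    have h1 := hC τ g
    rw [e, hC g (g⁻¹ * τ * g)] at h1
    have h10 := congrFun (congrFun h1 1) 0
    rw [Matrix.add_apply, Matrix.add_apply, anti_conj_10 hA hA', h01 _ hσ,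
      diag_conj_10 hDτ hDτ'] at h10
    have h11 : C τ 1 1 = 0 := by
      have := htr τ
      rw [h00 τ hτ, zero_add] at this
      exact this
    show C τ + cobM R (t • E10) τ = 0
    rw [cobM_E10_diag hDτ hDτ']
    ext i j
    fin_cases i <;> fin_cases j <;>
      simp only [Fin.zero_eta, Fin.mk_one, Matrix.add_apply, Matrix.smul_apply, smul_eq_mul,
        Matrix.zero_apply, E10_00, E10_01, E10_10, E10_11, h00 τ hτ, h01 τ hτ, h11, mul_zero,
        add_zero, mul_one]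
    linear_combination (-1 : k) * h10
  have hfin := hcoc.coboundary_of_vanish h2 G₂ g hcover hg2 hnorm hv
  refine ⟨-((2 : k)⁻¹ • C' g) - t • E10, ?_, fun σ => ?_⟩
  · have htr' : C' g 0 0 + C' g 1 1 = 0 := by
      show (C g + cobM R (t • E10) g) 0 0 + (C g + cobM R (t • E10) g) 1 1 = 0
      rw [Matrix.add_apply, Matrix.add_apply]
      have := cobM_trace_anti hA (t • E10)
      linear_combination htr g + this
    simp only [Matrix.sub_apply, Matrix.neg_apply, Matrix.smul_apply, smul_eq_mul, E10_00,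
      E10_11, mul_zero, sub_zero]
    linear_combination (-(2 : k)⁻¹) * htr'
  · rw [cobM_sub, ← hfin σ]
    simp [hC']

/-- **(D)** Two trace-zero cocycles with zero `(0,0)`-entry on `G₂`, whose `(0,1)`-entries are
dependent modulo coboundaries on `G₂`, are dependent modulo coboundaries. -/
theorem IsCocM.dependent (h2 : (2 : k) ≠ 0) {C₁ C₂ : G → Matrix (Fin 2) (Fin 2) k}
    (hC₁ : IsCocM R C₁) (hC₂ : IsCocM R C₂) (G₂ : Subgroup G)
    (g : G) (hcover : ∀ σ, σ ∈ G₂ ∨ g⁻¹ * σ ∈ G₂) (hg2 : g * g ∈ G₂)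
    (hnorm : ∀ τ ∈ G₂, g⁻¹ * τ * g ∈ G₂)
    (hD : ∀ τ ∈ G₂, IsDiagM (R τ)) (hA : IsAntiM (R g))
    (htr₁ : ∀ σ, C₁ σ 0 0 + C₁ σ 1 1 = 0) (htr₂ : ∀ σ, C₂ σ 0 0 + C₂ σ 1 1 = 0)
    (h00₁ : ∀ τ ∈ G₂, C₁ τ 0 0 = 0) (h00₂ : ∀ τ ∈ G₂, C₂ τ 0 0 = 0)
    (l₁ l₂ a : k)
    (hdep : ∀ τ ∈ G₂, l₁ * C₁ τ 0 1 + l₂ * C₂ τ 0 1 = (R τ 0 0 * R τ⁻¹ 1 1 - 1) * a) :
    ∃ m : Matrix (Fin 2) (Fin 2) k, m 0 0 + m 1 1 = 0 ∧
      ∀ σ, l₁ • C₁ σ + l₂ • C₂ σ = cobM R m σ := by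
  set C : G → Matrix (Fin 2) (Fin 2) k :=
    fun σ => (l₁ • C₁ σ + l₂ • C₂ σ) - cobM R (a • E01) σ with hCdef
  have hcoc : IsCocM R C := ((hC₁.smul l₁).add (hC₂.smul l₂)).sub (isCocM_cobM R _)
  have htr : ∀ σ, C σ 0 0 + C σ 1 1 = 0 := by
    intro σ
    have h3 : cobM R (a • E01) σ 0 0 + cobM R (a • E01) σ 1 1 = 0 := by
      unfold cobM
      have := Matrix.trace_mul_comm (R σ * (a • E01)) (R σ⁻¹)
      rw [← Matrix.mul_assoc, R_inv_mul, Matrix.one_mul] at this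
      simp only [Matrix.trace, Fin.sum_univ_two, Matrix.diag_apply] at this
      rw [Matrix.sub_apply, Matrix.sub_apply]
      linear_combination this
    show (l₁ • C₁ σ + l₂ • C₂ σ - cobM R (a • E01) σ) 0 0
      + (l₁ • C₁ σ + l₂ • C₂ σ - cobM R (a • E01) σ) 1 1 = 0
    simp only [Matrix.sub_apply, Matrix.add_apply, Matrix.smul_apply, smul_eq_mul]
    linear_combination l₁ * htr₁ σ + l₂ * htr₂ σ - h3
  have h00 : ∀ τ ∈ G₂, C τ 0 0 = 0 := by
    intro τ hτ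
    show (l₁ • C₁ τ + l₂ • C₂ τ - cobM R (a • E01) τ) 0 0 = 0
    rw [cobM_E01_diag (hD τ hτ) (hD τ⁻¹ (inv_mem hτ))]
    simp only [Matrix.sub_apply, Matrix.add_apply, Matrix.smul_apply, smul_eq_mul, E01_00,
      h00₁ τ hτ, h00₂ τ hτ, mul_zero, add_zero, sub_zero]
  have h01 : ∀ τ ∈ G₂, C τ 0 1 = 0 := by
    intro τ hτ
    show (l₁ • C₁ τ + l₂ • C₂ τ - cobM R (a • E01) τ) 0 1 = 0
    rw [cobM_E01_diag (hD τ hτ) (hD τ⁻¹ (inv_mem hτ))]
    simp only [Matrix.sub_apply, Matrix.add_apply, Matrix.smul_apply, smul_eq_mul, E01_01,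
      mul_one]
    linear_combination hdep τ hτ
  obtain ⟨m, hm, hm'⟩ := hcoc.coboundary_of_upper_zero h2 G₂ g hcover hg2 hnorm hD hA htr h00 h01
  refine ⟨m + a • E01, ?_, fun σ => ?_⟩
  · simp only [Matrix.add_apply, Matrix.smul_apply, smul_eq_mul, E01_00, E01_11, mul_zero,
      add_zero]
    exact hm
  · rw [cobM_add, ← hm' σ]
    simp [hCdef]

end Fermat.Agent.S56.FL.H50.SS

end
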