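import Mathlib
import Fermat.Agent.S56.FL.H50_CohSSa

set_option autoImplicit false
set_option linter.style.haveILetI false

/-!
# LOC-p-FL, package COH-SS (helper50), part b: a plane without stable line, tame structure

`G` a group, `ρ : G →* End_k(V)`, `dim V = 2`, no `G`-stable line.
* `trivial_of_pgroup` : a normal subgroup acting through a `p`-group acts trivially (`char k = p`);
* `exists_basis_SS`   : with a tame structure `(I, P, φ, s)`: a basis `(v, v')` of eigenvectors of
  `ρ s` for `α ≠ α^p`, with `ρ φ v' = v`.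
-/

noncomputable section

namespace Fermat.Agent.S56.FL.H50.SS

open Module Polynomial

variable {p : ℕ} [Fact p.Prime] {k : Type*} [Field k] {V : Type*} [AddCommGroup V] [Module k V]
  {G : Type*} [Group G]

/-- `ρ` has no stable line. -/
def NoLine (ρ : G →* Module.End k V) : Prop :=
  ¬ ∃ ℓ : Submodule k V, finrank k ℓ = 1 ∧ ∀ σ, ∀ v ∈ ℓ, ρ σ v ∈ ℓ

theorem rho_inv_apply (ρ : G →* Module.End k V) (σ : G) (v : V) : ρ σ⁻¹ (ρ σ v) = v := by
  rw [← Module.End.mul_apply, ← map_mul, inv_mul_cancel, map_one, Module.End.one_apply]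

theorem rho_apply_inv (ρ : G →* Module.End k V) (σ : G) (v : V) : ρ σ (ρ σ⁻¹ v) = v := by
  rw [← Module.End.mul_apply, ← map_mul, mul_inv_cancel, map_one, Module.End.one_apply]

theorem rho_injective (ρ : G →* Module.End k V) (σ : G) : Function.Injective (ρ σ) := by
  intro x y h
  have := congrArg (ρ σ⁻¹) h
  rwa [rho_inv_apply, rho_inv_apply] at this

/-- A common eigenvector spans a stable line. -/
theorem not_noLine_of_eigen (ρ : G →* Module.End k V) {v : V} (hv : v ≠ 0)
    (h : ∀ σ, ∃ a : k, ρ σ v = a • v) : ¬ NoLine ρ := by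
  intro hns
  apply hns
  refine ⟨Submodule.span k {v}, finrank_span_singleton hv, fun σ x hx => ?_⟩
  obtain ⟨c, rfl⟩ := Submodule.mem_span_singleton.mp hx
  obtain ⟨a, ha⟩ := h σ
  rw [map_smul, ha, smul_smul]
  exact Submodule.smul_mem _ _ (Submodule.mem_span_singleton_self v)

/-- The invariants of a subgroup. -/
def fixedSub (ρ : G →* Module.End k V) (P : Subgroup G) : Submodule k V where
  carrier := {v | ∀ w ∈ P, ρ w v = v}
  add_mem' := by
    intro a b ha hb w hw
    rw [map_add, ha w hw, hb w hw]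
  zero_mem' := fun w _ => map_zero _
  smul_mem' := by
    intro c a ha w hw
    rw [map_smul, ha w hw]

theorem fixedSub_stable (ρ : G →* Module.End k V) (P : Subgroup G) (hP : P.Normal) (σ : G)
    {v : V} (hv : v ∈ fixedSub ρ P) : ρ σ v ∈ fixedSub ρ P := by
  intro w hw
  have h1 : σ⁻¹ * w * σ ∈ P := by
    have := hP.conj_mem w hw σ⁻¹
    rwa [inv_inv] at this
  have h2 := hv _ h1
  rw [map_mul, map_mul, Module.End.mul_apply, Module.End.mul_apply] at h2
  have h3 := congrArg (ρ σ) h2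
  rwa [rho_apply_inv] at h3

/-- A normal subgroup acting through a `p`-group on a plane without stable line over a finite
field of characteristic `p` acts trivially. -/
theorem trivial_of_pgroup [Finite k] [CharP k p] (hV : finrank k V = 2)
    (ρ : G →* Module.End k V) (P : Subgroup G) (hPn : P.Normal)
    (hP : ∀ w ∈ P, ∃ N : ℕ, ρ (w ^ (p ^ N)) = 1) (hns : NoLine ρ) :
    ∀ w ∈ P, ρ w = 1 := by
  have hp : p.Prime := Fact.out
  haveI : Module.Finite k V := Module.finite_of_finrank_eq_succ hV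
  haveI : Finite V := Module.finite_of_finite k
  -- the image of `P` in the units
  set Q : Subgroup (Module.End k V)ˣ := P.map ρ.toHomUnits with hQ
  have hpQ : IsPGroup p Q := by
    rintro ⟨q, hq⟩
    obtain ⟨w, hw, rfl⟩ := Subgroup.mem_map.mp hq
    obtain ⟨N, hN⟩ := hP w hw
    refine ⟨N, ?_⟩
    apply Subtype.ext
    apply Units.ext
    simp only [SubgroupClass.coe_pow, Units.val_pow_eq_pow_val, MonoidHom.coe_toHomUnits,
      Subgroup.coe_one, Units.val_one]
    rw [← map_pow, hN]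
  -- `p` divides the cardinality of `V`
  have hcard : p ∣ Nat.card V := by
    haveI := Fintype.ofFinite k
    haveI := Fintype.ofFinite V
    rw [Nat.card_eq_fintype_card, Module.card_eq_pow_finrank (K := k) (V := V), hV]
    have h1 : p ∣ Fintype.card k := by
      obtain ⟨n, hn⟩ := FiniteField.card k p
      rw [hn.2]
      exact dvd_pow_self p (PNat.ne_zero n)
    exact dvd_pow h1 (by norm_num)
  have h0 : (0 : V) ∈ MulAction.fixedPoints Q V := by
    intro q
    show (q : (Module.End k V)ˣ) • (0 : V) = 0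
    rw [smul_zero]
  obtain ⟨b, hb, hb0⟩ := hpQ.exists_fixed_point_of_prime_dvd_card_of_fixed_point V hcard h0
  have hbfix : b ∈ fixedSub ρ P := by
    intro w hw
    have := hb ⟨ρ.toHomUnits w, Subgroup.mem_map_of_mem _ hw⟩
    exact this
  -- the invariants are everything
  have hne : fixedSub ρ P ≠ ⊥ := by
    intro h
    rw [h, Submodule.mem_bot] at hbfix
    exact hb0 hbfix.symm
  have hpos : 0 < finrank k (fixedSub ρ P) := by
    rw [Module.finrank_pos_iff_exists_ne_zero]
    exact ⟨⟨b, hbfix⟩, fun h => hb0 (congrArg Subtype.val h).symm⟩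
  have hle : finrank k (fixedSub ρ P) ≤ 2 := hV ▸ Submodule.finrank_le _
  have h2 : finrank k (fixedSub ρ P) = 2 := by
    by_contra hne2
    have h1 : finrank k (fixedSub ρ P) = 1 := by omega
    exact hns ⟨fixedSub ρ P, h1, fun σ v hv => fixedSub_stable ρ P hPn σ hv⟩
  have htop : fixedSub ρ P = ⊤ := Submodule.eq_top_of_finrank_eq (h2.trans hV.symm)
  intro w hw
  ext v
  have : v ∈ fixedSub ρ P := by rw [htop]; exact Submodule.mem_top
  exact this w hw

theorem pow_apply_eigen {f : Module.End k V} {u : V} {a : k} (h : f u = a • u) (m : ℕ) :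
    (f ^ m) u = a ^ m • u := by
  induction m with
  | zero => simp
  | succ m ih => rw [pow_succ, Module.End.mul_apply, h, map_smul, ih, smul_smul, pow_succ']

omit [Fact (Nat.Prime p)] in
/-- The tame structure of a plane without stable line: eigenvectors `v, v'` of `ρ s` for the
eigenvalues `α ≠ α ^ p`, with `ρ φ v' = v`. -/
theorem exists_basis_SS [Module.Finite k V] (hV : finrank k V = 2) (ρ : G →* Module.End k V)
    (I P : Subgroup G) (φ s : G)
    (hP1 : ∀ w ∈ P, ρ w = 1)
    (hgen : ∀ σ : G, ∃ n : ℕ, ∃ ι ∈ I, ∃ τ : G, ρ τ = 1 ∧ σ = φ ^ n * ι * τ)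
    (htame : ∀ ι ∈ I, ∃ n : ℕ, ∃ w ∈ P, ι = s ^ n * w)
    (hconj : ∃ w ∈ P, φ * s * φ⁻¹ = s ^ p * w)
    (heig : ∀ σ, ∃ α β : k, LinearMap.charpoly (ρ σ) = (X - C α) * (X - C β))
    (hns : NoLine ρ) :
    ∃ (b : Basis (Fin 2) k V) (α : k), α ^ p ≠ α ∧ ρ s (b 0) = α • b 0 ∧
      ρ s (b 1) = α ^ p • b 1 ∧ ρ φ (b 1) = b 0 := by
  -- every element acts as `Φ^n S^m`
  have hall : ∀ σ, ∃ n m : ℕ, ρ σ = ρ φ ^ n * ρ s ^ m := by
    intro σ
    obtain ⟨n, ι, hι, τ, hτ, rfl⟩ := hgen σ
    obtain ⟨m, w, hw, rfl⟩ := htame ι hι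
    refine ⟨n, m, ?_⟩
    rw [map_mul, map_mul, map_mul, map_pow, map_pow, hP1 w hw, hτ, mul_one, mul_one]
  -- `Φ S = S^p Φ`
  have hΦS : ρ φ * ρ s = ρ s ^ p * ρ φ := by
    obtain ⟨w, hw, h⟩ := hconj
    have h1 := congrArg ρ h
    rw [map_mul, map_mul, map_mul, map_pow, hP1 w hw, mul_one] at h1
    have h2 : ρ φ * ρ s * ρ φ⁻¹ * ρ φ = ρ s ^ p * ρ φ := by rw [h1]
    have h3 : ρ φ⁻¹ * ρ φ = 1 := by rw [← map_mul, inv_mul_cancel, map_one]
    rw [mul_assoc (ρ φ * ρ s), h3, mul_one] at h2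
    exact h2
  -- existence of eigenvectors
  have heigv : ∀ σ, ∃ (a : k) (u : V), u ≠ 0 ∧ ρ σ u = a • u := by
    intro σ
    obtain ⟨a, c, hac⟩ := heig σ
    have hroot : (LinearMap.charpoly (ρ σ)).IsRoot a := by
      rw [hac, IsRoot.def, eval_mul, eval_sub, eval_X, eval_C, sub_self, zero_mul]
    have := (Module.End.hasEigenvalue_iff_isRoot_charpoly (ρ σ) a).mpr hroot
    obtain ⟨u, hu⟩ := this.exists_hasEigenvector
    exact ⟨a, u, hu.2, hu.apply_eq_smul⟩
  -- `S` is not a scalar
  have hnotscalar : ∀ a : k, ¬ ∀ x : V, ρ s x = a • x := by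
    intro a ha
    obtain ⟨c, u, hu0, hu⟩ := heigv φ
    refine not_noLine_of_eigen ρ hu0 (fun σ => ?_) hns
    obtain ⟨n, m, hnm⟩ := hall σ
    refine ⟨c ^ n * a ^ m, ?_⟩
    rw [hnm, Module.End.mul_apply, pow_apply_eigen (ha u), map_smul, pow_apply_eigen hu,
      smul_smul, mul_comm]
  obtain ⟨α, v, hv0, hv⟩ := heigv s
  set v' : V := ρ φ⁻¹ v with hv'
  have hΦv' : ρ φ v' = v := rho_apply_inv ρ φ v
  have hv'0 : v' ≠ 0 := by
    intro h
    rw [h, map_zero] at hΦv'
    exact hv0 hΦv'.symm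
  have hSp : ∀ m : ℕ, (ρ s ^ m) v = α ^ m • v := pow_apply_eigen hv
  have hSv' : ρ s v' = α ^ p • v' := by
    apply rho_injective ρ φ
    have h1 := LinearMap.congr_fun hΦS v'
    rw [Module.End.mul_apply, Module.End.mul_apply, hΦv', hSp] at h1
    rw [h1, map_smul, hΦv']
  -- `v'` is not a multiple of `v`
  have hnot : ∀ a : k, a • v' ≠ v := by
    intro a ha
    have ha0 : a ≠ 0 := by
      rintro rfl
      rw [zero_smul] at ha
      exact hv0 ha.symm
    -- `Φ v = a • v`
    have hΦv : ρ φ v = a • v := by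
      have h1 := congrArg (ρ φ) ha
      rw [map_smul, hΦv'] at h1
      exact h1.symm
    refine not_noLine_of_eigen ρ hv0 (fun σ => ?_) hns
    obtain ⟨n, m, hnm⟩ := hall σ
    refine ⟨a ^ n * α ^ m, ?_⟩
    rw [hnm, Module.End.mul_apply, hSp, map_smul, pow_apply_eigen hΦv, smul_smul, mul_comm]
  have hli : LinearIndependent k ![v, v'] := by
    rw [LinearIndependent.pair_iff' hv0]
    intro a ha
    have ha0 : a ≠ 0 := by
      rintro rfl
      rw [zero_smul] at ha
      exact hv'0 ha.symm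
    apply hnot a⁻¹
    rw [← ha, smul_smul, inv_mul_cancel₀ ha0, one_smul]
  set b : Basis (Fin 2) k V := basisOfLinearIndependentOfCardEqFinrank hli
    (by rw [hV]; rfl) with hb
  have hb0 : b 0 = v := by
    rw [hb, coe_basisOfLinearIndependentOfCardEqFinrank]; rfl
  have hb1 : b 1 = v' := by
    rw [hb, coe_basisOfLinearIndependentOfCardEqFinrank]; rfl
  refine ⟨b, α, ?_, ?_, ?_, ?_⟩
  · intro hαp
    apply hnotscalar α
    intro x
    have : ρ s = α • (LinearMap.id : V →ₗ[k] V) := by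
      apply b.ext
      intro i
      fin_cases i
      · show ρ s (b 0) = α • b 0
        rw [hb0, hv]
      · show ρ s (b 1) = α • b 1
        rw [hb1, hSv', hαp]
    rw [this]
    rfl
  · rw [hb0, hv]
  · rw [hb1, hSv']
  · rw [hb1, hb0, hΦv']

/-! ## Matrix form -/

section Mat

variable (b : Basis (Fin 2) k V) (ρ : G →* Module.End k V)

/-- `ρ` in the basis `b`. -/
def matRep : G →* Matrix (Fin 2) (Fin 2) k :=
  ((LinearMap.toMatrixAlgEquiv b : Module.End k V ≃ₐ[k] Matrix (Fin 2) (Fin 2) k) :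
    Module.End k V →* Matrix (Fin 2) (Fin 2) k).comp ρ

/-- The matrix of an endomorphism in the basis `b`. -/
def matOf (f : Module.End k V) : Matrix (Fin 2) (Fin 2) k := LinearMap.toMatrixAlgEquiv b f

theorem matRep_eq (σ : G) : matRep b ρ σ = matOf b (ρ σ) := rfl

theorem matOf_apply (f : Module.End k V) (i j : Fin 2) : matOf b f i j = b.repr (f (b j)) i :=
  LinearMap.toMatrixAlgEquiv_apply b f i j

theorem matOf_mul (f g : Module.End k V) : matOf b (f * g) = matOf b f * matOf b g :=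
  map_mul (LinearMap.toMatrixAlgEquiv b) f g

theorem matOf_add (f g : Module.End k V) : matOf b (f + g) = matOf b f + matOf b g :=
  map_add (LinearMap.toMatrixAlgEquiv b) f g

theorem matOf_sub (f g : Module.End k V) : matOf b (f - g) = matOf b f - matOf b g :=
  map_sub (LinearMap.toMatrixAlgEquiv b) f g

theorem matOf_smul (a : k) (f : Module.End k V) : matOf b (a • f) = a • matOf b f :=
  map_smul (LinearMap.toMatrixAlgEquiv b) a f

theorem matOf_zero : matOf b (0 : Module.End k V) = 0 :=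
  map_zero (LinearMap.toMatrixAlgEquiv b)

theorem matOf_one : matOf b (1 : Module.End k V) = 1 :=
  map_one (LinearMap.toMatrixAlgEquiv b)

theorem matOf_injective : Function.Injective (matOf b : Module.End k V → _) :=
  (LinearMap.toMatrixAlgEquiv b).injective

theorem matOf_surjective : Function.Surjective (matOf b : Module.End k V → _) :=
  (LinearMap.toMatrixAlgEquiv b).surjective

theorem trace_matOf (f : Module.End k V) :
    LinearMap.trace k V f = matOf b f 0 0 + matOf b f 1 1 := by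
  rw [LinearMap.trace_eq_matrix_trace k b, Matrix.trace_fin_two]
  rfl

theorem det_matOf (f : Module.End k V) :
    LinearMap.det f = matOf b f 0 0 * matOf b f 1 1 - matOf b f 0 1 * matOf b f 1 0 := by
  rw [← LinearMap.det_toMatrix b, Matrix.det_fin_two]
  rfl

/-- The column `j` of the matrix of `f` when `f (b j) = c • b i₀`. -/
theorem matOf_of_eigen {f : Module.End k V} {j i₀ : Fin 2} {c : k} (h : f (b j) = c • b i₀)
    (i : Fin 2) : matOf b f i j = if i = i₀ then c else 0 := by
  rw [matOf_apply, h, map_smul, Basis.repr_self, Finsupp.smul_apply, Finsupp.single_apply,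
    smul_eq_mul]
  split_ifs with h1 h2 h2
  · rw [mul_one]
  · exact absurd h1.symm h2
  · exact absurd h2.symm h1
  · rw [mul_zero]

variable {b ρ}

/-- A matrix intertwining two diagonal matrices, the first one with distinct entries, has a zero
in each column. -/
theorem col_zero_of_intertwine {D D' X : Matrix (Fin 2) (Fin 2) k} (hD : IsDiagM D)
    (hD' : IsDiagM D') (hne : D 0 0 ≠ D 1 1) (h : D * X = X * D') (j : Fin 2) :
    X 0 j = 0 ∨ X 1 j = 0 := by
  have e0 := congrFun (congrFun h 0) j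
  have e1 := congrFun (congrFun h 1) j
  rw [mul2_apply, mul2_apply, hD.1] at e0
  rw [mul2_apply, mul2_apply, hD.2] at e1
  by_contra hcon
  rw [not_or] at hcon
  apply hne
  fin_cases j
  · simp only [Fin.zero_eta] at e0 e1 hcon
    rw [hD'.2] at e0 e1
    have h0 : D 0 0 = D' 0 0 := by
      have : X 0 0 * (D 0 0 - D' 0 0) = 0 := by linear_combination e0
      rcases mul_eq_zero.mp this with h | h
      · exact absurd h hcon.1
      · exact sub_eq_zero.mp h
    have h1 : D 1 1 = D' 0 0 := by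
      have : X 1 0 * (D 1 1 - D' 0 0) = 0 := by linear_combination e1
      rcases mul_eq_zero.mp this with h | h
      · exact absurd h hcon.2
      · exact sub_eq_zero.mp h
    rw [h0, h1]
  · simp only [Fin.mk_one] at e0 e1 hcon
    rw [hD'.1] at e0 e1
    have h0 : D 0 0 = D' 1 1 := by
      have : X 0 1 * (D 0 0 - D' 1 1) = 0 := by linear_combination e0
      rcases mul_eq_zero.mp this with h | h
      · exact absurd h hcon.1
      · exact sub_eq_zero.mp h
    have h1 : D 1 1 = D' 1 1 := by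
      have : X 1 1 * (D 1 1 - D' 1 1) = 0 := by linear_combination e1
      rcases mul_eq_zero.mp this with h | h
      · exact absurd h hcon.2
      · exact sub_eq_zero.mp h
    rw [h0, h1]

/-- An invertible matrix with a zero in each column is diagonal or antidiagonal. -/
theorem diag_or_anti_of_col_zero {X X' : Matrix (Fin 2) (Fin 2) k} (hinv : X * X' = 1)
    (h : ∀ j, X 0 j = 0 ∨ X 1 j = 0) : IsDiagM X ∨ IsAntiM X := by
  have e00 := congrFun (congrFun hinv 0) 0
  have e11 := congrFun (congrFun hinv 1) 1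
  rw [mul2_apply] at e00 e11
  simp only [Matrix.one_apply_eq] at e00 e11
  rcases h 0 with h0 | h0 <;> rcases h 1 with h1 | h1
  · rw [h0, h1] at e00
    simp at e00
  · exact Or.inr ⟨h0, h1⟩
  · exact Or.inl ⟨h1, h0⟩
  · rw [h0, h1] at e11
    simp at e11

theorem isDiagM_mul {A B : Matrix (Fin 2) (Fin 2) k} (hA : IsDiagM A) (hB : IsDiagM B) :
    IsDiagM (A * B) := by
  constructor
  · rw [mul2_apply, hA.1, hB.1]; ring
  · rw [mul2_apply, hA.2, hB.2]; ring

theorem isDiagM_one : IsDiagM (1 : Matrix (Fin 2) (Fin 2) k) := by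
  constructor <;> simp

theorem isDiagM_anti_mul {A B : Matrix (Fin 2) (Fin 2) k} (hA : IsAntiM A) (hB : IsAntiM B) :
    IsDiagM (A * B) := by
  constructor
  · rw [mul2_apply, hA.1, hB.2]; ring
  · rw [mul2_apply, hA.2, hB.1]; ring

theorem isAntiM_mul_diag {A B : Matrix (Fin 2) (Fin 2) k} (hA : IsAntiM A) (hB : IsDiagM B) :
    IsAntiM (A * B) := by
  constructor
  · rw [mul2_apply, hA.1, hB.2]; ring
  · rw [mul2_apply, hA.2, hB.1]; ring

theorem isAntiM_diag_mul {A B : Matrix (Fin 2) (Fin 2) k} (hA : IsDiagM A) (hB : IsAntiM B) :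
    IsAntiM (A * B) := by
  constructor
  · rw [mul2_apply, hA.1, hB.1]; ring
  · rw [mul2_apply, hA.2, hB.2]; ring

theorem isDiagM_pow {A : Matrix (Fin 2) (Fin 2) k} (hA : IsDiagM A) (n : ℕ) :
    IsDiagM (A ^ n) ∧ (A ^ n) 0 0 = A 0 0 ^ n ∧ (A ^ n) 1 1 = A 1 1 ^ n := by
  induction n with
  | zero => exact ⟨by rw [pow_zero]; exact isDiagM_one, by simp, by simp⟩
  | succ n ih =>
    refine ⟨by rw [pow_succ]; exact isDiagM_mul ih.1 hA, ?_, ?_⟩
    · rw [pow_succ, mul2_apply, ih.2.1, hA.2, pow_succ]; ring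
    · rw [pow_succ, mul2_apply, ih.2.2, ih.1.2, pow_succ]; ring

/-- An invertible matrix is not both diagonal and antidiagonal. -/
theorem not_diag_and_anti {X X' : Matrix (Fin 2) (Fin 2) k} (hinv : X * X' = 1)
    (hD : IsDiagM X) (hA : IsAntiM X) : False := by
  have e00 := congrFun (congrFun hinv 0) 0
  rw [mul2_apply, hD.1, hA.1] at e00
  simp at e00

end Mat

omit [Fact (Nat.Prime p)] in
/-- **Structure of a plane without stable line** (tame structure `(I, P, φ, s)`): in a suitable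
basis every element acts by a diagonal or an antidiagonal matrix, `φ` acts by an antidiagonal
one, and the elements `ι` of `I` act by `diag(a, a ^ p)`. -/
theorem SS_struct [Module.Finite k V] (hV : finrank k V = 2) (ρ : G →* Module.End k V)
    (I P : Subgroup G) (φ s : G) (hIn : I.Normal) (hs : s ∈ I)
    (hP1 : ∀ w ∈ P, ρ w = 1)
    (hgen : ∀ σ : G, ∃ n : ℕ, ∃ ι ∈ I, ∃ τ : G, ρ τ = 1 ∧ σ = φ ^ n * ι * τ)
    (htame : ∀ ι ∈ I, ∃ n : ℕ, ∃ w ∈ P, ι = s ^ n * w)
    (hconj : ∃ w ∈ P, φ * s * φ⁻¹ = s ^ p * w)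
    (heig : ∀ σ, ∃ α β : k, LinearMap.charpoly (ρ σ) = (X - C α) * (X - C β))
    (hns : NoLine ρ) :
    ∃ b : Basis (Fin 2) k V,
      (∀ σ, IsDiagM (matRep b ρ σ) ∨ IsAntiM (matRep b ρ σ)) ∧
      IsAntiM (matRep b ρ φ) ∧
      ∀ ι ∈ I, IsDiagM (matRep b ρ ι) ∧ matRep b ρ ι 1 1 = (matRep b ρ ι 0 0) ^ p := by
  obtain ⟨b, α, hα, hs0, hs1, hφ1⟩ :=
    exists_basis_SS hV ρ I P φ s hP1 hgen htame hconj heig hns
  refine ⟨b, ?_⟩
  set R := matRep b ρ with hR
  have hRsD : IsDiagM (R s) := by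
    constructor
    · show matOf b (ρ s) 0 1 = 0
      rw [matOf_of_eigen b hs1]; simp
    · show matOf b (ρ s) 1 0 = 0
      rw [matOf_of_eigen b hs0]; simp
  have hRs0 : R s 0 0 = α := by
    show matOf b (ρ s) 0 0 = α
    rw [matOf_of_eigen b hs0]; simp
  have hRs1 : R s 1 1 = α ^ p := by
    show matOf b (ρ s) 1 1 = α ^ p
    rw [matOf_of_eigen b hs1]; simp
  have hRP : ∀ w ∈ P, R w = 1 := by
    intro w hw
    show matOf b (ρ w) = 1
    rw [hP1 w hw, matOf_one]
  have hI : ∀ ι ∈ I, IsDiagM (R ι) ∧ R ι 1 1 = (R ι 0 0) ^ p := by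
    intro ι hι
    obtain ⟨m, w, hw, rfl⟩ := htame ι hι
    have e : R (s ^ m * w) = R s ^ m := by rw [map_mul, map_pow, hRP w hw, mul_one]
    rw [e]
    obtain ⟨h1, h2, h3⟩ := isDiagM_pow hRsD m
    refine ⟨h1, ?_⟩
    rw [h2, h3, hRs0, hRs1, ← pow_mul, ← pow_mul, mul_comm]
  have hM1 : ∀ σ, IsDiagM (R σ) ∨ IsAntiM (R σ) := by
    intro σ
    have hmem : σ⁻¹ * s * σ ∈ I := by
      have := hIn.conj_mem s hs σ⁻¹
      rwa [inv_inv] at this
    have hD' := (hI _ hmem).1
    have hint : R s * R σ = R σ * R (σ⁻¹ * s * σ) := by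
      rw [← map_mul, ← map_mul]
      congr 1
      group
    have hne : R s 0 0 ≠ R s 1 1 := by
      rw [hRs0, hRs1]
      exact fun h => hα h.symm
    exact diag_or_anti_of_col_zero (R_mul_inv R σ) (col_zero_of_intertwine hRsD hD' hne hint)
  refine ⟨hM1, ?_, hI⟩
  rcases hM1 φ with h | h
  · exfalso
    have h1 : R φ 0 1 = 1 := by
      show matOf b (ρ φ) 0 1 = 1
      have hφ1' : ρ φ (b 1) = (1 : k) • b 0 := by rw [one_smul, hφ1]
      rw [matOf_of_eigen b hφ1']; simp
    rw [h.1] at h1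
    exact zero_ne_one h1
  · exact h

end Fermat.Agent.S56.FL.H50.SS

end
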