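import Fermat.Agent.S56.FL.H50_CohSSb

set_option autoImplicit false

/-!
# LOC-p-FL, package COH-SS (helper50), part c: the diagonal subgroup and its characters

`R : G →* M₂(k)` with every `R σ` diagonal or antidiagonal.
* `diagSub R h`   : the subgroup `G₂` of the `σ` with `R σ` diagonal; index `2` if some `R g` is
                    antidiagonal;
* `diagChar0/1`   : the two diagonal characters `G₂ →* kˣ`;
* `IsCocM.entry00_zero` : the `(0,0)`-entry of a trace-zero cocycle vanishes on `G₂` if it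
                    vanishes on a subgroup `I ≤ G₂` with `G = ⟨φ'⟩ · I · K`, `C = 0` on `K`.
-/

noncomputable section

namespace Fermat.Agent.S56.FL.H50.SS

open Matrix

variable {k : Type*} [Field k] {G : Type*} [Group G] (R : G →* Matrix (Fin 2) (Fin 2) k)
  (hM1 : ∀ σ, IsDiagM (R σ) ∨ IsAntiM (R σ))

/-- The subgroup of the elements acting by diagonal matrices. -/
def diagSub : Subgroup G where
  carrier := {σ | IsDiagM (R σ)}
  mul_mem' := by
    intro a b ha hb
    show IsDiagM (R (a * b))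
    rw [map_mul]
    exact isDiagM_mul ha hb
  one_mem' := by
    show IsDiagM (R 1)
    rw [map_one]
    exact isDiagM_one
  inv_mem' := by
    intro a ha
    show IsDiagM (R a⁻¹)
    rcases hM1 a⁻¹ with h | h
    · exact h
    · exfalso
      have h1 : IsAntiM (R a * R a⁻¹) := isAntiM_diag_mul ha h
      rw [R_mul_inv] at h1
      exact not_diag_and_anti (one_mul (1 : Matrix (Fin 2) (Fin 2) k)) isDiagM_one h1

variable {R}

theorem mem_diagSub {σ : G} : σ ∈ diagSub R hM1 ↔ IsDiagM (R σ) := Iff.rfl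

theorem not_mem_diagSub_of_anti {g : G} (hg : IsAntiM (R g)) : g ∉ diagSub R hM1 :=
  fun h => not_diag_and_anti (R_mul_inv R g) h hg

theorem anti_of_not_mem {g : G} (hg : g ∉ diagSub R hM1) : IsAntiM (R g) :=
  (hM1 g).resolve_left hg

theorem diagSub_cover {g : G} (hg : IsAntiM (R g)) (σ : G) :
    σ ∈ diagSub R hM1 ∨ g⁻¹ * σ ∈ diagSub R hM1 := by
  rcases hM1 σ with h | h
  · exact Or.inl h
  · right
    show IsDiagM (R (g⁻¹ * σ))
    rw [map_mul]
    exact isDiagM_anti_mul (anti_inv hg (R_mul_inv R g)) h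

theorem diagSub_sq {g : G} (hg : IsAntiM (R g)) : g * g ∈ diagSub R hM1 := by
  show IsDiagM (R (g * g))
  rw [map_mul]
  exact isDiagM_anti_mul hg hg

theorem diagSub_conj {g : G} (hg : IsAntiM (R g)) {τ : G} (hτ : τ ∈ diagSub R hM1) :
    g⁻¹ * τ * g ∈ diagSub R hM1 := by
  show IsDiagM (R (g⁻¹ * τ * g))
  rw [map_mul, map_mul]
  exact isDiagM_anti_mul (isAntiM_mul_diag (anti_inv hg (R_mul_inv R g)) hτ) hg

theorem diagSub_index {g : G} (hg : IsAntiM (R g)) : (diagSub R hM1).index = 2 := by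
  rw [Subgroup.index_eq_two_iff]
  refine ⟨g, fun b => ?_⟩
  rcases hM1 b with h | h
  · refine Or.inr ⟨h, ?_⟩
    intro h1
    have h2 : IsAntiM (R (b * g)) := by rw [map_mul]; exact isAntiM_diag_mul h hg
    exact not_diag_and_anti (R_mul_inv R (b * g)) h1 h2
  · refine Or.inl ⟨?_, fun h1 => not_diag_and_anti (R_mul_inv R b) h1 h⟩
    show IsDiagM (R (b * g))
    rw [map_mul]
    exact isDiagM_anti_mul h hg

/-- Powers of an antidiagonal element. -/
theorem anti_pow_odd {g : G} (hg : IsAntiM (R g)) (m : ℕ) : IsAntiM (R (g ^ (2 * m + 1))) := by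
  induction m with
  | zero => simpa using hg
  | succ m ih =>
    have e : g ^ (2 * (m + 1) + 1) = g ^ (2 * m + 1) * (g * g) := by
      rw [show 2 * (m + 1) + 1 = (2 * m + 1) + 2 by ring, pow_add, pow_two]
    rw [e, map_mul, map_mul]
    exact isAntiM_mul_diag ih (isDiagM_anti_mul hg hg)

/-! ## The diagonal characters -/

/-- The character `σ ↦ (R σ) 0 0` of the diagonal subgroup. -/
def diagChar0 : diagSub R hM1 →* kˣ where
  toFun σ := ⟨R σ 0 0, R (σ : G)⁻¹ 0 0, diag_inv_00 σ.2 (R_mul_inv R σ),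
    by rw [mul_comm]; exact diag_inv_00 σ.2 (R_mul_inv R σ)⟩
  map_one' := by
    apply Units.ext
    show R ((1 : diagSub R hM1) : G) 0 0 = 1
    rw [Subgroup.coe_one, map_one]
    simp
  map_mul' := by
    intro σ τ
    apply Units.ext
    show R ((σ * τ : diagSub R hM1) : G) 0 0 = R σ 0 0 * R τ 0 0
    rw [Subgroup.coe_mul, map_mul, mul2_apply, σ.2.1]
    ring

/-- The character `σ ↦ (R σ) 1 1` of the diagonal subgroup. -/
def diagChar1 : diagSub R hM1 →* kˣ where
  toFun σ := ⟨R σ 1 1, R (σ : G)⁻¹ 1 1, diag_inv_11 σ.2 (R_mul_inv R σ),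
    by rw [mul_comm]; exact diag_inv_11 σ.2 (R_mul_inv R σ)⟩
  map_one' := by
    apply Units.ext
    show R ((1 : diagSub R hM1) : G) 1 1 = 1
    rw [Subgroup.coe_one, map_one]
    simp
  map_mul' := by
    intro σ τ
    apply Units.ext
    show R ((σ * τ : diagSub R hM1) : G) 1 1 = R σ 1 1 * R τ 1 1
    rw [Subgroup.coe_mul, map_mul, mul2_apply, σ.2.2]
    ring

@[simp] theorem diagChar0_val (σ : diagSub R hM1) : ((diagChar0 hM1 σ : kˣ) : k) = R σ 0 0 := rfl

@[simp] theorem diagChar1_val (σ : diagSub R hM1) : ((diagChar1 hM1 σ : kˣ) : k) = R σ 1 1 := rfl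

theorem diagChar1_inv_val (σ : diagSub R hM1) :
    (((diagChar1 hM1 σ)⁻¹ : kˣ) : k) = R (σ : G)⁻¹ 1 1 := rfl

/-- The character `χ = χ₀ / χ₁`. -/
def diagChi : diagSub R hM1 →* kˣ := diagChar0 hM1 / diagChar1 hM1

theorem diagChi_val (σ : diagSub R hM1) :
    ((diagChi hM1 σ : kˣ) : k) = R σ 0 0 * R (σ : G)⁻¹ 1 1 := by
  show ((diagChar0 hM1 σ / diagChar1 hM1 σ : kˣ) : k) = _
  rw [div_eq_mul_inv, Units.val_mul, diagChar0_val, diagChar1_inv_val]

/-! ## Cocycles on the diagonal subgroup -/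

variable {C : G → Matrix (Fin 2) (Fin 2) k}

theorem IsCocM.entry00_add (hC : IsCocM R C) {σ : G} (hσ : σ ∈ diagSub R hM1) (τ : G) :
    C (σ * τ) 0 0 = C σ 0 0 + C τ 0 0 := by
  rw [hC σ τ, Matrix.add_apply,
    diag_conj_00 hσ ((diagSub R hM1).inv_mem hσ) (R_mul_inv R σ)]

theorem IsCocM.entry01_add (hC : IsCocM R C) {σ : G} (hσ : σ ∈ diagSub R hM1) (τ : G) :
    C (σ * τ) 0 1 = C σ 0 1 + (R σ 0 0 * R σ⁻¹ 1 1) * C τ 0 1 := by
  rw [hC σ τ, Matrix.add_apply, diag_conj_01 hσ ((diagSub R hM1).inv_mem hσ)]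

/-- The `(0,0)`-entry of a trace-zero cocycle at the square of an antidiagonal element. -/
theorem IsCocM.entry00_sq (hC : IsCocM R C) (htr : ∀ σ, C σ 0 0 + C σ 1 1 = 0) {g : G}
    (hg : IsAntiM (R g)) : C (g * g) 0 0 = 0 := by
  rw [hC g g, Matrix.add_apply, anti_conj_00 hg (anti_inv hg (R_mul_inv R g)) (R_mul_inv R g)]
  exact htr g

/-- **(C)** The `(0,0)`-entry of a trace-zero cocycle vanishes on the diagonal subgroup, if it
vanishes on a subgroup `I` of the diagonal subgroup such that `G = ⟨φ'⟩ · I · K`, where the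
cocycle vanishes on `K` and `R` is trivial on `K`. -/
theorem IsCocM.entry00_zero (hC : IsCocM R C) (htr : ∀ σ, C σ 0 0 + C σ 1 1 = 0)
    {g : G} (hg : IsAntiM (R g)) (I : Subgroup G) (hI : I ≤ diagSub R hM1)
    (hCI : ∀ ι ∈ I, C ι 0 0 = 0) (φ' : G)
    (hgen : ∀ σ : G, ∃ n : ℕ, ∃ ι ∈ I, ∃ τ : G, (R τ = 1 ∧ C τ = 0) ∧ σ = φ' ^ n * ι * τ) :
    ∀ σ ∈ diagSub R hM1, C σ 0 0 = 0 := by
  have hK : ∀ τ : G, R τ = 1 → τ ∈ diagSub R hM1 := by
    intro τ hτ
    show IsDiagM (R τ)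
    rw [hτ]
    exact isDiagM_one
  -- `φ'` is antidiagonal
  have hφ' : IsAntiM (R φ') := by
    apply anti_of_not_mem hM1
    intro hmem
    apply not_mem_diagSub_of_anti hM1 hg
    obtain ⟨n, ι, hι, τ, hτ, rfl⟩ := hgen g
    exact mul_mem (mul_mem (pow_mem hmem n) (hI hι)) (hK τ hτ.1)
  have hsq : φ' * φ' ∈ diagSub R hM1 := diagSub_sq hM1 hφ'
  have hpow : ∀ m : ℕ, C ((φ' * φ') ^ m) 0 0 = 0 := by
    intro m
    induction m with
    | zero =>
      rw [pow_zero, hC.one]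
      rfl
    | succ m ih =>
      rw [pow_succ', hC.entry00_add hM1 hsq, ih, hC.entry00_sq htr hφ', add_zero]
  intro σ hσ
  obtain ⟨n, ι, hι, τ, hτ, rfl⟩ := hgen σ
  have hιτ : ι * τ ∈ diagSub R hM1 := mul_mem (hI hι) (hK τ hτ.1)
  have hn : φ' ^ n ∈ diagSub R hM1 := by
    have e : φ' ^ n = (φ' ^ n * ι * τ) * (ι * τ)⁻¹ := by group
    rw [e]
    exact mul_mem hσ (inv_mem hιτ)
  -- `n` is even
  obtain ⟨m, rfl | rfl⟩ := Nat.even_or_odd' n
  · have e : φ' ^ (2 * m) = (φ' * φ') ^ m := by rw [← pow_two, ← pow_mul]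
    rw [mul_assoc, hC.entry00_add hM1 hn, e, hpow m, hC.entry00_add hM1 (hI hι), hCI ι hι,
      hτ.2]
    simp
  · exact absurd hn (not_mem_diagSub_of_anti hM1 (anti_pow_odd hφ' m))

end Fermat.Agent.S56.FL.H50.SS

end
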