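import Fermat.Agent.S56.FL.Count
import Fermat.Agent.S56.FL.H50_CohSSc
import Fermat.Agent.S56.H57_LocPSO

set_option autoImplicit false
set_option linter.unusedSectionVars false

/-!
# LOC-p-FL, package COH-SS (helper50), part d: the local cocycles of `ad⁰ ρbar` in matrix form
-/

noncomputable section

namespace Fermat.Agent.S56.FL.H50.SS

open scoped NNReal
open Polynomial IsLocalRing CategoryTheory groupCohomology ExtCitation Fermat.Agent.S53 Module
  Fermat.Agent.S56 Fermat.Agent.S56.FL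

variable {p : ℕ} [Fact p.Prime] {k : Type} [Field k] [CharP k p] (ρbar : ResidualGaloisRep k)

/-- The local representation `ρbar ∘ r` as a monoid homomorphism. -/
def rhoL (p : ℕ) [Fact p.Prime] : Gp p →* Module.End k ρbar.V := ρbar.ρ.comp (localGaloisToGlobal p)

theorem rhoL_apply (σ : Gp p) : rhoL ρbar p σ = locRho ρbar σ := rfl

/-- The cocycle identity for `cocVal`. -/
theorem cocVal_mul (c : cocycles₁ (locRep (ad0 ρbar) (pPrime p))) (σ τ : Gp p) :
    cocVal ρbar c (σ * τ)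
      = cocVal ρbar c σ + rhoL ρbar p σ * cocVal ρbar c τ * rhoL ρbar p σ⁻¹ := by
  have h := (mem_cocycles₁_iff (c : primeLocalGaloisGroup (pPrime p) → _)).mp c.2 σ τ
  have h2 : cocVal ρbar c (σ * τ)
      = ρbar.ρ (localGaloisToGlobal p σ) * cocVal ρbar c τ * ρbar.ρ (localGaloisToGlobal p σ)⁻¹
        + cocVal ρbar c σ := congrArg (ad0Val ρbar) h
  have h3 : rhoL ρbar p σ⁻¹ = ρbar.ρ (localGaloisToGlobal p σ)⁻¹ := by
    show ρbar.ρ (localGaloisToGlobal p σ⁻¹) = ρbar.ρ (localGaloisToGlobal p σ)⁻¹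
    rw [map_inv]
  rw [add_comm, h3]
  exact h2

theorem trace_cocVal (c : cocycles₁ (locRep (ad0 ρbar) (pPrime p))) (σ : Gp p) :
    LinearMap.trace k ρbar.V (cocVal ρbar c σ) = 0 :=
  ((c : primeLocalGaloisGroup (pPrime p) → ad0 ρbar) σ).2

/-- A cocycle which is pointwise the coboundary of a trace-zero endomorphism has trivial class. -/
theorem H1π_eq_zero_of_cob (c : cocycles₁ (locRep (ad0 ρbar) (pPrime p)))
    (m : Module.End k ρbar.V) (hm : LinearMap.trace k ρbar.V m = 0)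
    (h : ∀ σ : Gp p, cocVal ρbar c σ = rhoL ρbar p σ * m * rhoL ρbar p σ⁻¹ - m) :
    (H1π (locRep (ad0 ρbar) (pPrime p))).hom c = 0 := by
  rw [H1π_eq_zero_iff]
  refine ⟨H57.locMk p ρbar m hm, ?_⟩
  have key : ∀ σ : Gp p,
      ρbar.ρ (localGaloisToGlobal p σ) * m * ρbar.ρ (localGaloisToGlobal p σ)⁻¹ - m
        = cocVal ρbar c σ := by
    intro σ
    have h3 : rhoL ρbar p σ⁻¹ = ρbar.ρ (localGaloisToGlobal p σ)⁻¹ := by
      show ρbar.ρ (localGaloisToGlobal p σ⁻¹) = ρbar.ρ (localGaloisToGlobal p σ)⁻¹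
      rw [map_inv]
    have h4 := h σ
    rw [h3] at h4
    exact h4.symm
  funext σ
  rw [d₀₁_hom_apply]
  apply H57.locVal_injective p ρbar
  exact key σ

/-! ## Matrix form -/

variable {ρbar} (b : Basis (Fin 2) k ρbar.V)

/-- The local representation in the basis `b`. -/
def Rm : Gp p →* Matrix (Fin 2) (Fin 2) k := matRep b (rhoL ρbar p)

/-- The values of a local cocycle in the basis `b`. -/
def Cm (c : cocycles₁ (locRep (ad0 ρbar) (pPrime p))) (σ : Gp p) : Matrix (Fin 2) (Fin 2) k :=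
  matOf b (cocVal ρbar c σ)

theorem Rm_apply (σ : Gp p) : Rm (p := p) b σ = matOf b (locRho ρbar σ) := rfl

theorem isCocM_Cm (c : cocycles₁ (locRep (ad0 ρbar) (pPrime p))) :
    IsCocM (Rm (p := p) b) (Cm b c) := by
  intro σ τ
  show matOf b (cocVal ρbar c (σ * τ)) = matOf b (cocVal ρbar c σ)
    + matOf b (rhoL ρbar p σ) * matOf b (cocVal ρbar c τ) * matOf b (rhoL ρbar p σ⁻¹)
  rw [cocVal_mul, matOf_add, matOf_mul, matOf_mul]

theorem Cm_trace (c : cocycles₁ (locRep (ad0 ρbar) (pPrime p))) (σ : Gp p) :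
    Cm b c σ 0 0 + Cm b c σ 1 1 = 0 := by
  have := trace_cocVal ρbar c σ
  rw [trace_matOf b] at this
  exact this

theorem Rm_eq_one_of {σ : Gp p} (h : locRho ρbar σ = 1) : Rm (p := p) b σ = 1 := by
  rw [Rm_apply, h, matOf_one]

theorem Cm_eq_zero_of {c : cocycles₁ (locRep (ad0 ρbar) (pPrime p))} {σ : Gp p}
    (h : cocVal ρbar c σ = 0) : Cm b c σ = 0 := by
  unfold Cm
  rw [h, matOf_zero]

/-- A cocycle which is a coboundary in matrix form has trivial class. -/
theorem H1π_eq_zero_of_cobM (c : cocycles₁ (locRep (ad0 ρbar) (pPrime p)))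
    (m : Matrix (Fin 2) (Fin 2) k) (hm : m 0 0 + m 1 1 = 0)
    (h : ∀ σ : Gp p, Cm b c σ = cobM (Rm (p := p) b) m σ) :
    (H1π (locRep (ad0 ρbar) (pPrime p))).hom c = 0 := by
  obtain ⟨m', rfl⟩ := matOf_surjective b m
  refine H1π_eq_zero_of_cob ρbar c m' (by rw [trace_matOf b]; exact hm) (fun σ => ?_)
  apply matOf_injective b
  rw [matOf_sub, matOf_mul, matOf_mul]
  exact h σ

end Fermat.Agent.S56.FL.H50.SS

end
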