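import Fermat.Agent.S56.FL.H50_CycloInertia
import Fermat.Agent.S56.FL.H57_CohDefs

set_option autoImplicit false

/-!
# LOC-p-FL, TAME leaf `Stmt_CycSurj` (helper57's statement): the cyclotomic character maps the
inertia group onto `𝔽_pˣ`.
-/

namespace Fermat.Agent.S56.FL.H50

open Fermat.Agent.S56.FL

theorem stmt_CycSurj : H57.Stmt_CycSurj := fun _ _ _ hn => exists_inertia_pow hn

end Fermat.Agent.S56.FL.H50
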