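import Fermat.Agent.S56.FL.H50_Wire
import Fermat.Agent.S56.FL.H50_CohSSFinal
import Fermat.Agent.S56.FL.H54_FLA
import Fermat.Agent.S56.FL.H54_FLB
import Fermat.Agent.S56.FL.H38_Ord
import Fermat.Agent.S56.FL.H15_CCZ

set_option autoImplicit false

/-!
# LOC-p-FL (item 69): assembly of everything that is proved

`Stmt_loc_p_Fl` from the statements that are still open: `Stmt_CC2z` (package UNITS, for COH-SS)
and `Stmt_COH_RED`.
-/

namespace Fermat.Agent.S56.FL.H50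

open Fermat.Agent.S56 Fermat.Agent.S56.FL

theorem stmt_FL_ord : Stmt_FL_ord := H38.stmt_FL_ord_of H54.stmt_FL_B

theorem stmt_loc_p_Fl_of_open (h2 : Stmt_CC2z) (hRED : Stmt_COH_RED) : Stmt_loc_p_Fl :=
  stmt_loc_p_Fl_of H54.stmt_FL_A stmt_FL_ord (stmt_COH_SS_of_CC2 (H15.stmt_CC2_of_z h2)) hRED

end Fermat.Agent.S56.FL.H50
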