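import Fermat.Agent.S56.FL.H50_TameChar
import Fermat.Agent.S56.FL.H57_CohDefs2
import Fermat.Agent.S56.FL.H38_TameFinal

set_option autoImplicit false

/-!
# LOC-p-FL, leaf TAME-CHARS of COH-RED (helper57's statement `H57.Stmt_TameChars`)
-/

noncomputable section

namespace Fermat.Agent.S56.FL.H50

open scoped NNReal
open Polynomial Module IntermediateField Fermat.Agent.S56.FL

variable {p : ℕ} [Fact p.Prime]

theorem isCycloAt_unique {k : Type} [Field k] [CharP k p] {x y : k} {σ : Gp p}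
    (hx : IsCycloAt x σ) (hy : IsCycloAt y σ) : x = y := by
  obtain ⟨ζ, h1, hζ⟩ := H15.exists_zeta (p := p)
  have hprim : IsPrimitiveRoot ζ p := by
    rw [IsPrimitiveRoot.iff_orderOf]
    exact orderOf_eq_prime hζ h1
  rw [(H85.isCycloAt_iff hprim x σ).mp hx, (H85.isCycloAt_iff hprim y σ).mp hy]

theorem isCycloAt_ne_zero {k : Type} [Field k] [CharP k p] {x : k} {σ : Gp p}
    (hx : IsCycloAt x σ) : x ≠ 0 := by
  obtain ⟨ζ, h1, hζ⟩ := H15.exists_zeta (p := p)
  have hprim : IsPrimitiveRoot ζ p := by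
    rw [IsPrimitiveRoot.iff_orderOf]
    exact orderOf_eq_prime hζ h1
  rw [(H85.isCycloAt_iff hprim x σ).mp hx]
  intro h
  have := (map_eq_zero (H85.cst p k)).mp h
  exact (H85.omg hprim σ).ne_zero this

theorem stmt_TameChars : H57.Stmt_TameChars := by
  intro p _ hp2 k _ _ χ₁ χ₂ L _ hN hL hcyc
  have hp : p.Prime := Fact.out
  obtain ⟨P, φ, s, hTA⟩ := exists_tameAt H38.stmt_Tame L hN
  have hχ₁P : ∀ w ∈ P, χ₁ w = 1 := fun w hw =>
    hTA.hom_eq_one χ₁ (fun x N h => unit_eq_one_of_pow_char_pow (p := p) h)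
      (fun σ hσ => (hL σ hσ).1) hw
  have hχ₂P : ∀ w ∈ P, χ₂ w = 1 := fun w hw =>
    hTA.hom_eq_one χ₂ (fun x N h => unit_eq_one_of_pow_char_pow (p := p) h)
      (fun σ hσ => (hL σ hσ).2) hw
  have hpow : ∀ ι : Gp p, ι ∈ inertiaP p → ∃ n : ℕ, χ₁ ι = χ₁ s ^ n ∧ χ₂ ι = χ₂ s ^ n := by
    intro ι hι
    obtain ⟨n, w, hw, rfl⟩ := hTA.tame ι hι
    exact ⟨n, by rw [map_mul, map_pow, hχ₁P w hw, mul_one],
      by rw [map_mul, map_pow, hχ₂P w hw, mul_one]⟩
  refine ⟨s, hTA.mem, hpow, ?_⟩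
  intro heq
  -- `χ₁ = χ₂` on inertia
  have h12 : ∀ ι ∈ inertiaP p, χ₁ ι = χ₂ ι := by
    intro ι hι
    obtain ⟨n, h1, h2⟩ := hpow ι hι
    rw [h1, h2, heq]
  obtain ⟨a, ha⟩ := tame_char H38.stmt_Tame χ₁ L hN (fun σ hσ => (hL σ hσ).1)
  -- an odd exponent killing `ω` on inertia
  have hodd : ∀ τ ∈ inertiaP p, ∀ x : k, IsCycloAt x τ → x ^ (2 * a + (p - 2)) = 1 := by
    intro τ hτ x hx
    have hx0 : x ≠ 0 := isCycloAt_ne_zero hx
    have h1 := hcyc τ hτ
    rw [← h12 τ hτ] at h1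
    have h2 : x = (χ₁ τ : k) * (χ₁ τ : k) := isCycloAt_unique hx h1
    have h3 := ha τ hτ x hx
    -- `x = x ^ (2 a)`
    have h4 : x = x ^ (2 * a) := by
      conv_lhs => rw [h2, h3]
      rw [← pow_add, two_mul]
    -- `x ^ (p - 1) = 1`
    have h5 : x ^ (p - 1) = 1 := by
      obtain ⟨ζ, hz1, hζ⟩ := H15.exists_zeta (p := p)
      have hprim : IsPrimitiveRoot ζ p := by
        rw [IsPrimitiveRoot.iff_orderOf]
        exact orderOf_eq_prime hζ hz1
      rw [(H85.isCycloAt_iff hprim x τ).mp hx, ← map_pow, ← Units.val_pow_eq_pow_val,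
        ZMod.units_pow_card_sub_one_eq_one, Units.val_one, map_one]
    have h6 : x ^ (2 * a + (p - 2)) * x = x := by
      rw [← pow_succ, show 2 * a + (p - 2) + 1 = 2 * a + (p - 1) by
        have := hp.two_le; omega, pow_add, h5, mul_one]
      exact h4.symm
    exact mul_right_cancel₀ hx0 (h6.trans (one_mul x).symm)
  have hdvd := omega_inertia_order (k := k) hodd
  -- parity
  have hp3 : 3 ≤ p := by
    have := hp.two_le
    omega
  have hpodd : p % 2 = 1 := by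
    rcases hp.eq_two_or_odd with h | h
    · exact absurd h hp2
    · exact h
  have h2 : (2 : ℕ) ∣ p - 1 := by omega
  have h3 := h2.trans hdvd
  omega

end Fermat.Agent.S56.FL.H50

end
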