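import Fermat.Agent.S56.FL.H57_CohRed
import Fermat.Agent.S56.FL.H38_CC0
import Fermat.Agent.S56.FL.H38_TameFinal
import Fermat.Agent.S56.FL.H50_TameChars

/-!
# LOC-p-FL, package COH (helper57): `Stmt_COH_RED` from `Stmt_CC1`, `Stmt_CC3`

The proved leaves `H38.stmt_CC0`, `H38.stmt_Tame`, `H50.stmt_TameChars` are plugged in.
-/

set_option autoImplicit false

noncomputable section

namespace Fermat.Agent.S56.FL.H57

open Fermat.Agent.S56.FL

/-- **COH-RED** from the two counts `CC1`, `CC3`. -/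
theorem stmt_COH_RED_of_CC (h1 : Stmt_CC1) (h3 : Stmt_CC3) : Stmt_COH_RED :=
  stmt_COH_RED_of H38.stmt_CC0 h1 h3 H38.stmt_Tame H50.stmt_TameChars

end Fermat.Agent.S56.FL.H57

end
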