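import Mathlib
import Fermat.Agent.S56.FL.H85_CCBase
import Fermat.Agent.Lib.LocalKummer.Resolvent

set_option autoImplicit false
set_option linter.style.haveILetI false
set_option linter.unusedSectionVars false

/-!
# LOC-p-FL, package UNITS / CC3z (helper59): Kummer witnesses

`H` a subgroup of `G = Gal(K̄/ℚ_p)`, `ψ : G → ℤ/p` (only the values on `H` matter), `ζ` a
primitive `p`-th root of unity.  `KW ζ H ψ a`: there is `γ ≠ 0` with `γ ^ p = a` and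
`h γ = ζ ^ ψ(h) · γ` for `h ∈ H`.

* `exists_KW`   : existence (Lagrange resolvent) for additive `ψ` trivial on `Gal(K̄/L)`.
* `KW.mul_pow`  : change of `a` by a `p`-th power of an `H`-fixed element.
* `KW.twist`    : `KW ψ a → KW (ω(g) ψ(g⁻¹ · g) - n ψ) (g a / a ^ n)`.
* `KW.eq_zero`  : `KW ψ (z ^ p)` with `z` fixed by `H` forces `ψ = 0` on `H`.
-/

noncomputable section

namespace Fermat.Agent.S56.FL.H59

open Fermat.Agent.S56.FL Fermat.Agent.Lib.LocalKummer Fermat.Agent.S56.FL.H85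

variable {p : ℕ} [Fact p.Prime]

theorem zpowZ_pow_nat {ζ : PadicAlgCl p} (hζ : ζ ^ p = 1) (x : ZMod p) (n : ℕ) :
    zpowZ ζ x ^ n = zpowZ ζ ((n : ZMod p) * x) := by
  induction n with
  | zero => rw [pow_zero, Nat.cast_zero, zero_mul, zpowZ_zero]
  | succ n ih =>
    rw [pow_succ, ih, ← zpowZ_add hζ, Nat.cast_succ, add_mul, one_mul]

theorem zpowZ_sub {ζ : PadicAlgCl p} (hζ : ζ ^ p = 1) (x y : ZMod p) :
    zpowZ ζ (x - y) = zpowZ ζ x / zpowZ ζ y := by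
  rw [eq_div_iff (zpowZ_ne_zero hζ y), ← zpowZ_add hζ, sub_add_cancel]

/-- `a` is a Kummer witness of `ψ` on `H`. -/
def KW (ζ : PadicAlgCl p) (H : Subgroup (Gp p)) (ψ : Gp p → ZMod p) (a : PadicAlgCl p) : Prop :=
  ∃ γ : PadicAlgCl p, γ ≠ 0 ∧ γ ^ p = a ∧ ∀ h ∈ H, h γ = zpowZ ζ (ψ h) * γ

namespace KW

variable {ζ : PadicAlgCl p} {H : Subgroup (Gp p)} {ψ ψ' : Gp p → ZMod p} {a : PadicAlgCl p}

theorem congr (h : ∀ σ ∈ H, ψ σ = ψ' σ) (hk : KW ζ H ψ a) : KW ζ H ψ' a := by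
  obtain ⟨γ, h0, hp, hγ⟩ := hk
  exact ⟨γ, h0, hp, fun σ hσ => by rw [← h σ hσ]; exact hγ σ hσ⟩

theorem ne_zero (hk : KW ζ H ψ a) : a ≠ 0 := by
  obtain ⟨γ, h0, rfl, -⟩ := hk
  exact pow_ne_zero _ h0

theorem fixed (hζ : ζ ^ p = 1) (hk : KW ζ H ψ a) : ∀ h ∈ H, h a = a := by
  obtain ⟨γ, h0, rfl, hγ⟩ := hk
  intro h hh
  rw [map_pow, hγ h hh, _root_.mul_pow, zpowZ_pow ζ hζ, one_mul]

theorem mul_pow {b : PadicAlgCl p} (hb0 : b ≠ 0) (hb : ∀ h ∈ H, h b = b) (hk : KW ζ H ψ a) :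
    KW ζ H ψ (a * b ^ p) := by
  obtain ⟨γ, h0, rfl, hγ⟩ := hk
  refine ⟨γ * b, mul_ne_zero h0 hb0, _root_.mul_pow _ _ _, fun h hh => ?_⟩
  rw [map_mul, hγ h hh, hb h hh, mul_assoc]

theorem twist (hζ : IsPrimitiveRoot ζ p) (g : Gp p) (hg : ∀ h ∈ H, g⁻¹ * h * g ∈ H) (n : ℕ)
    (hk : KW ζ H ψ a) :
    KW ζ H (fun h => ((omg hζ g : (ZMod p)ˣ) : ZMod p) * ψ (g⁻¹ * h * g) - (n : ZMod p) * ψ h)
      (g a / a ^ n) := by
  obtain ⟨γ, h0, rfl, hγ⟩ := hk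
  have hg0 : g γ ≠ 0 := by
    intro h
    exact h0 ((map_eq_zero_iff g g.injective).1 h)
  refine ⟨g γ / γ ^ n, div_ne_zero hg0 (pow_ne_zero _ h0), ?_, fun h hh => ?_⟩
  · rw [div_pow, ← map_pow, ← pow_mul, ← pow_mul, mul_comm n p]
  · have h1 : h (g γ) = g ((g⁻¹ * h * g) γ) := by
      simp only [AlgEquiv.mul_apply]
      have : g (g⁻¹ (h (g γ))) = h (g γ) := by
        rw [← AlgEquiv.mul_apply, mul_inv_cancel, AlgEquiv.one_apply]
      exact this.symm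
    rw [map_div₀, map_pow, hγ h hh, h1, hγ _ (hg h hh), map_mul, omg_zpowZ hζ,
      _root_.mul_pow, zpowZ_pow_nat hζ.pow_eq_one, zpowZ_sub hζ.pow_eq_one]
    have hz : zpowZ ζ ((n : ZMod p) * ψ h) ≠ 0 := zpowZ_ne_zero hζ.pow_eq_one _
    have hγn : γ ^ n ≠ 0 := pow_ne_zero _ h0
    field_simp

theorem eq_zero (hζ : IsPrimitiveRoot ζ p) (hHζ : ∀ h ∈ H, h ζ = ζ) {z : PadicAlgCl p}
    (hz : ∀ h ∈ H, h z = z) (hk : KW ζ H ψ (z ^ p)) : ∀ h ∈ H, ψ h = 0 := by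
  have hp : p.Prime := Fact.out
  obtain ⟨γ, h0, hγp, hγ⟩ := hk
  have hz0 : z ≠ 0 := by
    rintro rfl
    rw [zero_pow hp.ne_zero] at hγp
    exact h0 (pow_eq_zero_iff hp.ne_zero |>.1 hγp)
  have h1 : (γ / z) ^ p = 1 := by
    rw [div_pow, hγp, div_self (pow_ne_zero _ hz0)]
  obtain ⟨i, -, hi⟩ := hζ.eq_pow_of_pow_eq_one h1
  have hγz : γ = ζ ^ i * z := by
    rw [hi]
    field_simp
  intro h hh
  have h2 : h γ = γ := by
    rw [hγz, map_mul, map_pow, hHζ h hh, hz h hh]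
  have h3 := hγ h hh
  rw [h2] at h3
  have h4 : zpowZ ζ (ψ h) = 1 := by
    have h5 : zpowZ ζ (ψ h) * γ = 1 * γ := by rw [← h3, one_mul]
    exact mul_right_cancel₀ h0 h5
  exact (zpowZ_eq_one_iff hζ _).1 h4

end KW

/-- Existence of Kummer witnesses (Lagrange resolvent). -/
theorem exists_KW {ζ : PadicAlgCl p} (hζ : IsPrimitiveRoot ζ p)
    (L : IntermediateField ℚ_[p] (PadicAlgCl p)) [FiniteDimensional ℚ_[p] L]
    (H : Subgroup (Gp p)) (hUH : L.fixingSubgroup ≤ H) (hHζ : ∀ h ∈ H, h ζ = ζ)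
    (ψ : Gp p → ZMod p) (hadd : ∀ h ∈ H, ∀ h' ∈ H, ψ (h * h') = ψ h + ψ h')
    (hU : ∀ u ∈ L.fixingSubgroup, ψ u = 0) :
    ∃ γ : PadicAlgCl p, γ ≠ 0 ∧ γ ∈ L ∧ ∀ h ∈ H, h γ = zpowZ ζ (ψ h) * γ := by
  haveI : Finite (Gp p ⧸ L.fixingSubgroup) := finite_quotient_of_le (le_refl _)
  haveI : L.fixingSubgroup.FiniteIndex := Subgroup.finiteIndex_of_finite_quotient
  haveI : (L.fixingSubgroup.subgroupOf H).FiniteIndex := inferInstance
  haveI : Finite (↥H ⧸ L.fixingSubgroup.subgroupOf H) :=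
    Subgroup.finite_quotient_of_finiteIndex
  have hstab : ∀ g : ↥H, (∀ x : L, g • ((L.val : L →ₐ[ℚ_[p]] PadicAlgCl p) : L →* PadicAlgCl p) x
      = ((L.val : L →ₐ[ℚ_[p]] PadicAlgCl p) : L →* PadicAlgCl p) x) →
      g ∈ L.fixingSubgroup.subgroupOf H := by
    intro g hg
    rw [Subgroup.mem_subgroupOf, IntermediateField.mem_fixingSubgroup_iff]
    intro x hx
    exact hg ⟨x, hx⟩
  have hstab' : ∀ u ∈ L.fixingSubgroup.subgroupOf H, ∀ x : L,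
      u • ((L.val : L →ₐ[ℚ_[p]] PadicAlgCl p) : L →* PadicAlgCl p) x
        = ((L.val : L →ₐ[ℚ_[p]] PadicAlgCl p) : L →* PadicAlgCl p) x := by
    intro u hu x
    rw [Subgroup.mem_subgroupOf, IntermediateField.mem_fixingSubgroup_iff] at hu
    exact hu x x.2
  obtain ⟨γ, h0, hγ⟩ := exists_resolvent (G := ↥H) (F := L) ζ hζ.pow_eq_one
    (fun g => hHζ g g.2) (fun g => ψ g) (fun g h => hadd g g.2 h h.2)
    (L.fixingSubgroup.subgroupOf H) (fun u hu => hU u hu)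
    ((L.val : L →ₐ[ℚ_[p]] PadicAlgCl p) : L →* PadicAlgCl p) hstab hstab'
  refine ⟨γ, h0, ?_, fun h hh => hγ ⟨h, hh⟩⟩
  apply mem_of_fixed_of_le (le_refl L.fixingSubgroup)
  intro s hs
  have := hγ ⟨s, hUH hs⟩
  simp only at this
  rw [hU s hs, zpowZ_zero, one_mul] at this
  exact this

end Fermat.Agent.S56.FL.H59

end
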