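import Mathlib
import Fermat.Agent.S56.FL.H59_CC3Defs
import Fermat.Agent.S56.FL.H59_CC3Kum
import Fermat.Agent.S56.FL.H85_CCKumCore
import Fermat.Agent.S56.FL.H50_TameChar
import Fermat.Agent.S56.FL.H38_TameFinal

set_option autoImplicit false
set_option linter.style.haveILetI false
set_option linter.unusedSectionVars false

/-!
# LOC-p-FL, package UNITS / CC3z (helper59): assembly

`Stmt_CC3z` from the leaves `Stmt_LevC`, `Stmt_LevD`, `Stmt_HenselF` of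
`FL/H59_CC3Defs.lean`, `H85.kumbdd_core` (KUMBDD), `H50.tame_char_omg` (TAME-CHAR) and the Kummer
witnesses of `FL/H59_CC3Kum.lean`.

`H = ker χ ∩ ker ω`, `K' = K̄^H`.  For an `𝔽_p`-linear `λ : k → 𝔽_p`, `ψ = λ ∘ c` is an additive
character of `H` with Kummer witness `a ∈ K'`, `a ≡ 1 mod p` (KUMBDD).  For `g` in inertia,
`ψ(g⁻¹ h g) = ω(g)^{-a} ψ(h)` (`χ = ω^a` on inertia).  Twisting by `σ_B` (`χ ≠ ω`) pushes the
witness into `U^{(p)}`, twisting by `σ_A` (`χ ≠ 1`) into `U^{(p+1)} ⊆ (K'ˣ)^p`; so a nonzero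
multiple of `ψ` vanishes.  Hence `c = 0` on `H`, and `c` is a coboundary.
-/

noncomputable section

namespace Fermat.Agent.S56.FL.H59

open Fermat.Agent.S56.FL Fermat.Agent.Lib.LocalKummer Fermat.Agent.S56.FL.H85

variable {p : ℕ} [Fact p.Prime]

section cocycle

variable {k : Type} [Field k] (χ : Gp p →* kˣ) (c : Gp p → k)

theorem coc_one (hcoc : ∀ σ τ, c (σ * τ) = c σ + (χ σ : k) * c τ) : c 1 = 0 := by
  have h := hcoc 1 1
  rw [mul_one, map_one, Units.val_one, one_mul] at h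
  linear_combination -h

theorem coc_conj (hcoc : ∀ σ τ, c (σ * τ) = c σ + (χ σ : k) * c τ) (g h : Gp p)
    (hh : χ h = 1) : c (g⁻¹ * h * g) = (((χ g)⁻¹ : kˣ) : k) * c h := by
  have h1 := hcoc (g⁻¹ * h) g
  have h2 := hcoc g⁻¹ h
  have h3 := hcoc g⁻¹ g
  rw [inv_mul_cancel, coc_one χ c hcoc, map_inv] at h3
  rw [h1, h2, map_mul, hh, mul_one, map_inv]
  linear_combination -h3

theorem coboundary_of_vanish_comm (hcoc : ∀ σ τ, c (σ * τ) = c σ + (χ σ : k) * c τ)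
    (H : Subgroup (Gp p)) (hcomm : ∀ σ τ : Gp p, (τ * σ)⁻¹ * (σ * τ) ∈ H)
    (hvan : ∀ h ∈ H, c h = 0) {σA : Gp p} (hσA : χ σA ≠ 1) :
    ∃ a : k, ∀ σ, c σ = ((χ σ : k) - 1) * a := by
  have hne : (χ σA : k) - 1 ≠ 0 := by
    intro h
    apply hσA
    apply Units.ext
    rw [Units.val_one]
    exact sub_eq_zero.1 h
  refine ⟨c σA / ((χ σA : k) - 1), fun σ => ?_⟩
  have h1 := hcoc σ σA
  have h2 := hcoc σA σ
  have h3 : c (σ * σA) = c (σA * σ) := by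
    have : σ * σA = (σA * σ) * ((σA * σ)⁻¹ * (σ * σA)) := by group
    rw [this, hcoc, hvan _ (hcomm σ σA), mul_zero, add_zero]
  rw [h1, h2] at h3
  field_simp
  linear_combination -h3

end cocycle

/-- **CC3z**, for characters and cocycles on `Gal(K̄/ℚ_p)`. -/
theorem cc3_core (hC : Stmt_LevC) (hD : Stmt_LevD) (hH : Stmt_HenselF) (hp2 : p ≠ 2)
    {k : Type} [Field k] [Finite k] [CharP k p] (χ : Gp p →* kˣ) (c : Gp p → k)
    (hcoc : ∀ σ τ, c (σ * τ) = c σ + (χ σ : k) * c τ)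
    (L : IntermediateField ℚ_[p] (PadicAlgCl p)) [FiniteDimensional ℚ_[p] L]
    (hN : Normal ℚ_[p] L) (hbdd : IsBddField p L)
    (hμ : ∀ ζ : PadicAlgCl p, ζ ^ p = 1 → ζ ∈ L)
    (htriv : ∀ σ ∈ L.fixingSubgroup, χ σ = 1 ∧ c σ = 0)
    {σA : Gp p} (hAI : σA ∈ inertiaP p) (hA : χ σA ≠ 1)
    {σB : Gp p} (hBI : σB ∈ inertiaP p) (hB : ¬ IsCycloAt (χ σB : k) σB) :
    ∃ a : k, ∀ σ, c σ = ((χ σ : k) - 1) * a := by
  classical
  have hp : p.Prime := Fact.out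
  obtain ⟨ζ, hζ1, hζp⟩ := H15.exists_zeta (p := p)
  have hζ : IsPrimitiveRoot ζ p := by
    rw [IsPrimitiveRoot.iff_orderOf]
    exact orderOf_eq_prime hζp hζ1
  obtain ⟨a, ha⟩ := H50.tame_char_omg H38.stmt_Tame hζ χ L hN (fun σ hσ => (htriv σ hσ).1)
  -- the subgroup `H`
  set H : Subgroup (Gp p) := χ.ker ⊓ (omg hζ).ker with hHdef
  have hmemH : ∀ h, h ∈ H ↔ χ h = 1 ∧ omg hζ h = 1 := fun h => by
    rw [hHdef, Subgroup.mem_inf, MonoidHom.mem_ker, MonoidHom.mem_ker]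
  have hHζ : ∀ h ∈ H, h ζ = ζ := fun h hh => (omg_eq_one_iff hζ h).1 ((hmemH h).1 hh).2
  have hUH : L.fixingSubgroup ≤ H := by
    intro u hu
    rw [hmemH]
    refine ⟨(htriv u hu).1, (omg_eq_one_iff hζ u).2 ?_⟩
    exact (IntermediateField.mem_fixingSubgroup_iff L u).1 hu ζ (hμ ζ hζ.pow_eq_one)
  have hconj : ∀ g : Gp p, ∀ h ∈ H, g⁻¹ * h * g ∈ H := by
    intro g h hh
    rw [hmemH] at hh ⊢
    constructor
    · rw [map_mul, map_mul, hh.1, mul_one, map_inv, inv_mul_cancel]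
    · rw [map_mul, map_mul, hh.2, mul_one, map_inv, inv_mul_cancel]
  have hcomm : ∀ σ τ : Gp p, (τ * σ)⁻¹ * (σ * τ) ∈ H := by
    intro σ τ
    rw [hmemH]
    constructor
    · rw [map_mul, map_inv, map_mul, map_mul, mul_comm (χ τ) (χ σ), inv_mul_cancel]
    · rw [map_mul, map_inv, map_mul, map_mul, mul_comm (omg hζ τ) (omg hζ σ), inv_mul_cancel]
  -- reduce to vanishing on `H`
  suffices hvan : ∀ h ∈ H, c h = 0 from coboundary_of_vanish_comm χ c hcoc H hcomm hvan hA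
  -- the field `K'`
  set K' : IntermediateField ℚ_[p] (PadicAlgCl p) := IntermediateField.fixedField H with hK'
  have hmemK : ∀ x, x ∈ K' ↔ ∀ h ∈ H, h x = x := fun x =>
    IntermediateField.mem_fixedField_iff H x
  have hK'L : K' ≤ L := fun x hx => mem_of_fixed_of_le hUH ((hmemK x).1 hx)
  haveI : FiniteDimensional ℚ_[p] K' :=
    Module.Finite.of_injective (IntermediateField.inclusion hK'L).toLinearMap
      (IntermediateField.inclusion hK'L).injective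
  have hζK : ζ ∈ K' := (hmemK ζ).2 hHζ
  -- the units `w g = ω(g)`
  set w : Gp p → ZMod p := fun g => ((omg hζ g : (ZMod p)ˣ) : ZMod p) with hw
  have hw0 : ∀ g, w g ≠ 0 := fun g => Units.ne_zero _
  have hχ : ∀ g ∈ inertiaP p, (χ g : k) = cst p k (w g ^ a) := by
    intro g hg
    rw [ha g hg, map_pow]
  -- elements of `K'` are in `S`
  have hInS : ∀ x ∈ K', InS p x := by
    intro x hx τ hτ hτζ
    apply (hmemK x).1 hx
    rw [hmemH]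
    have hω1 : omg hζ τ = 1 := (omg_eq_one_iff hζ τ).2 (hτζ ζ hζ.pow_eq_one)
    refine ⟨?_, hω1⟩
    apply Units.ext
    rw [hχ τ hτ, hw]
    simp only
    rw [hω1, Units.val_one, one_pow, map_one, Units.val_one]
  letI : Algebra (ZMod p) k := ZMod.algebra k p
  have hχinv : ∀ g ∈ inertiaP p, (((χ g)⁻¹ : kˣ) : k) = cst p k ((w g ^ a)⁻¹) := by
    intro g hg
    rw [Units.val_inv_eq_inv_val, hχ g hg, map_inv₀]
  intro h hh
  rw [← Module.forall_dual_apply_eq_zero_iff (ZMod p) (c h)]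
  intro lam
  -- the character `ψ`
  set ψ : Gp p → ZMod p := fun σ => lam (c σ) with hψ
  have hadd : ∀ h ∈ H, ∀ h' ∈ H, ψ (h * h') = ψ h + ψ h' := by
    intro h hh h' hh'
    simp only [hψ]
    rw [hcoc, ((hmemH h).1 hh).1, Units.val_one, one_mul, map_add]
  have hU : ∀ u ∈ L.fixingSubgroup, ψ u = 0 := by
    intro u hu
    simp only [hψ]
    rw [(htriv u hu).2, map_zero]
  have hψconj : ∀ g ∈ inertiaP p, ∀ h ∈ H, ψ (g⁻¹ * h * g) = (w g ^ a)⁻¹ * ψ h := by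
    intro g hg h hh
    simp only [hψ]
    rw [coc_conj χ c hcoc g h ((hmemH h).1 hh).1, hχinv g hg]
    have h1 : cst p k ((w g ^ a)⁻¹) * c h = ((w g ^ a)⁻¹ : ZMod p) • c h :=
      (Algebra.smul_def _ _).symm
    rw [h1, map_smul, smul_eq_mul]
  -- the Kummer witness
  obtain ⟨γ, hγ0, hγL, hγ⟩ := exists_KW hζ L H hUH hHζ ψ hadd hU
  have hkw0 : KW ζ H ψ (γ ^ p) := ⟨γ, hγ0, rfl, hγ⟩
  have ha0K : γ ^ p ∈ K' := (hmemK _).2 (hkw0.fixed hζ.pow_eq_one)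
  obtain ⟨b, hbK, hb0, hb⟩ := kumbdd_core L K' hN hK'L hbdd
    ⟨ζ, hζK, hζ1, hζp⟩ (γ ^ p) ha0K hkw0.ne_zero ⟨γ, hγL, rfl⟩
  have hkw1 : KW ζ H ψ (γ ^ p * b ^ p) := hkw0.mul_pow hb0 ((hmemK b).1 hbK)
  set a₁ : PadicAlgCl p := γ ^ p * b ^ p with ha₁
  have ha₁K : a₁ ∈ K' := (hmemK _).2 (hkw1.fixed hζ.pow_eq_one)
  -- Step C: twist by `σB`
  have hkw2 := hkw1.twist hζ σB (hconj σB) 1
  set κB : ZMod p := w σB * (w σB ^ a)⁻¹ - 1 with hκB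
  have hkw2' : KW ζ H (fun h => κB * ψ h) (σB a₁ / a₁) := by
    have h1 := hkw2.congr (ψ' := fun h => κB * ψ h) (fun h hh => by
      rw [hψconj σB hBI h hh, Nat.cast_one, one_mul, hκB]
      ring)
    rwa [pow_one] at h1
  have hnC : ‖σB a₁ / a₁ - 1‖ ^ (p - 1) ≤ ((p : ℝ)⁻¹) ^ p :=
    hC p a₁ (hInS a₁ ha₁K) hb σB hBI
  set a₂ : PadicAlgCl p := σB a₁ / a₁ with ha₂
  have ha₂K : a₂ ∈ K' := (hmemK _).2 (hkw2'.fixed hζ.pow_eq_one)
  -- Step D: twist by `σA`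
  set n : ℕ := (w σA).val with hn
  have hnζ : ∀ ξ : PadicAlgCl p, ξ ^ p = 1 → σA ξ = ξ ^ n := fun ξ hξ => omg_spec' hζ σA hξ
  have hkw3 := hkw2'.twist hζ σA (hconj σA) n
  set κA : ZMod p := w σA * (w σA ^ a)⁻¹ - w σA with hκA
  have hkw3' : KW ζ H (fun h => κA * κB * ψ h) (σA a₂ / a₂ ^ n) :=
    hkw3.congr (fun h hh => by
      rw [hψconj σA hAI h hh, hn, ZMod.natCast_zmod_val, hκA]
      ring)
  have hnD : ‖σA a₂ / a₂ ^ n - 1‖ ^ (p - 1) ≤ ((p : ℝ)⁻¹) ^ (p + 1) :=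
    hD p hp2 a₂ (hInS a₂ ha₂K) hnC σA hAI n hnζ
  set a₃ : PadicAlgCl p := σA a₂ / a₂ ^ n with ha₃
  have ha₃K : a₃ ∈ K' := (hmemK _).2 (hkw3'.fixed hζ.pow_eq_one)
  have hlt : ‖a₃ - 1‖ ^ (p - 1) < ((p : ℝ)⁻¹) ^ p := by
    refine lt_of_le_of_lt hnD ?_
    have hpos : 0 < ((p : ℝ)⁻¹) ^ p := by
      have : (0 : ℝ) < (p : ℝ)⁻¹ := inv_pos.mpr (by exact_mod_cast hp.pos)
      positivity
    have h1 : (p : ℝ)⁻¹ < 1 := inv_lt_one_of_one_lt₀ (by exact_mod_cast hp.one_lt)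
    rw [pow_succ]
    calc ((p : ℝ)⁻¹) ^ p * (p : ℝ)⁻¹ < ((p : ℝ)⁻¹) ^ p * 1 :=
          mul_lt_mul_of_pos_left h1 hpos
      _ = ((p : ℝ)⁻¹) ^ p := mul_one _
  obtain ⟨z, hzK, hz⟩ := hH p K' (a₃ - 1) (K'.sub_mem ha₃K K'.one_mem) hlt
  have hz' : (1 + z) ^ p = a₃ := by rw [hz]; ring
  have hfix1z : ∀ h ∈ H, h (1 + z) = 1 + z := (hmemK _).1 (K'.add_mem K'.one_mem hzK)
  rw [← hz'] at hkw3'
  have hzero := hkw3'.eq_zero hζ hHζ hfix1z h hh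
  -- the constants are nonzero
  have hκB0 : κB ≠ 0 := by
    intro h0
    apply hB
    rw [isCycloAt_iff hζ, hχ σB hBI]
    congr 1
    have hwa : w σB ^ a ≠ 0 := pow_ne_zero _ (hw0 σB)
    have h1 : w σB * (w σB ^ a)⁻¹ = 1 := sub_eq_zero.1 h0
    field_simp at h1
    exact h1.symm
  have hκA0 : κA ≠ 0 := by
    intro h0
    apply hA
    apply Units.ext
    rw [hχ σA hAI, Units.val_one]
    have hwa : w σA ^ a ≠ 0 := pow_ne_zero _ (hw0 σA)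
    have h1 : w σA * ((w σA ^ a)⁻¹ - 1) = 0 := by rw [mul_sub, mul_one]; exact h0
    have h2 : (w σA ^ a)⁻¹ - 1 = 0 := (mul_eq_zero.1 h1).resolve_left (hw0 σA)
    have h3 : (w σA ^ a)⁻¹ = 1 := sub_eq_zero.1 h2
    have h4 : w σA ^ a = 1 := inv_eq_one.1 h3
    rw [h4, map_one]
  rcases mul_eq_zero.1 hzero with h1 | h1
  · exact absurd h1 (mul_ne_zero hκA0 hκB0)
  · exact h1

/-- **CC3z** from its leaves. -/
theorem stmt_CC3z_of (hC : Stmt_LevC) (hD : Stmt_LevD) (hH : Stmt_HenselF) : Stmt_CC3z := by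
  intro p _ hp2 k _ _ _ χ hA hB c hc
  obtain ⟨⟨σA, hσA⟩, hAI, hA⟩ := hA
  obtain ⟨⟨σB, hσB⟩, hBI, hB⟩ := hB
  obtain ⟨hcoc, L, hfd, hN, hbdd, hμ, htriv⟩ := hc
  haveI := hfd
  set χ' : Gp p →* kˣ := χ.comp (Subgroup.topEquiv.symm : Gp p ≃* (⊤ : Subgroup (Gp p))).toMonoidHom
    with hχ'
  set c' : Gp p → k := fun σ => c ⟨σ, Subgroup.mem_top σ⟩ with hc'
  obtain ⟨a, ha⟩ := cc3_core hC hD hH hp2 χ' c'
    (fun σ τ => hcoc ⟨σ, Subgroup.mem_top σ⟩ ⟨τ, Subgroup.mem_top τ⟩) L hN hbdd hμ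
    (fun σ hσ => htriv ⟨σ, Subgroup.mem_top σ⟩ hσ) (σA := σA) hAI hA (σB := σB) hBI hB
  exact ⟨a, fun σ => ha σ.1⟩

end Fermat.Agent.S56.FL.H59

end
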