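import Mathlib
import Fermat.Agent.S56.FL.H59_CC3
import Fermat.Agent.S56.FL.H38_CC3Lev
import Fermat.Agent.S56.FL.H41_HenselF

set_option autoImplicit false

/-!
# LOC-p-FL, package UNITS: `Stmt_CC3z`, unconditionally (helper59 + helper38 + helper41)
-/

noncomputable section

namespace Fermat.Agent.S56.FL.H59

open Fermat.Agent.S56.FL

/-- **CC3z.** -/
theorem stmt_CC3z : Stmt_CC3z :=
  stmt_CC3z_of H38.stmt_LevC H38.stmt_LevD H41.stmt_HenselF

end Fermat.Agent.S56.FL.H59

end
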