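import Fermat.Agent.S56.FL.H85_CC1
import Fermat.Agent.S56.FL.H38_CC1Leaves
import Fermat.Agent.S56.FL.H15_CCZ

set_option autoImplicit false

/-!
# LOC-p-FL, package UNITS (helper85): `CC1z` and `CC1`, unconditional

`stmt_CC1z : Stmt_CC1z` from `stmt_CC1z_of` (helper85) and the leaves `NormDesc`, `ResFix`
(helper38); `stmt_CC1 : Stmt_CC1` by helper15's `stmt_CC1_of_z`.
-/

namespace Fermat.Agent.S56.FL.H85

open Fermat.Agent.S56.FL

/-- **CC1z.** -/
theorem stmt_CC1z : Stmt_CC1z := stmt_CC1z_of H38.stmt_NormDesc H38.stmt_ResFix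

/-- **CC1.** -/
theorem stmt_CC1 : Stmt_CC1 := H15.stmt_CC1_of_z stmt_CC1z

end Fermat.Agent.S56.FL.H85
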