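import Fermat.Agent.S56.FL.H50_Final0
import Fermat.Agent.S56.FL.H57_CohRedFinal
import Fermat.Agent.S56.FL.H85_CC1Final
import Fermat.Agent.S56.FL.H59_CC3Final
import Fermat.Agent.S56.FL.H59_CC2Asm

set_option autoImplicit false

/-!
# LOC-p-FL (item 69): assembly, second stage

* `stmt_COH_RED : Stmt_COH_RED`, unconditional (helper57's `stmt_COH_RED_of_CC`, helper85's `CC1`,
  helper59's `CC3z`);
* `stmt_loc_p_Fl_of_core : H15.Stmt_CC2core → Stmt_loc_p_Fl` — the only statement of LOC-p-FL that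
  is still open is `H15.Stmt_CC2core`.
-/

namespace Fermat.Agent.S56.FL.H50

open Fermat.Agent.S56 Fermat.Agent.S56.FL

/-- **COH-RED**, unconditional. -/
theorem stmt_COH_RED : Stmt_COH_RED :=
  H57.stmt_COH_RED_of_CC H85.stmt_CC1 (H15.stmt_CC3_of_z H59.stmt_CC3z)

/-- **LOC-p-FL** from the core of `CC2`. -/
theorem stmt_loc_p_Fl_of_core (h : H15.Stmt_CC2core) : Stmt_loc_p_Fl :=
  stmt_loc_p_Fl_of_open (H59.stmt_CC2z_of_core h) stmt_COH_RED

end Fermat.Agent.S56.FL.H50
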