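import Fermat.Agent.S56.FL.H54_PMLift

set_option autoImplicit false

/-!
# LOC-p-FL, package PM (helper50), part a: `ℤ_(p)` is local, ring homomorphisms out of `ℤ_(p)`,
points with values in `𝒪_L`, post-composition of points.
-/

noncomputable section

namespace Fermat.Agent.S56.FL.H50

open scoped NNReal TensorProduct
open Fermat.Agent.S56.FL WithConv

variable {p : ℕ} [Fact p.Prime]

/-! ### `ℤ_(p)` is a local ring -/

theorem mem_Zloc {q : ℚ} : q ∈ Zloc p ↔ q.den.Coprime p := Iff.rfl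

theorem not_dvd_den_Zloc (a : Zloc p) : ¬ p ∣ (a : ℚ).den := by
  have hp : p.Prime := Fact.out
  have := a.2
  rw [mem_Zloc, Nat.coprime_comm, Nat.Prime.coprime_iff_not_dvd hp] at this
  exact this

theorem inv_mem_Zloc_of_not_dvd_num {a : ℚ} (h : ¬ (p : ℤ) ∣ a.num) : a⁻¹ ∈ Zloc p := by
  have hp : p.Prime := Fact.out
  have ha0 : a ≠ 0 := by
    intro h0
    apply h
    rw [h0]; simp
  rw [mem_Zloc, Rat.den_inv_of_ne_zero ha0]
  rw [Nat.coprime_comm, Nat.Prime.coprime_iff_not_dvd hp]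
  intro hd
  exact h (Int.natCast_dvd.2 hd)

theorem isUnit_Zloc_of_not_dvd_num (a : Zloc p) (h : ¬ (p : ℤ) ∣ (a : ℚ).num) : IsUnit a := by
  have ha0 : (a : ℚ) ≠ 0 := by
    intro h0
    apply h
    rw [h0]; simp
  refine IsUnit.of_mul_eq_one (⟨_, inv_mem_Zloc_of_not_dvd_num h⟩ : Zloc p) (Subtype.ext ?_)
  simp [mul_inv_cancel₀ ha0]

theorem padic_norm_Zloc_le_one (a : Zloc p) : ‖((a : ℚ) : ℚ_[p])‖ ≤ 1 :=
  Padic.norm_rat_le_one (not_dvd_den_Zloc a)

theorem isUnit_Zloc_of_norm_eq_one (a : Zloc p) (h : ‖((a : ℚ) : ℚ_[p])‖ = 1) : IsUnit a := by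
  apply isUnit_Zloc_of_not_dvd_num
  intro hd
  have h1 : ((a : ℚ) : ℚ_[p]) = ((a : ℚ).num : ℚ_[p]) / ((a : ℚ).den : ℚ_[p]) := Rat.cast_def _
  have h2 : ‖(((a : ℚ).den : ℕ) : ℚ_[p])‖ = 1 := by
    have h3 : ‖(((a : ℚ).den : ℤ) : ℚ_[p])‖ ≤ 1 := Padic.norm_int_le_one _
    have h4 : ¬ ‖(((a : ℚ).den : ℤ) : ℚ_[p])‖ < 1 := by
      rw [Padic.norm_intCast_lt_one_iff]
      intro hd'
      exact not_dvd_den_Zloc a (Int.natCast_dvd_natCast.1 hd')
    have h5 := le_antisymm h3 (not_lt.1 h4)
    simpa using h5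
  have h6 : ‖((a : ℚ).num : ℚ_[p])‖ < 1 := Padic.norm_intCast_lt_one_iff.2 hd
  rw [h1, norm_div, h2, div_one] at h
  rw [h] at h6
  exact lt_irrefl _ h6

instance isLocalRing_Zloc : IsLocalRing (Zloc p) := by
  refine IsLocalRing.of_isUnit_or_isUnit_one_sub_self fun a => ?_
  by_cases h : ‖((a : ℚ) : ℚ_[p])‖ = 1
  · left; exact isUnit_Zloc_of_norm_eq_one a h
  · right
    apply isUnit_Zloc_of_norm_eq_one
    have hlt : ‖((a : ℚ) : ℚ_[p])‖ < 1 := lt_of_le_of_ne (padic_norm_Zloc_le_one a) h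
    have hq : (((1 - a : Zloc p) : ℚ) : ℚ_[p]) = 1 - ((a : ℚ) : ℚ_[p]) := by
      push_cast; rfl
    rw [hq]
    have h1 : ‖(1 : ℚ_[p])‖ = 1 := norm_one
    have h2 : ‖(1 : ℚ_[p]) + (-((a : ℚ) : ℚ_[p]))‖
        = max ‖(1 : ℚ_[p])‖ ‖(-((a : ℚ) : ℚ_[p]))‖ := by
      apply Padic.add_eq_max_of_ne
      rw [h1, norm_neg]; exact (ne_of_lt hlt).symm
    rw [sub_eq_add_neg, h2, h1, norm_neg, max_eq_left hlt.le]

/-! ### Ring homomorphisms out of `ℤ_(p)` are unique -/

theorem ringHom_Zloc_ext {S : Type} [Ring S] (f g : Zloc p →+* S) : f = g := by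
  ext a
  -- `a * den = num` in `ℤ_(p)`, and `den` is a unit
  set d : Zloc p := ((a : ℚ).den : Zloc p) with hd
  set n : Zloc p := ((a : ℚ).num : Zloc p) with hn
  have hdu : IsUnit d := by
    apply isUnit_Zloc_of_not_dvd_num
    have : ((d : Zloc p) : ℚ) = ((a : ℚ).den : ℚ) := by simp [hd]
    rw [this]
    intro hdvd
    have h1 : ((((a : ℚ).den : ℕ) : ℚ)).num = ((a : ℚ).den : ℤ) := Rat.num_natCast _
    rw [h1] at hdvd
    exact not_dvd_den_Zloc a (Int.natCast_dvd_natCast.1 hdvd)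
  have hmul : a * d = n := by
    apply Subtype.ext
    simp only [hd, hn, Subring.coe_mul, Subring.coe_natCast, Subring.coe_intCast]
    exact Rat.mul_den_eq_num _
  have hfd : f d = g d := by simp [hd]
  have hfn : f n = g n := by simp [hn]
  have h1 : f a * f d = g a * f d := by
    rw [← map_mul, hmul, hfn, ← hmul, map_mul, hfd]
  exact (hdu.map f).mul_right_cancel h1

/-! ### Post-composition of points with an algebra homomorphism -/

section PostAlg

variable {R : Type} [CommRing R]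
variable {A B : Type} [CommRing A] [Algebra R A] [CommRing B] [Algebra R B]
variable {H : Type} [CommRing H] [Bialgebra R H]

/-- Post-composition with an algebra homomorphism, as a homomorphism of convolution monoids of
points. -/
def postAlg (φ : A →ₐ[R] B) : WithConv (H →ₐ[R] A) →* WithConv (H →ₐ[R] B) where
  toFun x := toConv (φ.comp x.ofConv)
  map_one' := by
    apply WithConv.ofConv_injective
    apply AlgHom.ext
    intro h
    simp [AlgHom.convOne_apply]
  map_mul' x y := by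
    apply WithConv.ofConv_injective
    exact AlgHom.comp_convMul_distrib φ x y

@[simp] theorem postAlg_apply (φ : A →ₐ[R] B) (x : WithConv (H →ₐ[R] A)) (h : H) :
    (postAlg φ x).ofConv h = φ (x.ofConv h) := rfl

theorem postAlg_injective (φ : A →ₐ[R] B) (hφ : Function.Injective φ) :
    Function.Injective (postAlg (H := H) φ) := by
  intro x y hxy
  apply WithConv.ofConv_injective
  apply AlgHom.ext
  intro h
  apply hφ
  have := congrArg (fun z => z.ofConv h) hxy
  simpa using this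

end PostAlg

/-! ### Points have values in `𝒪_L`, `L` the field generated by the points -/

section PointInt

variable {H : Type} [CommRing H] [Algebra (Zloc p) H] [Module.Finite (Zloc p) H]

theorem point_mem_pointField (x : H →ₐ[Zloc p] PadicAlgCl p) (h : H) :
    x h ∈ pointField p H :=
  IntermediateField.subset_adjoin _ _ ⟨x, h, rfl⟩

/-- A point, as a homomorphism to `𝒪_L`. -/
def pointInt (x : H →ₐ[Zloc p] PadicAlgCl p) : H →ₐ[Zloc p] intRing p (pointField p H) where
  toFun h := ⟨x h, point_mem_pointField x h, H54.norm_point_le_one x h⟩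
  map_one' := Subtype.ext (map_one x)
  map_mul' a b := Subtype.ext (map_mul x a b)
  map_zero' := Subtype.ext (map_zero x)
  map_add' a b := Subtype.ext (map_add x a b)
  commutes' r := Subtype.ext (x.commutes r)

@[simp] theorem coe_pointInt (x : H →ₐ[Zloc p] PadicAlgCl p) (h : H) :
    ((pointInt x h : intRing p (pointField p H)) : PadicAlgCl p) = x h := rfl

theorem inclAlg_comp_pointInt (x : H →ₐ[Zloc p] PadicAlgCl p) :
    (H54.inclAlg (pointField p H)).comp (pointInt x) = x := by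
  apply AlgHom.ext
  intro h
  rfl

end PointInt

/-- A ring homomorphism `𝒪_L → 𝒪_F / 𝔞` is automatically `ℤ_(p)`-linear. -/
def algOfRingHom {L F : IntermediateField ℚ_[p] (PadicAlgCl p)} {I : Ideal (intRing p F)}
    (φ : intRing p L →+* (intRing p F ⧸ I)) : intRing p L →ₐ[Zloc p] (intRing p F ⧸ I) where
  toRingHom := φ
  commutes' r := by
    have := ringHom_Zloc_ext (φ.comp (algebraMap (Zloc p) (intRing p L)))
      (algebraMap (Zloc p) (intRing p F ⧸ I))
    exact RingHom.congr_fun this r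

@[simp] theorem algOfRingHom_apply {L F : IntermediateField ℚ_[p] (PadicAlgCl p)}
    {I : Ideal (intRing p F)} (φ : intRing p L →+* (intRing p F ⧸ I)) (a : intRing p L) :
    algOfRingHom φ a = φ a := rfl

end Fermat.Agent.S56.FL.H50

end
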