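import Fermat.Agent.S56.FL.H85_CC1Leaves
import Fermat.Agent.S56.FL.H38_InertiaOnto

set_option autoImplicit false
set_option linter.style.haveILetI false

/-!
# LOC-p-FL, package UNITS, leaf RESFIX of `CC1z` (helper85's statement `H85.Stmt_ResFix`)
-/

noncomputable section

namespace Fermat.Agent.S56.FL.H50

open Fermat.Agent.S56.FL

theorem stmt_ResFix : H85.Stmt_ResFix := by
  intro p _ H _ hpn x hx hH hG
  classical
  have hp : p.Prime := Fact.out
  haveI := Fintype.ofFinite (Gp p ⧸ H)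
  set f : Gp p ⧸ H → PadicAlgCl p := fun c => (c.out : Gp p) x with hfdef
  have hf : ∀ g : Gp p, f (QuotientGroup.mk g) = g x := by
    intro g
    obtain ⟨h, hh⟩ := QuotientGroup.mk_out_eq_mul H g
    show ((QuotientGroup.mk g : Gp p ⧸ H).out) x = g x
    rw [hh, AlgEquiv.mul_apply, hH h h.2]
  set t : PadicAlgCl p := ∑ c, f c with ht
  -- `t` is fixed by the Galois group
  have htfix : ∀ g : Gp p, g t = t := by
    intro g
    rw [ht, map_sum]
    have h1 : ∀ c : Gp p ⧸ H, g (f c) = f (g • c) := by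
      intro c
      induction c using QuotientGroup.induction_on with
      | H a =>
        rw [hf, MulAction.Quotient.smul_mk, hf]
        rfl
    simp only [h1]
    exact Equiv.sum_comp (MulAction.toPerm g) f
  -- `t ∈ ℚ_p`
  have htbot : t ∈ (⊥ : IntermediateField ℚ_[p] (PadicAlgCl p)) :=
    H38.mem_of_fixed_by_fixingSubgroup (fun σ _ => htfix σ)
  obtain ⟨q, hq⟩ := IntermediateField.mem_bot.mp htbot
  have hnormg : ∀ g : Gp p, ‖g x‖ ≤ 1 := fun g => by rw [norm_gal]; exact hx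
  have htle : ‖t‖ ≤ 1 :=
    H38.norm_sum_le_of_forall_le _ _ zero_le_one (fun c _ => hnormg _)
  have hqle : ‖q‖ ≤ 1 := by
    rw [← PadicAlgCl.norm_extends p q, hq]
    exact htle
  set qz : ℤ_[p] := ⟨q, hqle⟩ with hqz
  obtain ⟨j₀, -, hj₀⟩ := PadicInt.exists_mem_range (x := qz)
  have hj₀' : ‖t - (j₀ : PadicAlgCl p)‖ < 1 := by
    have h1 : ‖qz - (j₀ : ℤ_[p])‖ < 1 := by
      rw [← PadicInt.mem_nonunits]
      exact hj₀
    have h2 : t - (j₀ : PadicAlgCl p) = algebraMap ℚ_[p] (PadicAlgCl p) (q - (j₀ : ℚ_[p])) := by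
      rw [map_sub, hq, map_natCast]
    rw [h2, PadicAlgCl.norm_extends]
    have h3 : ‖q - (j₀ : ℚ_[p])‖ = ‖qz - (j₀ : ℤ_[p])‖ := by
      rw [PadicInt.norm_def, PadicInt.coe_sub, PadicInt.coe_natCast]
    rw [h3]
    exact h1
  -- `‖t - n x‖ < 1`
  set n : ℕ := Nat.card (Gp p ⧸ H) with hn
  have hncard : Fintype.card (Gp p ⧸ H) = n := by rw [hn, Nat.card_eq_fintype_card]
  have htn : ‖t - (n : PadicAlgCl p) * x‖ < 1 := by
    have h1 : t - (n : PadicAlgCl p) * x = ∑ c : Gp p ⧸ H, (f c - x) := by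
      rw [Finset.sum_sub_distrib, Finset.sum_const, Finset.card_univ, hncard, nsmul_eq_mul]
    rw [h1]
    obtain ⟨i, -, hi⟩ := IsUltrametricDist.exists_norm_finsetSum_le
      (Finset.univ : Finset (Gp p ⧸ H)) (fun c => f c - x)
    exact lt_of_le_of_lt hi (hG _)
  -- an inverse of `n` modulo `p`
  have hcop : Nat.Coprime n p := ((Nat.Prime.coprime_iff_not_dvd hp).mpr hpn).symm
  obtain ⟨m, -, hm⟩ := Nat.exists_mul_mod_eq_one_of_coprime hcop hp.one_lt
  have hnm : ‖(1 : PadicAlgCl p) - (n : PadicAlgCl p) * (m : PadicAlgCl p)‖ < 1 := by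
    have h1 : n * m = p * (n * m / p) + 1 := by
      have := Nat.div_add_mod (n * m) p
      rw [hm] at this
      exact this.symm
    have h2 : (1 : PadicAlgCl p) - (n : PadicAlgCl p) * (m : PadicAlgCl p)
        = -((p * (n * m / p) : ℕ) : PadicAlgCl p) := by
      have := congrArg (fun z : ℕ => (z : PadicAlgCl p)) h1
      simp only [Nat.cast_mul, Nat.cast_add, Nat.cast_one] at this
      rw [this]
      push_cast
      ring
    rw [h2, norm_neg, H38.norm_natCast_algCl_lt_one]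
    exact dvd_mul_right _ _
  refine ⟨m * j₀, ?_⟩
  have hmle : ‖(m : PadicAlgCl p)‖ ≤ 1 := H38.norm_natCast_algCl_le_one m
  have e : x - ((m * j₀ : ℕ) : PadicAlgCl p)
      = ((1 : PadicAlgCl p) - (n : PadicAlgCl p) * (m : PadicAlgCl p)) * x
        + (-((m : PadicAlgCl p) * (t - (n : PadicAlgCl p) * x))
          + (m : PadicAlgCl p) * (t - (j₀ : PadicAlgCl p))) := by
    push_cast
    ring
  rw [e]
  refine lt_of_le_of_lt (IsUltrametricDist.norm_add_le_max _ _) (max_lt ?_ ?_)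
  · rw [norm_mul]
    calc ‖(1 : PadicAlgCl p) - (n : PadicAlgCl p) * (m : PadicAlgCl p)‖ * ‖x‖
        ≤ ‖(1 : PadicAlgCl p) - (n : PadicAlgCl p) * (m : PadicAlgCl p)‖ * 1 :=
          mul_le_mul_of_nonneg_left hx (norm_nonneg _)
      _ < 1 := by rw [mul_one]; exact hnm
  · refine lt_of_le_of_lt (IsUltrametricDist.norm_add_le_max _ _) (max_lt ?_ ?_)
    · rw [norm_neg, norm_mul]
      calc ‖(m : PadicAlgCl p)‖ * ‖t - (n : PadicAlgCl p) * x‖
          ≤ 1 * ‖t - (n : PadicAlgCl p) * x‖ :=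
            mul_le_mul_of_nonneg_right hmle (norm_nonneg _)
        _ < 1 := by rw [one_mul]; exact htn
    · rw [norm_mul]
      calc ‖(m : PadicAlgCl p)‖ * ‖t - (j₀ : PadicAlgCl p)‖
          ≤ 1 * ‖t - (j₀ : PadicAlgCl p)‖ :=
            mul_le_mul_of_nonneg_right hmle (norm_nonneg _)
        _ < 1 := by rw [one_mul]; exact hj₀'

end Fermat.Agent.S56.FL.H50

end
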