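import Fermat.Agent.S56.FL.Count
import Fermat.Agent.S56.H57_LocPSO
import Fermat.Agent.R.Flat.H54_ClosureProd
import Fermat.Agent.S56.Dict.H74_Cont

set_option autoImplicit false
set_option linter.unusedSectionVars false

/-!
# LOC-p-FL, package WIRE (helper50): `Stmt_loc_p_Fl` from `Stmt_FL_A`, `Stmt_FL_ord`, `Stmt_COH_SS`,
`Stmt_COH_RED`.
-/

noncomputable section

namespace Fermat.Agent.S56.FL.H50

open scoped NNReal
open Polynomial IsLocalRing CategoryTheory groupCohomology ExtCitation Fermat.Agent.S53 Module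
  Fermat.Agent.S56 Fermat.Agent.S56.FL Fermat.Agent.S56.Dict Fermat.Agent.S56.Dict.H85

section Cyclo

variable (p : ℕ) [Fact p.Prime]

/-- Every `p`-th root of unity of `K̄` comes from `ℚ̄`. -/
theorem exists_root_of_unity_preimage (ζ : PadicAlgCl p) (hζ : ζ ^ p = 1) :
    ∃ μ : AlgebraicClosure ℚ, μ ^ p = 1 ∧ padicEmbedding p μ = ζ := by
  have hp : p.Prime := Fact.out
  haveI : NeZero (p : AlgebraicClosure ℚ) := ⟨by exact_mod_cast hp.ne_zero⟩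
  obtain ⟨μ₀, hμ₀⟩ := HasEnoughRootsOfUnity.exists_primitiveRoot (AlgebraicClosure ℚ) p
  have hμ₁ : IsPrimitiveRoot (padicEmbedding p μ₀) p :=
    hμ₀.map_of_injective (padicEmbedding p).injective
  obtain ⟨i, -, hi⟩ := hμ₁.eq_pow_of_pow_eq_one hζ
  refine ⟨μ₀ ^ i, ?_, ?_⟩
  · rw [← pow_mul, mul_comm, pow_mul, hμ₀.pow_eq_one, one_pow]
  · rw [map_pow, hi]

variable {p} {k : Type} [Field k] [CharP k p] (ρbar : ResidualGaloisRep k)

theorem isCycloAt_det (hdet : (GaloisRepAdic.ofResidualGaloisRep ρbar).DetIsCyclotomic p)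
    (σ : Gp p) : IsCycloAt (LinearMap.det (locRho ρbar σ)) σ := by
  have hp : p.Prime := Fact.out
  refine ⟨cycloExp p (localGaloisToGlobal p σ), ?_, ?_⟩
  · have h := hdet.2 1 (localGaloisToGlobal p σ) (cycloExp p (localGaloisToGlobal p σ))
      (fun μ hμ => H57.map_root_eq_pow p _ μ hμ)
    have h0 : Ideal.span {(((p ^ 1 : ℕ) : ℕ) : k)} = ⊥ := by
      rw [pow_one, CharP.cast_eq_zero k p]
      exact Ideal.span_singleton_eq_bot.2 rfl
    rw [h0, Ideal.mem_bot, sub_eq_zero] at h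
    exact h.symm
  · intro ζ hζ
    obtain ⟨μ, hμ, rfl⟩ := exists_root_of_unity_preimage p ζ hζ
    rw [← padicEmbedding_localGaloisToGlobal, ← map_pow]
    congr 1
    exact H57.map_root_eq_pow p _ μ (by rw [pow_one]; exact hμ)

end Cyclo

section Pred

variable (p : ℕ) [Fact p.Prime] {k : Type} [Field k] (ρbar : ResidualGaloisRep k)

theorem cocVal_add (c₁ c₂ : cocycles₁ (locRep (ad0 ρbar) (pPrime p))) (σ : Gp p) :
    cocVal ρbar (c₁ + c₂) σ = cocVal ρbar c₁ σ + cocVal ρbar c₂ σ := by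
  unfold cocVal
  rw [← map_add]
  rfl

theorem cocVal_smul (a : k) (c : cocycles₁ (locRep (ad0 ρbar) (pPrime p))) (σ : Gp p) :
    cocVal ρbar (a • c) σ = a • cocVal ρbar c σ := by
  unfold cocVal
  rw [← map_smul]
  rfl

theorem cocVal_zero (σ : Gp p) :
    cocVal ρbar (0 : cocycles₁ (locRep (ad0 ρbar) (pPrime p))) σ = 0 := by
  unfold cocVal
  exact map_zero _

/-- The local cocycle `c` (and `ρbar`) is trivial on the elements of `G_p` acting trivially on a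
finite flat `G_ℚ`-module killed by `p`. -/
def IsTrivByFlat (c : cocycles₁ (locRep (ad0 ρbar) (pPrime p))) : Prop :=
  ∃ (E : Type) (_ : AddCommGroup E) (act : GQ → E → E),
    (∀ e : E, p • e = 0) ∧ Fermat.Agent.R.IsFlatGaloisModule p E act ∧
    ∀ σ : Gp p, (∀ e : E, act (localGaloisToGlobal p σ) e = e) →
      locRho ρbar σ = 1 ∧ cocVal ρbar c σ = 0

/-- The predicate defining the local condition. -/
def WP (c : cocycles₁ (locRep (ad0 ρbar) (pPrime p))) : Prop :=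
  IsTrivByFlat p ρbar c ∧
    (∀ ℓ : Submodule k ρbar.V, IsOrdLine ρbar p ℓ → IsOrdCocycle ρbar ℓ c) ∧
    c ∈ levelCocycles₁ (primeLocalToGlobal (pPrime p)) (locRep (ad0 ρbar) (pPrime p))

variable {p ρbar}

theorem IsTrivByFlat.zero {c : cocycles₁ (locRep (ad0 ρbar) (pPrime p))}
    (h : IsTrivByFlat p ρbar c) : IsTrivByFlat p ρbar 0 := by
  obtain ⟨E, i, act, hk, hf, ht⟩ := h
  exact ⟨E, i, act, hk, hf, fun σ hσ => ⟨(ht σ hσ).1, cocVal_zero p ρbar σ⟩⟩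

theorem IsTrivByFlat.smul {c : cocycles₁ (locRep (ad0 ρbar) (pPrime p))}
    (h : IsTrivByFlat p ρbar c) (a : k) : IsTrivByFlat p ρbar (a • c) := by
  obtain ⟨E, i, act, hk, hf, ht⟩ := h
  refine ⟨E, i, act, hk, hf, fun σ hσ => ⟨(ht σ hσ).1, ?_⟩⟩
  rw [cocVal_smul, (ht σ hσ).2, smul_zero]

theorem IsTrivByFlat.add {c₁ c₂ : cocycles₁ (locRep (ad0 ρbar) (pPrime p))}
    (h₁ : IsTrivByFlat p ρbar c₁) (h₂ : IsTrivByFlat p ρbar c₂) :
    IsTrivByFlat p ρbar (c₁ + c₂) := by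
  have hp : p.Prime := Fact.out
  obtain ⟨E₁, i₁, act₁, hk₁, hf₁, ht₁⟩ := h₁
  obtain ⟨E₂, i₂, act₂, hk₂, hf₂, ht₂⟩ := h₂
  refine ⟨E₁ × E₂, inferInstance, fun σ x => (act₁ σ x.1, act₂ σ x.2), ?_,
    Fermat.Agent.R.H54.stmt_FlatProd p hp E₁ E₂ act₁ act₂ hf₁ hf₂, ?_⟩
  · rintro ⟨e₁, e₂⟩
    ext
    · exact hk₁ e₁
    · exact hk₂ e₂
  · intro σ hσ
    have h1 : ∀ e : E₁, act₁ (localGaloisToGlobal p σ) e = e := fun e =>
      congrArg Prod.fst (hσ (e, 0))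
    have h2 : ∀ e : E₂, act₂ (localGaloisToGlobal p σ) e = e := fun e =>
      congrArg Prod.snd (hσ (0, e))
    refine ⟨(ht₁ σ h1).1, ?_⟩
    rw [cocVal_add, (ht₁ σ h1).2, (ht₂ σ h2).2, add_zero]

theorem isOrdCocycle_zero (ℓ : Submodule k ρbar.V) :
    IsOrdCocycle ρbar ℓ (0 : cocycles₁ (locRep (ad0 ρbar) (pPrime p))) := by
  refine ⟨0, fun σ => ?_⟩
  have h0 : cocVal ρbar (0 : cocycles₁ (locRep (ad0 ρbar) (pPrime p))) σ -
      (locRho ρbar σ * 0 * locRho ρbar σ⁻¹ - 0) = 0 := by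
    rw [cocVal_zero]; simp
  rw [h0]
  exact ⟨fun v _ => by simp, fun _ v => by simp⟩

theorem IsOrdCocycle.smul {ℓ : Submodule k ρbar.V}
    {c : cocycles₁ (locRep (ad0 ρbar) (pPrime p))} (h : IsOrdCocycle ρbar ℓ c) (a : k) :
    IsOrdCocycle ρbar ℓ (a • c) := by
  obtain ⟨m, hm⟩ := h
  refine ⟨a • m, fun σ => ?_⟩
  have h0 : cocVal ρbar (a • c) σ - (locRho ρbar σ * (a • m) * locRho ρbar σ⁻¹ - a • m) =
      a • (cocVal ρbar c σ - (locRho ρbar σ * m * locRho ρbar σ⁻¹ - m)) := by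
    rw [cocVal_smul, smul_sub, smul_sub, mul_smul_comm, smul_mul_assoc]
  rw [h0]
  refine ⟨fun v hv => ?_, fun hσ v => ?_⟩
  · rw [LinearMap.smul_apply]; exact ℓ.smul_mem a ((hm σ).1 v hv)
  · rw [LinearMap.smul_apply]; exact ℓ.smul_mem a ((hm σ).2 hσ v)

theorem IsOrdCocycle.add {ℓ : Submodule k ρbar.V}
    {c₁ c₂ : cocycles₁ (locRep (ad0 ρbar) (pPrime p))} (h₁ : IsOrdCocycle ρbar ℓ c₁)
    (h₂ : IsOrdCocycle ρbar ℓ c₂) : IsOrdCocycle ρbar ℓ (c₁ + c₂) := by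
  obtain ⟨m₁, hm₁⟩ := h₁
  obtain ⟨m₂, hm₂⟩ := h₂
  refine ⟨m₁ + m₂, fun σ => ?_⟩
  have h0 : cocVal ρbar (c₁ + c₂) σ -
      (locRho ρbar σ * (m₁ + m₂) * locRho ρbar σ⁻¹ - (m₁ + m₂)) =
      (cocVal ρbar c₁ σ - (locRho ρbar σ * m₁ * locRho ρbar σ⁻¹ - m₁)) +
      (cocVal ρbar c₂ σ - (locRho ρbar σ * m₂ * locRho ρbar σ⁻¹ - m₂)) := by
    rw [cocVal_add, mul_add, add_mul]
    abel
  rw [h0]
  refine ⟨fun v hv => ?_, fun hσ v => ?_⟩
  · rw [LinearMap.add_apply]; exact ℓ.add_mem ((hm₁ σ).1 v hv) ((hm₂ σ).1 v hv)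
  · rw [LinearMap.add_apply]; exact ℓ.add_mem ((hm₁ σ).2 hσ v) ((hm₂ σ).2 hσ v)

theorem WP.zero {c : cocycles₁ (locRep (ad0 ρbar) (pPrime p))} (h : IsTrivByFlat p ρbar c) :
    WP p ρbar 0 :=
  ⟨h.zero, fun ℓ _ => isOrdCocycle_zero ℓ, Submodule.zero_mem _⟩

theorem WP.add {c₁ c₂ : cocycles₁ (locRep (ad0 ρbar) (pPrime p))} (h₁ : WP p ρbar c₁)
    (h₂ : WP p ρbar c₂) : WP p ρbar (c₁ + c₂) :=
  ⟨h₁.1.add h₂.1, fun ℓ hℓ => IsOrdCocycle.add (h₁.2.1 ℓ hℓ) (h₂.2.1 ℓ hℓ),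
    Submodule.add_mem _ h₁.2.2 h₂.2.2⟩

theorem WP.smul {c : cocycles₁ (locRep (ad0 ρbar) (pPrime p))} (h : WP p ρbar c) (a : k) :
    WP p ρbar (a • c) :=
  ⟨h.1.smul a, fun ℓ hℓ => IsOrdCocycle.smul (h.2.1 ℓ hℓ) a, Submodule.smul_mem _ a h.2.2⟩

variable (p ρbar)

/-- The local condition: the classes of the cocycles satisfying `WP`. -/
def flatW (c₀ : cocycles₁ (locRep (ad0 ρbar) (pPrime p))) (h₀ : IsTrivByFlat p ρbar c₀) :
    Submodule k (H1 (locRep (ad0 ρbar) (pPrime p))) where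
  carrier := {η | ∃ c : cocycles₁ (locRep (ad0 ρbar) (pPrime p)),
    (H1π (locRep (ad0 ρbar) (pPrime p))).hom c = η ∧ WP p ρbar c}
  zero_mem' := ⟨0, map_zero _, WP.zero h₀⟩
  add_mem' := by
    rintro _ _ ⟨c₁, rfl, h₁⟩ ⟨c₂, rfl, h₂⟩
    exact ⟨c₁ + c₂, map_add _ _ _, h₁.add h₂⟩
  smul_mem' := by
    rintro a _ ⟨c, rfl, h⟩
    exact ⟨a • c, map_smul _ _ _, h.smul a⟩

end Pred

section Gen

variable {𝒪 : Type} [CommRing 𝒪] [IsLocalRing 𝒪] [Finite (ResidueField 𝒪)]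
variable {ρbar : ResidualGaloisRep (ResidueField 𝒪)} {𝒟 : Cond 𝒪}

/-- An element of the kernel of a first-order deformation acts trivially on `ρbar`. -/
theorem rhobar_eq_one_of_mem_ker (x : TSub 𝒪 ρbar 𝒟)
    (c : GQ → Module.End (ResidueField 𝒪) ρbar.V) (hc : IsCocycleOf x c) (s : GQ)
    (hs : s ∈ (x.1.ρ).ker) : ρbar.ρ s = 1 := by
  obtain ⟨θ, hθ⟩ := hc
  rw [MonoidHom.mem_ker] at hs
  refine LinearMap.ext fun v => ?_
  have h := hθ s v
  rw [hs, Module.End.one_apply] at h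
  have h2 := θ.injective h
  have p1 := congrArg (proj₁ ρbar.V) h2
  simp only [map_add, proj₁_tmul, TrivSqZeroExt.fst_one, one_smul, DualNumber.fst_eps,
    zero_smul, add_zero] at p1
  rw [Module.End.one_apply]
  exact p1.symm

variable (p : ℕ) [Fact p.Prime]

/-- The cocycle of a flat first-order deformation is trivialised by a flat module. -/
theorem isTrivByFlat_of_flat (hp𝒪 : (p : 𝒪) ∈ maximalIdeal 𝒪) (x : TSub 𝒪 ρbar 𝒟)
    (hflat : x.1.IsFlatAt p) (c₀ : cocycles₁ (ad0 ρbar))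
    (hc : IsCocycleOf x (fun σ => ad0Val ρbar ((c₀ : GQ → ad0 ρbar) σ))) :
    IsTrivByFlat p ρbar (resCoc ρbar p c₀) := by
  haveI hchar : CharP (ResidueField 𝒪) p := charP_residueField p hp𝒪
  haveI hfinA : Finite (DualNumber (ResidueField 𝒪)) := finite_dualNumber 𝒪
  have hfinQ : Finite (DualNumber (ResidueField 𝒪) ⧸ (⊥ : Ideal (DualNumber (ResidueField 𝒪)))) :=
    Finite.of_surjective _ Ideal.Quotient.mk_surjective
  have hfl := ((Fermat.Agent.R.isFlatAt_iff x.1 p).1 hflat).2 ⊥ hfinQ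
  refine ⟨_, inferInstance, _, ?_, hfl, ?_⟩
  · intro e
    obtain ⟨v, rfl⟩ := Submodule.Quotient.mk_surjective _ e
    rw [← Submodule.Quotient.mk_smul]
    have h0 : p • v = 0 := by
      rw [← Nat.cast_smul_eq_nsmul (DualNumber (ResidueField 𝒪)),
        H57.natCast_dual_eq_zero p, zero_smul]
    rw [h0, Submodule.Quotient.mk_zero]
  · intro σ hσ
    have hker : localGaloisToGlobal p σ ∈ (x.1.ρ).ker := by
      rw [MonoidHom.mem_ker]
      refine LinearMap.ext fun v => ?_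
      have h1 := hσ (Submodule.Quotient.mk v)
      have h2 : x.1.levelAction ⊥ (localGaloisToGlobal p σ) (Submodule.Quotient.mk v) =
          Submodule.Quotient.mk (x.1.ρ (localGaloisToGlobal p σ) v) := rfl
      rw [h2, Submodule.Quotient.eq, Submodule.bot_smul, Submodule.mem_bot, sub_eq_zero] at h1
      rw [Module.End.one_apply]
      exact h1
    exact ⟨rhobar_eq_one_of_mem_ker x _ hc _ hker, cocycle_eq_zero_of_mem_ker x _ hc _ hker⟩

end Gen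

/-- **WIRE.** `Stmt_loc_p_Fl` from BRIDGE-1, ORD and the two counts. -/
theorem stmt_loc_p_Fl_of (hA : Stmt_FL_A) (hord : Stmt_FL_ord) (hSS : Stmt_COH_SS)
    (hRED : Stmt_COH_RED) : Stmt_loc_p_Fl := by
  intro 𝒪 _ _ _ _ _ p _ ρbar S Smin hyp
  haveI hchar : CharP (ResidueField 𝒪) p := charP_residueField p hyp.hp𝒪
  have hp2 := hyp.hp2
  -- the cocycle of a flat deformation satisfies `WP`
  have hgen : ∀ (T : Finset ℕ) (x : TSub 𝒪 ρbar (condFl 𝒪 p Smin T)) (c₀ : cocycles₁ (ad0 ρbar)),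
      IsCocycleOf x (fun σ => ad0Val ρbar ((c₀ : GQ → ad0 ρbar) σ)) →
      WP p ρbar (resCoc ρbar p c₀) ∧ SplitCond ρbar p := by
    intro T x c₀ hc
    have hflat : x.1.IsFlatAt p := x.2.1.1.2.1
    obtain ⟨hsplit, hO⟩ := hord 𝒪 p ρbar hp2 hyp.hp𝒪 hyp.hdet _ x hflat c₀ hc
    refine ⟨⟨isTrivByFlat_of_flat p hyp.hp𝒪 x hflat c₀ hc, hO, ?_⟩, hsplit⟩
    rw [mem_levelCocycles₁_iff]
    exact isLevelConstant₁_resCocycle (primeLocalToGlobal (pPrime p))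
      (H57.global_cocycle_levelConstant x c₀ hc)
  by_cases hex : ∃ (T : Finset ℕ) (x : TSub 𝒪 ρbar (condFl 𝒪 p Smin T)) (ξ : H1 (ad0 ρbar)),
      IsClassOf x ξ
  · obtain ⟨T₀, x₀, ξ₀, c₀, hc₀, -⟩ := hex
    obtain ⟨hWP₀, hsplit⟩ := hgen T₀ x₀ c₀ hc₀
    set W := flatW p ρbar (resCoc ρbar p c₀) hWP₀.1 with hW
    have hbdd : ∀ ξ ∈ W, IsFlatLike ρbar ξ := by
      rintro ξ ⟨c, rfl, ⟨E, i, act, hkill, hfl, htriv⟩, hO, -⟩
      obtain ⟨L, hL, hN, hB, hfix⟩ := hA p hp2 E act hkill hfl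
      exact ⟨c, rfl, ⟨L, hL, hN, hB, fun σ hσ => htriv σ (hfix σ hσ)⟩, hO⟩
    have hloc : LocHyp ρbar p := ⟨isCycloAt_det ρbar hyp.hdet, fun σ => hyp.hsplit _⟩
    have hcount : Module.Finite (ResidueField 𝒪) W ∧ finrank (ResidueField 𝒪) W ≤
        finrank (ResidueField 𝒪) (locRep (ad0 ρbar) (pPrime p)).ρ.invariants + 1 := by
      by_cases hline : ∃ ℓ : Submodule (ResidueField 𝒪) ρbar.V, IsStableLine ρbar p ℓ
      · exact hRED p hp2 _ ρbar hloc hline hsplit W hbdd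
      · refine hSS p hp2 _ ρbar hloc hline W fun ξ hξ => ?_
        obtain ⟨c, h1, h2, -⟩ := hbdd ξ hξ
        exact ⟨c, h1, h2⟩
    refine ⟨W, ?_, hcount.1, hcount.2, ?_⟩
    · rintro η ⟨c, rfl, -, -, hlev⟩
      exact H1π_mem_continuousH1 _ _ ((mem_levelCocycles₁_iff _ _ _).1 hlev)
    · intro T x ξ hξ
      obtain ⟨c, hc, rfl⟩ := hξ
      rw [Fermat.Agent.S56.resAt_H1π]
      exact ⟨resCoc ρbar p c, rfl, (hgen T x c hc).1⟩
  · refine ⟨⊥, bot_le, inferInstance, ?_, ?_⟩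
    · rw [finrank_bot]
      exact Nat.zero_le _
    · intro T x ξ hξ
      exact absurd ⟨T, x, ξ, hξ⟩ hex

end Fermat.Agent.S56.FL.H50

end
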