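import Fermat.Agent.S56.FL.Count
import Fermat.Agent.S56.FL.H85_CCDefs

set_option autoImplicit false
set_option linter.unusedSectionVars false

/-!
# LOC-p-FL (helper50): the bounded field of a bounded cocycle of `ad⁰ ρbar` contains `μ_p`

`det ρbar` is the cyclotomic character (`LocHyp`), so a field `L` with `ρbar` trivial on
`Gal(K̄/L)` contains the `p`-th roots of unity.  This is what makes the `z`-versions
(`FL/H85_CCDefs.lean`) of the counts applicable in COH.
-/

noncomputable section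

namespace Fermat.Agent.S56.FL.H50

open Polynomial IsLocalRing CategoryTheory groupCohomology ExtCitation Module
  Fermat.Agent.S56 Fermat.Agent.S56.FL

variable {p : ℕ} [Fact p.Prime] {k : Type} [Field k] [CharP k p] (ρbar : ResidualGaloisRep k)

/-- An element of `G_p` acting trivially on `V` fixes the `p`-th roots of unity. -/
theorem map_zeta_of_locRho_eq_one (hloc : LocHyp ρbar p) (σ : Gp p) (h : locRho ρbar σ = 1)
    (ζ : PadicAlgCl p) (hζ : ζ ^ p = 1) : σ ζ = ζ := by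
  obtain ⟨n, hn, hpow⟩ := hloc.1 σ
  rw [h, map_one] at hn
  have h1 : ((n : ℕ) : k) = ((1 : ℕ) : k) := by rw [hn, Nat.cast_one]
  rw [CharP.natCast_eq_natCast k p] at h1
  have h2 : ζ ^ n = ζ ^ 1 := by
    rw [← Nat.mod_add_div n p, ← Nat.mod_add_div 1 p, pow_add, pow_add, pow_mul, pow_mul, hζ,
      one_pow, one_pow, mul_one, mul_one]
    exact congrArg (ζ ^ ·) h1
  rw [hpow ζ hζ, h2, pow_one]

/-- A field `L` with `ρbar` trivial on `Gal(K̄/L)` contains `μ_p`. -/
theorem zeta_mem_of_locRho_trivial (hloc : LocHyp ρbar p)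
    (L : IntermediateField ℚ_[p] (PadicAlgCl p))
    (h : ∀ σ : Gp p, σ ∈ L.fixingSubgroup → locRho ρbar σ = 1)
    (ζ : PadicAlgCl p) (hζ : ζ ^ p = 1) : ζ ∈ L := by
  haveI : IsGalois ℚ_[p] (PadicAlgCl p) := inferInstance
  rw [← InfiniteGalois.fixedField_fixingSubgroup L, IntermediateField.mem_fixedField_iff]
  intro σ hσ
  exact map_zeta_of_locRho_eq_one ρbar hloc σ (h σ hσ) ζ hζ

/-- The bounded field of a bounded cocycle of `ad⁰ ρbar` contains `μ_p`. -/
theorem IsBddAd.exists_zeta (hloc : LocHyp ρbar p)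
    {c : cocycles₁ (locRep (ad0 ρbar) (pPrime p))} (h : IsBddAd ρbar c) :
    ∃ (L : IntermediateField ℚ_[p] (PadicAlgCl p)) (_ : FiniteDimensional ℚ_[p] L),
      Normal ℚ_[p] L ∧ IsBddField p L ∧ (∀ ζ : PadicAlgCl p, ζ ^ p = 1 → ζ ∈ L) ∧
        ∀ σ : Gp p, σ ∈ L.fixingSubgroup → locRho ρbar σ = 1 ∧ cocVal ρbar c σ = 0 := by
  obtain ⟨L, hfd, hN, hB, hfix⟩ := h
  exact ⟨L, hfd, hN, hB,
    zeta_mem_of_locRho_trivial ρbar hloc L (fun σ hσ => (hfix σ hσ).1), hfix⟩

end Fermat.Agent.S56.FL.H50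

end
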