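import Fermat.Agent.S56.FL.H54_BridgePts

/-!
# LOC-p-FL, package BRIDGE (helper54): the field generated by the points

For a finite `ℤ_(p)`-algebra `H`:
* `finiteDimensional_pointField` : `pointField p H` is a finite extension of `ℚ_p`;
* `normal_pointField` : it is normal;
* `pointAct_eq_of_mem_fixingSubgroup` : `Gal(K̄/pointField)` acts trivially on the points.
-/

set_option autoImplicit false
set_option linter.unusedSectionVars false
set_option linter.style.haveILetI false

noncomputable section

namespace Fermat.Agent.S56.FL.H54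

open scoped NNReal TensorProduct
open Fermat.Agent.S56.FL WithConv Polynomial

variable {p : ℕ} [Fact p.Prime]

section Field

variable {H : Type} [CommRing H] [Algebra (Zloc p) H] [Module.Finite (Zloc p) H]

theorem isIntegral_point' (x : H →ₐ[Zloc p] PadicAlgCl p) (h : H) :
    IsIntegral ℚ_[p] (x h) :=
  (Algebra.IsAlgebraic.isAlgebraic (R := ℚ_[p]) (x h)).isIntegral

/-- The values of the points at a fixed element form a finite set. -/
theorem finite_values (h : H) :
    {y : PadicAlgCl p | ∃ x : H →ₐ[Zloc p] PadicAlgCl p, y = x h}.Finite := by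
  classical
  have hint : IsIntegral (Zloc p) h := Algebra.IsIntegral.isIntegral h
  obtain ⟨P, hP, hPh⟩ := hint
  have hP0 : P.map (algebraMap (Zloc p) (PadicAlgCl p)) ≠ 0 := (hP.map _).ne_zero
  refine Set.Finite.subset
    ((P.map (algebraMap (Zloc p) (PadicAlgCl p))).roots.toFinset.finite_toSet) ?_
  rintro y ⟨x, rfl⟩
  simp only [Finset.mem_coe, Multiset.mem_toFinset]
  rw [Polynomial.mem_roots hP0, Polynomial.IsRoot.def, Polynomial.eval_map,
    ← Polynomial.aeval_def, Polynomial.aeval_algHom_apply, Polynomial.aeval_def, hPh, map_zero]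

theorem finiteDimensional_pointField : FiniteDimensional ℚ_[p] (pointField p H) := by
  classical
  obtain ⟨s, hs⟩ := (Module.Finite.fg_top : (⊤ : Submodule (Zloc p) H).FG)
  set T : Set (PadicAlgCl p) :=
    ⋃ h ∈ s, {y : PadicAlgCl p | ∃ x : H →ₐ[Zloc p] PadicAlgCl p, y = x h} with hT
  have hTfin : T.Finite := Set.Finite.biUnion s.finite_toSet (fun h _ => finite_values h)
  haveI : Finite T := hTfin
  haveI hfd : FiniteDimensional ℚ_[p] (IntermediateField.adjoin ℚ_[p] T) :=
    IntermediateField.finiteDimensional_adjoin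
      (fun y _ => (Algebra.IsAlgebraic.isAlgebraic (R := ℚ_[p]) y).isIntegral)
  have hle : pointField p H ≤ IntermediateField.adjoin ℚ_[p] T := by
    unfold pointField
    rw [IntermediateField.adjoin_le_iff]
    rintro y ⟨x, h, rfl⟩
    have hmem : h ∈ Submodule.span (Zloc p) (s : Set H) := by
      rw [hs]
      exact Submodule.mem_top
    refine Submodule.span_induction (p := fun h _ => x h ∈ IntermediateField.adjoin ℚ_[p] T)
      ?_ ?_ ?_ ?_ hmem
    · intro h' hh'
      apply IntermediateField.subset_adjoin
      rw [hT]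
      exact Set.mem_biUnion hh' ⟨x, rfl⟩
    · rw [map_zero]
      exact zero_mem _
    · intro a b _ _ ha hb
      rw [map_add]
      exact add_mem ha hb
    · intro r a _ ha
      rw [map_smul, Algebra.smul_def]
      exact mul_mem (algebraMap_zloc_mem _ r) ha
  exact Module.Finite.of_injective (IntermediateField.inclusion hle).toLinearMap
    (IntermediateField.inclusion_injective hle)

theorem normal_pointField : Normal ℚ_[p] (pointField p H) := by
  haveI : Algebra.IsAlgebraic ℚ_[p] (PadicAlgCl p) := AlgebraicClosure.isAlgebraic ℚ_[p]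
  haveI : IsAlgClosure ℚ_[p] (PadicAlgCl p) := ⟨inferInstance, inferInstance⟩
  haveI : Normal ℚ_[p] (PadicAlgCl p) := inferInstance
  rw [IntermediateField.normal_iff_forall_map_le']
  intro σ
  unfold pointField
  rw [IntermediateField.adjoin_map]
  apply IntermediateField.adjoin.mono
  rintro _ ⟨_, ⟨x, h, rfl⟩, rfl⟩
  exact ⟨((σ : PadicAlgCl p →ₐ[ℚ_[p]] PadicAlgCl p).restrictScalars (Zloc p)).comp x, h, rfl⟩

end Field

section Hopf

variable {H : Type} [CommRing H] [HopfAlgebra (Zloc p) H]

theorem pointAct_eq_of_mem_fixingSubgroup (σ : Gp p)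
    (hσ : σ ∈ (pointField p H).fixingSubgroup) (x : WithConv (H →ₐ[Zloc p] PadicAlgCl p)) :
    pointAct σ x = x := by
  apply WithConv.ofConv_injective
  apply AlgHom.ext
  intro h
  show σ (x.ofConv h) = x.ofConv h
  exact (IntermediateField.mem_fixingSubgroup_iff (pointField p H) σ).mp hσ _
    (IntermediateField.subset_adjoin _ _ ⟨x.ofConv, h, rfl⟩)

end Hopf

/-- In an additive group killed by `p`, transported to a monoid of points. -/
theorem pow_eq_one_of_kill {X M : Type} [Monoid X] [AddCommGroup M] (e : X ≃ M)
    (hmul : ∀ x y : X, e (x * y) = e x + e y) (hkill : ∀ m : M, p • m = 0) (x : X) :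
    x ^ p = 1 := by
  have h1 : e 1 = 0 := by
    have := hmul 1 1
    rw [mul_one] at this
    exact left_eq_add.mp this
  have hpow : ∀ n : ℕ, e (x ^ n) = n • e x := by
    intro n
    induction n with
    | zero => rw [pow_zero, zero_smul, h1]
    | succ n ih => rw [pow_succ, hmul, ih, succ_nsmul]
  apply e.injective
  rw [hpow, h1, hkill]

end Fermat.Agent.S56.FL.H54

end
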