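import Fermat.Agent.S56.FL.H54_BridgeField
import Fermat.Agent.R.Flat.H54_Prod

/-!
# LOC-p-FL, package BRIDGE (helper54): adjoining the `p`-th roots of unity

`MuAlg p = ℤ_(p)[μ_p(K̄)]` is the Hopf algebra of the constant group scheme `μ_p(K̄)`, whose
`K̄`-points contain the tautological character.  For a Hopf algebra `H` whose points are killed by
`p`, the points of `H ⊗ MuAlg p` are killed by `p`, and the field generated by them contains the
field generated by the points of `H` and the `p`-th roots of unity.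
-/

set_option autoImplicit false
set_option linter.unusedSectionVars false
set_option linter.style.haveILetI false

noncomputable section

namespace Fermat.Agent.S56.FL.H54

open scoped NNReal TensorProduct
open Fermat.Agent.S56.FL Fermat.Agent.R.H54 WithConv

variable {p : ℕ} [Fact p.Prime]

/-- The group of `p`-th roots of unity of `K̄`. -/
abbrev MuG (p : ℕ) [Fact p.Prime] : Type := rootsOfUnity p (PadicAlgCl p)

/-- The group algebra `ℤ_(p)[μ_p(K̄)]`. -/
abbrev MuAlg (p : ℕ) [Fact p.Prime] : Type := MonoidAlgebra (Zloc p) (MuG p)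

theorem muAlg_ext (f g : MuAlg p →ₐ[Zloc p] PadicAlgCl p)
    (h : ∀ m : MuG p, f (MonoidAlgebra.single m 1) = g (MonoidAlgebra.single m 1)) : f = g :=
  (MonoidAlgebra.lift (Zloc p) (PadicAlgCl p) (MuG p)).symm.injective (MonoidHom.ext h)

/-- The tautological point of `MuAlg p`. -/
def tautPt (p : ℕ) [Fact p.Prime] : WithConv (MuAlg p →ₐ[Zloc p] PadicAlgCl p) :=
  toConv (MonoidAlgebra.lift (Zloc p) (PadicAlgCl p) (MuG p)
    ((Units.coeHom (PadicAlgCl p)).comp (rootsOfUnity p (PadicAlgCl p)).subtype))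

theorem tautPt_single (g : MuG p) :
    (tautPt p).ofConv (MonoidAlgebra.single g 1) = ((g : (PadicAlgCl p)ˣ) : PadicAlgCl p) := by
  show MonoidAlgebra.lift (Zloc p) (PadicAlgCl p) (MuG p) _ (MonoidAlgebra.single g 1) = _
  rw [MonoidAlgebra.lift_single, one_smul]
  rfl

theorem mu_conv_single (y z : WithConv (MuAlg p →ₐ[Zloc p] PadicAlgCl p)) (g : MuG p) :
    (y * z).ofConv (MonoidAlgebra.single g 1) =
      y.ofConv (MonoidAlgebra.single g 1) * z.ofConv (MonoidAlgebra.single g 1) := by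
  have h1 : (y * z).ofConv (MonoidAlgebra.single g 1) = (y * z) (MonoidAlgebra.single g 1) := rfl
  rw [h1, convMul_apply', MonoidAlgebra.comul_single]
  have h2 : Coalgebra.comul (R := Zloc p) (1 : Zloc p) = (1 : Zloc p) ⊗ₜ[Zloc p] (1 : Zloc p) :=
    rfl
  rw [h2, TensorProduct.map_tmul, TensorProduct.map_tmul, LinearMap.mul'_apply]
  rfl

theorem mu_one_single (g : MuG p) :
    (1 : WithConv (MuAlg p →ₐ[Zloc p] PadicAlgCl p)).ofConv (MonoidAlgebra.single g 1) = 1 := by
  have h1 : (1 : WithConv (MuAlg p →ₐ[Zloc p] PadicAlgCl p)).ofConv (MonoidAlgebra.single g 1) =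
      (1 : WithConv (MuAlg p →ₐ[Zloc p] PadicAlgCl p)) (MonoidAlgebra.single g 1) := rfl
  rw [h1, AlgHom.convOne_apply, MonoidAlgebra.counit_single]
  simp

theorem mu_pow_single (y : WithConv (MuAlg p →ₐ[Zloc p] PadicAlgCl p)) (n : ℕ) (g : MuG p) :
    (y ^ n).ofConv (MonoidAlgebra.single g 1) = (y.ofConv (MonoidAlgebra.single g 1)) ^ n := by
  induction n with
  | zero => rw [pow_zero, pow_zero, mu_one_single]
  | succ n ih => rw [pow_succ, pow_succ, mu_conv_single, ih]

/-- The points of `MuAlg p` are killed by `p`. -/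
theorem mu_pow_eq_one (y : WithConv (MuAlg p →ₐ[Zloc p] PadicAlgCl p)) : y ^ p = 1 := by
  apply WithConv.ofConv_injective
  apply muAlg_ext
  intro g
  rw [mu_pow_single, mu_one_single, ← map_pow, MonoidAlgebra.single_pow, one_pow]
  have hg : g ^ p = 1 := by
    apply Subtype.ext
    have := g.2
    rw [mem_rootsOfUnity] at this
    exact this
  rw [hg]
  exact map_one y.ofConv

section Prod

variable {H : Type} [CommRing H] [HopfAlgebra (Zloc p) H]

theorem prodPt_one_one {H' : Type} [CommRing H'] [HopfAlgebra (Zloc p) H'] :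
    prodPt (1 : Pts (Zloc p) H (PadicAlgCl p)) (1 : Pts (Zloc p) H' (PadicAlgCl p)) = 1 := by
  have h := prodPt_mul (1 : Pts (Zloc p) H (PadicAlgCl p)) 1
    (1 : Pts (Zloc p) H' (PadicAlgCl p)) 1
  rw [mul_one, mul_one] at h
  set e := prodPt (1 : Pts (Zloc p) H (PadicAlgCl p)) (1 : Pts (Zloc p) H' (PadicAlgCl p))
    with he
  calc e = 1 * e := (one_mul e).symm
    _ = (pinv e * e) * e := by rw [pinv_mul]
    _ = pinv e * (e * e) := mul_assoc _ _ _
    _ = pinv e * e := by rw [← h]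
    _ = 1 := pinv_mul e

theorem prodPt_pow {H' : Type} [CommRing H'] [HopfAlgebra (Zloc p) H']
    (f : Pts (Zloc p) H (PadicAlgCl p)) (g : Pts (Zloc p) H' (PadicAlgCl p)) (n : ℕ) :
    prodPt f g ^ n = prodPt (f ^ n) (g ^ n) := by
  induction n with
  | zero => rw [pow_zero, pow_zero, pow_zero, prodPt_one_one]
  | succ n ih => rw [pow_succ, pow_succ, pow_succ, ih, prodPt_mul]

/-- The points of `H ⊗ MuAlg p` are killed by `p` if those of `H` are. -/
theorem prod_mu_pow_eq_one (hH : ∀ x : WithConv (H →ₐ[Zloc p] PadicAlgCl p), x ^ p = 1)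
    (φ : WithConv ((H ⊗[Zloc p] MuAlg p) →ₐ[Zloc p] PadicAlgCl p)) : φ ^ p = 1 := by
  have h1 : φ = prodPt (fstPt φ) (sndPt φ) := (prodPt_fst_snd φ).symm
  rw [h1, prodPt_pow, hH, mu_pow_eq_one, prodPt_one_one]

theorem pointField_le_prod_mu :
    pointField p H ≤ pointField p (H ⊗[Zloc p] MuAlg p) := by
  unfold pointField
  rw [IntermediateField.adjoin_le_iff]
  rintro y ⟨x, h, rfl⟩
  apply IntermediateField.subset_adjoin
  refine ⟨(prodPt (toConv x) (1 : Pts (Zloc p) (MuAlg p) (PadicAlgCl p))).ofConv,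
    h ⊗ₜ[Zloc p] 1, ?_⟩
  have h2 := prodPt_tmul (toConv x) (1 : Pts (Zloc p) (MuAlg p) (PadicAlgCl p)) h 1
  have h3 : (1 : Pts (Zloc p) (MuAlg p) (PadicAlgCl p)) (1 : MuAlg p) = 1 :=
    map_one (1 : Pts (Zloc p) (MuAlg p) (PadicAlgCl p)).ofConv
  rw [h3, mul_one] at h2
  exact h2.symm

theorem root_mem_pointField_prod_mu (ζ : PadicAlgCl p) (hζ : ζ ^ p = 1) :
    ζ ∈ pointField p (H ⊗[Zloc p] MuAlg p) := by
  haveI : NeZero p := ⟨(Fact.out : p.Prime).ne_zero⟩
  unfold pointField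
  apply IntermediateField.subset_adjoin
  refine ⟨(prodPt (1 : Pts (Zloc p) H (PadicAlgCl p)) (tautPt p)).ofConv,
    1 ⊗ₜ[Zloc p] MonoidAlgebra.single (rootsOfUnity.mkOfPowEq ζ hζ) 1, ?_⟩
  have h2 := prodPt_tmul (1 : Pts (Zloc p) H (PadicAlgCl p)) (tautPt p) 1
    (MonoidAlgebra.single (rootsOfUnity.mkOfPowEq ζ hζ) 1)
  have h3 : (1 : Pts (Zloc p) H (PadicAlgCl p)) (1 : H) = 1 :=
    map_one (1 : Pts (Zloc p) H (PadicAlgCl p)).ofConv
  have h4 : (tautPt p) (MonoidAlgebra.single (rootsOfUnity.mkOfPowEq ζ hζ) 1) = ζ := by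
    have := tautPt_single (rootsOfUnity.mkOfPowEq ζ hζ)
    rw [rootsOfUnity.coe_mkOfPowEq] at this
    exact this
  rw [h3, one_mul, h4] at h2
  exact h2.symm

end Prod

/-- There is a nontrivial `p`-th root of unity in `K̄`. -/
theorem exists_root_ne_one : ∃ ζ : PadicAlgCl p, ζ ≠ 1 ∧ ζ ^ p = 1 := by
  have hp : p.Prime := Fact.out
  haveI : NeZero (p : ℚ_[p]) := ⟨by exact_mod_cast hp.ne_zero⟩
  haveI : NeZero (p : PadicAlgCl p) := ⟨by exact_mod_cast hp.ne_zero⟩
  obtain ⟨ξ, hξ⟩ := HasEnoughRootsOfUnity.exists_primitiveRoot (PadicAlgCl p) p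
  exact ⟨ξ, hξ.ne_one hp.one_lt, hξ.pow_eq_one⟩

end Fermat.Agent.S56.FL.H54

end
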