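import Fermat.Agent.S56.FL.Coh
import Fermat.Agent.S56.FL.H50_PMa
import Fermat.Agent.R.H86_Defs2

/-!
# LOC-p-FL, package BRIDGE (helper54): `K̄`-points = `ℚ̄`-points

For a finite `ℤ_(p)`-algebra `H` the `K̄`-points of `H` are the `ℚ̄`-points, through the embedding
`padicEmbedding p : ℚ̄ → K̄`, compatibly with the convolution products and with the Galois actions
(`localGaloisToGlobal p : G_p → G_ℚ`).

* `embZ p` : the embedding as a homomorphism of `ℤ_(p)`-algebras;
* `toLoc` : post-composition with it, a monoid homomorphism; `toLoc_bijective`;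
* `globConj τ f` : the conjugate `τ ∘ f` of a `ℚ̄`-point; `toLoc_globConj`;
* `exists_local_model` : a flat Galois module is the group of `K̄`-points of a finite flat
  cocommutative Hopf algebra over `ℤ_(p)`, with `G_p` acting through `localGaloisToGlobal`.
-/

set_option autoImplicit false
set_option linter.unusedSectionVars false
set_option linter.style.haveILetI false

noncomputable section

namespace Fermat.Agent.S56.FL.H54

open scoped NNReal TensorProduct
open Fermat.Agent.S56.FL WithConv Polynomial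

variable {p : ℕ} [Fact p.Prime]

/-- The embedding `ℚ̄ → K̄` as a homomorphism of `ℤ_(p)`-algebras. -/
def embZ (p : ℕ) [Fact p.Prime] : AlgebraicClosure ℚ →ₐ[Zloc p] PadicAlgCl p :=
  { (padicEmbedding p).toRingHom with
    commutes' := fun r => (padicEmbedding p).commutes (r : ℚ) }

@[simp] theorem embZ_apply (x : AlgebraicClosure ℚ) : embZ p x = padicEmbedding p x := rfl

theorem embZ_injective : Function.Injective (embZ p) := (padicEmbedding p).toRingHom.injective

/-- An element of `K̄` which is algebraic over `ℚ` is in the image of `ℚ̄`. -/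
theorem mem_range_padicEmbedding (y : PadicAlgCl p) (hy : IsIntegral ℚ y) :
    ∃ a : AlgebraicClosure ℚ, padicEmbedding p a = y := by
  have hsplit : ((minpoly ℚ y).map (algebraMap ℚ (AlgebraicClosure ℚ))).Splits :=
    IsAlgClosed.splits _
  have hroot : y ∈ (((minpoly ℚ y).map (algebraMap ℚ (AlgebraicClosure ℚ))).map
      (padicEmbedding p).toRingHom).roots := by
    rw [Polynomial.mem_roots']
    constructor
    · rw [Polynomial.map_map]
      exact Polynomial.map_ne_zero (minpoly.ne_zero hy)
    · rw [Polynomial.map_map, Polynomial.IsRoot.def, Polynomial.eval_map]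
      have : (padicEmbedding p).toRingHom.comp (algebraMap ℚ (AlgebraicClosure ℚ)) =
          algebraMap ℚ (PadicAlgCl p) := by
        ext r
        exact (padicEmbedding p).commutes r
      rw [this, ← Polynomial.aeval_def]
      exact minpoly.aeval ℚ y
  rw [hsplit.roots_map, Multiset.mem_map] at hroot
  obtain ⟨a, -, ha⟩ := hroot
  exact ⟨a, ha⟩

variable {H : Type} [CommRing H] [HopfAlgebra (Zloc p) H]

/-- Post-composition with the embedding `ℚ̄ → K̄`. -/
def toLoc : WithConv (H →ₐ[Zloc p] AlgebraicClosure ℚ) →*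
    WithConv (H →ₐ[Zloc p] PadicAlgCl p) :=
  H50.postAlg (embZ p)

@[simp] theorem toLoc_apply (f : WithConv (H →ₐ[Zloc p] AlgebraicClosure ℚ)) (h : H) :
    (toLoc f).ofConv h = padicEmbedding p (f.ofConv h) := rfl

theorem toLoc_injective :
    Function.Injective (toLoc : WithConv (H →ₐ[Zloc p] AlgebraicClosure ℚ) → _) :=
  H50.postAlg_injective _ embZ_injective

theorem isIntegral_point [Module.Finite (Zloc p) H] (x : H →ₐ[Zloc p] PadicAlgCl p) (h : H) :
    IsIntegral ℚ (x h) := by
  have h1 : IsIntegral (Zloc p) h := Algebra.IsIntegral.isIntegral h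
  have h2 : IsIntegral (Zloc p) (x h) := h1.map x
  exact h2.tower_top

theorem toLoc_surjective [Module.Finite (Zloc p) H] :
    Function.Surjective (toLoc : WithConv (H →ₐ[Zloc p] AlgebraicClosure ℚ) → _) := by
  intro x
  have hx : ∀ h : H, x.ofConv h ∈ (embZ p).range := by
    intro h
    obtain ⟨a, ha⟩ := mem_range_padicEmbedding (x.ofConv h) (isIntegral_point x.ofConv h)
    exact ⟨a, ha⟩
  let e := AlgEquiv.ofInjective (embZ p) embZ_injective
  refine ⟨toConv ((e.symm : (embZ p).range →ₐ[Zloc p] AlgebraicClosure ℚ).comp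
    (x.ofConv.codRestrict (embZ p).range hx)), ?_⟩
  apply WithConv.ofConv_injective
  apply AlgHom.ext
  intro h
  show embZ p (e.symm (x.ofConv.codRestrict (embZ p).range hx h)) = x.ofConv h
  have h1 : embZ p (e.symm (x.ofConv.codRestrict (embZ p).range hx h)) =
      ((e (e.symm (x.ofConv.codRestrict (embZ p).range hx h)) : (embZ p).range) :
        PadicAlgCl p) := rfl
  rw [h1, AlgEquiv.apply_symm_apply]
  rfl

theorem toLoc_bijective [Module.Finite (Zloc p) H] :
    Function.Bijective (toLoc : WithConv (H →ₐ[Zloc p] AlgebraicClosure ℚ) → _) :=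
  ⟨toLoc_injective, toLoc_surjective⟩

/-- The conjugate `τ ∘ f` of a `ℚ̄`-point. -/
def globConj (τ : AlgebraicClosure ℚ ≃ₐ[ℚ] AlgebraicClosure ℚ)
    (f : WithConv (H →ₐ[Zloc p] AlgebraicClosure ℚ)) :
    WithConv (H →ₐ[Zloc p] AlgebraicClosure ℚ) :=
  toConv (((τ : AlgebraicClosure ℚ →ₐ[ℚ] AlgebraicClosure ℚ).restrictScalars (Zloc p)).comp
    f.ofConv)

@[simp] theorem globConj_apply (τ : AlgebraicClosure ℚ ≃ₐ[ℚ] AlgebraicClosure ℚ)
    (f : WithConv (H →ₐ[Zloc p] AlgebraicClosure ℚ)) (h : H) :
    (globConj τ f).ofConv h = τ (f.ofConv h) := rfl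

theorem toLoc_globConj (σ : Gp p) (f : WithConv (H →ₐ[Zloc p] AlgebraicClosure ℚ)) :
    toLoc (globConj (localGaloisToGlobal p σ) f) = pointAct σ (toLoc f) := by
  apply WithConv.ofConv_injective
  apply AlgHom.ext
  intro h
  show padicEmbedding p (localGaloisToGlobal p σ (f.ofConv h)) = σ (padicEmbedding p (f.ofConv h))
  exact padicEmbedding_localGaloisToGlobal p σ _

/-- The bijection between `ℚ̄`-points and `K̄`-points. -/
def locEquiv [Module.Finite (Zloc p) H] :
    WithConv (H →ₐ[Zloc p] AlgebraicClosure ℚ) ≃ WithConv (H →ₐ[Zloc p] PadicAlgCl p) :=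
  Equiv.ofBijective _ toLoc_bijective

@[simp] theorem locEquiv_apply [Module.Finite (Zloc p) H]
    (f : WithConv (H →ₐ[Zloc p] AlgebraicClosure ℚ)) : locEquiv f = toLoc f := rfl

/-- **The local model of a flat Galois module**: a flat `G_ℚ`-module is the group of `K̄`-points
of a finite flat cocommutative Hopf algebra over `ℤ_(p)`, with `G_p` acting through
`localGaloisToGlobal`. -/
theorem exists_local_model {M : Type} [AddCommGroup M]
    {act : (AlgebraicClosure ℚ ≃ₐ[ℚ] AlgebraicClosure ℚ) → M → M}
    (hM : Fermat.Agent.R.IsFlatGaloisModule p M act) :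
    ∃ (H : Type) (_ : CommRing H) (_ : HopfAlgebra (Zloc p) H),
      Module.Finite (Zloc p) H ∧ Module.Flat (Zloc p) H ∧ Coalgebra.IsCocomm (Zloc p) H ∧
      ∃ e : WithConv (H →ₐ[Zloc p] PadicAlgCl p) ≃ M,
        (∀ x y : WithConv (H →ₐ[Zloc p] PadicAlgCl p), e (x * y) = e x + e y) ∧
        ∀ (σ : Gp p) (x : WithConv (H →ₐ[Zloc p] PadicAlgCl p)),
          e (pointAct σ x) = act (localGaloisToGlobal p σ) (e x) := by
  obtain ⟨H, i1, i2, hfin, hflat, hcoc, e, hmul, hact⟩ := hM
  refine ⟨H, i1, i2, hfin, hflat, hcoc, locEquiv.symm.trans e, ?_, ?_⟩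
  · intro x y
    obtain ⟨f, rfl⟩ := toLoc_surjective x
    obtain ⟨g, rfl⟩ := toLoc_surjective y
    have h1 : locEquiv.symm (toLoc f * toLoc g) = f * g := by
      rw [← map_mul]
      exact locEquiv.symm_apply_apply (f * g)
    have h2 : locEquiv.symm (toLoc f) = f := locEquiv.symm_apply_apply f
    have h3 : locEquiv.symm (toLoc g) = g := locEquiv.symm_apply_apply g
    show e (locEquiv.symm (toLoc f * toLoc g)) =
      e (locEquiv.symm (toLoc f)) + e (locEquiv.symm (toLoc g))
    rw [h1, h2, h3, hmul]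
  · intro σ x
    obtain ⟨f, rfl⟩ := toLoc_surjective x
    have h2 : locEquiv.symm (toLoc f) = f := locEquiv.symm_apply_apply f
    have h1 : locEquiv.symm (pointAct σ (toLoc f)) = globConj (localGaloisToGlobal p σ) f := by
      rw [← toLoc_globConj]
      exact locEquiv.symm_apply_apply _
    show e (locEquiv.symm (pointAct σ (toLoc f))) =
      act (localGaloisToGlobal p σ) (e (locEquiv.symm (toLoc f)))
    rw [h1, h2]
    exact hact (localGaloisToGlobal p σ) f _ (fun h => rfl)

end Fermat.Agent.S56.FL.H54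

end
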