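import Fermat.Agent.S56.FL.H54_ConnBase

/-!
# LOC-p-FL, package CONN (helper54): base change of `H` from `ℤ_(p)` to `ℤ_p`

The `K̄`-points of `ℤ_p ⊗ H` (over `ℤ_p`) are the `K̄`-points of `H` (over `ℤ_(p)`), compatibly
with the group laws and the action of `G_p`.
-/

set_option autoImplicit false
set_option linter.unusedSectionVars false
set_option linter.style.haveILetI false

noncomputable section

namespace Fermat.Agent.S56.FL.H54

open scoped NNReal TensorProduct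
open Fermat.Agent.S56.FL Fermat.Agent.R.H54 WithConv

variable {p : ℕ} [Fact p.Prime]
variable {H : Type} [CommRing H] [HopfAlgebra (Zloc p) H]

/-- Restriction of a point of `ℤ_p ⊗ H` to `H`. -/
def resBC (φ : Pts ℤ_[p] (ℤ_[p] ⊗[Zloc p] H) (PadicAlgCl p)) :
    WithConv (H →ₐ[Zloc p] PadicAlgCl p) :=
  toConv ((φ.ofConv.restrictScalars (Zloc p)).comp Algebra.TensorProduct.includeRight)

@[simp] lemma resBC_apply (φ : Pts ℤ_[p] (ℤ_[p] ⊗[Zloc p] H) (PadicAlgCl p)) (h : H) :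
    resBC φ h = φ ((1 : ℤ_[p]) ⊗ₜ[Zloc p] h) := rfl

/-- Extension of a point of `H` to `ℤ_p ⊗ H`. -/
def extBC (x : WithConv (H →ₐ[Zloc p] PadicAlgCl p)) :
    Pts ℤ_[p] (ℤ_[p] ⊗[Zloc p] H) (PadicAlgCl p) :=
  toConv (Algebra.TensorProduct.lift (Algebra.ofId ℤ_[p] (PadicAlgCl p)) x.ofConv
    (fun _ _ => Commute.all _ _))

@[simp] lemma extBC_tmul (x : WithConv (H →ₐ[Zloc p] PadicAlgCl p)) (c : ℤ_[p]) (h : H) :
    extBC x (c ⊗ₜ[Zloc p] h) = algebraMap ℤ_[p] (PadicAlgCl p) c * x h := by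
  simp [extBC]

lemma resBC_extBC (x : WithConv (H →ₐ[Zloc p] PadicAlgCl p)) : resBC (extBC x) = x := by
  apply WithConv.ext
  apply AlgHom.ext
  intro h
  show extBC x ((1 : ℤ_[p]) ⊗ₜ[Zloc p] h) = x h
  rw [extBC_tmul, map_one, one_mul]

lemma apply_tmul (φ : Pts ℤ_[p] (ℤ_[p] ⊗[Zloc p] H) (PadicAlgCl p)) (c : ℤ_[p]) (h : H) :
    φ (c ⊗ₜ[Zloc p] h) = algebraMap ℤ_[p] (PadicAlgCl p) c * resBC φ h := by
  have h1 : c ⊗ₜ[Zloc p] h = c • ((1 : ℤ_[p]) ⊗ₜ[Zloc p] h) := by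
    rw [TensorProduct.smul_tmul', smul_eq_mul, mul_one]
  rw [h1]
  show φ.ofConv (c • ((1 : ℤ_[p]) ⊗ₜ[Zloc p] h)) = _
  rw [map_smul, Algebra.smul_def]
  rfl

lemma extBC_resBC (φ : Pts ℤ_[p] (ℤ_[p] ⊗[Zloc p] H) (PadicAlgCl p)) : extBC (resBC φ) = φ := by
  apply WithConv.ext
  apply AlgHom.ext
  intro t
  induction t using TensorProduct.induction_on with
  | zero => rw [map_zero, map_zero]
  | tmul c h =>
    show extBC (resBC φ) (c ⊗ₜ[Zloc p] h) = φ (c ⊗ₜ[Zloc p] h)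
    rw [extBC_tmul, apply_tmul]
  | add s t hs ht => rw [map_add, map_add, hs, ht]

lemma resBC_injective :
    Function.Injective (resBC : Pts ℤ_[p] (ℤ_[p] ⊗[Zloc p] H) (PadicAlgCl p) → _) := by
  intro φ ψ h
  rw [← extBC_resBC φ, ← extBC_resBC ψ, h]

lemma resBC_one : resBC (1 : Pts ℤ_[p] (ℤ_[p] ⊗[Zloc p] H) (PadicAlgCl p)) = 1 := by
  apply WithConv.ext
  apply AlgHom.ext
  intro h
  show algebraMap ℤ_[p] (PadicAlgCl p)
      (Coalgebra.counit (R := ℤ_[p]) ((1 : ℤ_[p]) ⊗ₜ[Zloc p] h)) =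
    algebraMap (Zloc p) (PadicAlgCl p) (Coalgebra.counit (R := Zloc p) h)
  rw [TensorProduct.counit_tmul]
  simp only [CommSemiring.counit_apply, Algebra.smul_def, mul_one]
  exact (IsScalarTower.algebraMap_apply (Zloc p) ℤ_[p] (PadicAlgCl p) _).symm

lemma resBC_mul (φ ψ : Pts ℤ_[p] (ℤ_[p] ⊗[Zloc p] H) (PadicAlgCl p)) :
    resBC (φ * ψ) = resBC φ * resBC ψ := by
  apply WithConv.ext
  apply AlgHom.ext
  intro h
  show (φ * ψ) ((1 : ℤ_[p]) ⊗ₜ[Zloc p] h) = (resBC φ * resBC ψ) h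
  have key : ∀ t : H ⊗[Zloc p] H,
      LinearMap.mul' ℤ_[p] (PadicAlgCl p)
        (TensorProduct.map φ.ofConv.toLinearMap ψ.ofConv.toLinearMap
          (TensorProduct.AlgebraTensorModule.tensorTensorTensorComm (Zloc p) ℤ_[p] (Zloc p)
            ℤ_[p] ℤ_[p] ℤ_[p] H H (((1 : ℤ_[p]) ⊗ₜ[ℤ_[p]] (1 : ℤ_[p])) ⊗ₜ[Zloc p] t))) =
      LinearMap.mul' (Zloc p) (PadicAlgCl p)
        (TensorProduct.map (resBC φ).ofConv.toLinearMap (resBC ψ).ofConv.toLinearMap t) := by
    intro t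
    induction t using TensorProduct.induction_on with
    | zero => simp
    | tmul a b =>
      simp only [TensorProduct.AlgebraTensorModule.tensorTensorTensorComm_tmul,
        TensorProduct.map_tmul, LinearMap.mul'_apply, AlgHom.toLinearMap_apply]
      rfl
    | add s t hs ht =>
      simp only [TensorProduct.tmul_add, map_add, hs, ht]
  rw [convMul_apply', convMul_apply', TensorProduct.comul_tmul, ← key]
  rfl

lemma resBC_pow (φ : Pts ℤ_[p] (ℤ_[p] ⊗[Zloc p] H) (PadicAlgCl p)) (n : ℕ) :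
    resBC (φ ^ n) = resBC φ ^ n := by
  induction n with
  | zero => rw [pow_zero, pow_zero, resBC_one]
  | succ n ih => rw [pow_succ, pow_succ, resBC_mul, ih]

lemma extBC_one : extBC (1 : WithConv (H →ₐ[Zloc p] PadicAlgCl p)) = 1 :=
  resBC_injective (by rw [resBC_extBC, resBC_one])

lemma extBC_mul (x y : WithConv (H →ₐ[Zloc p] PadicAlgCl p)) :
    extBC (x * y) = extBC x * extBC y :=
  resBC_injective (by rw [resBC_mul, resBC_extBC, resBC_extBC, resBC_extBC])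

lemma resBC_gconj (σ : Gp p) (φ : Pts ℤ_[p] (ℤ_[p] ⊗[Zloc p] H) (PadicAlgCl p)) :
    resBC (gconj descentData_padic σ φ) = pointAct σ (resBC φ) := by
  apply WithConv.ext
  apply AlgHom.ext
  intro h
  rfl

lemma extBC_pointAct (σ : Gp p) (x : WithConv (H →ₐ[Zloc p] PadicAlgCl p)) :
    extBC (pointAct σ x) = gconj descentData_padic σ (extBC x) :=
  resBC_injective (by rw [resBC_gconj, resBC_extBC, resBC_extBC])

/-- A point reducing to the identity on `H` reduces to the identity on `ℤ_p ⊗ H`. -/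
lemma norm_extBC_sub_counit_lt (x : WithConv (H →ₐ[Zloc p] PadicAlgCl p))
    (hx : ∀ h : H, ‖x.ofConv h - algebraMap (Zloc p) (PadicAlgCl p) (Coalgebra.counit h)‖ < 1)
    (t : ℤ_[p] ⊗[Zloc p] H) :
    ‖extBC x t - algebraMap ℤ_[p] (PadicAlgCl p) (Coalgebra.counit (R := ℤ_[p]) t)‖ < 1 := by
  induction t using TensorProduct.induction_on with
  | zero => simp
  | tmul c h =>
    rw [extBC_tmul, TensorProduct.counit_tmul]
    simp only [CommSemiring.counit_apply, Algebra.smul_def, map_mul]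
    rw [← IsScalarTower.algebraMap_apply (Zloc p) ℤ_[p] (PadicAlgCl p), mul_comm _
      (algebraMap ℤ_[p] (PadicAlgCl p) c), ← mul_sub, norm_mul]
    calc ‖algebraMap ℤ_[p] (PadicAlgCl p) c‖ * ‖x h - algebraMap (Zloc p) (PadicAlgCl p)
          (Coalgebra.counit h)‖
        ≤ 1 * ‖x h - algebraMap (Zloc p) (PadicAlgCl p) (Coalgebra.counit h)‖ :=
          mul_le_mul_of_nonneg_right (norm_algebraMap_padicInt_le_one c) (norm_nonneg _)
      _ < 1 := by rw [one_mul]; exact hx h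
  | add s t hs ht =>
    have h1 : extBC x (s + t) - algebraMap ℤ_[p] (PadicAlgCl p)
        (Coalgebra.counit (R := ℤ_[p]) (s + t)) =
        (extBC x s - algebraMap ℤ_[p] (PadicAlgCl p) (Coalgebra.counit (R := ℤ_[p]) s)) +
        (extBC x t - algebraMap ℤ_[p] (PadicAlgCl p) (Coalgebra.counit (R := ℤ_[p]) t)) := by
      have h2 : extBC x (s + t) = extBC x s + extBC x t := map_add (extBC x).ofConv s t
      rw [h2, map_add, map_add]
      ring
    rw [h1]
    exact (IsUltrametricDist.norm_add_le_max _ _).trans_lt (max_lt hs ht)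

end Fermat.Agent.S56.FL.H54

end
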