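import Mathlib

/-!
# LOC-p-FL, package PM (helper54): convolution rings

Generic facts about the convolution ring `WithConv (H →ₗ[R₀] A)` of a bialgebra `H` over `R₀`
with values in a commutative `R₀`-algebra `A`:

* `isUnit_of_sub_one_mem` : Nakayama, an element `≡ 1` modulo the maximal ideal of a local ring
  in a finite algebra is a unit;
* `preC`, `postC` : the ring homomorphisms given by composition with a coalgebra homomorphism on
  the right / an algebra homomorphism on the left;
* `mem_map_iff` : membership in the extension of an ideal of `A` is checked on values.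
-/

set_option autoImplicit false
set_option linter.unusedSectionVars false

open scoped TensorProduct
open WithConv

namespace Fermat.Agent.S56.FL.H54

section Nakayama

/-- **Nakayama.** In a finite algebra over a local ring, an element congruent to `1` modulo the
maximal ideal is a unit. -/
theorem isUnit_of_sub_one_mem {R C : Type} [CommRing R] [IsLocalRing R] [CommRing C]
    [Algebra R C] [Module.Finite R C] (u : C)
    (hu : u - 1 ∈ Ideal.map (algebraMap R C) (IsLocalRing.maximalIdeal R)) : IsUnit u := by
  set N : Submodule R C := (Ideal.span {u}).restrictScalars R with hN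
  have hle : (⊤ : Submodule R C) ≤ N ⊔ (IsLocalRing.maximalIdeal R) • (⊤ : Submodule R C) := by
    intro c _
    have h1 : c = u * c + (-(u - 1) * c) := by ring
    rw [h1]
    refine Submodule.add_mem_sup ?_ ?_
    · show u * c ∈ Ideal.span {u}
      exact Ideal.mul_mem_right _ _ (Ideal.subset_span rfl)
    · rw [Ideal.smul_top_eq_map]
      show -(u - 1) * c ∈ Ideal.map (algebraMap R C) (IsLocalRing.maximalIdeal R)
      exact Ideal.mul_mem_right _ _ (neg_mem hu)
  have hjac : IsLocalRing.maximalIdeal R ≤ Ideal.jacobson ⊥ := by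
    rw [IsLocalRing.jacobson_eq_maximalIdeal ⊥ bot_ne_top]
  have htop : (⊤ : Submodule R C) ≤ N :=
    Submodule.le_of_le_smul_of_le_jacobson_bot (Module.finite_def.mp inferInstance) hjac hle
  have h1 : (1 : C) ∈ Ideal.span {u} := htop (Submodule.mem_top (x := (1 : C)))
  obtain ⟨v, hv⟩ := Ideal.mem_span_singleton'.mp h1
  exact IsUnit.of_mul_eq_one v (by rw [mul_comm]; exact hv)

end Nakayama

section Conv

variable {R₀ : Type} [CommRing R₀] {H : Type} [CommRing H] [Bialgebra R₀ H]
  [Coalgebra.IsCocomm R₀ H]
variable {A A' : Type} [CommRing A] [Algebra R₀ A] [CommRing A'] [Algebra R₀ A']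

/-- Composition with a coalgebra homomorphism on the right is a ring homomorphism of convolution
rings. -/
noncomputable def preC {B : Type} [AddCommGroup B] [Module R₀ B] [Coalgebra R₀ B]
    (h : B →ₗc[R₀] H) : WithConv (H →ₗ[R₀] A) →+* WithConv (B →ₗ[R₀] A) where
  toFun f := toConv (f.ofConv.comp h.toLinearMap)
  map_one' := by
    apply WithConv.ext
    apply LinearMap.ext
    intro x
    show algebraMap R₀ A (Coalgebra.counit (R := R₀) (h x)) =
      algebraMap R₀ A (Coalgebra.counit (R := R₀) x)
    rw [CoalgHomClass.counit_comp_apply]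
  map_mul' f g := by
    apply WithConv.ext
    exact LinearMap.convMul_comp_coalgHom_distrib f g h
  map_zero' := by
    apply WithConv.ext
    apply LinearMap.ext
    intro x
    rfl
  map_add' f g := by
    apply WithConv.ext
    apply LinearMap.ext
    intro x
    rfl

@[simp] lemma preC_apply {B : Type} [AddCommGroup B] [Module R₀ B] [Coalgebra R₀ B]
    (h : B →ₗc[R₀] H) (f : WithConv (H →ₗ[R₀] A)) (x : B) :
    (preC h f) x = f (h x) := rfl

/-- Composition with an algebra homomorphism on the left is a ring homomorphism of convolution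
rings. -/
noncomputable def postC (φ : A →ₐ[R₀] A') : WithConv (H →ₗ[R₀] A) →+* WithConv (H →ₗ[R₀] A') where
  toFun f := toConv (φ.toLinearMap.comp f.ofConv)
  map_one' := by
    apply WithConv.ext
    apply LinearMap.ext
    intro x
    show φ (algebraMap R₀ A (Coalgebra.counit (R := R₀) x)) =
      algebraMap R₀ A' (Coalgebra.counit (R := R₀) x)
    rw [φ.commutes]
  map_mul' f g := by
    apply WithConv.ext
    exact LinearMap.algHom_comp_convMul_distrib φ f g
  map_zero' := by
    apply WithConv.ext
    apply LinearMap.ext
    intro x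
    show φ 0 = 0
    rw [map_zero]
  map_add' f g := by
    apply WithConv.ext
    apply LinearMap.ext
    intro x
    show φ (f x + g x) = φ (f x) + φ (g x)
    rw [map_add]

@[simp] lemma postC_apply (φ : A →ₐ[R₀] A') (f : WithConv (H →ₗ[R₀] A)) (x : H) :
    (postC φ f) x = φ (f x) := rfl

/-- The values of an element of the extension of an ideal `I` lie in `I`. -/
theorem apply_mem_of_mem_map (I : Ideal A) (f : WithConv (H →ₗ[R₀] A))
    (hf : f ∈ Ideal.map (algebraMap A (WithConv (H →ₗ[R₀] A))) I) (x : H) : f x ∈ I := by
  rw [Ideal.map, Ideal.span] at hf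
  induction hf using Submodule.span_induction generalizing x with
  | mem g hg =>
    obtain ⟨a, ha, rfl⟩ := hg
    show a • algebraMap R₀ A (Coalgebra.counit (R := R₀) x) ∈ I
    rw [smul_eq_mul]
    exact Ideal.mul_mem_right _ _ ha
  | zero => exact I.zero_mem
  | add g g' _ _ hg hg' => exact I.add_mem (hg x) (hg' x)
  | smul a g _ hg =>
    rw [smul_eq_mul, (Coalgebra.Repr.arbitrary R₀ x).convMul_apply]
    exact Ideal.sum_mem _ fun i _ => Ideal.mul_mem_left _ _ (hg _)

/-- An element all of whose values lie in `I` belongs to the extension of `I`. -/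
theorem mem_map_of_apply_mem [Module.Free R₀ H] [Module.Finite R₀ H] (I : Ideal A)
    (f : WithConv (H →ₗ[R₀] A)) (hf : ∀ x : H, f x ∈ I) :
    f ∈ Ideal.map (algebraMap A (WithConv (H →ₗ[R₀] A))) I := by
  classical
  set b := Module.Free.chooseBasis R₀ H
  have key : f = ∑ i, algebraMap A (WithConv (H →ₗ[R₀] A)) (f (b i)) *
      toConv ((Algebra.linearMap R₀ A).comp (b.coord i)) := by
    apply WithConv.ext
    apply b.ext
    intro j
    rw [WithConv.ofConv_sum, LinearMap.sum_apply]
    have h1 : ∀ i, (algebraMap A (WithConv (H →ₗ[R₀] A)) (f (b i)) *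
        toConv ((Algebra.linearMap R₀ A).comp (b.coord i))).ofConv (b j) =
        if i = j then f (b i) else 0 := by
      intro i
      rw [← Algebra.smul_def]
      show f (b i) • algebraMap R₀ A (b.coord i (b j)) = _
      rw [Module.Basis.coord_apply, Module.Basis.repr_self, Finsupp.single_apply]
      by_cases hij : j = i
      · rw [if_pos hij, if_pos hij.symm, map_one, smul_eq_mul, mul_one]
      · rw [if_neg hij, if_neg (Ne.symm hij), map_zero, smul_zero]
    simp only [h1]
    rw [Finset.sum_ite_eq' Finset.univ j]
    simp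
  rw [key]
  exact Ideal.sum_mem _ fun i _ => Ideal.mul_mem_right _ _ (Ideal.mem_map_of_mem _ (hf _))

theorem mem_map_iff [Module.Free R₀ H] [Module.Finite R₀ H] (I : Ideal A)
    (f : WithConv (H →ₗ[R₀] A)) :
    f ∈ Ideal.map (algebraMap A (WithConv (H →ₗ[R₀] A))) I ↔ ∀ x : H, f x ∈ I :=
  ⟨apply_mem_of_mem_map I f, mem_map_of_apply_mem I f⟩

end Conv

end Fermat.Agent.S56.FL.H54
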