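import Fermat.Agent.S56.FL.H50_LiftB
import Fermat.Agent.S56.FL.H54_PMConv

/-!
# LOC-p-FL, package PM (helper54): basics on the rings `𝒪_F = intRing p F`

* `norm_algebraMap_zloc_le_one` : elements of `ℤ_(p)` have norm `≤ 1` in `K̄`;
* `norm_le_one_of_monic` : roots of monic polynomials with integral coefficients are integral;
* `algZlocIntRing` : `𝒪_F` is a `ℤ_(p)`-algebra; `inclAlg` : the inclusion `𝒪_F → K̄`;
* `intRing_isLocalRing`, `ballIdeal_le_maximalIdeal`.
-/

set_option autoImplicit false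
set_option linter.unusedSectionVars false

noncomputable section

namespace Fermat.Agent.S56.FL.H54

open scoped NNReal
open Fermat.Agent.S56.FL

variable {p : ℕ} [Fact p.Prime]

theorem algebraMap_zloc_eq (r : Zloc p) :
    algebraMap (Zloc p) (PadicAlgCl p) r =
      algebraMap ℚ_[p] (PadicAlgCl p) (((r : ℚ) : ℚ_[p])) := by
  have h1 : algebraMap (Zloc p) (PadicAlgCl p) r =
      algebraMap ℚ_[p] (PadicAlgCl p) (algebraMap (Zloc p) ℚ_[p] r) := rfl
  rw [h1]
  congr 1

theorem norm_algebraMap_zloc_le_one (r : Zloc p) :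
    ‖algebraMap (Zloc p) (PadicAlgCl p) r‖ ≤ 1 := by
  rw [algebraMap_zloc_eq, PadicAlgCl.norm_extends]
  apply Padic.norm_rat_le_one
  have h : (r : ℚ).den.Coprime p := r.2
  intro hdvd
  have h2 := Nat.Coprime.eq_one_of_dvd h.symm hdvd
  exact (Fact.out : p.Prime).one_lt.ne' h2

theorem algebraMap_zloc_mem (F : IntermediateField ℚ_[p] (PadicAlgCl p)) (r : Zloc p) :
    algebraMap (Zloc p) (PadicAlgCl p) r ∈ F := by
  rw [algebraMap_zloc_eq]
  exact F.algebraMap_mem _

/-- A root of a monic polynomial with coefficients of norm `≤ 1` has norm `≤ 1`. -/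
theorem norm_le_one_of_monic (a : PadicAlgCl p) (P : Polynomial (PadicAlgCl p)) (hP : P.Monic)
    (hc : ∀ i, ‖P.coeff i‖ ≤ 1) (ha : P.eval a = 0) : ‖a‖ ≤ 1 := by
  by_contra hcon
  have h1 : 1 < ‖a‖ := not_le.mp hcon
  set n := P.natDegree with hn
  have hn0 : n ≠ 0 := by
    intro h0
    have : P = 1 := Polynomial.eq_one_of_monic_natDegree_zero hP (hn ▸ h0)
    rw [this, Polynomial.eval_one] at ha
    exact one_ne_zero ha
  rw [Polynomial.eval_eq_sum_range, Finset.sum_range_succ, ← hn, hP.coeff_natDegree, one_mul]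
    at ha
  have h2 : a ^ n = -∑ i ∈ Finset.range n, P.coeff i * a ^ i := eq_neg_of_add_eq_zero_right ha
  have h3 : ‖∑ i ∈ Finset.range n, P.coeff i * a ^ i‖ ≤ ‖a‖ ^ (n - 1) := by
    refine IsUltrametricDist.norm_sum_le_of_forall_le_of_nonneg (by positivity) fun i hi => ?_
    rw [norm_mul, norm_pow]
    have hi' : i ≤ n - 1 := by
      have := Finset.mem_range.mp hi
      omega
    calc ‖P.coeff i‖ * ‖a‖ ^ i ≤ 1 * ‖a‖ ^ (n - 1) :=
          mul_le_mul (hc i) (pow_le_pow_right₀ h1.le hi') (by positivity) zero_le_one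
      _ = ‖a‖ ^ (n - 1) := one_mul _
  have h4 : ‖a‖ ^ n ≤ ‖a‖ ^ (n - 1) := by
    rw [← norm_pow, h2, norm_neg]
    exact h3
  have h5 : ‖a‖ ^ (n - 1) < ‖a‖ ^ n := pow_lt_pow_right₀ h1 (by omega)
  exact absurd h4 (not_le.mpr h5)

/-- The values of an algebra homomorphism from a finite `ℤ_(p)`-algebra are integral. -/
theorem norm_point_le_one {H : Type} [CommRing H] [Algebra (Zloc p) H] [Module.Finite (Zloc p) H]
    (x : H →ₐ[Zloc p] PadicAlgCl p) (h : H) : ‖x h‖ ≤ 1 := by
  have hint : IsIntegral (Zloc p) h := Algebra.IsIntegral.isIntegral h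
  obtain ⟨P, hP, hPh⟩ := hint
  refine norm_le_one_of_monic (x h) (P.map (algebraMap (Zloc p) (PadicAlgCl p)))
    (hP.map _) (fun i => ?_) ?_
  · rw [Polynomial.coeff_map]
    exact norm_algebraMap_zloc_le_one _
  · rw [Polynomial.eval_map, ← Polynomial.aeval_def, Polynomial.aeval_algHom_apply,
      Polynomial.aeval_def, hPh, map_zero]

variable (F : IntermediateField ℚ_[p] (PadicAlgCl p))

/-- The structure map `ℤ_(p) → 𝒪_F`. -/
def zlocToInt : Zloc p →+* intRing p F where
  toFun r := ⟨algebraMap (Zloc p) (PadicAlgCl p) r, algebraMap_zloc_mem F r,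
    norm_algebraMap_zloc_le_one r⟩
  map_one' := Subtype.ext (map_one _)
  map_mul' a b := Subtype.ext (map_mul _ a b)
  map_zero' := Subtype.ext (map_zero _)
  map_add' a b := Subtype.ext (map_add _ a b)

/-- `𝒪_F` as a `ℤ_(p)`-algebra. -/
instance algZlocIntRing : Algebra (Zloc p) (intRing p F) := (zlocToInt F).toAlgebra

@[simp] theorem coe_algebraMap_zloc (r : Zloc p) :
    ((algebraMap (Zloc p) (intRing p F) r : intRing p F) : PadicAlgCl p) =
      algebraMap (Zloc p) (PadicAlgCl p) r := rfl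

/-- The inclusion `𝒪_F → K̄` as a homomorphism of `ℤ_(p)`-algebras. -/
def inclAlg : intRing p F →ₐ[Zloc p] PadicAlgCl p where
  toRingHom := (intRing p F).subtype
  commutes' _ := rfl

@[simp] theorem inclAlg_apply (a : intRing p F) : inclAlg F a = (a : PadicAlgCl p) := rfl

theorem inclAlg_injective : Function.Injective (inclAlg F) := Subtype.val_injective

variable {F}

theorem isUnit_intRing_iff {a : intRing p F} : IsUnit a ↔ ‖(a : PadicAlgCl p)‖ = 1 := by
  constructor
  · rintro ⟨u, rfl⟩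
    have h1 : ‖((u : intRing p F) : PadicAlgCl p)‖ ≤ 1 := (u : intRing p F).2.2
    have h2 : ‖(((u⁻¹ : (intRing p F)ˣ) : intRing p F) : PadicAlgCl p)‖ ≤ 1 :=
      ((u⁻¹ : (intRing p F)ˣ) : intRing p F).2.2
    have h3 : ((u : intRing p F) : PadicAlgCl p) *
        (((u⁻¹ : (intRing p F)ˣ) : intRing p F) : PadicAlgCl p) = 1 := by
      rw [← Subring.coe_mul, Units.mul_inv, Subring.coe_one]
    have h4 := congrArg norm h3
    rw [norm_mul, norm_one] at h4
    by_contra hne
    have hlt : ‖((u : intRing p F) : PadicAlgCl p)‖ < 1 := lt_of_le_of_ne h1 hne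
    have : ‖((u : intRing p F) : PadicAlgCl p)‖ *
        ‖(((u⁻¹ : (intRing p F)ˣ) : intRing p F) : PadicAlgCl p)‖ < 1 := by
      calc _ ≤ ‖((u : intRing p F) : PadicAlgCl p)‖ * 1 :=
            mul_le_mul_of_nonneg_left h2 (norm_nonneg _)
        _ < 1 := by rw [mul_one]; exact hlt
    exact absurd h4 this.ne
  · intro h
    have ha0 : (a : PadicAlgCl p) ≠ 0 := by
      intro h0
      rw [h0, norm_zero] at h
      exact zero_ne_one h
    refine IsUnit.of_mul_eq_one (⟨(a : PadicAlgCl p)⁻¹, F.inv_mem a.2.1, ?_⟩ : intRing p F) ?_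
    · rw [norm_inv, h, inv_one]
    · apply Subtype.ext
      show (a : PadicAlgCl p) * (a : PadicAlgCl p)⁻¹ = 1
      exact mul_inv_cancel₀ ha0

theorem not_isUnit_intRing_iff {a : intRing p F} : ¬ IsUnit a ↔ ‖(a : PadicAlgCl p)‖ < 1 := by
  rw [isUnit_intRing_iff]
  constructor
  · intro h
    exact lt_of_le_of_ne a.2.2 h
  · intro h
    exact h.ne

instance intRing_isLocalRing : IsLocalRing (intRing p F) := by
  refine IsLocalRing.of_nonunits_add ?_
  intro a b ha hb
  rw [mem_nonunits_iff, not_isUnit_intRing_iff] at ha hb ⊢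
  rw [Subring.coe_add]
  exact (IsUltrametricDist.norm_add_le_max _ _).trans_lt (max_lt ha hb)

theorem ballIdeal_le_maximalIdeal {c : ℝ≥0} (hc : c < 1) :
    ballIdeal p F c ≤ IsLocalRing.maximalIdeal (intRing p F) := by
  intro a ha
  rw [IsLocalRing.mem_maximalIdeal, mem_nonunits_iff, not_isUnit_intRing_iff]
  have h1 : ‖(a : PadicAlgCl p)‖ ≤ c := (mem_ballIdeal p).mp ha
  exact lt_of_le_of_lt h1 (by exact_mod_cast hc)

theorem ballIdeal_mono {c c' : ℝ≥0} (h : c ≤ c') : ballIdeal p F c ≤ ballIdeal p F c' := by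
  intro a ha
  rw [mem_ballIdeal] at ha ⊢
  exact ha.trans (by exact_mod_cast h)

end Fermat.Agent.S56.FL.H54

end
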