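import Fermat.Agent.S56.FL.Coh
import Fermat.Agent.S56.FL.H54_PMBase
import Fermat.Agent.R.Flat.H54_QuotMain

/-!
# LOC-p-FL, package CONN (helper54): the triple `(ℤ_p, K̄, G_p)`

* `algZlocPadicInt` : `ℤ_p` as a `ℤ_(p)`-algebra, with the scalar tower to `K̄`;
* `descentData_padic` : `DescentData ℤ_p K̄ G_p` (fixed points of `G_p` are in `ℚ_p`);
* `algPadicIntIntRing` : `𝒪_F` as a `ℤ_p`-algebra, `inclAlgP` the inclusion into `K̄`.
-/

set_option autoImplicit false
set_option linter.unusedSectionVars false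
set_option linter.style.haveILetI false

noncomputable section

namespace Fermat.Agent.S56.FL.H54

open scoped NNReal TensorProduct
open Fermat.Agent.S56.FL Fermat.Agent.R.H54

variable {p : ℕ} [Fact p.Prime]

theorem norm_zloc_le_one (r : Zloc p) : ‖((r : ℚ) : ℚ_[p])‖ ≤ 1 := by
  apply Padic.norm_rat_le_one
  have h : (r : ℚ).den.Coprime p := r.2
  intro hdvd
  have h2 := Nat.Coprime.eq_one_of_dvd h.symm hdvd
  exact (Fact.out : p.Prime).one_lt.ne' h2

/-- The structure map `ℤ_(p) → ℤ_p`. -/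
def zlocToPadicInt : Zloc p →+* ℤ_[p] where
  toFun r := ⟨((r : ℚ) : ℚ_[p]), norm_zloc_le_one r⟩
  map_one' := by
    apply Subtype.ext
    simp
  map_mul' a b := by
    apply Subtype.ext
    show (((a * b : Zloc p) : ℚ) : ℚ_[p]) = ((a : ℚ) : ℚ_[p]) * ((b : ℚ) : ℚ_[p])
    rw [Subring.coe_mul, Rat.cast_mul]
  map_zero' := by
    apply Subtype.ext
    simp
  map_add' a b := by
    apply Subtype.ext
    show (((a + b : Zloc p) : ℚ) : ℚ_[p]) = ((a : ℚ) : ℚ_[p]) + ((b : ℚ) : ℚ_[p])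
    rw [Subring.coe_add, Rat.cast_add]

/-- `ℤ_p` as a `ℤ_(p)`-algebra. -/
instance algZlocPadicInt : Algebra (Zloc p) ℤ_[p] := (zlocToPadicInt (p := p)).toAlgebra

theorem coe_algebraMap_zloc_padicInt (r : Zloc p) :
    ((algebraMap (Zloc p) ℤ_[p] r : ℤ_[p]) : ℚ_[p]) = ((r : ℚ) : ℚ_[p]) := rfl

theorem algebraMap_padicInt_eq (z : ℤ_[p]) :
    algebraMap ℤ_[p] (PadicAlgCl p) z = algebraMap ℚ_[p] (PadicAlgCl p) (z : ℚ_[p]) := rfl

instance towerZlocPadicInt : IsScalarTower (Zloc p) ℤ_[p] (PadicAlgCl p) :=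
  IsScalarTower.of_algebraMap_eq (fun r => by
    rw [algebraMap_zloc_eq, algebraMap_padicInt_eq, coe_algebraMap_zloc_padicInt])

theorem norm_algebraMap_padicInt_le_one (z : ℤ_[p]) :
    ‖algebraMap ℤ_[p] (PadicAlgCl p) z‖ ≤ 1 := by
  rw [algebraMap_padicInt_eq, PadicAlgCl.norm_extends]
  exact z.2

/-- The descent data of the triple `(ℤ_p, K̄, G_p)`. -/
theorem descentData_padic : DescentData ℤ_[p] (PadicAlgCl p) (Gp p) := by
  refine ⟨?_, ?_, ?_⟩
  · intro a b hab
    rw [algebraMap_padicInt_eq, algebraMap_padicInt_eq] at hab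
    exact Subtype.ext ((algebraMap ℚ_[p] (PadicAlgCl p)).injective hab)
  · intro σ r
    rw [algebraMap_padicInt_eq]
    exact σ.commutes _
  · intro x hx
    haveI : Algebra.IsAlgebraic ℚ_[p] (PadicAlgCl p) := AlgebraicClosure.isAlgebraic ℚ_[p]
    haveI : IsAlgClosure ℚ_[p] (PadicAlgCl p) := ⟨inferInstance, inferInstance⟩
    haveI : IsGalois ℚ_[p] (PadicAlgCl p) := inferInstance
    have hbot : x ∈ (⊥ : IntermediateField ℚ_[p] (PadicAlgCl p)) :=
      (InfiniteGalois.mem_bot_iff_fixed x).mpr hx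
    obtain ⟨q, rfl⟩ := IntermediateField.mem_bot.mp hbot
    obtain ⟨a, d, hd, hq⟩ := IsFractionRing.div_surjective ℤ_[p] q
    have hd0 : d ≠ 0 := nonZeroDivisors.ne_zero hd
    have hd0' : algebraMap ℤ_[p] ℚ_[p] d ≠ 0 := by
      intro h
      apply hd0
      exact (IsFractionRing.injective ℤ_[p] ℚ_[p]) (by rw [h, map_zero])
    refine ⟨a, d, hd0, ?_⟩
    rw [algebraMap_padicInt_eq, algebraMap_padicInt_eq, ← map_mul]
    congr 1
    rw [← hq]
    show algebraMap ℤ_[p] ℚ_[p] d * (algebraMap ℤ_[p] ℚ_[p] a / algebraMap ℤ_[p] ℚ_[p] d) =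
      algebraMap ℤ_[p] ℚ_[p] a
    field_simp

variable (F : IntermediateField ℚ_[p] (PadicAlgCl p))

/-- The structure map `ℤ_p → 𝒪_F`. -/
def padicIntToInt : ℤ_[p] →+* intRing p F where
  toFun z := ⟨algebraMap ℤ_[p] (PadicAlgCl p) z, F.algebraMap_mem _,
    norm_algebraMap_padicInt_le_one z⟩
  map_one' := Subtype.ext (map_one _)
  map_mul' a b := Subtype.ext (map_mul _ a b)
  map_zero' := Subtype.ext (map_zero _)
  map_add' a b := Subtype.ext (map_add _ a b)

/-- `𝒪_F` as a `ℤ_p`-algebra. -/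
instance algPadicIntIntRing : Algebra ℤ_[p] (intRing p F) := (padicIntToInt F).toAlgebra

@[simp] theorem coe_algebraMap_padicInt (z : ℤ_[p]) :
    ((algebraMap ℤ_[p] (intRing p F) z : intRing p F) : PadicAlgCl p) =
      algebraMap ℤ_[p] (PadicAlgCl p) z := rfl

/-- The inclusion `𝒪_F → K̄` as a homomorphism of `ℤ_p`-algebras. -/
def inclAlgP : intRing p F →ₐ[ℤ_[p]] PadicAlgCl p where
  toRingHom := (intRing p F).subtype
  commutes' _ := rfl

@[simp] theorem inclAlgP_apply (a : intRing p F) : inclAlgP F a = (a : PadicAlgCl p) := rfl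

theorem inclAlgP_injective : Function.Injective (inclAlgP F) := Subtype.val_injective

/-- The values of an algebra homomorphism from a finite `ℤ_p`-algebra are integral. -/
theorem norm_pointP_le_one {A : Type} [CommRing A] [Algebra ℤ_[p] A] [Module.Finite ℤ_[p] A]
    (x : A →ₐ[ℤ_[p]] PadicAlgCl p) (a : A) : ‖x a‖ ≤ 1 := by
  have hint : IsIntegral ℤ_[p] a := Algebra.IsIntegral.isIntegral a
  obtain ⟨P, hP, hPh⟩ := hint
  refine norm_le_one_of_monic (x a) (P.map (algebraMap ℤ_[p] (PadicAlgCl p)))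
    (hP.map _) (fun i => ?_) ?_
  · rw [Polynomial.coeff_map]
    exact norm_algebraMap_padicInt_le_one _
  · rw [Polynomial.eval_map, ← Polynomial.aeval_def, Polynomial.aeval_algHom_apply,
      Polynomial.aeval_def, hPh, map_zero]

end Fermat.Agent.S56.FL.H54

end
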