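import Fermat.Agent.S56.FL.H54_PMConv

/-!
# LOC-p-FL, package PM (helper54): the multiplicative map `f ↦ (a ⊗ b ↦ f a * f b)`

`psiHom : WithConv (H →ₗ A) →* WithConv (H ⊗ H →ₗ A)` and
`muHom : WithConv (H →ₗ A) →+* WithConv (H ⊗ H →ₗ A)`, `f ↦ (a ⊗ b ↦ f (a * b))`.
An element `f` with `psiHom f = muHom f` and `f 1 = 1` is an algebra homomorphism.
-/

set_option autoImplicit false
set_option linter.unusedSectionVars false

open scoped TensorProduct
open WithConv

namespace Fermat.Agent.S56.FL.H54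

section Psi

variable {R₀ : Type} [CommRing R₀] {H : Type} [CommRing H] [Bialgebra R₀ H]
  [Coalgebra.IsCocomm R₀ H]
variable {A : Type} [CommRing A] [Algebra R₀ A]

/-- `f ↦ (a ⊗ b ↦ f a * f b)`, a multiplicative map of convolution rings. -/
noncomputable def psiHom : WithConv (H →ₗ[R₀] A) →* WithConv ((H ⊗[R₀] H) →ₗ[R₀] A) where
  toFun f := toConv ((LinearMap.mul' R₀ A).comp (TensorProduct.map f.ofConv f.ofConv))
  map_one' := by
    apply WithConv.ext
    apply TensorProduct.ext'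
    intro a b
    show algebraMap R₀ A (Coalgebra.counit (R := R₀) a) *
        algebraMap R₀ A (Coalgebra.counit (R := R₀) b) =
      algebraMap R₀ A (Coalgebra.counit (R := R₀) (a ⊗ₜ[R₀] b))
    rw [← map_mul]
    congr 1
    simp [mul_comm]
  map_mul' f g := by
    have h1 := TensorProduct.map_convMul_map (R := R₀) (f := f) (h := g) (g := f) (k := g)
    have h2 := congrArg (postC (Algebra.TensorProduct.lmul' R₀ (S := A))) h1
    rw [map_mul] at h2
    exact h2.symm

@[simp] lemma psiHom_tmul (f : WithConv (H →ₗ[R₀] A)) (a b : H) :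
    psiHom f (a ⊗ₜ[R₀] b) = f a * f b := rfl

/-- `f ↦ (a ⊗ b ↦ f (a * b))`, a ring homomorphism of convolution rings. -/
noncomputable def muHom : WithConv (H →ₗ[R₀] A) →+* WithConv ((H ⊗[R₀] H) →ₗ[R₀] A) :=
  preC (Bialgebra.mulCoalgHom R₀ H)

@[simp] lemma muHom_tmul (f : WithConv (H →ₗ[R₀] A)) (a b : H) :
    muHom f (a ⊗ₜ[R₀] b) = f (a * b) := rfl

/-- An element `f` of the convolution ring with `f 1 = 1` and `psiHom f = muHom f` is an algebra
homomorphism. -/
noncomputable def algHomOfPsi (f : WithConv (H →ₗ[R₀] A)) (h1 : f 1 = 1)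
    (hmul : muHom f = psiHom f) : H →ₐ[R₀] A :=
  AlgHom.ofLinearMap f.ofConv h1 (fun a b => by
    have := congrArg (fun g : WithConv ((H ⊗[R₀] H) →ₗ[R₀] A) => g (a ⊗ₜ[R₀] b)) hmul
    exact this)

@[simp] lemma algHomOfPsi_apply (f : WithConv (H →ₗ[R₀] A)) (h1 : f 1 = 1)
    (hmul : muHom f = psiHom f) (x : H) : algHomOfPsi f h1 hmul x = f x := rfl

end Psi

end Fermat.Agent.S56.FL.H54
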