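import Fermat.Agent.S56.FL.H54_PMBase
import Fermat.Agent.S56.FL.H54_PMPsi

/-!
# LOC-p-FL, package PM (helper54): lifting points (LIFT-c)

`R = 𝒪_F` with `F/ℚ_p` finite, `g : H → R/{‖·‖ ≤ c}` an algebra homomorphism killed by `p` in the
convolution monoid, `c^{p-1} < p^{-p}`.  Then there is an algebra homomorphism `x' : H → R` with
`x' ≡ g` modulo `{‖·‖ ≤ p c}`.
-/

set_option autoImplicit false
set_option linter.unusedSectionVars false
set_option linter.style.haveILetI false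

noncomputable section

namespace Fermat.Agent.S56.FL.H54

open scoped NNReal TensorProduct
open Fermat.Agent.S56.FL WithConv

variable {p : ℕ} [Fact p.Prime] {F : IntermediateField ℚ_[p] (PadicAlgCl p)}
variable {H : Type} [CommRing H] [Bialgebra (Zloc p) H] [Coalgebra.IsCocomm (Zloc p) H]
  [Module.Free (Zloc p) H] [Module.Finite (Zloc p) H]

theorem free_cv : Module.Free (intRing p F) (WithConv (H →ₗ[Zloc p] intRing p F)) :=
  Module.Free.of_equiv (WithConv.linearEquiv (intRing p F) (H →ₗ[Zloc p] intRing p F)).symm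

theorem finite_cv : Module.Finite (intRing p F) (WithConv (H →ₗ[Zloc p] intRing p F)) :=
  Module.Finite.equiv (WithConv.linearEquiv (intRing p F) (H →ₗ[Zloc p] intRing p F)).symm

/-- The numerical fact `(p c)^{p-1} < p⁻¹`. -/
theorem radius_pc {c : ℝ≥0} (hc : c ^ (p - 1) < ((p : ℝ≥0)⁻¹) ^ p) :
    ((p : ℝ≥0) * c) ^ (p - 1) < (p : ℝ≥0)⁻¹ := by
  have hp : p.Prime := Fact.out
  have hpp : (0 : ℝ≥0) < (p : ℝ≥0) := by exact_mod_cast hp.pos
  obtain ⟨-, h2, -⟩ := H50.radius_facts hc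
  have h4 : ((p : ℝ≥0) * c) ^ (p - 1) * (p : ℝ≥0) = (p : ℝ≥0) ^ p * c ^ (p - 1) := by
    rw [mul_pow, mul_right_comm, ← pow_succ, Nat.sub_add_cancel hp.one_le]
  have h5 : ((p : ℝ≥0) * c) ^ (p - 1) * (p : ℝ≥0) < 1 := by rw [h4]; exact h2
  calc ((p : ℝ≥0) * c) ^ (p - 1) = ((p : ℝ≥0) * c) ^ (p - 1) * (p : ℝ≥0) * (p : ℝ≥0)⁻¹ := by
        rw [mul_assoc, mul_inv_cancel₀ hpp.ne', mul_one]
    _ < 1 * (p : ℝ≥0)⁻¹ := mul_lt_mul_of_pos_right h5 (inv_pos.mpr hpp)
    _ = (p : ℝ≥0)⁻¹ := one_mul _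

theorem le_p_mul (c : ℝ≥0) : c ≤ (p : ℝ≥0) * c := by
  have hp : p.Prime := Fact.out
  have h1 : (1 : ℝ≥0) ≤ (p : ℝ≥0) := by exact_mod_cast hp.one_le
  calc c = 1 * c := (one_mul c).symm
    _ ≤ (p : ℝ≥0) * c := mul_le_mul' h1 le_rfl

/-- **LIFT-c**: lifting points killed by `p` (auxiliary form with a named ideal). -/
theorem lift_c_aux [FiniteDimensional ℚ_[p] F] (c : ℝ≥0) (hc : c ^ (p - 1) < ((p : ℝ≥0)⁻¹) ^ p)
    (I : Ideal (intRing p F)) (hI : I = ballIdeal p F c)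
    (g : H →ₐ[Zloc p] (intRing p F ⧸ I))
    (hg : (toConv g : WithConv (H →ₐ[Zloc p] (intRing p F ⧸ I))) ^ p = 1) :
    ∃ x' : H →ₐ[Zloc p] intRing p F,
      ∀ (h : H) (r : intRing p F), Ideal.Quotient.mk I r = g h →
        x' h - r ∈ ballIdeal p F ((p : ℝ≥0) * c) := by
  classical
  have hp : p.Prime := Fact.out
  haveI := free_cv (p := p) (F := F) (H := H)
  haveI := finite_cv (p := p) (F := F) (H := H)
  haveI := free_cv (p := p) (F := F) (H := H ⊗[Zloc p] H)
  haveI := finite_cv (p := p) (F := F) (H := H ⊗[Zloc p] H)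
  set I' := ballIdeal p F ((p : ℝ≥0) * c) with hI'
  have hII' : I ≤ I' := by
    rw [hI]
    exact ballIdeal_mono (le_p_mul c)
  obtain ⟨hρ1, -, -⟩ := H50.radius_facts hc
  have hpc := radius_pc hc
  -- a linear lift of `g`
  obtain ⟨gt, hgt⟩ := Module.projective_lifting_property
    (Ideal.Quotient.mkₐ (Zloc p) I).toLinearMap g.toLinearMap
    (Ideal.Quotient.mkₐ_surjective (Zloc p) I)
  have hgt' : ∀ x, Ideal.Quotient.mk I (gt x) = g x := fun x => LinearMap.congr_fun hgt x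
  set G : WithConv (H →ₗ[Zloc p] intRing p F) := toConv gt with hG
  have hpost : postC (Ideal.Quotient.mkₐ (Zloc p) I) G = toConv g.toLinearMap := by
    apply WithConv.ext
    exact hgt
  have hGp : postC (Ideal.Quotient.mkₐ (Zloc p) I) (G ^ p) = 1 := by
    rw [map_pow, hpost, ← AlgHom.toLinearMap_convPow, hg]
    rfl
  have hy : G ^ p - 1 ∈ Ideal.map (algebraMap (intRing p F) _) I := by
    apply mem_map_of_apply_mem
    intro x
    have h1 := congrArg (fun f : WithConv (H →ₗ[Zloc p] (intRing p F ⧸ I)) => f x) hGp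
    have h2 : Ideal.Quotient.mk I ((G ^ p) x) =
        Ideal.Quotient.mk I (algebraMap (Zloc p) (intRing p F) (Coalgebra.counit x)) := h1
    rw [← Ideal.Quotient.eq_zero_iff_mem]
    show Ideal.Quotient.mk I ((G ^ p) x - algebraMap (Zloc p) (intRing p F) (Coalgebra.counit x))
      = 0
    rw [map_sub, h2, sub_self]
  rw [hI] at hy
  obtain ⟨z, hz, hzp⟩ := H50.stmt_LIFT_b p F _ c hc (G ^ p - 1) hy
  have hzp' : (1 + z) ^ p = G ^ p := by rw [hzp]; ring
  have hunit : IsUnit (1 + z) := by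
    refine isUnit_of_sub_one_mem (R := intRing p F) (1 + z) ?_
    rw [add_sub_cancel_left]
    exact Ideal.map_mono (ballIdeal_le_maximalIdeal hρ1) hz
  obtain ⟨w, hw⟩ := hunit
  set wi : WithConv (H →ₗ[Zloc p] intRing p F) :=
    (↑(w⁻¹) : WithConv (H →ₗ[Zloc p] intRing p F)) with hwi
  have hwwi : (1 + z) * wi = 1 := by rw [← hw, hwi, Units.mul_inv]
  set G₁ := G * wi with hG₁
  have hG₁p : G₁ ^ p = 1 := by
    rw [hG₁, mul_pow, ← hzp', ← mul_pow, hwwi, one_pow]
  have hwi1 : wi - 1 ∈ Ideal.map (algebraMap (intRing p F) _) I' := by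
    have : wi - 1 = -(z * wi) := by
      have h1 : wi + z * wi = 1 := by rw [← hwwi]; ring
      rw [← h1]; ring
    rw [this]
    exact neg_mem (Ideal.mul_mem_right _ _ hz)
  have hG₁G : G₁ - G ∈ Ideal.map (algebraMap (intRing p F) _) I' := by
    have : G₁ - G = G * (wi - 1) := by rw [hG₁]; ring
    rw [this]
    exact Ideal.mul_mem_left _ _ hwi1
  have hval : ∀ x, G₁ x - gt x ∈ I' := fun x => apply_mem_of_mem_map I' _ hG₁G x
  -- multiplicativity
  have hgtmul : ∀ a b, gt (a * b) - gt a * gt b ∈ I := by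
    intro a b
    have h1 : Ideal.Quotient.mk I (gt (a * b)) = g (a * b) := hgt' _
    have h2 : Ideal.Quotient.mk I (gt a * gt b) = g a * g b := by
      rw [map_mul (Ideal.Quotient.mk I), hgt', hgt']
    rw [← Ideal.Quotient.eq_zero_iff_mem, map_sub, h1, h2, map_mul g, sub_self]
  have hmul_mem : muHom G₁ - psiHom G₁ ∈ Ideal.map (algebraMap (intRing p F) _) I' := by
    apply mem_map_of_apply_mem
    intro t
    induction t using TensorProduct.induction_on with
    | zero =>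
      have : (muHom G₁ - psiHom G₁) (0 : H ⊗[Zloc p] H) = 0 := map_zero _
      rw [this]
      exact I'.zero_mem
    | tmul a b =>
      show G₁ (a * b) - G₁ a * G₁ b ∈ I'
      have h1 : G₁ (a * b) - G₁ a * G₁ b =
          (G₁ (a * b) - gt (a * b)) + (gt (a * b) - gt a * gt b)
          - ((G₁ a - gt a) * G₁ b + gt a * (G₁ b - gt b)) := by ring
      rw [h1]
      refine I'.sub_mem (I'.add_mem (hval _) (hII' (hgtmul a b))) (I'.add_mem ?_ ?_)
      · exact I'.mul_mem_right _ (hval a)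
      · exact I'.mul_mem_left _ (hval b)
    | add s t hs ht =>
      have : (muHom G₁ - psiHom G₁) (s + t) =
          (muHom G₁ - psiHom G₁) s + (muHom G₁ - psiHom G₁) t := map_add _ s t
      rw [this]
      exact I'.add_mem hs ht
  have hM₁ : muHom G₁ ^ p = 1 := by rw [← map_pow, hG₁p, map_one]
  have hM₂ : psiHom G₁ ^ p = 1 := by rw [← map_pow, hG₁p, map_one]
  have hp1 : p - 1 + 1 = p := Nat.sub_add_cancel hp.one_le
  have hM₂' : psiHom G₁ * psiHom G₁ ^ (p - 1) = 1 := by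
    rw [← pow_succ', hp1, hM₂]
  have hmul : muHom G₁ = psiHom G₁ := by
    have hu : (muHom G₁ * psiHom G₁ ^ (p - 1)) ^ p = 1 := by
      rw [mul_pow, hM₁, ← pow_mul, mul_comm (p - 1) p, pow_mul, hM₂, one_pow, one_mul]
    have hmem : muHom G₁ * psiHom G₁ ^ (p - 1) - 1 ∈
        Ideal.map (algebraMap (intRing p F) _) I' := by
      have : muHom G₁ * psiHom G₁ ^ (p - 1) - 1 =
          (muHom G₁ - psiHom G₁) * psiHom G₁ ^ (p - 1) := by
        rw [sub_mul, hM₂']
      rw [this]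
      exact Ideal.mul_mem_right _ _ hmul_mem
    have h1 := H50.stmt_LIFT_a p F _ ((p : ℝ≥0) * c) hpc _ hu hmem
    calc muHom G₁ = muHom G₁ * (psiHom G₁ * psiHom G₁ ^ (p - 1)) := by rw [hM₂', mul_one]
      _ = (muHom G₁ * psiHom G₁ ^ (p - 1)) * psiHom G₁ := by ring
      _ = psiHom G₁ := by rw [h1, one_mul]
  -- the unit
  have hone : G₁ 1 = 1 := by
    have h1 : G₁ 1 * G₁ 1 = G₁ 1 := by
      have := congrArg (fun g : WithConv ((H ⊗[Zloc p] H) →ₗ[Zloc p] intRing p F) =>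
        g ((1 : H) ⊗ₜ[Zloc p] (1 : H))) hmul
      have h2 : G₁ (1 * 1) = G₁ 1 * G₁ 1 := this
      rw [mul_one] at h2
      exact h2.symm
    have h3 : gt 1 - 1 ∈ I := by
      rw [← Ideal.Quotient.eq_zero_iff_mem, map_sub, hgt', map_one, map_one, sub_self]
    have h4 : G₁ 1 - 1 ∈ I' := by
      have : G₁ 1 - 1 = (G₁ 1 - gt 1) + (gt 1 - 1) := by ring
      rw [this]
      exact I'.add_mem (hval 1) (hII' h3)
    have h5 : G₁ 1 * (G₁ 1 - 1) = 0 := by rw [mul_sub, h1, mul_one, sub_self]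
    rcases mul_eq_zero.mp h5 with h0 | h0
    · exfalso
      rw [h0, zero_sub] at h4
      have h6 : (1 : intRing p F) ∈ I' := by simpa using I'.neg_mem h4
      have h7 : ‖((1 : intRing p F) : PadicAlgCl p)‖ ≤ ((p : ℝ≥0) * c : ℝ≥0) :=
        (mem_ballIdeal p).mp h6
      rw [Subring.coe_one, norm_one] at h7
      have h8 : ((p : ℝ≥0) * c : ℝ≥0) < 1 := hρ1
      exact absurd h7 (not_le.mpr (by exact_mod_cast h8))
    · exact sub_eq_zero.mp h0
  refine ⟨algHomOfPsi G₁ hone hmul, ?_⟩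
  intro h r hr
  show G₁ h - r ∈ I'
  have h1 : gt h - r ∈ I := by
    rw [← Ideal.Quotient.eq_zero_iff_mem, map_sub, hgt', hr, sub_self]
  have : G₁ h - r = (G₁ h - gt h) + (gt h - r) := by ring
  rw [this]
  exact I'.add_mem (hval h) (hII' h1)

/-- **LIFT-c**: lifting points killed by `p`. -/
theorem lift_c [FiniteDimensional ℚ_[p] F] (c : ℝ≥0) (hc : c ^ (p - 1) < ((p : ℝ≥0)⁻¹) ^ p)
    (g : H →ₐ[Zloc p] (intRing p F ⧸ ballIdeal p F c))
    (hg : (toConv g : WithConv (H →ₐ[Zloc p] (intRing p F ⧸ ballIdeal p F c))) ^ p = 1) :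
    ∃ x' : H →ₐ[Zloc p] intRing p F,
      ∀ (h : H) (r : intRing p F), Ideal.Quotient.mk (ballIdeal p F c) r = g h →
        x' h - r ∈ ballIdeal p F ((p : ℝ≥0) * c) :=
  lift_c_aux c hc _ rfl g hg

end Fermat.Agent.S56.FL.H54

end
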