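import Fermat.Agent.S56.FL.Coh

/-!
# LOC-p-FL (helper54): the fields `ℚ_p(ζ)`, `ζ` a root of unity of order prime to `p`, are
unramified

* `norm_sub_eq_one_of_roots` : distinct roots of unity of order prime to `p` are incongruent;
* `norm_det_le_one`, `norm_le_of_mulVec` : Cramer's rule for matrices with integral entries and
  unit determinant;
* `norm_le_inv_of_mem_adjoin_root` : an element of `ℚ_p(ζ)` of norm `< 1` has norm `≤ 1/p`.
-/

set_option autoImplicit false
set_option linter.unusedSectionVars false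
set_option linter.style.haveILetI false

noncomputable section

namespace Fermat.Agent.S56.FL.H54

open scoped NNReal IntermediateField
open Fermat.Agent.S56.FL Polynomial

variable {p : ℕ} [Fact p.Prime]

theorem norm_eq_one_of_pow_eq_one {N : ℕ} (hN : 0 < N) {z : PadicAlgCl p} (hz : z ^ N = 1) :
    ‖z‖ = 1 := by
  have h1 : ‖z‖ ^ N = 1 := by rw [← norm_pow, hz, norm_one]
  exact (pow_eq_one_iff_of_nonneg (norm_nonneg z) hN.ne').mp h1

theorem norm_natCast_eq_one {N : ℕ} (hpN : ¬ p ∣ N) : ‖(N : PadicAlgCl p)‖ = 1 := by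
  have h : (N : PadicAlgCl p) = algebraMap ℚ_[p] (PadicAlgCl p) (N : ℚ_[p]) := by simp
  rw [h, PadicAlgCl.norm_extends, Padic.norm_natCast_eq_one_iff]
  exact (Nat.Prime.coprime_iff_not_dvd (Fact.out : p.Prime)).mpr hpN

theorem norm_pow_sub_one_le {u : PadicAlgCl p} (hu : ‖u‖ ≤ 1) (j : ℕ) :
    ‖u ^ j - 1‖ ≤ ‖u - 1‖ := by
  induction j with
  | zero => simp
  | succ j ih =>
    have h1 : u ^ (j + 1) - 1 = u * (u ^ j - 1) + (u - 1) := by ring
    rw [h1]
    refine (IsUltrametricDist.norm_add_le_max _ _).trans (max_le ?_ le_rfl)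
    rw [norm_mul]
    calc ‖u‖ * ‖u ^ j - 1‖ ≤ 1 * ‖u - 1‖ :=
          mul_le_mul hu ih (norm_nonneg _) zero_le_one
      _ = ‖u - 1‖ := one_mul _

/-- Distinct roots of unity of order prime to `p` are incongruent modulo the maximal ideal. -/
theorem norm_sub_eq_one_of_roots {N : ℕ} (hN : 0 < N) (hpN : ¬ p ∣ N) {z w : PadicAlgCl p}
    (hz : z ^ N = 1) (hw : w ^ N = 1) (hzw : z ≠ w) : ‖z - w‖ = 1 := by
  have hz1 := norm_eq_one_of_pow_eq_one hN hz
  have hw1 := norm_eq_one_of_pow_eq_one hN hw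
  have hw0 : w ≠ 0 := by
    intro h
    rw [h, norm_zero] at hw1
    exact zero_ne_one hw1
  have hle : ‖z - w‖ ≤ 1 := by
    rw [sub_eq_add_neg]
    refine (IsUltrametricDist.norm_add_le_max z (-w)).trans (max_le hz1.le ?_)
    rw [norm_neg]
    exact hw1.le
  by_contra hne
  have hlt : ‖z - w‖ < 1 := lt_of_le_of_ne hle hne
  set u := z / w with hu
  have hu1 : ‖u‖ = 1 := by rw [hu, norm_div, hz1, hw1, div_one]
  have huN : u ^ N = 1 := by rw [hu, div_pow, hz, hw, div_one]
  have hune : u ≠ 1 := by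
    intro h
    apply hzw
    rw [hu, div_eq_one_iff_eq hw0] at h
    exact h
  have hu_sub : ‖u - 1‖ < 1 := by
    have : u - 1 = (z - w) / w := by
      rw [hu]
      field_simp
    rw [this, norm_div, hw1, div_one]
    exact hlt
  have hgeom : ∑ i ∈ Finset.range N, u ^ i = 0 := by
    have h1 := geom_sum_mul u N
    rw [huN, sub_self] at h1
    rcases mul_eq_zero.mp h1 with h | h
    · exact h
    · exact absurd (sub_eq_zero.mp h) hune
  have hsum : ‖∑ i ∈ Finset.range N, (u ^ i - 1)‖ < 1 := by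
    refine lt_of_le_of_lt (IsUltrametricDist.norm_sum_le_of_forall_le_of_nonneg (norm_nonneg _)
      (fun i _ => norm_pow_sub_one_le hu1.le i)) hu_sub
  rw [Finset.sum_sub_distrib, hgeom, zero_sub, norm_neg] at hsum
  simp only [Finset.sum_const, Finset.card_range, nsmul_eq_mul, mul_one] at hsum
  rw [norm_natCast_eq_one hpN] at hsum
  exact lt_irrefl _ hsum

/-- The determinant of a matrix with integral entries is integral. -/
theorem norm_det_le_one {n : ℕ} (M : Matrix (Fin n) (Fin n) (PadicAlgCl p))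
    (hM : ∀ i j, ‖M i j‖ ≤ 1) : ‖M.det‖ ≤ 1 := by
  rw [Matrix.det_apply]
  refine IsUltrametricDist.norm_sum_le_of_forall_le_of_nonneg zero_le_one fun σ _ => ?_
  have h1 : ‖∏ i, M (σ i) i‖ ≤ 1 := by
    rw [norm_prod]
    exact Finset.prod_le_one (fun i _ => norm_nonneg _) (fun i _ => hM _ _)
  rcases Int.units_eq_one_or (Equiv.Perm.sign σ) with h | h
  · rw [h, one_smul]
    exact h1
  · rw [h, Units.neg_smul, one_smul, norm_neg]
    exact h1

/-- Cramer's rule: a matrix with integral entries and unit determinant does not decrease norms. -/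
theorem norm_le_of_mulVec {n : ℕ} (V : Matrix (Fin n) (Fin n) (PadicAlgCl p))
    (hV : ∀ i j, ‖V i j‖ ≤ 1) (hdet : ‖V.det‖ = 1) (a : Fin n → PadicAlgCl p) (B : ℝ)
    (hB : 0 ≤ B) (hc : ∀ j, ‖V.mulVec a j‖ ≤ B) (i : Fin n) : ‖a i‖ ≤ B := by
  classical
  have h1 : V.adjugate.mulVec (V.mulVec a) = V.det • a := by
    rw [Matrix.mulVec_mulVec, Matrix.adjugate_mul, Matrix.smul_mulVec, Matrix.one_mulVec]
  have h2 : V.det * a i = ∑ j, V.adjugate i j * V.mulVec a j := by
    have := congrFun h1 i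
    rw [Pi.smul_apply, smul_eq_mul] at this
    rw [← this]
    rfl
  have h3 : ‖V.det * a i‖ ≤ B := by
    rw [h2]
    refine IsUltrametricDist.norm_sum_le_of_forall_le_of_nonneg hB fun j _ => ?_
    rw [norm_mul]
    have hadj : ‖V.adjugate i j‖ ≤ 1 := by
      rw [Matrix.adjugate_apply]
      apply norm_det_le_one
      intro k l
      rw [Matrix.updateRow_apply]
      split_ifs with hk
      · rw [Pi.single_apply]
        split_ifs
        · rw [norm_one]
        · rw [norm_zero]; exact zero_le_one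
      · exact hV k l
    calc ‖V.adjugate i j‖ * ‖V.mulVec a j‖ ≤ 1 * B :=
          mul_le_mul hadj (hc j) (norm_nonneg _) zero_le_one
      _ = B := one_mul B
  rwa [norm_mul, hdet, one_mul] at h3

theorem padic_norm_le_inv_of_lt_one (x : ℚ_[p]) (hx : ‖x‖ < 1) : ‖x‖ ≤ (p : ℝ)⁻¹ := by
  have h := (Padic.norm_le_pow_iff_norm_lt_pow_add_one x (-1)).mpr (by simpa using hx)
  simpa using h

/-- **`ℚ_p(ζ)` is unramified**: an element of norm `< 1` has norm `≤ 1/p`. -/
theorem norm_le_inv_of_mem_adjoin_root {N : ℕ} (hN : 0 < N) (hpN : ¬ p ∣ N)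
    {ζ : PadicAlgCl p} (hζ : ζ ^ N = 1) {c : PadicAlgCl p} (hc : c ∈ ℚ_[p]⟮ζ⟯)
    (hc1 : ‖c‖ < 1) : ‖c‖ ≤ (p : ℝ)⁻¹ := by
  classical
  have halg : IsAlgebraic ℚ_[p] ζ := Algebra.IsAlgebraic.isAlgebraic ζ
  have hint : IsIntegral ℚ_[p] ζ := halg.isIntegral
  set P := minpoly ℚ_[p] ζ with hP
  have hPmonic : P.Monic := minpoly.monic hint
  have hPirr : Irreducible P := minpoly.irreducible hint
  have hPne1 : P ≠ 1 := fun h => by
    have := hPirr.not_isUnit
    rw [h] at this
    exact this isUnit_one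
  set d := P.natDegree with hd
  -- the coefficients of `c`
  have hc' : c ∈ (ℚ_[p]⟮ζ⟯).toSubalgebra := hc
  rw [IntermediateField.adjoin_simple_toSubalgebra_of_isAlgebraic halg,
    Algebra.adjoin_singleton_eq_range_aeval] at hc'
  obtain ⟨R, hR⟩ := hc'
  have hR' : aeval ζ (R %ₘ P) = c := by
    rw [aeval_modByMonic_eq_self_of_root (minpoly.aeval ℚ_[p] ζ)]
    exact hR
  have hdeg : (R %ₘ P).natDegree < d := natDegree_modByMonic_lt R hPmonic hPne1
  set a : Fin d → ℚ_[p] := fun i => (R %ₘ P).coeff i with ha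
  have hexp : ∀ x : PadicAlgCl p, aeval x (R %ₘ P) =
      ∑ i : Fin d, algebraMap ℚ_[p] (PadicAlgCl p) (a i) * x ^ (i : ℕ) := by
    intro x
    rw [aeval_eq_sum_range' hdeg, Finset.sum_range]
    refine Finset.sum_congr rfl fun i _ => ?_
    rw [Algebra.smul_def]
  -- the roots of `P`
  have hsplit : (P.map (algebraMap ℚ_[p] (PadicAlgCl p))).Splits := IsAlgClosed.splits _
  have hcard : Fintype.card (P.rootSet (PadicAlgCl p)) = d :=
    card_rootSet_eq_natDegree hPirr.separable hsplit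
  let e : Fin d ≃ P.rootSet (PadicAlgCl p) := (Fintype.equivFinOfCardEq hcard).symm
  set v : Fin d → PadicAlgCl p := fun j => (e j : PadicAlgCl p) with hv
  have hv_inj : Function.Injective v := fun i j hij => e.injective (Subtype.ext hij)
  have hv_root : ∀ j, aeval (v j) P = 0 := fun j => (mem_rootSet.mp (e j).2).2
  have hdvd : P ∣ (X ^ N - 1 : ℚ_[p][X]) := by
    apply minpoly.dvd
    simp [hζ]
  have hv_pow : ∀ j, v j ^ N = 1 := by
    intro j
    obtain ⟨Q, hQ⟩ := hdvd
    have := congrArg (aeval (v j)) hQ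
    rw [map_mul, hv_root j, zero_mul] at this
    simpa [sub_eq_zero] using this
  have hv_norm : ∀ j, ‖v j‖ = 1 := fun j => norm_eq_one_of_pow_eq_one hN (hv_pow j)
  -- the conjugates of `c`
  haveI : Algebra.IsAlgebraic ℚ_[p] (PadicAlgCl p) := AlgebraicClosure.isAlgebraic ℚ_[p]
  haveI : IsAlgClosure ℚ_[p] (PadicAlgCl p) := ⟨inferInstance, inferInstance⟩
  haveI : Normal ℚ_[p] (PadicAlgCl p) := inferInstance
  have hconj : ∀ j, ‖aeval (v j) (R %ₘ P)‖ = ‖c‖ := by
    intro j
    obtain ⟨σ, hσ⟩ := minpoly.exists_algEquiv_of_root' halg (hv_root j)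
    have h1 : aeval (v j) (R %ₘ P) = σ c := by
      rw [← hR', ← hσ]
      exact (Polynomial.aeval_algHom_apply (σ : PadicAlgCl p →ₐ[ℚ_[p]] PadicAlgCl p) ζ
        (R %ₘ P))
    rw [h1]
    exact norm_gal p σ c
  -- the Vandermonde matrix
  set V := Matrix.vandermonde v with hVdef
  have hVent : ∀ i j, ‖V i j‖ ≤ 1 := by
    intro i j
    rw [hVdef, Matrix.vandermonde_apply, norm_pow, hv_norm, one_pow]
  have hVdet : ‖V.det‖ = 1 := by
    rw [hVdef, Matrix.det_vandermonde, norm_prod]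
    refine Finset.prod_eq_one fun i _ => ?_
    rw [norm_prod]
    refine Finset.prod_eq_one fun j hj => ?_
    refine norm_sub_eq_one_of_roots hN hpN (hv_pow j) (hv_pow i) ?_
    intro h
    have := hv_inj h
    rw [Finset.mem_Ioi] at hj
    exact (ne_of_gt hj) this
  have hmul : ∀ j, V.mulVec (fun i => algebraMap ℚ_[p] (PadicAlgCl p) (a i)) j =
      aeval (v j) (R %ₘ P) := by
    intro j
    rw [hexp]
    show ∑ i, V j i * algebraMap ℚ_[p] (PadicAlgCl p) (a i) = _
    refine Finset.sum_congr rfl fun i _ => ?_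
    rw [hVdef, Matrix.vandermonde_apply, mul_comm]
  have hcoef : ∀ i, ‖a i‖ ≤ (p : ℝ)⁻¹ := by
    intro i
    have h1 := norm_le_of_mulVec V hVent hVdet
      (fun i => algebraMap ℚ_[p] (PadicAlgCl p) (a i)) ‖c‖ (norm_nonneg _)
      (fun j => by rw [hmul, hconj]) i
    rw [PadicAlgCl.norm_extends] at h1
    exact padic_norm_le_inv_of_lt_one _ (lt_of_le_of_lt h1 hc1)
  rw [← hR', hexp]
  refine IsUltrametricDist.norm_sum_le_of_forall_le_of_nonneg (by positivity) fun i _ => ?_
  rw [norm_mul, norm_pow, norm_eq_one_of_pow_eq_one hN hζ, one_pow, mul_one,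
    PadicAlgCl.norm_extends]
  exact hcoef i

end Fermat.Agent.S56.FL.H54

end
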