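import Fermat.Agent.S56.FL.H57_CohBase

/-!
# LOC-p-FL, package COH (helper57): the core count for a stable line

`b` a basis of `V` with `ℓ = k (b 0)` stable under `G_p` (`IsLineBasis`), `χ₁, χ₂ = diagChar hb 0, 1`
the characters on `ℓ`, `V/ℓ`, `χ = quotChar hb = χ₁/χ₂`.

* `IsLineBasis.conj` : the entries of `ρ(σ) f ρ(σ)⁻¹`.
* `ent10_cocVal_mul`, `ent_cocVal_mul_of_line` : cocycle identities for the entries of a cocycle.
* `ent_cobd_triEnd`, `ent_cobd_lowEnd` : entries of coboundaries.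
* `kerCoc` : the bounded cocycles with values in `Hom(V/ℓ, ℓ)`; their classes span a space of
  dimension `≤ min (1, h⁰)` if `dim H¹_bdd(G_p, k(χ)) ≤ 1`.
* `core_bound` : **CORE**.
-/

set_option autoImplicit false
set_option linter.unusedSectionVars false
set_option linter.unusedVariables false
set_option linter.style.haveILetI false

noncomputable section

namespace Fermat.Agent.S56.FL.H57

open Polynomial IsLocalRing CategoryTheory groupCohomology ExtCitation Module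
  Fermat.Agent.S56 Fermat.Agent.S56.FL

section entries

variable {k V : Type*} [Field k] [AddCommGroup V] [Module k V] (b : Basis (Fin 2) k V)

theorem ent_mul (f g : Module.End k V) (i j : Fin 2) :
    ent b (f * g) i j = ent b f i 0 * ent b g 0 j + ent b f i 1 * ent b g 1 j := by
  unfold ent
  rw [Module.End.mul_apply]
  conv_lhs => rw [basis_decomp b (g (b j))]
  rw [map_add, map_smul, map_smul, map_add, map_smul, map_smul, smul_eq_mul, smul_eq_mul]
  ring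

theorem ent_one (i j : Fin 2) : ent b (1 : Module.End k V) i j = if i = j then 1 else 0 := by
  unfold ent
  rw [Module.End.one_apply, Basis.coord_apply, Basis.repr_self, Finsupp.single_apply]
  by_cases h : i = j
  · rw [if_pos h, if_pos h.symm]
  · rw [if_neg h, if_neg (Ne.symm h)]

/-- The endomorphism with matrix `[[s, t], [0, -s]]`. -/
def triEnd (s t : k) : Module.End k V :=
  s • (LinearMap.id - (2 : k) • (b.coord 1).smulRight (b 1)) + t • (b.coord 1).smulRight (b 0)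

theorem ent_triEnd (s t : k) :
    ent b (triEnd b s t) 0 0 = s ∧ ent b (triEnd b s t) 0 1 = t ∧
      ent b (triEnd b s t) 1 0 = 0 ∧ ent b (triEnd b s t) 1 1 = -s := by
  unfold ent triEnd
  refine ⟨?_, ?_, ?_, ?_⟩
  · simp
  · simp
  · simp
  · simp
    ring

theorem trace_triEnd (s t : k) : LinearMap.trace k V (triEnd b s t) = 0 := by
  rw [trace_eq_ent b, (ent_triEnd b s t).1, (ent_triEnd b s t).2.2.2]
  ring

/-- The endomorphism with matrix `[[0, 0], [t, 0]]`. -/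
def lowEnd (t : k) : Module.End k V := t • (b.coord 0).smulRight (b 1)

theorem ent_lowEnd (t : k) :
    ent b (lowEnd b t) 0 0 = 0 ∧ ent b (lowEnd b t) 0 1 = 0 ∧
      ent b (lowEnd b t) 1 0 = t ∧ ent b (lowEnd b t) 1 1 = 0 := by
  unfold ent lowEnd
  refine ⟨?_, ?_, ?_, ?_⟩ <;> simp

theorem trace_lowEnd (t : k) : LinearMap.trace k V (lowEnd b t) = 0 := by
  rw [trace_eq_ent b, (ent_lowEnd b t).1, (ent_lowEnd b t).2.2.2]
  ring

end entries

section line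

variable {p : ℕ} [Fact p.Prime] {k : Type} [Field k] (ρbar : ResidualGaloisRep k)
  (b : Basis (Fin 2) k ρbar.V)

/-- `b 0` spans a `G_p`-stable line. -/
def IsLineBasis (p : ℕ) [Fact p.Prime] : Prop :=
  ∀ σ : Gp p, ent b (locRho ρbar σ) 1 0 = 0

variable {ρbar b}

theorem IsLineBasis.ent00_mul (hb : IsLineBasis ρbar b p) (σ τ : Gp p) :
    ent b (locRho ρbar (σ * τ)) 0 0 = ent b (locRho ρbar σ) 0 0 * ent b (locRho ρbar τ) 0 0 := by
  rw [locRho_mul, ent_mul, hb τ, mul_zero, add_zero]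

theorem IsLineBasis.ent11_mul (hb : IsLineBasis ρbar b p) (σ τ : Gp p) :
    ent b (locRho ρbar (σ * τ)) 1 1 = ent b (locRho ρbar σ) 1 1 * ent b (locRho ρbar τ) 1 1 := by
  rw [locRho_mul, ent_mul, hb σ, zero_mul, zero_add]

theorem IsLineBasis.ent01_mul (hb : IsLineBasis ρbar b p) (σ τ : Gp p) :
    ent b (locRho ρbar (σ * τ)) 0 1 = ent b (locRho ρbar σ) 0 0 * ent b (locRho ρbar τ) 0 1
      + ent b (locRho ρbar σ) 0 1 * ent b (locRho ρbar τ) 1 1 := by
  rw [locRho_mul, ent_mul]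

/-- The character of `G_p` on the stable line (`i = 0`), on the quotient (`i = 1`). -/
def diagChar (hb : IsLineBasis ρbar b p) (i : Fin 2) : Gp p →* kˣ :=
  MonoidHom.toHomUnits
    { toFun := fun σ => ent b (locRho ρbar σ) i i
      map_one' := by rw [locRho_one, ent_one, if_pos rfl]
      map_mul' := by
        intro σ τ
        fin_cases i
        · exact hb.ent00_mul σ τ
        · exact hb.ent11_mul σ τ }

theorem diagChar_val (hb : IsLineBasis ρbar b p) (i : Fin 2) (σ : Gp p) :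
    (diagChar hb i σ : k) = ent b (locRho ρbar σ) i i := rfl

/-- The character `χ = χ₁ / χ₂` of `G_p` on `Hom(V/ℓ, ℓ)`. -/
def quotChar (hb : IsLineBasis ρbar b p) : Gp p →* kˣ := diagChar hb 0 / diagChar hb 1

theorem quotChar_val (hb : IsLineBasis ρbar b p) (σ : Gp p) :
    (quotChar hb σ : k) = ent b (locRho ρbar σ) 0 0 / ent b (locRho ρbar σ) 1 1 := by
  unfold quotChar
  rw [MonoidHom.div_apply, Units.val_div_eq_div_val, diagChar_val, diagChar_val]

theorem IsLineBasis.ent_ne_zero (hb : IsLineBasis ρbar b p) (i : Fin 2) (σ : Gp p) :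
    ent b (locRho ρbar σ) i i ≠ 0 := by
  rw [← diagChar_val hb i σ]
  exact Units.ne_zero _

theorem IsLineBasis.apply_b0 (hb : IsLineBasis ρbar b p) (σ : Gp p) :
    locRho ρbar σ (b 0) = ent b (locRho ρbar σ) 0 0 • b 0 := by
  rw [apply_b b (locRho ρbar σ) 0, hb σ, zero_smul, add_zero]

theorem IsLineBasis.apply_b1 (hb : IsLineBasis ρbar b p) (σ : Gp p) :
    locRho ρbar σ (b 1) = ent b (locRho ρbar σ) 0 1 • b 0 + ent b (locRho ρbar σ) 1 1 • b 1 :=
  apply_b b (locRho ρbar σ) 1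

/-- The entries of a conjugate `g = ρ(σ) f ρ(σ)⁻¹`. -/
theorem IsLineBasis.conj (hb : IsLineBasis ρbar b p) (σ : Gp p) (f : Module.End k ρbar.V) :
    ent b (locRho ρbar σ * f * locRho ρbar σ⁻¹) 1 0
        = ent b f 1 0 * (ent b (locRho ρbar σ) 1 1 / ent b (locRho ρbar σ) 0 0) ∧
    (ent b f 1 0 = 0 →
      ent b (locRho ρbar σ * f * locRho ρbar σ⁻¹) 0 0 = ent b f 0 0 ∧
      ent b (locRho ρbar σ * f * locRho ρbar σ⁻¹) 1 1 = ent b f 1 1 ∧
      ent b (locRho ρbar σ * f * locRho ρbar σ⁻¹) 0 1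
        = (quotChar hb σ : k) * ent b f 0 1
          + (ent b (locRho ρbar σ) 0 1 / ent b (locRho ρbar σ) 1 1) * (ent b f 1 1 - ent b f 0 0)) := by
  have hg : (locRho ρbar σ * f * locRho ρbar σ⁻¹) * locRho ρbar σ = locRho ρbar σ * f := by
    rw [mul_assoc, locRho_inv_mul, mul_one]
  obtain ⟨h1, h2, h3, h4⟩ := conj_upper b (hb.apply_b0 σ) (hb.apply_b1 σ) hg
  have hx1 := hb.ent_ne_zero 0 σ
  have hx2 := hb.ent_ne_zero 1 σ
  have e10 : ent b (locRho ρbar σ * f * locRho ρbar σ⁻¹) 1 0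
      = ent b f 1 0 * (ent b (locRho ρbar σ) 1 1 / ent b (locRho ρbar σ) 0 0) := by
    field_simp
    linear_combination h1
  refine ⟨e10, fun h0 => ?_⟩
  rw [h0, zero_mul] at e10
  rw [h0, mul_zero, add_zero] at h2
  rw [e10, mul_zero, add_zero] at h3
  have e00 := mul_left_cancel₀ hx1 h2
  have e11 := mul_left_cancel₀ hx2 h3
  refine ⟨e00, e11, ?_⟩
  rw [e00] at h4
  rw [quotChar_val]
  field_simp
  linear_combination h4

end line

section cocycles

variable {p : ℕ} [Fact p.Prime] {k : Type} [Field k] {ρbar : ResidualGaloisRep k}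
  {b : Basis (Fin 2) k ρbar.V}

theorem ent11_cocVal (b : Basis (Fin 2) k ρbar.V)
    (c : cocycles₁ (locRep (ad0 ρbar) (pPrime p))) (σ : Gp p) :
    ent b (cocVal ρbar c σ) 1 1 = - ent b (cocVal ρbar c σ) 0 0 := by
  have h := trace_cocVal ρbar c σ
  rw [trace_eq_ent b] at h
  linear_combination h

/-- `ρbar|G_p` is trivial on `Gal(K̄/L)` for a bounded field `L`. -/
def RhoBdd (ρbar : ResidualGaloisRep k) (p : ℕ) [Fact p.Prime] : Prop :=
  ∃ (L : IntermediateField ℚ_[p] (PadicAlgCl p)) (_ : FiniteDimensional ℚ_[p] L),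
    Normal ℚ_[p] L ∧ IsBddField p L ∧ ∀ σ : Gp p, σ ∈ L.fixingSubgroup → locRho ρbar σ = 1

theorem IsBddAd.rhoBdd {c : cocycles₁ (locRep (ad0 ρbar) (pPrime p))} (h : IsBddAd ρbar c) :
    RhoBdd ρbar p := by
  obtain ⟨L, hfd, hN, hB, hfix⟩ := h
  exact ⟨L, hfd, hN, hB, fun σ hσ => (hfix σ hσ).1⟩

theorem RhoBdd.isBddAd_zero (h : RhoBdd ρbar p) :
    IsBddAd ρbar (0 : cocycles₁ (locRep (ad0 ρbar) (pPrime p))) := by
  obtain ⟨L, hfd, hN, hB, hfix⟩ := h
  exact ⟨L, hfd, hN, hB, fun σ hσ => ⟨hfix σ hσ, rfl⟩⟩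

/-- The cocycle identity for the lower left entry. -/
theorem ent10_cocVal_mul (hb : IsLineBasis ρbar b p)
    (c : cocycles₁ (locRep (ad0 ρbar) (pPrime p))) (σ τ : Gp p) :
    ent b (cocVal ρbar c (σ * τ)) 1 0 = ent b (cocVal ρbar c σ) 1 0
      + ((quotChar hb)⁻¹ σ : k) * ent b (cocVal ρbar c τ) 1 0 := by
  rw [cocVal_mul, ent_add, (hb.conj σ _).1, MonoidHom.inv_apply, Units.val_inv_eq_inv_val,
    quotChar_val, inv_div]
  ring

/-- The cocycle identities for a cocycle with values in the endomorphisms preserving the line. -/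
theorem ent_cocVal_mul_of_line (hb : IsLineBasis ρbar b p)
    (c : cocycles₁ (locRep (ad0 ρbar) (pPrime p)))
    (hc : ∀ σ : Gp p, ent b (cocVal ρbar c σ) 1 0 = 0) (σ τ : Gp p) :
    ent b (cocVal ρbar c (σ * τ)) 0 0
        = ent b (cocVal ρbar c σ) 0 0 + ent b (cocVal ρbar c τ) 0 0 ∧
    ent b (cocVal ρbar c (σ * τ)) 0 1
        = ent b (cocVal ρbar c σ) 0 1 + (quotChar hb σ : k) * ent b (cocVal ρbar c τ) 0 1
          - 2 * (ent b (locRho ρbar σ) 0 1 / ent b (locRho ρbar σ) 1 1)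
            * ent b (cocVal ρbar c τ) 0 0 := by
  obtain ⟨h1, -, h3⟩ := (hb.conj σ (cocVal ρbar c τ)).2 (hc τ)
  refine ⟨?_, ?_⟩
  · rw [cocVal_mul, ent_add, h1]
  · rw [cocVal_mul, ent_add, h3, ent11_cocVal]
    ring

/-- The entries of the coboundary of `triEnd b s t`. -/
theorem ent_cobd_triEnd (hb : IsLineBasis ρbar b p) (s t : k) (σ : Gp p) :
    ent b (cocVal ρbar (cobd (p := p) ρbar (triEnd b s t) (trace_triEnd b s t)) σ) 1 0 = 0 ∧
    ent b (cocVal ρbar (cobd (p := p) ρbar (triEnd b s t) (trace_triEnd b s t)) σ) 0 0 = 0 ∧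
    ent b (cocVal ρbar (cobd (p := p) ρbar (triEnd b s t) (trace_triEnd b s t)) σ) 0 1
      = ((quotChar hb σ : k) - 1) * t
        - 2 * (ent b (locRho ρbar σ) 0 1 / ent b (locRho ρbar σ) 1 1) * s := by
  obtain ⟨e00, e01, e10, e11⟩ := ent_triEnd b s t
  obtain ⟨h0, h⟩ := hb.conj σ (triEnd b s t)
  obtain ⟨h1, -, h3⟩ := h e10
  refine ⟨?_, ?_, ?_⟩
  · rw [cocVal_cobd, ent_sub, h0, e10, zero_mul, sub_zero]
  · rw [cocVal_cobd, ent_sub, h1, sub_self]
  · rw [cocVal_cobd, ent_sub, h3, e00, e01, e11]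
    ring

/-- The lower left entry of the coboundary of `lowEnd b t`. -/
theorem ent_cobd_lowEnd (hb : IsLineBasis ρbar b p) (t : k) (σ : Gp p) :
    ent b (cocVal ρbar (cobd (p := p) ρbar (lowEnd b t) (trace_lowEnd b t)) σ) 1 0
      = (((quotChar hb)⁻¹ σ : k) - 1) * t := by
  obtain ⟨e00, e01, e10, e11⟩ := ent_lowEnd b t
  rw [cocVal_cobd, ent_sub, (hb.conj σ _).1, e10, MonoidHom.inv_apply, Units.val_inv_eq_inv_val,
    quotChar_val, inv_div]
  ring

/-- `u / χ₂` is a `χ`-cocycle. -/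
theorem IsLineBasis.extCoc_mul (hb : IsLineBasis ρbar b p) (σ τ : Gp p) :
    ent b (locRho ρbar (σ * τ)) 0 1 / ent b (locRho ρbar (σ * τ)) 1 1
      = ent b (locRho ρbar σ) 0 1 / ent b (locRho ρbar σ) 1 1
        + (quotChar hb σ : k) * (ent b (locRho ρbar τ) 0 1 / ent b (locRho ρbar τ) 1 1) := by
  rw [hb.ent01_mul, hb.ent11_mul, quotChar_val]
  have hx1 := hb.ent_ne_zero 1 σ
  have hx2 := hb.ent_ne_zero 1 τ
  field_simp
  ring

end cocycles

section core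

variable {p : ℕ} [Fact p.Prime] {k : Type} [Field k] {ρbar : ResidualGaloisRep k}
  {b : Basis (Fin 2) k ρbar.V}

/-- The bounded cocycles with values in the line `Hom(V/ℓ, ℓ)`. -/
def kerCoc (hp2 : p ≠ 2) (h₀ : RhoBdd ρbar p) (b : Basis (Fin 2) k ρbar.V) :
    Submodule k (cocycles₁ (locRep (ad0 ρbar) (pPrime p))) where
  carrier := {c | IsBddAd ρbar c ∧ ∀ σ : Gp p, ent b (cocVal ρbar c σ) 1 0 = 0 ∧
    ent b (cocVal ρbar c σ) 0 0 = 0}
  add_mem' := by
    rintro c₁ c₂ ⟨h₁, h₁'⟩ ⟨h₂, h₂'⟩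
    refine ⟨IsBddAd.add hp2 h₁ h₂, fun σ => ⟨?_, ?_⟩⟩
    · rw [cocVal_add, ent_add, (h₁' σ).1, (h₂' σ).1, add_zero]
    · rw [cocVal_add, ent_add, (h₁' σ).2, (h₂' σ).2, add_zero]
  zero_mem' := ⟨h₀.isBddAd_zero, fun σ => ⟨ent_zero b _ _, ent_zero b _ _⟩⟩
  smul_mem' := by
    rintro a c ⟨h, h'⟩
    refine ⟨IsBddAd.smul a h, fun σ => ⟨?_, ?_⟩⟩
    · rw [cocVal_smul, ent_smul, (h' σ).1, mul_zero]
    · rw [cocVal_smul, ent_smul, (h' σ).2, mul_zero]

theorem mem_kerCoc (hp2 : p ≠ 2) (h₀ : RhoBdd ρbar p) (b : Basis (Fin 2) k ρbar.V)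
    (c : cocycles₁ (locRep (ad0 ρbar) (pPrime p))) :
    c ∈ kerCoc hp2 h₀ b ↔ IsBddAd ρbar c ∧ ∀ σ : Gp p, ent b (cocVal ρbar c σ) 1 0 = 0 ∧
      ent b (cocVal ρbar c σ) 0 0 = 0 := Iff.rfl

theorem quotChar_eq_one (hb : IsLineBasis ρbar b p) {σ : Gp p} (h : locRho ρbar σ = 1) :
    quotChar hb σ = 1 := by
  apply Units.ext
  rw [quotChar_val, h, ent_one, ent_one, if_pos rfl, if_pos rfl, div_one, Units.val_one]

/-- The upper right entry of a cocycle of `kerCoc` is a bounded `χ`-cocycle. -/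
theorem isBddCoc_of_mem_kerCoc (hp2 : p ≠ 2) (h₀ : RhoBdd ρbar p) (hb : IsLineBasis ρbar b p)
    {c : cocycles₁ (locRep (ad0 ρbar) (pPrime p))} (hc : c ∈ kerCoc hp2 h₀ b) :
    IsBddCoc (quotChar hb) (fun σ => ent b (cocVal ρbar c σ) 0 1) := by
  obtain ⟨hbdd, hent⟩ := hc
  refine ⟨fun σ τ => ?_, ?_⟩
  · have := (ent_cocVal_mul_of_line hb c (fun σ => (hent σ).1) σ τ).2
    rw [(hent τ).2, mul_zero, sub_zero] at this
    exact this
  · obtain ⟨L, hfd, hN, hB, hfix⟩ := hbdd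
    refine ⟨L, hfd, hN, hB, fun σ hσ => ⟨quotChar_eq_one hb (hfix σ hσ).1, ?_⟩⟩
    show ent b (cocVal ρbar c σ) 0 1 = 0
    rw [(hfix σ hσ).2, ent_zero]

/-- The extension class of `V` is a bounded `χ`-cocycle. -/
theorem isBddCoc_ext (h₀ : RhoBdd ρbar p) (hb : IsLineBasis ρbar b p) :
    IsBddCoc (quotChar hb)
      (fun σ => ent b (locRho ρbar σ) 0 1 / ent b (locRho ρbar σ) 1 1) := by
  refine ⟨fun σ τ => hb.extCoc_mul σ τ, ?_⟩
  obtain ⟨L, hfd, hN, hB, hfix⟩ := h₀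
  refine ⟨L, hfd, hN, hB, fun σ hσ => ⟨quotChar_eq_one hb (hfix σ hσ), ?_⟩⟩
  show ent b (locRho ρbar σ) 0 1 / ent b (locRho ρbar σ) 1 1 = 0
  rw [hfix σ hσ, ent_one, if_neg (by decide), zero_div]

/-- A cocycle of `kerCoc` whose upper right entry is that of a coboundary is a coboundary. -/
theorem eq_cobd_of_mem_kerCoc (hp2 : p ≠ 2) (h₀ : RhoBdd ρbar p) (hb : IsLineBasis ρbar b p)
    {c : cocycles₁ (locRep (ad0 ρbar) (pPrime p))} (hc : c ∈ kerCoc hp2 h₀ b) (s t : k)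
    (h : ∀ σ : Gp p, ent b (cocVal ρbar c σ) 0 1 = ((quotChar hb σ : k) - 1) * t
        - 2 * (ent b (locRho ρbar σ) 0 1 / ent b (locRho ρbar σ) 1 1) * s) :
    c = cobd ρbar (triEnd b s t) (trace_triEnd b s t) := by
  apply cocycle_ext
  intro σ
  obtain ⟨e10, e00, e01⟩ := ent_cobd_triEnd hb s t σ
  apply end_ext b
  intro i j
  fin_cases i <;> fin_cases j
  · exact ((hc.2 σ).2).trans e00.symm
  · exact (h σ).trans e01.symm
  · exact ((hc.2 σ).1).trans e10.symm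
  · show ent b (cocVal ρbar c σ) 1 1 = ent b (cocVal ρbar (cobd ρbar _ _) σ) 1 1
    rw [ent11_cocVal, ent11_cocVal, (hc.2 σ).2, e00]

variable [CharP k p]

theorem two_ne_zero_of_odd' (hp2 : p ≠ 2) : (2 : k) ≠ 0 := by
  intro h
  have h' : ((2 : ℕ) : k) = 0 := by exact_mod_cast h
  rw [CharP.cast_eq_zero_iff k p] at h'
  exact hp2 ((Nat.prime_dvd_prime_iff_eq (Fact.out : p.Prime) Nat.prime_two).1 h')

/-- Two classes of `kerCoc` are dependent. -/
theorem kerCoc_dependent (hp2 : p ≠ 2) (h₀ : RhoBdd ρbar p) (hb : IsLineBasis ρbar b p)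
    (hdim : DimLeOne (⊤ : Subgroup (Gp p)) (topChar (quotChar hb)))
    {c₁ c₂ : cocycles₁ (locRep (ad0 ρbar) (pPrime p))} (hc₁ : c₁ ∈ kerCoc hp2 h₀ b)
    (hc₂ : c₂ ∈ kerCoc hp2 h₀ b) :
    ∃ l₁ l₂ : k, (l₁ ≠ 0 ∨ l₂ ≠ 0) ∧
      l₁ • (H1π (locRep (ad0 ρbar) (pPrime p))).hom c₁
        + l₂ • (H1π (locRep (ad0 ρbar) (pPrime p))).hom c₂ = 0 := by
  obtain ⟨l₁, l₂, a, hl, e⟩ := dimLeOne_apply hdim (isBddCoc_of_mem_kerCoc hp2 h₀ hb hc₁)
    (isBddCoc_of_mem_kerCoc hp2 h₀ hb hc₂)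
  refine ⟨l₁, l₂, hl, ?_⟩
  have hmem : l₁ • c₁ + l₂ • c₂ ∈ kerCoc hp2 h₀ b :=
    Submodule.add_mem _ (Submodule.smul_mem _ _ hc₁) (Submodule.smul_mem _ _ hc₂)
  have hcob := eq_cobd_of_mem_kerCoc hp2 h₀ hb hmem 0 a (fun σ => by
    rw [cocVal_add, cocVal_smul, cocVal_smul, ent_add, ent_smul, ent_smul, e σ]
    ring)
  rw [← map_smul, ← map_smul, ← map_add, hcob]
  exact H1π_cobd ρbar _ _

/-- Without invariants, the classes of `kerCoc` vanish. -/
theorem kerCoc_class_eq_zero (hp2 : p ≠ 2) (h₀ : RhoBdd ρbar p) (hb : IsLineBasis ρbar b p)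
    (hdim : DimLeOne (⊤ : Subgroup (Gp p)) (topChar (quotChar hb)))
    (hinv : (locRep (ad0 ρbar) (pPrime p)).ρ.invariants = ⊥)
    {c : cocycles₁ (locRep (ad0 ρbar) (pPrime p))} (hc : c ∈ kerCoc hp2 h₀ b) :
    (H1π (locRep (ad0 ρbar) (pPrime p))).hom c = 0 := by
  have h2 : (2 : k) ≠ 0 := two_ne_zero_of_odd' hp2
  obtain ⟨l₁, l₂, a, hl, e⟩ := dimLeOne_apply hdim (isBddCoc_of_mem_kerCoc hp2 h₀ hb hc)
    (isBddCoc_ext h₀ hb)
  by_cases hl₁ : l₁ = 0
  · exfalso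
    have hl₂ : l₂ ≠ 0 := by
      rcases hl with h | h
      · exact absurd hl₁ h
      · exact h
    -- `triEnd b 1 (2 a / l₂)` is invariant
    have hinvm : ∀ σ : Gp p, locRho ρbar σ * triEnd b 1 (2 * a / l₂) * locRho ρbar σ⁻¹
        = triEnd b 1 (2 * a / l₂) := by
      intro σ
      obtain ⟨e00, e01, e10, e11⟩ := ent_triEnd b (1 : k) (2 * a / l₂)
      obtain ⟨g0, g⟩ := hb.conj σ (triEnd b 1 (2 * a / l₂))
      obtain ⟨g1, g2, g3⟩ := g e10
      have eσ := e σ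
      rw [hl₁, zero_mul, zero_add] at eσ
      apply end_ext b
      intro i j
      fin_cases i <;> fin_cases j
      · exact g1
      · show ent b (locRho ρbar σ * triEnd b 1 (2 * a / l₂) * locRho ρbar σ⁻¹) 0 1
          = ent b (triEnd b 1 (2 * a / l₂)) 0 1
        rw [g3, e00, e01, e11]
        field_simp
        linear_combination (-2 : k) * eσ
      · show ent b (locRho ρbar σ * triEnd b 1 (2 * a / l₂) * locRho ρbar σ⁻¹) 1 0
          = ent b (triEnd b 1 (2 * a / l₂)) 1 0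
        rw [g0, e10, zero_mul]
      · exact g2
    have hmem := mem_invariants_of_conj ρbar (triEnd b 1 (2 * a / l₂)) (trace_triEnd b _ _) hinvm
    have hz := (Submodule.eq_bot_iff _).1 hinv _ hmem
    have h0 : triEnd b (1 : k) (2 * a / l₂) = 0 := by
      have := congrArg (ad0Val ρbar) hz
      rw [map_zero] at this
      exact this
    have h00 := (ent_triEnd b (1 : k) (2 * a / l₂)).1
    rw [h0, ent_zero] at h00
    exact one_ne_zero h00.symm
  · have hcob := eq_cobd_of_mem_kerCoc hp2 h₀ hb hc (l₂ / (2 * l₁)) (a / l₁) (fun σ => by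
      have eσ := e σ
      generalize ent b (locRho ρbar σ) 0 1 / ent b (locRho ρbar σ) 1 1 = U at eσ ⊢
      apply mul_left_cancel₀ hl₁
      have e1 : l₁ * ent b (cocVal ρbar c σ) 0 1 = ((quotChar hb σ : k) - 1) * a - l₂ * U := by
        linear_combination eσ
      rw [e1]
      field_simp)
    rw [hcob]
    exact H1π_cobd ρbar _ _

/-- A bounded cocycle with values in the endomorphisms preserving the line `k (b 0)`, whose
diagonal part vanishes on inertia. -/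
def IsLineCoc (b : Basis (Fin 2) k ρbar.V) (c : cocycles₁ (locRep (ad0 ρbar) (pPrime p))) :
    Prop :=
  IsBddAd ρbar c ∧ (∀ σ : Gp p, ent b (cocVal ρbar c σ) 1 0 = 0) ∧
    ∀ σ : Gp p, σ ∈ inertiaP p → ent b (cocVal ρbar c σ) 0 0 = 0

/-- **CORE.**  `ℓ = k (b 0)` a stable line, `χ` the character of `G_p` on `Hom(V/ℓ, ℓ)` with
`dim H¹_bdd(G_p, k(χ)) ≤ 1`; a subspace `W` of `H¹(G_p, ad⁰)` all of whose classes have a bounded
representative preserving `ℓ` with unramified diagonal has dimension `≤ h⁰ + 1`. -/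
theorem core_bound (hp2 : p ≠ 2) (hT : Stmt_Tame) (hb : IsLineBasis ρbar b p)
    (hdim : DimLeOne (⊤ : Subgroup (Gp p)) (topChar (quotChar hb)))
    (W : Submodule k (H1 (locRep (ad0 ρbar) (pPrime p))))
    (hW : ∀ ξ ∈ W, ∃ c : cocycles₁ (locRep (ad0 ρbar) (pPrime p)),
      (H1π (locRep (ad0 ρbar) (pPrime p))).hom c = ξ ∧ IsLineCoc b c) :
    Module.Finite k W ∧
      finrank k W ≤ finrank k (locRep (ad0 ρbar) (pPrime p)).ρ.invariants + 1 := by
  have h₀ : RhoBdd ρbar p := by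
    obtain ⟨c, -, hc, -⟩ := hW 0 W.zero_mem
    exact IsBddAd.rhoBdd hc
  have hfinM : FiniteDimensional k (locRep (ad0 ρbar) (pPrime p)) := by
    change FiniteDimensional k (ad0Sub ρbar)
    infer_instance
  set K : Submodule k (H1 (locRep (ad0 ρbar) (pPrime p))) :=
    (kerCoc hp2 h₀ b).map (H1π (locRep (ad0 ρbar) (pPrime p))).hom with hK
  have hKbound : Module.Finite k K ∧
      finrank k K ≤ finrank k (locRep (ad0 ρbar) (pPrime p)).ρ.invariants := by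
    by_cases hinv : finrank k (locRep (ad0 ρbar) (pPrime p)).ρ.invariants = 0
    · have hbot : (locRep (ad0 ρbar) (pPrime p)).ρ.invariants = ⊥ :=
        Submodule.finrank_eq_zero.1 hinv
      have hKbot : K = ⊥ := by
        rw [eq_bot_iff]
        rintro _ ⟨c, hc, rfl⟩
        rw [Submodule.mem_bot]
        exact kerCoc_class_eq_zero hp2 h₀ hb hdim hbot hc
      rw [hKbot]
      exact ⟨inferInstance, by simp⟩
    · obtain ⟨h1, h2⟩ := finrank_le_one_of_dependent K (by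
        rintro _ ⟨c₁, hc₁, rfl⟩ _ ⟨c₂, hc₂, rfl⟩
        exact kerCoc_dependent hp2 h₀ hb hdim hc₁ hc₂)
      refine ⟨h1, h2.trans ?_⟩
      exact Nat.one_le_iff_ne_zero.2 hinv
  haveI := hKbound.1
  refine finrank_le_succ_of_dependent_mod W K _ hKbound.2 ?_
  intro ξ₁ hξ₁ ξ₂ hξ₂
  obtain ⟨c₁, rfl, hbdd₁, h10₁, h00₁⟩ := hW ξ₁ hξ₁
  obtain ⟨c₂, rfl, hbdd₂, h10₂, h00₂⟩ := hW ξ₂ hξ₂
  obtain ⟨L₁, hfd₁, hN₁, hB₁, hfix₁⟩ := id hbdd₁
  obtain ⟨L₂, hfd₂, hN₂, hB₂, hfix₂⟩ := id hbdd₂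
  haveI := hfd₁
  haveI := hfd₂
  obtain ⟨l₁, l₂, hl, e⟩ := unr_hom_dependent hT
    (fun σ => ent b (cocVal ρbar c₁ σ) 0 0) (fun σ => ent b (cocVal ρbar c₂ σ) 0 0)
    (fun σ τ => (ent_cocVal_mul_of_line hb c₁ h10₁ σ τ).1)
    (fun σ τ => (ent_cocVal_mul_of_line hb c₂ h10₂ σ τ).1)
    h00₁ h00₂ L₁ L₂ hN₁ hN₂
    (fun σ hσ => by
      show ent b (cocVal ρbar c₁ σ) 0 0 = 0
      rw [(hfix₁ σ hσ).2, ent_zero])
    (fun σ hσ => by
      show ent b (cocVal ρbar c₂ σ) 0 0 = 0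
      rw [(hfix₂ σ hσ).2, ent_zero])
  refine ⟨l₁, l₂, hl, ?_⟩
  rw [← map_smul, ← map_smul, ← map_add]
  refine Submodule.mem_map_of_mem ⟨IsBddAd.add hp2 (IsBddAd.smul l₁ hbdd₁) (IsBddAd.smul l₂ hbdd₂),
    fun σ => ⟨?_, ?_⟩⟩
  · rw [cocVal_add, cocVal_smul, cocVal_smul, ent_add, ent_smul, ent_smul, h10₁ σ, h10₂ σ]
    ring
  · rw [cocVal_add, cocVal_smul, cocVal_smul, ent_add, ent_smul, ent_smul]
    exact e σ

end core

end Fermat.Agent.S56.FL.H57

end
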