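import Fermat.Agent.S56.FL.H57_CohCore
import Fermat.Agent.S56.FL.H57_CohDefs2

/-!
# LOC-p-FL, package COH (helper57): `Stmt_COH_RED`

`stmt_COH_RED_of : Stmt_CC0 → Stmt_CC1 → Stmt_CC3 → Stmt_Tame → Stmt_TameChars → Stmt_COH_RED`.

Case analysis (`V = ρbar|G_p` with a stable line, `χ₁` on the line, `χ₂` on the quotient):
* (A) there is an ordinary line `ℓ` (`χ₂` unramified): `χ = χ₁/χ₂` is cyclotomic on inertia (`CC1`),
  the representatives are given by `IsOrdCocycle`; `core_bound`.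
* (B) no ordinary line: `χ₂` is ramified, and so is `χ₁` (`SplitCond`).  By `Stmt_TameChars`
  `χ₁ ≠ χ₂` on inertia; after exchanging the line with a complement (`exists_swap`, when `V` is
  split by `CC3`), `CC3` applies to `χ⁻¹`: every bounded cocycle is cohomologous to one preserving
  the line, with unramified diagonal (`CC0`); `dim H¹_bdd(k(χ)) ≤ 1` by `CC1` or `CC3`; `core_bound`.
-/

set_option autoImplicit false
set_option linter.unusedSectionVars false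
set_option linter.unusedVariables false
set_option linter.style.haveILetI false

noncomputable section

namespace Fermat.Agent.S56.FL.H57

open Polynomial IsLocalRing CategoryTheory groupCohomology ExtCitation Module
  Fermat.Agent.S56 Fermat.Agent.S56.FL

section prelim

variable {p : ℕ} [Fact p.Prime] {k : Type} [Field k]

/-- The value of the cyclotomic character at `σ` is unique. -/
theorem isCycloAt_uniq [CharP k p] {x y : k} {σ : Gp p} (hx : IsCycloAt x σ)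
    (hy : IsCycloAt y σ) : x = y := by
  obtain ⟨ζ, h1, hζ⟩ := H15.exists_zeta (p := p)
  obtain ⟨n, rfl, hn⟩ := hx
  obtain ⟨m, rfl, hm⟩ := hy
  have h2 : ζ ^ n = ζ ^ m := by rw [← hn ζ hζ, ← hm ζ hζ]
  have h3 : orderOf ζ = p := orderOf_eq_prime hζ h1
  have hprim : IsPrimitiveRoot ζ p := by
    rw [IsPrimitiveRoot.iff_orderOf]
    exact h3
  have hp : 0 < p := (Fact.out : p.Prime).pos
  have h4 : n ≡ m [MOD p] := by
    have key : ∀ i : ℕ, ζ ^ (i % p) = ζ ^ i := by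
      intro i
      conv_rhs => rw [← Nat.mod_add_div i p]
      rw [pow_add, pow_mul, hζ, one_pow, mul_one]
    have e1 : ζ ^ (n % p) = ζ ^ (m % p) := by
      rw [key, key]
      exact h2
    exact hprim.pow_inj (Nat.mod_lt _ hp) (Nat.mod_lt _ hp) e1
  exact (CharP.natCast_eq_natCast k p).2 h4

variable {V : Type} [AddCommGroup V] [Module k V]

theorem exists_basis_b0 (hV : finrank k V = 2) (v₀ : V) (hv₀ : v₀ ≠ 0) :
    ∃ b : Basis (Fin 2) k V, b 0 = v₀ := by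
  have : FiniteDimensional k V := Module.finite_of_finrank_eq_succ hV
  obtain ⟨w, hw⟩ := exists_linearIndependent_pair_of_one_lt_finrank (R := k) (M := V)
    (by rw [hV]; norm_num) hv₀
  refine ⟨basisOfLinearIndependentOfCardEqFinrank hw (by rw [hV]; rfl), ?_⟩
  rw [coe_basisOfLinearIndependentOfCardEqFinrank]
  rfl

theorem ent_smul_b0 (b : Basis (Fin 2) k V) (t : k) : b.coord 1 (t • b 0) = 0 := by
  simp

end prelim

section lines

variable {p : ℕ} [Fact p.Prime] {k : Type} [Field k] {ρbar : ResidualGaloisRep k}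

/-- `b` is a basis adapted to the line `ℓ`. -/
def IsAdapted (b : Basis (Fin 2) k ρbar.V) (ℓ : Submodule k ρbar.V) : Prop :=
  b 0 ∈ ℓ ∧ ∀ v ∈ ℓ, ∃ t : k, v = t • b 0

theorem IsAdapted.coord1 {b : Basis (Fin 2) k ρbar.V} {ℓ : Submodule k ρbar.V}
    (h : IsAdapted b ℓ) {v : ρbar.V} (hv : v ∈ ℓ) : b.coord 1 v = 0 := by
  obtain ⟨t, rfl⟩ := h.2 v hv
  exact ent_smul_b0 b t

theorem IsAdapted.mem_of_coord1 {b : Basis (Fin 2) k ρbar.V} {ℓ : Submodule k ρbar.V}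
    (h : IsAdapted b ℓ) {v : ρbar.V} (hv : b.coord 1 v = 0) : v ∈ ℓ := by
  rw [basis_decomp b v, hv, zero_smul, add_zero]
  exact ℓ.smul_mem _ h.1

theorem exists_adapted {ℓ : Submodule k ρbar.V} (hℓ : finrank k ℓ = 1) :
    ∃ b : Basis (Fin 2) k ρbar.V, IsAdapted b ℓ := by
  obtain ⟨⟨v₀, hv₀⟩, hne, hall⟩ := finrank_eq_one_iff'.1 hℓ
  have hv₀' : v₀ ≠ 0 := fun h => hne (Subtype.ext h)
  obtain ⟨b, hb⟩ := exists_basis_b0 ρbar.finrank_eq v₀ hv₀'
  refine ⟨b, by rw [hb]; exact hv₀, fun v hv => ?_⟩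
  obtain ⟨t, ht⟩ := hall ⟨v, hv⟩
  refine ⟨t, ?_⟩
  rw [hb]
  exact (congrArg Subtype.val ht).symm

theorem IsAdapted.isLineBasis {b : Basis (Fin 2) k ρbar.V} {ℓ : Submodule k ρbar.V}
    (h : IsAdapted b ℓ) (hℓ : IsStableLine ρbar p ℓ) : IsLineBasis ρbar b p :=
  fun σ => h.coord1 (hℓ.2 σ _ h.1)

theorem det_eq_ent {b : Basis (Fin 2) k ρbar.V} (hb : IsLineBasis ρbar b p) (σ : Gp p) :
    LinearMap.det (locRho ρbar σ)
      = ent b (locRho ρbar σ) 0 0 * ent b (locRho ρbar σ) 1 1 := by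
  rw [← LinearMap.det_toMatrix b, Matrix.det_fin_two]
  have h10 : LinearMap.toMatrix b b (locRho ρbar σ) 1 0 = 0 := by
    rw [LinearMap.toMatrix_apply]
    exact hb σ
  rw [h10, mul_zero, sub_zero]
  simp [LinearMap.toMatrix_apply, ent]

end lines

section caseA

variable {p : ℕ} [Fact p.Prime] {k : Type} [Field k] [CharP k p] {ρbar : ResidualGaloisRep k}
  {b : Basis (Fin 2) k ρbar.V} {ℓ : Submodule k ρbar.V}

theorem ent11_eq_one_of_ord (hadp : IsAdapted b ℓ) (hord : IsOrdLine ρbar p ℓ) (σ : Gp p)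
    (hσ : σ ∈ inertiaP p) : ent b (locRho ρbar σ) 1 1 = 1 := by
  have h := hadp.coord1 (hord.2 σ hσ (b 1))
  rw [map_sub] at h
  have h1 : b.coord 1 (b 1) = 1 := by simp
  rw [h1] at h
  unfold ent
  linear_combination h

theorem quotChar_cyclo_of_ord (hloc : LocHyp ρbar p) (hadp : IsAdapted b ℓ)
    (hb : IsLineBasis ρbar b p) (hord : IsOrdLine ρbar p ℓ) :
    ∀ σ : Gp p, σ ∈ inertiaP p → IsCycloAt (quotChar hb σ : k) σ := by
  intro σ hσ
  have h1 := ent11_eq_one_of_ord hadp hord σ hσ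
  have h2 := hloc.1 σ
  rw [det_eq_ent hb, h1, mul_one] at h2
  rw [quotChar_val, h1, div_one]
  exact h2

/-- An ordinary bounded cocycle is cohomologous to a line cocycle. -/
theorem exists_lineCoc_of_ord (hp2 : p ≠ 2) (hadp : IsAdapted b ℓ)
    (c : cocycles₁ (locRep (ad0 ρbar) (pPrime p))) (hbdd : IsBddAd ρbar c)
    (hO : IsOrdCocycle ρbar ℓ c) :
    ∃ c' : cocycles₁ (locRep (ad0 ρbar) (pPrime p)),
      (H1π (locRep (ad0 ρbar) (pPrime p))).hom c' = (H1π (locRep (ad0 ρbar) (pPrime p))).hom c ∧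
        IsLineCoc b c' := by
  obtain ⟨m, hm⟩ := hO
  have h2 : (2 : k) ≠ 0 := two_ne_zero_of_odd' hp2
  obtain ⟨m₀, hm₀⟩ : ∃ m₀ : Module.End k ρbar.V,
      m₀ = m - (LinearMap.trace k ρbar.V m / 2) • (1 : Module.End k ρbar.V) := ⟨_, rfl⟩
  have htr : LinearMap.trace k ρbar.V m₀ = 0 := by
    rw [hm₀, map_sub, map_smul, LinearMap.trace_one, ρbar.finrank_eq, smul_eq_mul]
    push_cast
    field_simp
    ring
  have hconj : ∀ σ : Gp p, locRho ρbar σ * m₀ * locRho ρbar σ⁻¹ - m₀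
      = locRho ρbar σ * m * locRho ρbar σ⁻¹ - m := by
    intro σ
    rw [hm₀, mul_sub, sub_mul, mul_smul_comm, smul_mul_assoc, mul_one, locRho_mul_inv]
    abel
  refine ⟨c - cobd ρbar m₀ htr, ?_, IsBddAd.sub_cobd hbdd _ _, ?_, ?_⟩
  · rw [map_sub, H1π_cobd, sub_zero]
  · intro σ
    rw [cocVal_sub, cocVal_cobd, hconj]
    exact hadp.coord1 ((hm σ).1 (b 0) hadp.1)
  · intro σ hσ
    rw [← neg_eq_zero, ← ent11_cocVal, cocVal_sub, cocVal_cobd, hconj]
    exact hadp.coord1 ((hm σ).2 hσ (b 1))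

end caseA

section caseB

variable {p : ℕ} [Fact p.Prime] {k : Type} [Field k] {ρbar : ResidualGaloisRep k}
  {b b' : Basis (Fin 2) k ρbar.V} {ℓ ℓ' : Submodule k ρbar.V}

theorem coord_apply_eq (b : Basis (Fin 2) k ρbar.V) (f : Module.End k ρbar.V) (v : ρbar.V)
    (i : Fin 2) :
    b.coord i (f v) = ent b f i 0 * b.coord 0 v + ent b f i 1 * b.coord 1 v := by
  unfold ent
  conv_lhs => rw [basis_decomp b v]
  rw [map_add, map_smul, map_smul, map_add, map_smul, map_smul, smul_eq_mul, smul_eq_mul]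
  ring

theorem isOrdLine_of_ent11 (hadp : IsAdapted b ℓ) (hℓ : IsStableLine ρbar p ℓ)
    (hb : IsLineBasis ρbar b p)
    (h : ∀ σ : Gp p, σ ∈ inertiaP p → ent b (locRho ρbar σ) 1 1 = 1) : IsOrdLine ρbar p ℓ := by
  refine ⟨hℓ, fun σ hσ v => hadp.mem_of_coord1 ?_⟩
  rw [map_sub, coord_apply_eq, hb σ, h σ hσ]
  ring

/-- The diagonal characters of two distinct stable lines are swapped. -/
theorem diag_swap (hb : IsLineBasis ρbar b p) (hb' : IsLineBasis ρbar b' p)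
    (hne : b.coord 1 (b' 0) ≠ 0) (σ : Gp p) :
    ent b' (locRho ρbar σ) 0 0 = ent b (locRho ρbar σ) 1 1 ∧
      ent b' (locRho ρbar σ) 1 1 = ent b (locRho ρbar σ) 0 0 := by
  have h1 := congrArg (b.coord 1) (hb'.apply_b0 σ)
  rw [coord_apply_eq, hb σ, map_smul, smul_eq_mul, zero_mul, zero_add] at h1
  have e1 : ent b' (locRho ρbar σ) 0 0 = ent b (locRho ρbar σ) 1 1 :=
    (mul_right_cancel₀ hne h1).symm
  refine ⟨e1, ?_⟩
  have hdet : ent b' (locRho ρbar σ) 0 0 * ent b' (locRho ρbar σ) 1 1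
      = ent b (locRho ρbar σ) 0 0 * ent b (locRho ρbar σ) 1 1 := by
    rw [← det_eq_ent hb', ← det_eq_ent hb]
  rw [e1] at hdet
  have hx2 := hb.ent_ne_zero 1 σ
  apply mul_left_cancel₀ hx2
  linear_combination hdet

theorem coord1_ne_zero_of_ne (hadp : IsAdapted b ℓ) (hadp' : IsAdapted b' ℓ')
    (hℓ : finrank k ℓ = 1) (hℓ' : finrank k ℓ' = 1) (hne : ℓ' ≠ ℓ) :
    b.coord 1 (b' 0) ≠ 0 := by
  intro h0
  apply hne
  have hle : ℓ' ≤ ℓ := by
    intro v hv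
    obtain ⟨t, rfl⟩ := hadp'.2 v hv
    exact ℓ.smul_mem _ (hadp.mem_of_coord1 h0)
  exact Submodule.eq_of_le_of_finrank_eq hle (by rw [hℓ, hℓ'])

/-- If the extension class is a coboundary, there is a second stable line. -/
theorem exists_swap (hb : IsLineBasis ρbar b p) (t : k)
    (ht : ∀ σ : Gp p, ent b (locRho ρbar σ) 0 1 / ent b (locRho ρbar σ) 1 1
      = ((quotChar hb σ : k) - 1) * t) :
    ∃ (b' : Basis (Fin 2) k ρbar.V) (hb' : IsLineBasis ρbar b' p), ∀ σ : Gp p,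
      ent b' (locRho ρbar σ) 0 0 = ent b (locRho ρbar σ) 1 1 ∧
        ent b' (locRho ρbar σ) 1 1 = ent b (locRho ρbar σ) 0 0 := by
  have hw : b 1 - t • b 0 ≠ 0 := by
    intro h0
    have := congrArg (b.coord 1) h0
    simp at this
  obtain ⟨b', hb0⟩ := exists_basis_b0 ρbar.finrank_eq (b 1 - t • b 0) hw
  have hb' : IsLineBasis ρbar b' p := by
    intro σ
    have hx2 := hb.ent_ne_zero 1 σ
    have htσ := ht σ
    rw [quotChar_val, div_eq_iff hx2] at htσ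
    have e : locRho ρbar σ (b' 0) = ent b (locRho ρbar σ) 1 1 • b' 0 := by
      rw [hb0, map_sub, map_smul, hb.apply_b0, hb.apply_b1, htσ, smul_sub, smul_smul, smul_smul]
      have e2 : ((ent b (locRho ρbar σ) 0 0 / ent b (locRho ρbar σ) 1 1 - 1) * t
          * ent b (locRho ρbar σ) 1 1) = ent b (locRho ρbar σ) 0 0 * t
            - ent b (locRho ρbar σ) 1 1 * t := by
        field_simp
      rw [e2, sub_smul]
      rw [mul_comm t (ent b (locRho ρbar σ) 0 0)]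
      abel
    unfold ent
    rw [e, map_smul]
    simp
  refine ⟨b', hb', fun σ => diag_swap hb hb' ?_ σ⟩
  rw [hb0]
  simp

theorem quotChar_inv_val (hb : IsLineBasis ρbar b p) (σ : Gp p) :
    (((quotChar hb)⁻¹ σ : kˣ) : k) = ent b (locRho ρbar σ) 1 1 / ent b (locRho ρbar σ) 0 0 := by
  rw [MonoidHom.inv_apply, Units.val_inv_eq_inv_val, quotChar_val, inv_div]

variable [CharP k p]

/-- If `CC3` applies to `χ⁻¹`, a bounded cocycle is cohomologous to a line cocycle. -/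
theorem exists_lineCoc_of_cc3 [Finite k] (h0 : Stmt_CC0) (h3 : Stmt_CC3) (hp2 : p ≠ 2)
    (hb : IsLineBasis ρbar b p)
    (hne : ∃ σ ∈ inertiaP p, (quotChar hb)⁻¹ σ ≠ 1)
    (hnc : ∃ σ ∈ inertiaP p, ¬ IsCycloAt (((quotChar hb)⁻¹ σ : kˣ) : k) σ)
    (c : cocycles₁ (locRep (ad0 ρbar) (pPrime p))) (hbdd : IsBddAd ρbar c) :
    ∃ c' : cocycles₁ (locRep (ad0 ρbar) (pPrime p)),
      (H1π (locRep (ad0 ρbar) (pPrime p))).hom c' = (H1π (locRep (ad0 ρbar) (pPrime p))).hom c ∧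
        IsLineCoc b c' := by
  obtain ⟨L, hfd, hN, hB, hfix⟩ := id hbdd
  have hc10 : IsBddCoc (quotChar hb)⁻¹ (fun σ => ent b (cocVal ρbar c σ) 1 0) := by
    refine ⟨fun σ τ => ent10_cocVal_mul hb c σ τ, L, hfd, hN, hB, fun σ hσ => ⟨?_, ?_⟩⟩
    · rw [MonoidHom.inv_apply, quotChar_eq_one hb (hfix σ hσ).1, inv_one]
    · show ent b (cocVal ρbar c σ) 1 0 = 0
      rw [(hfix σ hσ).2, ent_zero]
  obtain ⟨a, ha⟩ := cc3_apply h3 hp2 hne hnc hc10
  obtain ⟨c', hc'⟩ : ∃ c' : cocycles₁ (locRep (ad0 ρbar) (pPrime p)),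
      c' = c - cobd ρbar (lowEnd b a) (trace_lowEnd b a) := ⟨_, rfl⟩
  have hbdd' : IsBddAd ρbar c' := by
    rw [hc']
    exact IsBddAd.sub_cobd hbdd _ _
  have h10 : ∀ σ : Gp p, ent b (cocVal ρbar c' σ) 1 0 = 0 := by
    intro σ
    rw [hc', cocVal_sub, ent_sub, ent_cobd_lowEnd hb a σ]
    have e1 : ent b (cocVal ρbar c σ) 1 0
        = ((((quotChar hb)⁻¹ σ : kˣ) : k) - 1) * a := ha σ
    rw [e1, sub_self]
  refine ⟨c', ?_, hbdd', h10, ?_⟩
  · rw [hc', map_sub, H1π_cobd, sub_zero]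
  · obtain ⟨L', hfd', hN', hB', hfix'⟩ := id hbdd'
    have hA : IsBddCoc (1 : Gp p →* kˣ) (fun σ => ent b (cocVal ρbar c' σ) 0 0) := by
      refine ⟨fun σ τ => ?_, L', hfd', hN', hB', fun σ hσ => ⟨rfl, ?_⟩⟩
      · have := (ent_cocVal_mul_of_line hb c' h10 σ τ).1
        simp only [MonoidHom.one_apply, Units.val_one, one_mul]
        exact this
      · show ent b (cocVal ρbar c' σ) 0 0 = 0
        rw [(hfix' σ hσ).2, ent_zero]
    exact fun σ hσ => cc0_apply h0 hp2 hA σ hσ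

/-- `dim H¹_bdd(G_p, k(χ)) ≤ 1` for a character `χ` which is ramified. -/
theorem dimLeOne_of_ramified [Finite k] (h1 : Stmt_CC1) (h3 : Stmt_CC3) (hp2 : p ≠ 2)
    (χ : Gp p →* kˣ) (hne : ∃ σ ∈ inertiaP p, χ σ ≠ 1) :
    DimLeOne (⊤ : Subgroup (Gp p)) (topChar χ) := by
  by_cases hcyc : ∀ σ ∈ inertiaP p, IsCycloAt (χ σ : k) σ
  · exact cc1_apply h1 hp2 hcyc
  · have hnc : ∃ σ ∈ inertiaP p, ¬ IsCycloAt (χ σ : k) σ := by
      by_contra hcon
      apply hcyc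
      intro σ hσ
      by_contra h
      exact hcon ⟨σ, hσ, h⟩
    obtain ⟨σ₁, hσ₁, hσ₁'⟩ := hne
    obtain ⟨σ₂, hσ₂, hσ₂'⟩ := hnc
    intro c₁ c₂ hc₁ hc₂
    obtain ⟨a, ha⟩ := h3 p hp2 k (topChar χ) ⟨⟨σ₁, Subgroup.mem_top _⟩, hσ₁, hσ₁'⟩
      ⟨⟨σ₂, Subgroup.mem_top _⟩, hσ₂, hσ₂'⟩ c₁ hc₁
    refine ⟨1, 0, a, Or.inl one_ne_zero, fun σ => ?_⟩
    rw [one_mul, zero_mul, add_zero]
    exact ha σ

end caseB

section final

variable {p : ℕ} [Fact p.Prime] {k : Type} [Field k] [CharP k p] {ρbar : ResidualGaloisRep k}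
  {b : Basis (Fin 2) k ρbar.V}

theorem eq_neg_one_of_sq {x : k} (h : x * x = 1) (h1 : x ≠ 1) : x = -1 := by
  have h2 : (x - 1) * (x + 1) = 0 := by linear_combination h
  rcases mul_eq_zero.1 h2 with h3 | h3
  · exact absurd (sub_eq_zero.1 h3) h1
  · exact eq_neg_of_add_eq_zero_left h3

/-- In the case without ordinary line: a stable line to whose character `χ⁻¹` the count `CC3`
applies. -/
theorem exists_good_line [Finite k] (h3 : Stmt_CC3) (hTC : Stmt_TameChars) (hp2 : p ≠ 2)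
    (hloc : LocHyp ρbar p) (h₀ : RhoBdd ρbar p) (hb : IsLineBasis ρbar b p)
    (hr1 : ∃ σ ∈ inertiaP p, ent b (locRho ρbar σ) 0 0 ≠ 1)
    (hr2 : ∃ σ ∈ inertiaP p, ent b (locRho ρbar σ) 1 1 ≠ 1) :
    ∃ (b' : Basis (Fin 2) k ρbar.V) (hb' : IsLineBasis ρbar b' p),
      (∃ σ ∈ inertiaP p, (quotChar hb')⁻¹ σ ≠ 1) ∧
        ∃ σ ∈ inertiaP p, ¬ IsCycloAt (((quotChar hb')⁻¹ σ : kˣ) : k) σ := by
  obtain ⟨L, hfd, hN, hB, hfix⟩ := id h₀
  haveI := hfd
  have hone : ∀ (i : Fin 2) (σ : Gp p), locRho ρbar σ = 1 → diagChar hb i σ = 1 := by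
    intro i σ h
    apply Units.ext
    rw [diagChar_val, h, ent_one, if_pos rfl, Units.val_one]
  obtain ⟨s, hs, hpow, hsne⟩ := hTC p hp2 k (diagChar hb 0) (diagChar hb 1) L hN
    (fun σ hσ => ⟨hone 0 σ (hfix σ hσ), hone 1 σ (hfix σ hσ)⟩)
    (fun σ hσ => by
      rw [diagChar_val, diagChar_val, ← det_eq_ent hb]
      exact hloc.1 σ)
  obtain ⟨a₁, ha₁⟩ : ∃ a₁ : k, a₁ = ent b (locRho ρbar s) 0 0 := ⟨_, rfl⟩
  obtain ⟨a₂, ha₂⟩ : ∃ a₂ : k, a₂ = ent b (locRho ρbar s) 1 1 := ⟨_, rfl⟩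
  have ha₁0 : a₁ ≠ 0 := by rw [ha₁]; exact hb.ent_ne_zero 0 s
  have ha₂0 : a₂ ≠ 0 := by rw [ha₂]; exact hb.ent_ne_zero 1 s
  have hne12 : a₁ ≠ a₂ := by
    intro h
    apply hsne
    apply Units.ext
    rw [diagChar_val, diagChar_val, ← ha₁, ← ha₂, h]
  have hne1 : a₁ ≠ 1 := by
    intro h
    obtain ⟨ι, hι, hιne⟩ := hr1
    obtain ⟨n, e1, -⟩ := hpow ι hι
    apply hιne
    have e2 : diagChar hb 0 s = 1 := by
      apply Units.ext
      rw [diagChar_val, ← ha₁, h, Units.val_one]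
    rw [← diagChar_val hb 0 ι, e1, e2, one_pow, Units.val_one]
  have hne2 : a₂ ≠ 1 := by
    intro h
    obtain ⟨ι, hι, hιne⟩ := hr2
    obtain ⟨n, -, e1⟩ := hpow ι hι
    apply hιne
    have e2 : diagChar hb 1 s = 1 := by
      apply Units.ext
      rw [diagChar_val, ← ha₂, h, Units.val_one]
    rw [← diagChar_val hb 1 ι, e1, e2, one_pow, Units.val_one]
  have hdet : IsCycloAt (a₁ * a₂) s := by
    have := hloc.1 s
    rwa [det_eq_ent hb, ← ha₁, ← ha₂] at this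
  by_cases hcy : IsCycloAt (a₂ / a₁) s
  · have e1 : a₂ / a₁ = a₁ * a₂ := isCycloAt_uniq hcy hdet
    have hsq1 : a₁ * a₁ = 1 := by
      rw [div_eq_iff ha₁0] at e1
      have : (a₁ * a₁ - 1) * a₂ = 0 := by linear_combination -e1
      rcases mul_eq_zero.1 this with h | h
      · exact sub_eq_zero.1 h
      · exact absurd h ha₂0
    have hncy : ¬ IsCycloAt (a₁ / a₂) s := by
      intro h
      have e2 : a₁ / a₂ = a₁ * a₂ := isCycloAt_uniq h hdet
      have hsq2 : a₂ * a₂ = 1 := by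
        rw [div_eq_iff ha₂0] at e2
        have : (a₂ * a₂ - 1) * a₁ = 0 := by linear_combination -e2
        rcases mul_eq_zero.1 this with h | h
        · exact sub_eq_zero.1 h
        · exact absurd h ha₁0
      exact hne12 ((eq_neg_one_of_sq hsq1 hne1).trans (eq_neg_one_of_sq hsq2 hne2).symm)
    have hχs : (quotChar hb s : k) = a₁ / a₂ := by rw [quotChar_val, ← ha₁, ← ha₂]
    have hχne : quotChar hb s ≠ 1 := by
      intro h
      have h' := congrArg Units.val h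
      rw [hχs, Units.val_one, div_eq_one_iff_eq ha₂0] at h'
      exact hne12 h'
    obtain ⟨t, ht⟩ := cc3_apply h3 hp2 ⟨s, hs, hχne⟩ ⟨s, hs, by rw [hχs]; exact hncy⟩
      (isBddCoc_ext h₀ hb)
    obtain ⟨b', hb', hsw⟩ := exists_swap hb t ht
    have hval : (((quotChar hb')⁻¹ s : kˣ) : k) = a₁ / a₂ := by
      rw [quotChar_inv_val, (hsw s).1, (hsw s).2, ← ha₁, ← ha₂]
    refine ⟨b', hb', ⟨s, hs, ?_⟩, ⟨s, hs, ?_⟩⟩
    · intro h
      have h' := congrArg Units.val h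
      rw [hval, Units.val_one, div_eq_one_iff_eq ha₂0] at h'
      exact hne12 h'
    · rw [hval]
      exact hncy
  · have hval : (((quotChar hb)⁻¹ s : kˣ) : k) = a₂ / a₁ := by
      rw [quotChar_inv_val, ← ha₁, ← ha₂]
    refine ⟨b, hb, ⟨s, hs, ?_⟩, ⟨s, hs, ?_⟩⟩
    · intro h
      have h' := congrArg Units.val h
      rw [hval, Units.val_one, div_eq_one_iff_eq ha₁0] at h'
      exact hne12 h'.symm
    · rw [hval]
      exact hcy

/-- **COH-RED** from the counts `CC0`, `CC1`, `CC3` and the tame inputs. -/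
theorem stmt_COH_RED_of (h0 : Stmt_CC0) (h1 : Stmt_CC1) (h3 : Stmt_CC3) (hT : Stmt_Tame)
    (hTC : Stmt_TameChars) : Stmt_COH_RED := by
  intro p _ hp2 k _ _ _ ρbar hloc hline hsplit W hW
  have h₀ : RhoBdd ρbar p := by
    obtain ⟨c, -, hc, -⟩ := hW 0 W.zero_mem
    exact IsBddAd.rhoBdd hc
  by_cases hord : ∃ ℓ : Submodule k ρbar.V, IsOrdLine ρbar p ℓ
  · obtain ⟨ℓ, hℓ⟩ := hord
    obtain ⟨b, hadp⟩ := exists_adapted hℓ.1.1
    have hb : IsLineBasis ρbar b p := hadp.isLineBasis hℓ.1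
    refine core_bound hp2 hT hb (cc1_apply h1 hp2 (quotChar_cyclo_of_ord hloc hadp hb hℓ)) W ?_
    intro ξ hξ
    obtain ⟨c, rfl, hbdd, hO⟩ := hW ξ hξ
    exact exists_lineCoc_of_ord hp2 hadp c hbdd (hO ℓ hℓ)
  · obtain ⟨ℓ, hℓ⟩ := hline
    obtain ⟨b, hadp⟩ := exists_adapted hℓ.1
    have hb : IsLineBasis ρbar b p := hadp.isLineBasis hℓ
    have hr2 : ∃ σ ∈ inertiaP p, ent b (locRho ρbar σ) 1 1 ≠ 1 := by
      by_contra hcon
      push Not at hcon
      exact hord ⟨ℓ, isOrdLine_of_ent11 hadp hℓ hb hcon⟩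
    have hr1 : ∃ σ ∈ inertiaP p, ent b (locRho ρbar σ) 0 0 ≠ 1 := by
      by_contra hcon
      push Not at hcon
      have htriv : ∀ σ ∈ inertiaP p, ∀ v ∈ ℓ, locRho ρbar σ v = v := by
        intro σ hσ v hv
        obtain ⟨t, rfl⟩ := hadp.2 v hv
        rw [map_smul, hb.apply_b0, hcon σ hσ, one_smul]
      obtain ⟨ℓ', hℓ', hne⟩ := hsplit ℓ hℓ htriv
      obtain ⟨b', hadp'⟩ := exists_adapted hℓ'.1
      have hb' : IsLineBasis ρbar b' p := hadp'.isLineBasis hℓ'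
      have hsw := diag_swap hb hb' (coord1_ne_zero_of_ne hadp hadp' hℓ.1 hℓ'.1 hne)
      exact hord ⟨ℓ', isOrdLine_of_ent11 hadp' hℓ' hb'
        (fun σ hσ => by rw [(hsw σ).2, hcon σ hσ])⟩
    obtain ⟨b', hb', hne', hnc'⟩ := exists_good_line h3 hTC hp2 hloc h₀ hb hr1 hr2
    have hne'' : ∃ σ ∈ inertiaP p, quotChar hb' σ ≠ 1 := by
      obtain ⟨σ, hσ, h⟩ := hne'
      refine ⟨σ, hσ, fun h' => h ?_⟩
      rw [MonoidHom.inv_apply, h', inv_one]
    refine core_bound hp2 hT hb' (dimLeOne_of_ramified h1 h3 hp2 _ hne'') W ?_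
    intro ξ hξ
    obtain ⟨c, rfl, hbdd, -⟩ := hW ξ hξ
    exact exists_lineCoc_of_cc3 h0 h3 hp2 hb' hne' hnc' c hbdd

end final

end Fermat.Agent.S56.FL.H57

end
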