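import Fermat.Agent.S56.FL.H57_CohRedFinal
import Fermat.Agent.S56.FL.H85_CC1Final
import Fermat.Agent.S56.FL.H59_CC3Final
import Fermat.Agent.S56.FL.H15_CCZ

/-!
# LOC-p-FL, package COH (helper57): `Stmt_COH_RED`, unconditionally

`H85.stmt_CC1` and `H59.stmt_CC3z` (through `H15.stmt_CC3_of_z`) are plugged into
`stmt_COH_RED_of_CC`.
-/

set_option autoImplicit false

noncomputable section

namespace Fermat.Agent.S56.FL.H57

open Fermat.Agent.S56.FL

/-- **COH-RED.** -/
theorem stmt_COH_RED : Stmt_COH_RED :=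
  stmt_COH_RED_of_CC H85.stmt_CC1 (H15.stmt_CC3_of_z H59.stmt_CC3z)

end Fermat.Agent.S56.FL.H57

end
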