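import Fermat.Agent.S56.FL.H61_CntCore
import Fermat.Agent.S56.FL.H15_CC2Defs

/-!
# LOC-p-FL, package CC2z, leaf CNT (helper61): `stmt_CNT : H15.Stmt_CNT`

The hypotheses `w ≠ 0` and `z^{p²} = z` are not used.
-/

set_option autoImplicit false
set_option linter.style.haveILetI false

noncomputable section

namespace Fermat.Agent.S56.FL.H61

/-- **CNT**: the semilinear count. -/
theorem stmt_CNT : H15.Stmt_CNT := by
  intro p _ k κ _ _ _ _ _ y w z t _ ht hz _ f₁ f₂ h1y h1w h2y h2w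
  letI := ZMod.algebra k p
  letI := ZMod.algebra κ p
  exact cnt_core p y w z t ht hz f₁ f₂ ⟨h1y, h1w⟩ ⟨h2y, h2w⟩

end Fermat.Agent.S56.FL.H61
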