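import Mathlib

set_option autoImplicit false
set_option linter.unusedSectionVars false
set_option linter.style.haveILetI false

/-!
# LOC-p-FL, package UNITS (helper85): the semilinear count

`k`, `κ` fields of characteristic `p`, `k` finite.  A family of operators `act g` of `κ` whose
common fixed points are the prime field, multipliers `η g ∈ kˣ`.  The `𝔽_p`-linear maps
`Ψ : k → κ` with `Ψ (η g * x) = act g (Ψ x)` are "Galois fixed vectors" of the `κ`-space
`Hom_{𝔽_p}(k, κ)` (of dimension `[k : 𝔽_p]`), so (Galois descent) they form an `𝔽_p`-space of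
dimension `≤ [k : 𝔽_p]`.  Hence a biadditive `B : k² × k → κ` with this equivariance in the second
variable has a nonzero `l` with `B l = 0`.
-/

noncomputable section

namespace Fermat.Agent.S56.FL.H85

open Module

variable {p : ℕ} [Fact p.Prime]
variable {k κ : Type*} [Field k] [Field κ] [Algebra (ZMod p) k] [Algebra (ZMod p) κ]
variable {G : Type*}

/-- **Galois descent, injectivity.**  Fixed vectors which are independent over the prime field
are independent over `κ`. -/
theorem linearIndependent_of_fixed (η : G → k) (hη : ∀ g, η g ≠ 0) (act : G → κ →+* κ)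
    (hfix : ∀ y : κ, (∀ g, act g y = y) → ∃ j : ZMod p, algebraMap (ZMod p) κ j = y)
    {ι : Type*} (v : ι → (k →ₗ[ZMod p] κ)) (hv : ∀ i g x, v i (η g * x) = act g (v i x))
    (hind : LinearIndependent (ZMod p) v) : LinearIndependent κ v := by
  classical
  rw [linearIndependent_iff']
  intro s
  induction s using Finset.induction_on with
  | empty => intro a _ i hi; simp at hi
  | insert i₀ s hi₀ ih =>
    intro a ha
    -- twisting a relation
    have htw : ∀ (t : Finset ι) (b : ι → κ), ∑ i ∈ t, b i • v i = 0 →
        ∀ g, ∑ i ∈ t, (act g (b i)) • v i = 0 := by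
      intro t b hb g
      apply LinearMap.ext
      intro y
      have hy : y = η g * ((η g)⁻¹ * y) := by
        rw [← mul_assoc, mul_inv_cancel₀ (hη g), one_mul]
      have h1 := congrArg (fun Ψ : k →ₗ[ZMod p] κ => act g (Ψ ((η g)⁻¹ * y))) hb
      simp only [LinearMap.coe_sum, Finset.sum_apply, LinearMap.smul_apply, smul_eq_mul,
        map_sum, map_mul, LinearMap.zero_apply, map_zero] at h1
      rw [hy]
      simp only [LinearMap.coe_sum, Finset.sum_apply, LinearMap.smul_apply, smul_eq_mul,
        LinearMap.zero_apply, hv]
      exact h1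
    by_cases h0 : a i₀ = 0
    · have ha' : ∑ i ∈ s, a i • v i = 0 := by
        rw [Finset.sum_insert hi₀, h0, zero_smul, zero_add] at ha
        exact ha
      intro i hi
      rcases Finset.mem_insert.mp hi with rfl | hi
      · exact h0
      · exact ih a ha' i hi
    · exfalso
      -- normalise
      set b : ι → κ := fun i => (a i₀)⁻¹ * a i with hb
      have hb0 : b i₀ = 1 := inv_mul_cancel₀ h0
      have hrel : ∑ i ∈ insert i₀ s, b i • v i = 0 := by
        have : ∑ i ∈ insert i₀ s, b i • v i = (a i₀)⁻¹ • ∑ i ∈ insert i₀ s, a i • v i := by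
          rw [Finset.smul_sum]
          exact Finset.sum_congr rfl fun i _ => by rw [hb, mul_smul]
        rw [this, ha, smul_zero]
      -- the coefficients are fixed
      have hfixed : ∀ i ∈ s, ∀ g, act g (b i) = b i := by
        intro i hi g
        have h1 := htw _ b hrel g
        have h2 : ∑ i ∈ s, (act g (b i) - b i) • v i = 0 := by
          rw [Finset.sum_insert hi₀, hb0, map_one, one_smul] at h1
          have hrel' := hrel
          rw [Finset.sum_insert hi₀, hb0, one_smul] at hrel'
          have : ∑ i ∈ s, (act g (b i) - b i) • v i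
              = (v i₀ + ∑ i ∈ s, act g (b i) • v i) - (v i₀ + ∑ i ∈ s, b i • v i) := by
            have e1 : ∀ i ∈ s, (act g (b i) - b i) • v i = act g (b i) • v i - b i • v i :=
              fun i _ => sub_smul (act g (b i)) (b i) (v i)
            rw [Finset.sum_congr rfl e1, Finset.sum_sub_distrib]
            abel
          rw [this, h1, hrel', sub_zero]
        exact sub_eq_zero.mp (ih _ h2 i hi)
      -- hence in the prime field
      have hex : ∀ i : ι, ∃ j : ZMod p, i ∈ insert i₀ s → algebraMap (ZMod p) κ j = b i := by
        intro i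
        by_cases hi : i ∈ insert i₀ s
        · rcases Finset.mem_insert.mp hi with rfl | his
          · exact ⟨1, fun _ => by rw [map_one, hb0]⟩
          · obtain ⟨j, hj⟩ := hfix (b i) (hfixed i his)
            exact ⟨j, fun _ => hj⟩
        · exact ⟨0, fun h => absurd h hi⟩
      choose β hβ using hex
      have hrelF : ∑ i ∈ insert i₀ s, β i • v i = 0 := by
        rw [← hrel]
        refine Finset.sum_congr rfl fun i hi => ?_
        rw [← hβ i hi, algebraMap_smul]
      have h1 := linearIndependent_iff'.mp hind _ β hrelF i₀ (Finset.mem_insert_self _ _)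
      have h2 := hβ i₀ (Finset.mem_insert_self _ _)
      rw [h1, map_zero, hb0] at h2
      exact zero_ne_one h2

variable [Finite k]

/-- **The count.**  A biadditive `B : k² × k → κ`, equivariant in the second variable, vanishes
identically for some nonzero first argument. -/
theorem exists_ne_zero_of_fixed (η : G → k) (hη : ∀ g, η g ≠ 0) (act : G → κ →+* κ)
    (hfix : ∀ y : κ, (∀ g, act g y = y) → ∃ j : ZMod p, algebraMap (ZMod p) κ j = y)
    (B : k × k → k → κ)
    (hBl : ∀ l l' x, B (l + l') x = B l x + B l' x)
    (hBx : ∀ l x x', B l (x + x') = B l x + B l x')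
    (hBg : ∀ g l x, B l (η g * x) = act g (B l x)) :
    ∃ l : k × k, l ≠ 0 ∧ ∀ x, B l x = 0 := by
  classical
  -- the linear maps
  let Ψ : k × k → (k →ₗ[ZMod p] κ) := fun l =>
    (AddMonoidHom.mk' (B l) (hBx l)).toZModLinearMap p
  have hΨ : ∀ l x, Ψ l x = B l x := fun l x => rfl
  let T : (k × k) →ₗ[ZMod p] (k →ₗ[ZMod p] κ) :=
    (AddMonoidHom.mk' Ψ (fun l l' => by
      apply LinearMap.ext; intro x
      rw [LinearMap.add_apply, hΨ, hΨ, hΨ, hBl])).toZModLinearMap p
  have hT : ∀ l x, T l x = B l x := fun l x => rfl
  by_contra hcon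
  have hinj : LinearMap.ker T = ⊥ := by
    rw [LinearMap.ker_eq_bot']
    intro l hl
    by_contra hl0
    exact hcon ⟨l, hl0, fun x => by rw [← hT, hl, LinearMap.zero_apply]⟩
  haveI : Module.Finite (ZMod p) k := Module.Finite.of_finite
  let b := Module.Free.chooseBasis (ZMod p) (k × k)
  have h1 : LinearIndependent (ZMod p) (fun i => T (b i)) := b.linearIndependent.map' T hinj
  have h2 : LinearIndependent κ (fun i => T (b i)) :=
    linearIndependent_of_fixed η hη act hfix _ (fun i g x => by rw [hT, hT, hBg]) h1
  have h3 := h2.fintype_card_le_finrank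
  rw [Module.finrank_linearMap, Module.finrank_self, mul_one,
    ← Module.finrank_eq_card_chooseBasisIndex, Module.finrank_prod] at h3
  have h4 : 0 < finrank (ZMod p) k := Module.finrank_pos
  omega

end Fermat.Agent.S56.FL.H85

end
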