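import Fermat.Agent.S56.FL.H85_CCRes
import Fermat.Agent.S56.FL.H85_CCCount

set_option autoImplicit false
set_option linter.unusedSectionVars false
set_option linter.style.haveILetI false
set_option linter.unusedVariables false

/-!
# LOC-p-FL, package UNITS (helper85): `CC1z`

`χ = ω η`, `η` unramified, `K` the fixed field of `H = ker η` (unramified over `ℚ_p`, of degree
prime to `p`).  For a bounded `χ`-cocycle `c` and `y ∈ k` the map `s ↦ λ₀ (y c(s))` (`s ∈ H`) is an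
`ω`-twisted cocycle with values in `𝔽_p`, its Kummer class is `1 + p u` (`KUMBDD` + norm descent),
and `Ψ_c(y) = u mod 𝔪_K ∈ κ_K` is well defined, additive, Galois-equivariant.  Galois descent
(`exists_ne_zero_of_fixed`) gives `(l₁, l₂) ≠ 0` with `Ψ_{l₁ c₁ + l₂ c₂} = 0`; then
`l₁ c₁ + l₂ c₂` vanishes on `H ∩ ker ω` (Hensel), so it is a coboundary (AVG).
-/

noncomputable section

namespace Fermat.Agent.S56.FL.H85

open scoped NNReal
open Fermat.Agent.S56.FL Fermat.Agent.Lib.LocalKummer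

variable {p : ℕ} [Fact p.Prime]

/-- The index of a kernel divides the order of the target. -/
theorem not_dvd_card_quotient_ker {G A : Type*} [Group G] [Group A] [Finite A] (φ : G →* A)
    (h : ¬ p ∣ Nat.card A) : Finite (G ⧸ φ.ker) ∧ ¬ p ∣ Nat.card (G ⧸ φ.ker) := by
  have e := QuotientGroup.quotientKerEquivRange φ
  haveI : Finite (G ⧸ φ.ker) := Finite.of_equiv _ e.symm.toEquiv
  refine ⟨inferInstance, fun hdvd => h ?_⟩
  rw [Nat.card_congr e.toEquiv] at hdvd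
  exact hdvd.trans (Subgroup.card_subgroup_dvd_card _)

theorem not_dvd_card_units (k : Type*) [Field k] [Finite k] [CharP k p] :
    ¬ p ∣ Nat.card kˣ := by
  have hp : p.Prime := Fact.out
  haveI : Fintype k := Fintype.ofFinite k
  have h1 : p ∣ Nat.card k := by
    rw [← CharP.cast_eq_zero_iff k p, Nat.card_eq_fintype_card]
    exact Nat.cast_card_eq_zero k
  have h2 : Nat.card kˣ + 1 = Nat.card k := by
    rw [Nat.card_units]
    have : 0 < Nat.card k := Nat.card_pos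
    omega
  intro h3
  have h4 : p ∣ 1 := by
    have := (Nat.dvd_add_right h3).mp (h2 ▸ h1)
    exact this
  exact hp.one_lt.ne' (Nat.dvd_one.mp h4)

theorem not_dvd_card_zmod_units : ¬ p ∣ Nat.card (ZMod p)ˣ :=
  not_dvd_card_units (ZMod p)

section main

variable {k : Type} [Field k] [Finite k] [CharP k p]

/-- `CC1z` for cocycles on `Gal(K̄/ℚ_p)`. -/
theorem dimLeOne_main (hND : Stmt_NormDesc) (hRF : Stmt_ResFix) (hp2 : p ≠ 2)
    (χ : Gp p →* kˣ) (hχ : ∀ σ ∈ inertiaP p, IsCycloAt (χ σ : k) σ)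
    (c₁ c₂ : Gp p → k)
    (hc₁ : ∀ σ τ, c₁ (σ * τ) = c₁ σ + (χ σ : k) * c₁ τ)
    (hc₂ : ∀ σ τ, c₂ (σ * τ) = c₂ σ + (χ σ : k) * c₂ τ)
    (L₁ L₂ : IntermediateField ℚ_[p] (PadicAlgCl p))
    [FiniteDimensional ℚ_[p] L₁] [FiniteDimensional ℚ_[p] L₂]
    (hN₁ : Normal ℚ_[p] L₁) (hN₂ : Normal ℚ_[p] L₂)
    (hB₁ : IsBddField p L₁) (hB₂ : IsBddField p L₂)
    (hζ₁ : ∀ ζ : PadicAlgCl p, ζ ^ p = 1 → ζ ∈ L₁) (hζ₂ : ∀ ζ : PadicAlgCl p, ζ ^ p = 1 → ζ ∈ L₂)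
    (hL₁ : ∀ σ ∈ L₁.fixingSubgroup, χ σ = 1 ∧ c₁ σ = 0)
    (hL₂ : ∀ σ ∈ L₂.fixingSubgroup, χ σ = 1 ∧ c₂ σ = 0) :
    ∃ l₁ l₂ a : k, (l₁ ≠ 0 ∨ l₂ ≠ 0) ∧
      ∀ σ, l₁ * c₁ σ + l₂ * c₂ σ = ((χ σ : k) - 1) * a := by
  classical
  have hp : p.Prime := Fact.out
  obtain ⟨ζ, hζ⟩ := exists_primitiveRoot_padicAlgCl p p
  letI : Algebra (ZMod p) k := ZMod.algebra k p
  -- the characters
  let ωk : Gp p →* kˣ := (Units.map ((cst p k : ZMod p →+* k) : ZMod p →* k)).comp (omg hζ)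
  have hωk : ∀ σ, ((ωk σ : kˣ) : k) = cst p k ((omg hζ σ : (ZMod p)ˣ) : ZMod p) := fun σ => rfl
  let η : Gp p →* kˣ := χ / ωk
  have hη : ∀ σ, η σ = χ σ / ωk σ := fun σ => rfl
  set H : Subgroup (Gp p) := η.ker with hHdef
  haveI hHn : H.Normal := MonoidHom.normal_ker η
  have hHχ : ∀ s ∈ H, (χ s : k) = cst p k ((omg hζ s : (ZMod p)ˣ) : ZMod p) := by
    intro s hs
    have h1 : η s = 1 := MonoidHom.mem_ker.mp hs
    rw [hη, div_eq_one] at h1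
    rw [h1, hωk]
  have hI : inertiaP p ≤ H := by
    intro σ hσ
    have h1 := (isCycloAt_iff hζ _ σ).mp (hχ σ hσ)
    rw [hHdef, MonoidHom.mem_ker, hη, div_eq_one]
    exact Units.ext (h1.trans (hωk σ).symm)
  have hfixH : ∀ (L : IntermediateField ℚ_[p] (PadicAlgCl p)),
      (∀ ξ : PadicAlgCl p, ξ ^ p = 1 → ξ ∈ L) → (∀ σ ∈ L.fixingSubgroup, χ σ = 1) →
      ∀ σ ∈ L.fixingSubgroup, σ ∈ H ∧ omg hζ σ = 1 := by
    intro L hLζ hLχ σ hσ
    have h1 : omg hζ σ = 1 := (omg_eq_one_iff hζ σ).mpr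
      ((IntermediateField.mem_fixingSubgroup_iff L σ).mp hσ ζ (hLζ ζ hζ.pow_eq_one))
    refine ⟨?_, h1⟩
    rw [hHdef, MonoidHom.mem_ker, hη, div_eq_one, hLχ σ hσ]
    apply Units.ext
    rw [hωk, h1]
    simp
  have hLH₁ : L₁.fixingSubgroup ≤ H := fun σ hσ =>
    (hfixH L₁ hζ₁ (fun σ hσ => (hL₁ σ hσ).1) σ hσ).1
  have hLH₂ : L₂.fixingSubgroup ≤ H := fun σ hσ =>
    (hfixH L₂ hζ₂ (fun σ hσ => (hL₂ σ hσ).1) σ hσ).1
  -- the index of `H`
  obtain ⟨hHfin, hHidx⟩ := not_dvd_card_quotient_ker (p := p) η (not_dvd_card_units k)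
  haveI := hHfin
  -- a nonzero functional
  obtain ⟨lam, hlam⟩ : ∃ lam : k →ₗ[ZMod p] ZMod p, lam 1 ≠ 0 := by
    by_contra hcon
    push Not at hcon
    exact one_ne_zero ((Module.forall_dual_apply_eq_zero_iff (ZMod p) (1 : k)).mp hcon)
  have hlam0 : ∀ y : k, (∀ x : k, lam (x * y) = 0) → y = 0 := by
    intro y hy
    by_contra hy0
    apply hlam
    have := hy y⁻¹
    rwa [inv_mul_cancel₀ hy0] at this
  have hlamc : ∀ (a : ZMod p) (y : k), lam (cst p k a * y) = a * lam y := by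
    intro a y
    have : cst p k a * y = a • y := (Algebra.smul_def a y).symm
    rw [this, map_smul, smul_eq_mul]
  -- the twisted cocycles
  have key : ∀ (c : Gp p → k), (∀ σ τ, c (σ * τ) = c σ + (χ σ : k) * c τ) →
      ∀ (L : IntermediateField ℚ_[p] (PadicAlgCl p)) [FiniteDimensional ℚ_[p] L],
      Normal ℚ_[p] L → IsBddField p L → (∀ ξ : PadicAlgCl p, ξ ^ p = 1 → ξ ∈ L) →
      (∀ σ ∈ L.fixingSubgroup, χ σ = 1 ∧ c σ = 0) →
      ∃ Ψ : k → kH H,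
        (∀ (y : k) (u : PadicAlgCl p) (hu : KumRel ζ H (fun s => lam (y * c s)) u),
          Ψ y = clH H u hu.mem_OH) ∧
        (∀ y : k, ∃ u : PadicAlgCl p, KumRel ζ H (fun s => lam (y * c s)) u) := by
    intro c hc L _ hN hB hLζ hL
    have hLH : L.fixingSubgroup ≤ H := fun σ hσ =>
      (hfixH L hLζ (fun σ hσ => (hL σ hσ).1) σ hσ).1
    have hex : ∀ y : k, ∃ u : PadicAlgCl p, KumRel ζ H (fun s => lam (y * c s)) u := by
      intro y
      refine exists_kumRel hND hζ L hN hB (hLζ ζ hζ.pow_eq_one) hLH _ ?_ ?_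
      · intro s hs t ht
        show lam (y * c (s * t)) = lam (y * c s) + _ * lam (y * c t)
        rw [hc, hHχ s hs, mul_add, map_add, ← hlamc]
        congr 2
        ring
      · intro s hs
        show lam (y * c s) = 0
        rw [(hL s hs).2, mul_zero, map_zero]
    choose U hU using hex
    refine ⟨fun y => clH H (U y) (hU y).mem_OH, fun y u hu => ?_, fun y => ⟨U y, hU y⟩⟩
    beta_reduce
    rw [clH_eq_iff]
    exact KumRel.unique hζ.pow_eq_one hI (hU y) hu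
  obtain ⟨Ψ₁, hΨ₁, hex₁⟩ := key c₁ hc₁ L₁ hN₁ hB₁ hζ₁ hL₁
  obtain ⟨Ψ₂, hΨ₂, hex₂⟩ := key c₂ hc₂ L₂ hN₂ hB₂ hζ₂ hL₂
  -- properties of `Ψ`
  have hadd : ∀ (c : Gp p → k) (Ψ : k → kH H),
      (∀ (y : k) (u : PadicAlgCl p) (hu : KumRel ζ H (fun s => lam (y * c s)) u),
          Ψ y = clH H u hu.mem_OH) →
      (∀ y : k, ∃ u : PadicAlgCl p, KumRel ζ H (fun s => lam (y * c s)) u) →
      ∀ y y' : k, Ψ (y + y') = Ψ y + Ψ y' := by
    intro c Ψ hΨ hex y y'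
    obtain ⟨u, hu⟩ := hex y
    obtain ⟨u', hu'⟩ := hex y'
    have h1 := (hu.add hζ.pow_eq_one hu').congr (f' := fun s => lam ((y + y') * c s))
      (fun s _ => by
        show lam (y * c s) + lam (y' * c s) = lam ((y + y') * c s)
        rw [add_mul, map_add])
    rw [hΨ _ _ h1, hΨ _ _ hu, hΨ _ _ hu', ← clH_add, clH_eq_iff]
    have h2 : u + u' + (p : PadicAlgCl p) * u * u' - (u + u') = (p : PadicAlgCl p) * u * u' := by
      ring
    rw [h2, norm_mul, norm_mul, norm_p_Ω]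
    calc (p : ℝ)⁻¹ * ‖u‖ * ‖u'‖ ≤ (p : ℝ)⁻¹ * 1 * 1 :=
          mul_le_mul (mul_le_mul_of_nonneg_left hu.norm_le pinv_pos.le) hu'.norm_le (norm_nonneg _)
            (by have := pinv_pos (p := p); positivity)
      _ < 1 := by rw [mul_one, mul_one]; exact pinv_lt_one
  have hcinv : ∀ (c : Gp p → k), (∀ σ τ, c (σ * τ) = c σ + (χ σ : k) * c τ) →
      ∀ g s : Gp p, c (g⁻¹ * s * g)
        = ((χ g)⁻¹ : kˣ) * (c s + ((χ s : k) - 1) * c g) := by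
    intro c hc g s
    have h1 : c 1 = 0 := by
      have := hc 1 1
      rw [mul_one, map_one, Units.val_one, one_mul] at this
      linear_combination -this
    have h2 : c g⁻¹ = -(((χ g)⁻¹ : kˣ) : k) * c g := by
      have := hc g⁻¹ g
      rw [inv_mul_cancel, h1, map_inv] at this
      linear_combination -this
    rw [mul_assoc, hc, hc, h2, map_inv]
    ring
  have hequiv : ∀ (c : Gp p → k), (∀ σ τ, c (σ * τ) = c σ + (χ σ : k) * c τ) →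
      ∀ (Ψ : k → kH H),
      (∀ (y : k) (u : PadicAlgCl p) (hu : KumRel ζ H (fun s => lam (y * c s)) u),
          Ψ y = clH H u hu.mem_OH) →
      (∀ y : k, ∃ u : PadicAlgCl p, KumRel ζ H (fun s => lam (y * c s)) u) →
      ∀ (g : Gp p) (y : k), Ψ ((((η g)⁻¹ : kˣ) : k) * y) = actk H g (Ψ y) := by
    intro c hc Ψ hΨ hex g y
    obtain ⟨u, hu⟩ := hex y
    set m : ZMod p := lam ((((η g)⁻¹ : kˣ) : k) * y * c g) with hm
    have h1 := ((hu.conj hζ hHn g).add hζ.pow_eq_one (KumRel.cob hζ H (-m))).congr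
      (f' := fun s => lam ((((η g)⁻¹ : kˣ) : k) * y * c s))
      (fun s hs => by
        show ((omg hζ g : (ZMod p)ˣ) : ZMod p) * lam (y * c (g⁻¹ * s * g))
            + (((omg hζ s : (ZMod p)ˣ) : ZMod p) - 1) * (-m)
          = lam ((((η g)⁻¹ : kˣ) : k) * y * c s)
        have e1 : (((η g)⁻¹ : kˣ) : k) = cst p k ((omg hζ g : (ZMod p)ˣ) : ZMod p)
            * (((χ g)⁻¹ : kˣ) : k) := by
          rw [hη, inv_div, Units.val_div_eq_div_val, hωk, div_eq_mul_inv, Units.val_inv_eq_inv_val]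
        rw [hcinv c hc, hHχ s hs, ← hlamc, hm, e1]
        have e2 : cst p k ((omg hζ g : (ZMod p)ˣ) : ZMod p)
              * (y * ((((χ g)⁻¹ : kˣ) : k)
                * (c s + (cst p k ((omg hζ s : (ZMod p)ˣ) : ZMod p) - 1) * c g)))
            = cst p k ((omg hζ g : (ZMod p)ˣ) : ZMod p) * (((χ g)⁻¹ : kˣ) : k) * y * c s
              + cst p k (((omg hζ s : (ZMod p)ˣ) : ZMod p) - 1)
                * (cst p k ((omg hζ g : (ZMod p)ˣ) : ZMod p) * (((χ g)⁻¹ : kˣ) : k) * y * c g) := by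
          rw [map_sub, map_one]
          ring
        rw [e2, map_add, hlamc]
        ring)
    have h2 : g u + 0 + (p : PadicAlgCl p) * g u * 0 = g u := by ring
    have h3 : KumRel ζ H (fun s => lam ((((η g)⁻¹ : kˣ) : k) * y * c s)) (g u) := h2 ▸ h1
    rw [hΨ _ _ h3, hΨ _ _ hu, actk_clH]
  -- the count
  let B : k × k → k → kH H := fun l x => Ψ₁ (l.1 * x) + Ψ₂ (l.2 * x)
  obtain ⟨l, hl0, hl⟩ := exists_ne_zero_of_fixed (p := p) (G := Gp p)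
    (fun g => (((η g)⁻¹ : kˣ) : k)) (fun g => Units.ne_zero _) (actk H)
    (actk_fixed H hRF hHidx) B
    (fun l l' x => by
      show Ψ₁ ((l + l').1 * x) + Ψ₂ ((l + l').2 * x)
        = Ψ₁ (l.1 * x) + Ψ₂ (l.2 * x) + (Ψ₁ (l'.1 * x) + Ψ₂ (l'.2 * x))
      rw [Prod.fst_add, Prod.snd_add, add_mul, add_mul, hadd c₁ Ψ₁ hΨ₁ hex₁,
        hadd c₂ Ψ₂ hΨ₂ hex₂]
      ring)
    (fun l x x' => by
      show Ψ₁ (l.1 * (x + x')) + Ψ₂ (l.2 * (x + x'))
        = Ψ₁ (l.1 * x) + Ψ₂ (l.2 * x) + (Ψ₁ (l.1 * x') + Ψ₂ (l.2 * x'))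
      rw [mul_add, mul_add, hadd c₁ Ψ₁ hΨ₁ hex₁, hadd c₂ Ψ₂ hΨ₂ hex₂]
      ring)
    (fun g l x => by
      show Ψ₁ (l.1 * ((((η g)⁻¹ : kˣ) : k) * x)) + Ψ₂ (l.2 * ((((η g)⁻¹ : kˣ) : k) * x))
        = actk H g (Ψ₁ (l.1 * x) + Ψ₂ (l.2 * x))
      rw [mul_left_comm, mul_left_comm l.2, hequiv c₁ hc₁ Ψ₁ hΨ₁ hex₁,
        hequiv c₂ hc₂ Ψ₂ hΨ₂ hex₂, map_add])
  -- the combination vanishes on `H ∩ ker ω`
  let C : Gp p → k := fun σ => l.1 * c₁ σ + l.2 * c₂ σ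
  have hC : ∀ σ τ, C σ = C σ ∧ C (σ * τ) = C σ + (χ σ : k) * C τ := by
    intro σ τ
    refine ⟨rfl, ?_⟩
    show l.1 * c₁ (σ * τ) + l.2 * c₂ (σ * τ)
      = l.1 * c₁ σ + l.2 * c₂ σ + (χ σ : k) * (l.1 * c₁ τ + l.2 * c₂ τ)
    rw [hc₁, hc₂]
    ring
  have hCN : ∀ s ∈ H, s ζ = ζ → C s = 0 := by
    intro s hs hsζ
    apply hlam0
    intro x
    obtain ⟨u₁, hu₁⟩ := hex₁ (l.1 * x)
    obtain ⟨u₂, hu₂⟩ := hex₂ (l.2 * x)
    have h1 := hl x
    change Ψ₁ (l.1 * x) + Ψ₂ (l.2 * x) = 0 at h1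
    rw [hΨ₁ _ _ hu₁, hΨ₂ _ _ hu₂, ← clH_add, clH_eq_zero_iff] at h1
    have h2 := hu₁.add hζ.pow_eq_one hu₂
    have h3 : ‖u₁ + u₂ + (p : PadicAlgCl p) * u₁ * u₂‖ < 1 := by
      refine (IsUltrametricDist.norm_add_le_max _ _).trans_lt (max_lt h1 ?_)
      rw [norm_mul, norm_mul, norm_p_Ω]
      calc (p : ℝ)⁻¹ * ‖u₁‖ * ‖u₂‖ ≤ (p : ℝ)⁻¹ * 1 * 1 :=
            mul_le_mul (mul_le_mul_of_nonneg_left hu₁.norm_le pinv_pos.le) hu₂.norm_le (norm_nonneg _)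
              (by have := pinv_pos (p := p); positivity)
        _ < 1 := by rw [mul_one, mul_one]; exact pinv_lt_one
    have h4 := h2.ker hp2 hζ hI h3 s hs hsζ
    change lam (l.1 * x * c₁ s) + lam (l.2 * x * c₂ s) = 0 at h4
    rw [← map_add] at h4
    have h5 : x * C s = l.1 * x * c₁ s + l.2 * x * c₂ s := by
      show x * (l.1 * c₁ s + l.2 * c₂ s) = _
      ring
    rw [h5]
    exact h4
  -- AVG
  let φ : Gp p →* kˣ × (ZMod p)ˣ := η.prod (omg hζ)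
  have hcardA : ¬ p ∣ Nat.card (kˣ × (ZMod p)ˣ) := by
    rw [Nat.card_prod]
    intro h
    rcases (Nat.Prime.dvd_mul hp).mp h with h | h
    · exact not_dvd_card_units k h
    · exact not_dvd_card_zmod_units h
  obtain ⟨hNfin, hNidx⟩ := not_dvd_card_quotient_ker (p := p) φ hcardA
  haveI := hNfin
  have hφ : ∀ s ∈ φ.ker, C s = 0 := by
    intro s hs
    have h1 : φ s = 1 := MonoidHom.mem_ker.mp hs
    have h2 : η s = 1 ∧ omg hζ s = 1 := by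
      have := Prod.ext_iff.mp h1
      exact ⟨this.1, this.2⟩
    exact hCN s (MonoidHom.mem_ker.mpr h2.1) ((omg_eq_one_iff hζ s).mp h2.2)
  obtain ⟨a, ha⟩ := coboundary_of_vanish χ C (fun σ τ => (hC σ τ).2) φ.ker hφ
    (by rw [Ne, CharP.cast_eq_zero_iff k p]; exact hNidx)
  refine ⟨l.1, l.2, a, ?_, ha⟩
  by_contra hcon
  push Not at hcon
  exact hl0 (Prod.ext hcon.1 hcon.2)

end main

/-- **CC1z**, from the two leaves. -/
theorem stmt_CC1z_of (hND : Stmt_NormDesc) (hRF : Stmt_ResFix) : Stmt_CC1z := by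
  intro p _ hp2 k _ _ _ χ hχ c₁ c₂ hc₁ hc₂
  obtain ⟨h1, L₁, hfd₁, hN₁, hB₁, hζ₁, hL₁⟩ := hc₁
  obtain ⟨h2, L₂, hfd₂, hN₂, hB₂, hζ₂, hL₂⟩ := hc₂
  haveI := hfd₁
  haveI := hfd₂
  let t : Gp p → (⊤ : Subgroup (Gp p)) := fun σ => ⟨σ, Subgroup.mem_top σ⟩
  let χ' : Gp p →* kˣ :=
    { toFun := fun σ => χ (t σ)
      map_one' := map_one χ
      map_mul' := fun σ τ => map_mul χ (t σ) (t τ) }
  obtain ⟨l₁, l₂, a, hl, ha⟩ := dimLeOne_main hND hRF hp2 χ'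
    (fun σ hσ => hχ (t σ) hσ) (fun σ => c₁ (t σ)) (fun σ => c₂ (t σ))
    (fun σ τ => h1 (t σ) (t τ)) (fun σ τ => h2 (t σ) (t τ)) L₁ L₂ hN₁ hN₂ hB₁ hB₂ hζ₁ hζ₂
    (fun σ hσ => hL₁ (t σ) hσ) (fun σ hσ => hL₂ (t σ) hσ)
  exact ⟨l₁, l₂, a, hl, fun σ => ha σ.1⟩

end Fermat.Agent.S56.FL.H85

end
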