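import Fermat.Agent.S56.FL.H85_CC1Leaves
import Fermat.Agent.S56.FL.H85_CCKum

set_option autoImplicit false
set_option linter.unusedSectionVars false
set_option linter.style.haveILetI false

/-!
# LOC-p-FL, package UNITS (helper85): the residue field of `K = K̄^H` and its Galois action

* `OH H`, `mH H`, `kH H` : integers, maximal ideal, residue field of the fixed field of `H`.
* `actk H g`             : the action of `g ∈ Gal(K̄/ℚ_p)` on `kH H` (`H` normal).
* `actk_fixed`           : the fixed points are the prime field (from `Stmt_ResFix`).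
-/

noncomputable section

namespace Fermat.Agent.S56.FL.H85

open scoped NNReal
open Fermat.Agent.S56.FL

variable {p : ℕ} [Fact p.Prime] (H : Subgroup (Gp p))

/-- The integers of the fixed field of `H`. -/
def OH : Subring (PadicAlgCl p) where
  carrier := {x | (∀ s ∈ H, s x = x) ∧ ‖x‖ ≤ 1}
  mul_mem' {a b} ha hb := ⟨fun s hs => by rw [map_mul, ha.1 s hs, hb.1 s hs], by
    rw [norm_mul]; exact mul_le_one₀ ha.2 (norm_nonneg _) hb.2⟩
  one_mem' := ⟨fun s _ => map_one s, by simp⟩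
  add_mem' {a b} ha hb := ⟨fun s hs => by rw [map_add, ha.1 s hs, hb.1 s hs],
    (IsUltrametricDist.norm_add_le_max a b).trans (max_le ha.2 hb.2)⟩
  zero_mem' := ⟨fun s _ => map_zero s, by simp⟩
  neg_mem' {a} ha := ⟨fun s hs => by rw [map_neg, ha.1 s hs], by rw [norm_neg]; exact ha.2⟩

variable {H}

theorem mem_OH {x : PadicAlgCl p} : x ∈ OH H ↔ (∀ s ∈ H, s x = x) ∧ ‖x‖ ≤ 1 := Iff.rfl

variable (H)

/-- The maximal ideal of `OH H`. -/
def mH : Ideal (OH H) where
  carrier := {x | ‖(x : PadicAlgCl p)‖ < 1}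
  add_mem' {a b} ha hb :=
    (IsUltrametricDist.norm_add_le_max (a : PadicAlgCl p) b).trans_lt (max_lt ha hb)
  zero_mem' := by simp
  smul_mem' r a ha := by
    change ‖((r * a : OH H) : PadicAlgCl p)‖ < 1
    rw [Subring.coe_mul, norm_mul]
    calc ‖(r : PadicAlgCl p)‖ * ‖(a : PadicAlgCl p)‖ ≤ 1 * ‖(a : PadicAlgCl p)‖ :=
          mul_le_mul_of_nonneg_right r.2.2 (norm_nonneg _)
      _ = ‖(a : PadicAlgCl p)‖ := one_mul _
      _ < 1 := ha

variable {H}

theorem mem_mH {x : OH H} : x ∈ mH H ↔ ‖(x : PadicAlgCl p)‖ < 1 := Iff.rfl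

variable (H)

instance mH_isMaximal : (mH H).IsMaximal := by
  rw [Ideal.isMaximal_iff]
  refine ⟨?_, fun J x _ hx hxJ => ?_⟩
  · intro h
    have : ‖((1 : OH H) : PadicAlgCl p)‖ < 1 := h
    simp at this
  · have hx1 : ‖(x : PadicAlgCl p)‖ = 1 := le_antisymm x.2.2 (not_lt.mp hx)
    have hx0 : (x : PadicAlgCl p) ≠ 0 := by
      intro h
      rw [h] at hx1
      simp at hx1
    have hinv : (x : PadicAlgCl p)⁻¹ ∈ OH H :=
      ⟨fun s hs => by rw [map_inv₀, x.2.1 s hs], by rw [norm_inv, hx1, inv_one]⟩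
    have h1 : (⟨(x : PadicAlgCl p)⁻¹, hinv⟩ : OH H) * x = 1 := by
      apply Subtype.ext
      rw [Subring.coe_mul, Subring.coe_one]
      exact inv_mul_cancel₀ hx0
    rw [← h1]
    exact J.mul_mem_left _ hxJ

/-- The residue field of the fixed field of `H`. -/
abbrev kH : Type := OH H ⧸ mH H

instance kH_field : Field (kH H) := Ideal.Quotient.field (mH H)

instance kH_charP : CharP (kH H) p := by
  have hp : p.Prime := Fact.out
  have h0 : ((p : ℕ) : kH H) = 0 := by
    have : ((p : ℕ) : kH H) = Ideal.Quotient.mk (mH H) ((p : ℕ) : OH H) := by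
      rw [map_natCast]
    rw [this, Ideal.Quotient.eq_zero_iff_mem, mem_mH, Subring.coe_natCast, norm_p_Ω]
    exact pinv_lt_one
  obtain ⟨q, hq⟩ := CharP.exists (kH H)
  have hqp : q ∣ p := (CharP.cast_eq_zero_iff (kH H) q p).mp h0
  rcases (Nat.dvd_prime hp).mp hqp with h1 | h1
  · exfalso
    subst h1
    exact CharP.char_ne_one (kH H) 1 rfl
  · subst h1
    exact hq

instance kH_algebra : Algebra (ZMod p) (kH H) := ZMod.algebra (kH H) p

/-- The class of an integer of the fixed field of `H`. -/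
def clH (x : PadicAlgCl p) (hx : x ∈ OH H) : kH H := Ideal.Quotient.mk (mH H) ⟨x, hx⟩

variable {H}

theorem clH_eq_iff {x y : PadicAlgCl p} (hx : x ∈ OH H) (hy : y ∈ OH H) :
    clH H x hx = clH H y hy ↔ ‖x - y‖ < 1 := by
  unfold clH
  rw [Ideal.Quotient.eq, mem_mH]
  rfl

theorem clH_eq_zero_iff {x : PadicAlgCl p} (hx : x ∈ OH H) : clH H x hx = 0 ↔ ‖x‖ < 1 := by
  unfold clH
  rw [Ideal.Quotient.eq_zero_iff_mem, mem_mH]

theorem clH_add {x y : PadicAlgCl p} (hx : x ∈ OH H) (hy : y ∈ OH H) :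
    clH H (x + y) ((OH H).add_mem hx hy) = clH H x hx + clH H y hy := rfl

theorem clH_surjective (y : kH H) : ∃ (x : PadicAlgCl p) (hx : x ∈ OH H), clH H x hx = y := by
  obtain ⟨x, rfl⟩ := Ideal.Quotient.mk_surjective y
  exact ⟨x.1, x.2, rfl⟩

theorem KumRel.mem_OH {ζ : PadicAlgCl p} {f : Gp p → ZMod p} {u : PadicAlgCl p}
    (h : KumRel ζ H f u) : u ∈ OH H := ⟨h.1, h.2.1⟩

theorem KumRel.norm_le {ζ : PadicAlgCl p} {f : Gp p → ZMod p} {u : PadicAlgCl p}
    (h : KumRel ζ H f u) : ‖u‖ ≤ 1 := h.2.1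

/-! ## The Galois action -/

variable (H) [hH : H.Normal]

theorem map_mem_OH (g : Gp p) {x : PadicAlgCl p} (hx : x ∈ OH H) : g x ∈ OH H := by
  refine ⟨fun s hs => ?_, by rw [norm_gal]; exact hx.2⟩
  have h1 : g⁻¹ * s * g ∈ H := by
    have := hH.conj_mem s hs g⁻¹
    rwa [inv_inv] at this
  have h2 : s (g x) = g ((g⁻¹ * s * g) x) := by
    have : g * (g⁻¹ * s * g) = s * g := by group
    rw [← AlgEquiv.mul_apply, ← AlgEquiv.mul_apply, this]
  rw [h2, hx.1 _ h1]

/-- The action of `g` on the integers of the fixed field of the normal subgroup `H`. -/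
def actO (g : Gp p) : OH H →+* OH H where
  toFun x := ⟨g x, map_mem_OH H g x.2⟩
  map_one' := Subtype.ext (map_one g)
  map_mul' x y := Subtype.ext (map_mul g _ _)
  map_zero' := Subtype.ext (map_zero g)
  map_add' x y := Subtype.ext (map_add g _ _)

/-- The action of `g` on the residue field. -/
def actk (g : Gp p) : kH H →+* kH H :=
  Ideal.quotientMap (mH H) (actO H g) (fun x hx => by
    rw [Ideal.mem_comap, mem_mH]
    show ‖g (x : PadicAlgCl p)‖ < 1
    rw [norm_gal]
    exact hx)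

theorem actk_clH (g : Gp p) {x : PadicAlgCl p} (hx : x ∈ OH H) :
    actk H g (clH H x hx) = clH H (g x) (map_mem_OH H g hx) := by
  unfold actk clH
  rw [Ideal.quotientMap_mk]
  rfl

/-- **The fixed points of the residual Galois action are the prime field.** -/
theorem actk_fixed (hRF : Stmt_ResFix) [Finite (Gp p ⧸ H)] (hn : ¬ p ∣ Nat.card (Gp p ⧸ H))
    (y : kH H) (hy : ∀ g, actk H g y = y) : ∃ j : ZMod p, algebraMap (ZMod p) (kH H) j = y := by
  obtain ⟨x, hx, rfl⟩ := clH_surjective y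
  have h1 : ∀ g : Gp p, ‖g x - x‖ < 1 := by
    intro g
    have := hy g
    rw [actk_clH, clH_eq_iff] at this
    exact this
  obtain ⟨j, hj⟩ := hRF p H hn x hx.2 hx.1 h1
  refine ⟨(j : ZMod p), ?_⟩
  rw [map_natCast]
  have h2 : ((j : ℕ) : kH H) = clH H (j : PadicAlgCl p) (natCast_mem (OH H) j) := by
    unfold clH
    rw [← map_natCast (Ideal.Quotient.mk (mH H))]
    rfl
  rw [h2, clH_eq_iff, ← norm_neg, neg_sub]
  exact hj

end Fermat.Agent.S56.FL.H85

end
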